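/-
S41 (helper68): `Hom(Γ, ℤ)` and `parabolicHoms ℤ Γ ℤ` are finite `ℤ`-modules for a finitely
generated group `Γ`, in particular for `Γ₀(N)`.
-/
import Mathlib
import Fermat.Prelude.Def_ModularCurve_PeriodMap
import Fermat.Agent.S22.Gamma0FG

set_option autoImplicit false

open scoped MatrixGroups

namespace Fermat.Agent.S41.PD.ParFinite

open ModularCurve.Period

/-- homomorphisms from a finitely generated group to `ℤ` form a finite `ℤ`-module. -/
theorem finite_hom_int (Γ : Type*) [Group Γ] [hfg : Group.FG Γ] :
    Module.Finite ℤ (Additive Γ →+ ℤ) := by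
  obtain ⟨S, hS⟩ := Group.fg_def.mp hfg
  let ev : (Additive Γ →+ ℤ) →ₗ[ℤ] (S → ℤ) :=
    { toFun := fun φ s => φ (Additive.ofMul (s : Γ))
      map_add' := fun φ ψ => rfl
      map_smul' := fun c φ => rfl }
  have hinj : Function.Injective ev := by
    intro φ ψ h
    let H : Subgroup Γ :=
      { carrier := {g | φ (Additive.ofMul g) = ψ (Additive.ofMul g)}
        one_mem' := by
          show φ (Additive.ofMul 1) = ψ (Additive.ofMul 1)
          rw [ofMul_one, map_zero, map_zero]
        mul_mem' := by
          intro a b (ha : φ (Additive.ofMul a) = ψ (Additive.ofMul a))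
            (hb : φ (Additive.ofMul b) = ψ (Additive.ofMul b))
          show φ (Additive.ofMul (a * b)) = ψ (Additive.ofMul (a * b))
          rw [ofMul_mul, map_add, map_add, ha, hb]
        inv_mem' := by
          intro a (ha : φ (Additive.ofMul a) = ψ (Additive.ofMul a))
          show φ (Additive.ofMul a⁻¹) = ψ (Additive.ofMul a⁻¹)
          rw [ofMul_inv, map_neg, map_neg, ha] }
    have hle : Subgroup.closure (S : Set Γ) ≤ H := by
      rw [Subgroup.closure_le]
      intro s hs
      exact congrFun h ⟨s, hs⟩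
    rw [hS] at hle
    apply AddMonoidHom.ext
    intro g
    exact hle (Subgroup.mem_top (Additive.toMul g))
  exact Module.Finite.of_injective ev hinj

/-- parabolic homomorphisms from a finitely generated subgroup of `SL(2,ℤ)` to `ℤ` form a finite
`ℤ`-module. -/
theorem finite_parabolicHoms_int (Γ : Subgroup SL(2, ℤ)) [Group.FG Γ] :
    Module.Finite ℤ (parabolicHoms ℤ Γ ℤ) := by
  have := finite_hom_int Γ
  exact Module.Finite.of_injective (Submodule.subtype _) Subtype.val_injective

/-- `Hom(Γ₀(N), ℤ)` is a finite `ℤ`-module. -/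
theorem finite_hom_gamma0 (N : ℕ) [NeZero N] :
    Module.Finite ℤ (Additive (CongruenceSubgroup.Gamma0 N) →+ ℤ) := by
  have := Fermat.Agent.S22.gamma0_fg N
  exact finite_hom_int _

/-- `parabolicHoms ℤ Γ₀(N) ℤ` is a finite `ℤ`-module. -/
theorem finite_parabolicHoms_gamma0 (N : ℕ) [NeZero N] :
    Module.Finite ℤ (parabolicHoms ℤ (CongruenceSubgroup.Gamma0 N) ℤ) := by
  have := Fermat.Agent.S22.gamma0_fg N
  exact finite_parabolicHoms_int _

end Fermat.Agent.S41.PD.ParFinite
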