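/-
S41 / (W1) step F1 (helper29): Poincare duality for modules over `C2 * C3`, abstractly.

Setting: a commutative ring `R` in which `2` and `3` are invertible, an `R`-module `V` with two
endomorphisms `s`, `t` such that `s ∘ s = 1` and `t ∘ t ∘ t = 1` (i.e. a module over the group
`PSL2(Z) = C2 * C3`), `T := s ∘ t` (the parabolic generator).

* `W  := ker (1 + s) ⊓ ker (1 + t + t^2)`   (relative `H^1` of the pair `(G, <T>)`, Manin relations)
* `U  := V^s + V^t`, so that `H^1(G, V) = V / U`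
* `VT := ker (T - 1)`, `BT := range (T - 1)`, so that `H^0(<T>, V) = VT`, `H^1(<T>, V) = V / BT`
* `θ  := (1 - t^2)/3 - 1/2`.

The sequence `VT --d--> W --j--> V/U --r--> V/BT` with `d u = s u - u`, `j P = [θ P]`,
`r [w] = [w - s w]` is exact (`theta_d_mem_U`, `exists_of_theta_mem_U`, `r_theta_mem_BT`,
`exists_of_r_mem_BT`), and for every `s,t`-invariant symmetric bilinear form `B` the form
`ω(P, P') = B (θ P) P'` on `W` is skew (`skew`), `W ⊆ U^⊥` (`W_perp_U`) with equality when `B` is
nondegenerate (`mem_W_of_perp`), and over a field with `V` finite dimensional the radical of `ω`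
on `W` is exactly `d (VT)` (`radical_iff`): this is unimodular Poincare duality on
`ker r = im j = W / d(VT)`, the parabolic cohomology.
Mathlib only.
-/
import Mathlib

set_option autoImplicit false

namespace Fermat.Agent.S41.PD.AbstractDuality

/-- A module over `C2 * C3` (with `2`, `3` invertible in the base ring). -/
structure Setting (R V : Type*) [CommRing R] [AddCommGroup V] [Module R V] where
  /-- the involution -/
  s : V →ₗ[R] V
  /-- the element of order three -/
  t : V →ₗ[R] V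
  hs : ∀ x, s (s x) = x
  ht : ∀ x, t (t (t x)) = x
  /-- inverse of two -/
  i2 : R
  /-- inverse of three -/
  i3 : R
  h2 : 2 * i2 = 1
  h3 : 3 * i3 = 1

namespace Setting

variable {R V : Type*} [CommRing R] [AddCommGroup V] [Module R V] (D : Setting R V)

/-- relative cocycles: the Manin relations. -/
def W : Submodule R V where
  carrier := {P | D.s P = -P ∧ P + D.t P + D.t (D.t P) = 0}
  zero_mem' := by simp
  add_mem' := by
    rintro P P' ⟨h1, h2⟩ ⟨h1', h2'⟩
    refine ⟨by rw [map_add, h1, h1']; abel, ?_⟩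
    simp only [map_add]
    linear_combination (norm := module) h2 + h2'
  smul_mem' := by
    rintro c P ⟨h1, h2⟩
    refine ⟨by rw [map_smul, h1, smul_neg], ?_⟩
    simp only [map_smul]
    linear_combination (norm := module) c • h2

/-- `s`-invariants. -/
def Vs : Submodule R V where
  carrier := {a | D.s a = a}
  zero_mem' := by simp
  add_mem' := by
    intro a b (ha : D.s a = a) (hb : D.s b = b)
    show D.s (a + b) = a + b
    rw [map_add, ha, hb]
  smul_mem' := by
    intro c a (ha : D.s a = a)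
    show D.s (c • a) = c • a
    rw [map_smul, ha]

/-- `t`-invariants. -/
def Vt : Submodule R V where
  carrier := {a | D.t a = a}
  zero_mem' := by simp
  add_mem' := by
    intro a b (ha : D.t a = a) (hb : D.t b = b)
    show D.t (a + b) = a + b
    rw [map_add, ha, hb]
  smul_mem' := by
    intro c a (ha : D.t a = a)
    show D.t (c • a) = c • a
    rw [map_smul, ha]

/-- `V^s + V^t`: the coboundaries in the normal form `Z(s) = 0`, `Z(t) = (t - 1) w`. -/
def U : Submodule R V := D.Vs ⊔ D.Vt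

/-- invariants of `T = s t`. -/
def VT : Submodule R V where
  carrier := {u | D.s (D.t u) = u}
  zero_mem' := by simp
  add_mem' := by
    intro a b (ha : D.s (D.t a) = a) (hb : D.s (D.t b) = b)
    show D.s (D.t (a + b)) = a + b
    rw [map_add, map_add, ha, hb]
  smul_mem' := by
    intro c a (ha : D.s (D.t a) = a)
    show D.s (D.t (c • a)) = c • a
    rw [map_smul, map_smul, ha]

/-- `(T - 1) V`. -/
def BT : Submodule R V where
  carrier := {y | ∃ v, D.s (D.t v) - v = y}
  zero_mem' := ⟨0, by simp⟩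
  add_mem' := by
    rintro _ _ ⟨v, rfl⟩ ⟨v', rfl⟩
    exact ⟨v + v', by simp only [map_add]; abel⟩
  smul_mem' := by
    rintro c _ ⟨v, rfl⟩
    exact ⟨c • v, by simp only [map_smul, smul_sub]⟩

/-- `θ = (1 - t^2)/3 - 1/2`. -/
def θ : V →ₗ[R] V := D.i3 • (LinearMap.id - D.t ∘ₗ D.t) - D.i2 • LinearMap.id

theorem mem_W {P : V} : P ∈ D.W ↔ D.s P = -P ∧ P + D.t P + D.t (D.t P) = 0 := Iff.rfl

theorem mem_Vs {a : V} : a ∈ D.Vs ↔ D.s a = a := Iff.rfl

theorem mem_Vt {a : V} : a ∈ D.Vt ↔ D.t a = a := Iff.rfl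

theorem mem_VT {u : V} : u ∈ D.VT ↔ D.s (D.t u) = u := Iff.rfl

theorem mem_BT {y : V} : y ∈ D.BT ↔ ∃ v, D.s (D.t v) - v = y := Iff.rfl

theorem mem_U {x : V} : x ∈ D.U ↔ ∃ a b, D.s a = a ∧ D.t b = b ∧ a + b = x := by
  unfold U
  rw [Submodule.mem_sup]
  constructor
  · rintro ⟨a, ha, b, hb, rfl⟩
    exact ⟨a, b, ha, hb, rfl⟩
  · rintro ⟨a, b, ha, hb, rfl⟩
    exact ⟨a, ha, b, hb, rfl⟩

theorem θ_apply (P : V) : D.θ P = D.i3 • (P - D.t (D.t P)) - D.i2 • P := by
  simp [θ]

/-- on `VT`, `t u = s u`. -/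
theorem t_eq_s_of_mem_VT {u : V} (hu : u ∈ D.VT) : D.t u = D.s u := by
  have h := congrArg D.s (D.mem_VT.1 hu)
  rwa [D.hs] at h

/-- `d : VT → W`, `u ↦ s u - u`. -/
theorem d_mem_W {u : V} (hu : u ∈ D.VT) : D.s u - u ∈ D.W := by
  have h1 := D.t_eq_s_of_mem_VT hu
  refine ⟨by rw [map_sub, D.hs]; abel, ?_⟩
  rw [← h1]
  simp only [map_sub, D.ht]
  abel

/-- `j ∘ d = 0`. -/
theorem theta_d_mem_U {u : V} (hu : u ∈ D.VT) : D.θ (D.s u - u) ∈ D.U := by
  have h1 := D.t_eq_s_of_mem_VT hu
  refine D.mem_U.2 ⟨(-D.i2) • (u + D.s u), D.i3 • (u + D.t u + D.t (D.t u)), ?_, ?_, ?_⟩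
  · simp only [map_smul, map_add, D.hs]
    module
  · simp only [map_smul, map_add, D.ht]
    module
  · rw [θ_apply, ← h1]
    simp only [map_sub, D.ht]
    linear_combination (norm := module) D.h3 • u - D.h2 • u

/-- for `P ∈ W`, `x₀ := (1 - t^2) P / 3` solves `(1 - t) x₀ = P`. -/
theorem one_sub_t_x0 {P : V} (hP : P ∈ D.W) :
    D.i3 • (P - D.t (D.t P)) - D.t (D.i3 • (P - D.t (D.t P))) = P := by
  obtain ⟨-, hN⟩ := hP
  simp only [map_smul, map_sub, D.ht]
  linear_combination (norm := module) (-D.i3) • hN + D.h3 • P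

/-- for `P ∈ W`, `u₀ := -P/2` solves `(s - 1) u₀ = P`. -/
theorem s_sub_one_u0 {P : V} (hP : P ∈ D.W) :
    D.s ((-D.i2) • P) - (-D.i2) • P = P := by
  obtain ⟨hs, -⟩ := hP
  simp only [map_smul, hs]
  linear_combination (norm := module) D.h2 • P

/-- exactness at `W`: `ker j ⊆ im d`. -/
theorem exists_of_theta_mem_U {P : V} (hP : P ∈ D.W) (h : D.θ P ∈ D.U) :
    ∃ u ∈ D.VT, D.s u - u = P := by
  obtain ⟨a, b, ha, hb, hab⟩ := D.mem_U.1 h
  have hx0 := D.one_sub_t_x0 hP
  have hu0 := D.s_sub_one_u0 hP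
  rw [θ_apply] at hab
  -- u = u₀ - a = -(x₀ + b)
  have hsu : D.s ((-D.i2) • P - a) - ((-D.i2) • P - a) = P := by
    rw [map_sub, ha]
    linear_combination (norm := module) hu0
  have hrepr : (-D.i2) • P - a = -(D.i3 • (P - D.t (D.t P))) + b := by
    linear_combination (norm := module) (-1 : R) • hab
  have htu : D.t ((-D.i2) • P - a) - ((-D.i2) • P - a) = P := by
    rw [hrepr, map_add, map_neg, hb]
    linear_combination (norm := module) hx0
  refine ⟨(-D.i2) • P - a, ?_, hsu⟩
  rw [mem_VT]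
  have h1 : D.t ((-D.i2) • P - a) = D.s ((-D.i2) • P - a) := by
    linear_combination (norm := module) htu - hsu
  rw [h1, D.hs]

/-- `r ∘ j = 0`. -/
theorem r_theta_mem_BT {P : V} (hP : P ∈ D.W) : D.θ P - D.s (D.θ P) ∈ D.BT := by
  have hx0 := D.one_sub_t_x0 hP
  obtain ⟨hs, hN⟩ := hP
  refine D.mem_BT.2 ⟨-(D.i3 • (P - D.t (D.t P))), ?_⟩
  -- t x₀ = x₀ - P
  have htx : D.t (D.i3 • (P - D.t (D.t P))) = D.i3 • (P - D.t (D.t P)) - P := by
    linear_combination (norm := module) (-1 : R) • hx0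
  rw [θ_apply, map_neg, htx]
  simp only [map_sub, map_neg, map_smul, hs]
  linear_combination (norm := module) D.h2 • P

/-- `r` is well defined on `V / U`. -/
theorem r_mem_BT_of_mem_U {w : V} (hw : w ∈ D.U) : w - D.s w ∈ D.BT := by
  obtain ⟨a, b, ha, hb, rfl⟩ := D.mem_U.1 hw
  refine D.mem_BT.2 ⟨-b, ?_⟩
  rw [map_neg, hb, map_neg, map_add, ha]
  abel

/-- exactness at `V / U`: `ker r ⊆ im j`. -/
theorem exists_of_r_mem_BT {w : V} (h : w - D.s w ∈ D.BT) :
    ∃ P ∈ D.W, w - D.θ P ∈ D.U := by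
  obtain ⟨v, hv⟩ := D.mem_BT.1 h
  -- t v = s w - w + s v
  have htv : D.t v = D.s w - w + D.s v := by
    have h1 := congrArg D.s hv
    rw [map_sub, D.hs, map_sub, D.hs] at h1
    linear_combination (norm := module) h1
  have hPW : D.t v - v ∈ D.W := by
    refine ⟨?_, ?_⟩
    · rw [htv]
      simp only [map_sub, map_add, D.hs]
      abel
    · simp only [map_sub, D.ht]
      abel
  refine ⟨D.t v - v, hPW, ?_⟩
  have hx0 := D.one_sub_t_x0 hPW
  have hu0 := D.s_sub_one_u0 hPW
  rw [θ_apply]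
  refine D.mem_U.2 ⟨(w + v) - (-D.i2) • (D.t v - v),
    (-v) - D.i3 • ((D.t v - v) - D.t (D.t (D.t v - v))), ?_, ?_, ?_⟩
  · rw [map_sub (D.s)]
    have h2 : D.s (w + v) - (w + v) = D.t v - v := by
      rw [map_add, htv]; abel
    linear_combination (norm := module) h2 - hu0
  · rw [map_sub (D.t)]
    have h2 : D.t (-v) - (-v) = -(D.t v - v) := by
      rw [map_neg]; abel
    linear_combination (norm := module) h2 + hx0
  · module

section Form

variable (B : LinearMap.BilinForm R V)

/-- `W ⊆ U^⊥` for an invariant form. -/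
theorem W_perp_U (hBs : ∀ x y, B (D.s x) (D.s y) = B x y) (hBt : ∀ x y, B (D.t x) (D.t y) = B x y)
    {P y : V} (hP : P ∈ D.W) (hy : y ∈ D.U) : B P y = 0 := by
  obtain ⟨a, b, ha, hb, rfl⟩ := D.mem_U.1 hy
  obtain ⟨hs, hN⟩ := hP
  have h1 : B P a = 0 := by
    have e1 : B P a = - B P a := by
      have := hBs P a
      rw [hs, ha, map_neg, LinearMap.neg_apply] at this
      exact this.symm
    have e2 : (2 : R) * B P a = 0 := by linear_combination e1
    calc B P a = (2 * D.i2) * B P a := by rw [D.h2, one_mul]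
      _ = D.i2 * (2 * B P a) := by ring
      _ = 0 := by rw [e2, mul_zero]
  have h2 : B P b = 0 := by
    have e1 : B (D.t P) b = B P b := by
      have := hBt P b
      rwa [hb] at this
    have e2 : B (D.t (D.t P)) b = B P b := by
      have := hBt (D.t P) b
      rw [hb] at this
      rw [this, e1]
    have e3 : (3 : R) * B P b = 0 := by
      have := congrArg (fun z => B z b) hN
      simp only [map_add, LinearMap.add_apply, map_zero, LinearMap.zero_apply] at this
      linear_combination this - e1 - e2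
    calc B P b = (3 * D.i3) * B P b := by rw [D.h3, one_mul]
      _ = D.i3 * (3 * B P b) := by ring
      _ = 0 := by rw [e3, mul_zero]
  rw [map_add, h1, h2, add_zero]

/-- `U^⊥ ⊆ W` for a nondegenerate invariant form. -/
theorem mem_W_of_perp (hBs : ∀ x y, B (D.s x) (D.s y) = B x y)
    (hBt : ∀ x y, B (D.t x) (D.t y) = B x y)
    (hnd : ∀ x, (∀ y, B x y = 0) → x = 0)
    {P : V} (h : ∀ y ∈ D.U, B P y = 0) : P ∈ D.W := by
  have hs' : D.s P + P = 0 := by
    apply hnd
    intro y
    have hy : y + D.s y ∈ D.U := by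
      refine D.mem_U.2 ⟨y + D.s y, 0, ?_, by simp, by simp⟩
      rw [map_add, D.hs]; abel
    have := h _ hy
    have e : B (D.s P) y = B P (D.s y) := by
      have := hBs P (D.s y)
      rwa [D.hs] at this
    rw [map_add, LinearMap.add_apply, e]
    rw [map_add] at this
    linear_combination this
  have hN' : P + D.t P + D.t (D.t P) = 0 := by
    apply hnd
    intro y
    have hy : y + D.t y + D.t (D.t y) ∈ D.U := by
      refine D.mem_U.2 ⟨0, y + D.t y + D.t (D.t y), by simp, ?_, by simp⟩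
      simp only [map_add, D.ht]; abel
    have := h _ hy
    have e1 : B (D.t P) y = B P (D.t (D.t y)) := by
      have h3 := hBt P (D.t (D.t y))
      rw [D.ht] at h3
      exact h3
    have e2 : B (D.t (D.t P)) y = B P (D.t y) := by
      have h1 := hBt P (D.t y)
      have h2 := hBt (D.t P) (D.t (D.t y))
      rw [D.ht] at h2
      exact h2.trans h1
    simp only [map_add, LinearMap.add_apply] at this ⊢
    rw [e1, e2]
    linear_combination this
  exact ⟨by linear_combination (norm := module) hs', hN'⟩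

/-- `ω(P, P') = B (θ P) P'` is skew on `W`. -/
theorem skew (hBt : ∀ x y, B (D.t x) (D.t y) = B x y)
    {P P' : V} (hP : P ∈ D.W) (_hP' : P' ∈ D.W) : B (D.θ P) P' + B P (D.θ P') = 0 := by
  obtain ⟨-, hN⟩ := hP
  -- B(P, ttP') = B(tP, P')
  have e1 : B P (D.t (D.t P')) = B (D.t P) P' := by
    have := hBt P (D.t (D.t P'))
    rw [D.ht] at this
    exact this.symm
  have e2 : B (D.t P) P' + B (D.t (D.t P)) P' = - B P P' := by
    have := congrArg (fun z => B z P') hN
    simp only [map_add, LinearMap.add_apply, map_zero, LinearMap.zero_apply] at this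
    linear_combination this
  simp only [θ_apply, map_sub, map_smul, LinearMap.sub_apply, LinearMap.smul_apply, smul_eq_mul,
    e1]
  linear_combination (-D.i3) * e2 + (B P P') * D.h3 - (B P P') * D.h2

/-- `ω` is alternating on `W`. -/
theorem alternating (hBt : ∀ x y, B (D.t x) (D.t y) = B x y) (hsymm : ∀ x y, B x y = B y x)
    {P : V} (hP : P ∈ D.W) : B (D.θ P) P = 0 := by
  have h := D.skew B hBt hP hP
  rw [hsymm P (D.θ P)] at h
  have e2 : (2 : R) * B (D.θ P) P = 0 := by linear_combination h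
  calc B (D.θ P) P = (2 * D.i2) * B (D.θ P) P := by rw [D.h2, one_mul]
    _ = D.i2 * (2 * B (D.θ P) P) := by ring
    _ = 0 := by rw [e2, mul_zero]

/-- `d` and `r` are adjoint. -/
theorem d_adjoint_r (hBs : ∀ x y, B (D.s x) (D.s y) = B x y) (u w : V) :
    B (D.s u - u) w = - B u (w - D.s w) := by
  have := hBs u (D.s w)
  rw [D.hs] at this
  simp only [map_sub, LinearMap.sub_apply]
  rw [this]; ring

/-- the radical of `ω` on `W` is `ker j`, provided `W^⊥ ⊆ U`. -/
theorem radical_iff_theta_mem_U (hBs : ∀ x y, B (D.s x) (D.s y) = B x y)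
    (hBt : ∀ x y, B (D.t x) (D.t y) = B x y) (hsymm : ∀ x y, B x y = B y x)
    (hperp : ∀ v, (∀ P ∈ D.W, B v P = 0) → v ∈ D.U)
    {P : V} : (∀ P' ∈ D.W, B (D.θ P) P' = 0) ↔ D.θ P ∈ D.U := by
  constructor
  · intro h
    exact hperp _ h
  · intro h P' hP'
    rw [hsymm]
    exact D.W_perp_U B hBs hBt hP' h

/-- the radical of `ω` on `W` is `d (VT)`, provided `W^⊥ ⊆ U`: Poincare duality on `W / d(VT)`. -/
theorem radical_iff (hBs : ∀ x y, B (D.s x) (D.s y) = B x y)
    (hBt : ∀ x y, B (D.t x) (D.t y) = B x y) (hsymm : ∀ x y, B x y = B y x)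
    (hperp : ∀ v, (∀ P ∈ D.W, B v P = 0) → v ∈ D.U)
    {P : V} (hP : P ∈ D.W) :
    (∀ P' ∈ D.W, B (D.θ P) P' = 0) ↔ ∃ u ∈ D.VT, D.s u - u = P := by
  rw [D.radical_iff_theta_mem_U B hBs hBt hsymm hperp]
  constructor
  · exact D.exists_of_theta_mem_U hP
  · rintro ⟨u, hu, rfl⟩
    exact D.theta_d_mem_U hu

end Form

section Field

variable {K E : Type*} [Field K] [AddCommGroup E] [Module K E] [FiniteDimensional K E]
  (D : Setting K E) (B : LinearMap.BilinForm K E)

/-- over a field, for a nondegenerate symmetric invariant form on a finite dimensional module,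
`W^⊥ = U`. -/
theorem perp_W_le_U (hnd : B.Nondegenerate) (hBs : ∀ x y, B (D.s x) (D.s y) = B x y)
    (hBt : ∀ x y, B (D.t x) (D.t y) = B x y) (hsymm : ∀ x y, B x y = B y x)
    (v : E) (hv : ∀ P ∈ D.W, B v P = 0) : v ∈ D.U := by
  have hrefl : B.IsRefl := fun x y h => by rw [hsymm, h]
  have hW : D.W = B.orthogonal D.U := by
    ext P
    rw [LinearMap.BilinForm.mem_orthogonal_iff]
    constructor
    · intro hP y hy
      rw [hsymm]
      exact D.W_perp_U B hBs hBt hP hy
    · intro h
      refine D.mem_W_of_perp B hBs hBt (fun x hx => hnd.1 x hx) (fun y hy => ?_)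
      rw [hsymm]
      exact h y hy
  have h2 := LinearMap.BilinForm.orthogonal_orthogonal hnd hrefl D.U
  rw [← h2, ← hW, LinearMap.BilinForm.mem_orthogonal_iff]
  intro P hP
  rw [hsymm]
  exact hv P hP

/-- **Poincare duality for `C2 * C3`-modules over a field**: the radical of the skew form
`ω(P, P') = B (θ P) P'` on `W` is exactly `d (VT)`, i.e. `ω` is nondegenerate on the parabolic
cohomology `W / d(VT) = im j = ker r`. -/
theorem radical_iff_of_field (hnd : B.Nondegenerate) (hBs : ∀ x y, B (D.s x) (D.s y) = B x y)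
    (hBt : ∀ x y, B (D.t x) (D.t y) = B x y) (hsymm : ∀ x y, B x y = B y x)
    {P : E} (hP : P ∈ D.W) :
    (∀ P' ∈ D.W, B (D.θ P) P' = 0) ↔ ∃ u ∈ D.VT, D.s u - u = P :=
  D.radical_iff B hBs hBt hsymm (D.perp_W_le_U B hnd hBs hBt hsymm) hP

end Field

end Setting

end Fermat.Agent.S41.PD.AbstractDuality
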