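/-
S41 / (W1) step F3, layer (A) (helper60): the linear algebra behind the cusp-sum formula.

In the setting of `AbstractDuality` (F1): a module `V` over `C2 * C3` (`s`, `t`, with `2`, `3`
invertible) with an `s,t`-invariant bilinear form `B`.  Two cocycles `Z`, `Z'` of `C2 * C3` are
given by their values `Z s = s a - a`, `Z t = t b - b` (resp. `a'`, `b'`); a "primitive of the cup
product" `C` (`C (g h) = C g + C h + B (Z g) (g Z' h)`) has `2 C(s) + B (Z s) (s Z' s) = 0` and
`3 C(t) + 2 B (Z t) (t Z' t) + B (Z t) (t t Z' t) = 0`; if `Z (s t) = s t u - u` (the cocycle `Z` is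
parabolic, `T = s t`), then

  `C(s t) + B u (Z' (s t)) = - B P (b' - a')`,   `P := s (u - a) - (u - a)`.

The left hand side is the cusp sum (layer (B)), the right hand side is the pairing of F1:
`P ∈ W` and `b' - a'` represents the class of `Z'` in `V / U`.
Mathlib + F1 only.
-/
import Mathlib
import Fermat.Agent.S41.PD.AbstractDuality

set_option autoImplicit false

namespace Fermat.Agent.S41.PD.CuspFormulaAbstract

open Fermat.Agent.S41.PD.AbstractDuality

variable {R V : Type*} [CommRing R] [AddCommGroup V] [Module R V] (D : Setting R V)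
  (B : LinearMap.BilinForm R V)

theorem adj_s (hBs : ∀ x y, B (D.s x) (D.s y) = B x y) (x y : V) :
    B (D.s x) y = B x (D.s y) := by
  have := hBs x (D.s y)
  rwa [D.hs] at this

theorem adj_t (hBt : ∀ x y, B (D.t x) (D.t y) = B x y) (x y : V) :
    B (D.t x) y = B x (D.t (D.t y)) := by
  have := hBt x (D.t (D.t y))
  rwa [D.ht] at this

/-- the value of the primitive at `s`. -/
theorem Cs_eq (hBs : ∀ x y, B (D.s x) (D.s y) = B x y) (a a' : V) (Cs : R)
    (hCs : 2 * Cs + B (D.s a - a) (D.s (D.s a' - a')) = 0) :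
    Cs = B a (a' - D.s a') := by
  have e : B (D.s a - a) (D.s (D.s a' - a')) = 2 * (B a (D.s a') - B a a') := by
    simp only [map_sub, LinearMap.sub_apply, adj_s D B hBs, D.hs]
    ring
  rw [e] at hCs
  have h : 2 * (Cs - B a (a' - D.s a')) = 0 := by
    rw [map_sub]
    linear_combination hCs
  have := congrArg (fun r => D.i2 * r) h
  simp only [mul_zero] at this
  rw [← mul_assoc, mul_comm D.i2 2, D.h2, one_mul] at this
  exact sub_eq_zero.mp this

/-- the value of the primitive at `t`. -/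
theorem Ct_eq (hBt : ∀ x y, B (D.t x) (D.t y) = B x y) (b b' : V) (Ct : R)
    (hCt : 3 * Ct + 2 * B (D.t b - b) (D.t (D.t b' - b'))
      + B (D.t b - b) (D.t (D.t (D.t b' - b'))) = 0) :
    Ct = B b (b' - D.t b') := by
  have e : 2 * B (D.t b - b) (D.t (D.t b' - b'))
      + B (D.t b - b) (D.t (D.t (D.t b' - b'))) = 3 * (B b (D.t b') - B b b') := by
    simp only [map_sub, LinearMap.sub_apply, adj_t D B hBt, D.ht]
    ring
  have h : 3 * (Ct - B b (b' - D.t b')) = 0 := by
    rw [map_sub]
    linear_combination hCt - e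
  have := congrArg (fun r => D.i3 * r) h
  simp only [mul_zero] at this
  rw [← mul_assoc, mul_comm D.i3 3, D.h3, one_mul] at this
  exact sub_eq_zero.mp this

/-- the key identity, before using the relation `Z (s t) = s t u - u`. -/
theorem key_identity (hBs : ∀ x y, B (D.s x) (D.s y) = B x y)
    (hBt : ∀ x y, B (D.t x) (D.t y) = B x y) (a b a' b' u : V) :
    B a (a' - D.s a') + B b (b' - D.t b') + B (D.s a - a) (D.s (D.t b' - b'))
      + B u ((D.s a' - a') + D.s (D.t b' - b'))
      + B (D.s (u - a) - (u - a)) (b' - a')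
    = B ((D.s a - a) + D.s (D.t b - b) - (D.s (D.t u) - u)) (D.s (D.t b')) := by
  simp only [map_sub, map_add, LinearMap.sub_apply, LinearMap.add_apply, adj_s D B hBs,
    adj_t D B hBt, D.hs, D.ht]
  ring

/-- **The cusp-sum identity.** -/
theorem cusp_identity (hBs : ∀ x y, B (D.s x) (D.s y) = B x y)
    (hBt : ∀ x y, B (D.t x) (D.t y) = B x y) (a b a' b' u : V) (Cs Ct : R)
    (hCs : 2 * Cs + B (D.s a - a) (D.s (D.s a' - a')) = 0)
    (hCt : 3 * Ct + 2 * B (D.t b - b) (D.t (D.t b' - b'))
      + B (D.t b - b) (D.t (D.t (D.t b' - b'))) = 0)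
    (hu : (D.s a - a) + D.s (D.t b - b) = D.s (D.t u) - u) :
    Cs + Ct + B (D.s a - a) (D.s (D.t b' - b')) + B u ((D.s a' - a') + D.s (D.t b' - b'))
      = - B (D.s (u - a) - (u - a)) (b' - a') := by
  have h := key_identity D B hBs hBt a b a' b' u
  rw [hu, sub_self, map_zero, LinearMap.zero_apply] at h
  rw [Cs_eq D B hBs a a' Cs hCs, Ct_eq D B hBt b b' Ct hCt]
  linear_combination h

/-! ### The link with the exact sequence of F1 -/

/-- explicit form of `Setting.exists_of_r_mem_BT`: if `(T - 1) v = (1 - s) w` then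
`P := t v - v ∈ W`. -/
theorem mem_W_of_rel {w v : V} (hv : D.s (D.t v) - v = w - D.s w) : D.t v - v ∈ D.W := by
  have htv : D.t v = D.s w - w + D.s v := by
    have h1 := congrArg D.s hv
    rw [map_sub, D.hs, map_sub, D.hs] at h1
    linear_combination (norm := module) h1
  refine ⟨?_, ?_⟩
  · rw [htv]
    simp only [map_sub, map_add, D.hs]
    abel
  · simp only [map_sub, D.ht]
    abel

/-- explicit form of `Setting.exists_of_r_mem_BT`: if `(T - 1) v = (1 - s) w` then
`w ≡ θ (t v - v)` modulo `U = V^s + V^t`. -/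
theorem sub_theta_mem_U {w v : V} (hv : D.s (D.t v) - v = w - D.s w) :
    w - D.θ (D.t v - v) ∈ D.U := by
  have htv : D.t v = D.s w - w + D.s v := by
    have h1 := congrArg D.s hv
    rw [map_sub, D.hs, map_sub, D.hs] at h1
    linear_combination (norm := module) h1
  have hPW : D.t v - v ∈ D.W := mem_W_of_rel D hv
  have hx0 := D.one_sub_t_x0 hPW
  have hu0 := D.s_sub_one_u0 hPW
  rw [Setting.θ_apply]
  refine D.mem_U.2 ⟨(w + v) - (-D.i2) • (D.t v - v),
    (-v) - D.i3 • ((D.t v - v) - D.t (D.t (D.t v - v))), ?_, ?_, ?_⟩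
  · rw [map_sub (D.s)]
    have h2 : D.s (w + v) - (w + v) = D.t v - v := by
      rw [map_add, htv]; abel
    linear_combination (norm := module) h2 - hu0
  · rw [map_sub (D.t)]
    have h2 : D.t (-v) - (-v) = -(D.t v - v) := by
      rw [map_neg]; abel
    linear_combination (norm := module) h2 + hx0
  · module

/-- the relation `Z (s t) = s t u - u` in normal form: `v := u - b` satisfies
`(T - 1) v = (1 - s) w` for `w := b - a`. -/
theorem rel_of_hu {a b u : V}
    (hu : (D.s a - a) + D.s (D.t b - b) = D.s (D.t u) - u) :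
    D.s (D.t (u - b)) - (u - b) = (b - a) - D.s (b - a) := by
  simp only [map_sub] at hu ⊢
  linear_combination (norm := abel) (-1 : ℤ) • hu

/-- `P = (s - 1)(u - a) = (t - 1)(u - b)`. -/
theorem P_eq_of_hu {a b u : V}
    (hu : (D.s a - a) + D.s (D.t b - b) = D.s (D.t u) - u) :
    D.s (u - a) - (u - a) = D.t (u - b) - (u - b) := by
  have h1 := congrArg D.s hu
  simp only [map_sub, map_add, D.hs] at h1 ⊢
  linear_combination (norm := abel) (1 : ℤ) • h1

/-- `B P w' = B P (θ P')` for `P ∈ W`, when `w' ≡ θ P'` modulo `U`. -/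
theorem pair_eq_pair_theta (hBs : ∀ x y, B (D.s x) (D.s y) = B x y)
    (hBt : ∀ x y, B (D.t x) (D.t y) = B x y) {P w' v' : V} (hP : P ∈ D.W)
    (hv' : D.s (D.t v') - v' = w' - D.s w') :
    B P w' = B P (D.θ (D.t v' - v')) := by
  have h := D.W_perp_U B hBs hBt hP (sub_theta_mem_U D hv')
  rw [map_sub] at h
  exact sub_eq_zero.mp h

/-- **The cusp-sum identity, in terms of the Poincare pairing `ω (P, P') = B (θ P) P'` of F1**:
`P = t v - v`, `P' = t v' - v'` with `v = u - b`, `v' = u' - b'`. -/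
theorem cusp_identity_omega (hBs : ∀ x y, B (D.s x) (D.s y) = B x y)
    (hBt : ∀ x y, B (D.t x) (D.t y) = B x y) (a b a' b' u u' : V) (Cs Ct : R)
    (hCs : 2 * Cs + B (D.s a - a) (D.s (D.s a' - a')) = 0)
    (hCt : 3 * Ct + 2 * B (D.t b - b) (D.t (D.t b' - b'))
      + B (D.t b - b) (D.t (D.t (D.t b' - b'))) = 0)
    (hu : (D.s a - a) + D.s (D.t b - b) = D.s (D.t u) - u)
    (hu' : (D.s a' - a') + D.s (D.t b' - b') = D.s (D.t u') - u') :
    Cs + Ct + B (D.s a - a) (D.s (D.t b' - b')) + B u ((D.s a' - a') + D.s (D.t b' - b'))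
      = B (D.θ (D.t (u - b) - (u - b))) (D.t (u' - b') - (u' - b')) := by
  rw [cusp_identity D B hBs hBt a b a' b' u Cs Ct hCs hCt hu, P_eq_of_hu D hu]
  have hP : D.t (u - b) - (u - b) ∈ D.W := mem_W_of_rel D (rel_of_hu D hu)
  have hP' : D.t (u' - b') - (u' - b') ∈ D.W := mem_W_of_rel D (rel_of_hu D hu')
  rw [pair_eq_pair_theta D B hBs hBt hP (rel_of_hu D hu')]
  have hsk := D.skew B hBt hP hP'
  linear_combination -hsk

end Fermat.Agent.S41.PD.CuspFormulaAbstract
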