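/-
S41 / (W1) Poincare duality, F2-independent core of steps F3 + F4 of helper29's route (helper60).

CUP-PRODUCT PRIMITIVES.  `Γ` a group, `R` a commutative ring, `z z' : Γ → R` additive characters.
A *primitive* of `z ∪ z'` is a function `c : Γ → R` with

  `c (g * h) = c g + c h + z g * z' h`.

* calculus: `c 1 = 0`, `c g⁻¹`, `c (h * g * h⁻¹) = c g + z h * z' g - z g * z' h`; on
  `ker z ∩ ker z'` a primitive is a class function and additive on powers; two primitives differ by
  an additive character; pull-back; swap; bilinearity;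
* `cuspSum c γ = ∑ i, c (γ i)` for a finite family of elements of `ker z ∩ ker z'` (the parabolic
  generators): independent of the primitive if every additive character has zero sum over the
  family (`cuspSum_eq_of_forall_sum`), invariant under conjugating the `γ i`
  (`cuspSum_conj`), and `cuspSum_comp_of_widths`: for `ψ : Γ' →* Γ` and a family `δ` of `Γ'` with
  `ψ (δ j) = h j * γ (f j) ^ e j * (h j)⁻¹` and constant total width `d` over every `i`:
  `cuspSum (c ∘ ψ) δ = d • cuspSum c γ`.  (`d = 1`: invariance under isomorphisms = abstract F4;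
  `ψ` an inclusion of finite index `d`: restriction multiplies the pairing by `d`.)
Mathlib only.
-/
import Mathlib

set_option autoImplicit false

namespace Fermat.Agent.S41.PD.Primitive

variable {Γ : Type*} [Group Γ] {R : Type*} [CommRing R]

/-- additive characters, as plain functions -/
def IsAddChar (z : Γ → R) : Prop := ∀ g h, z (g * h) = z g + z h

/-- `c` is a primitive of the cup product `z ∪ z'` -/
def IsPrim (z z' c : Γ → R) : Prop := ∀ g h, c (g * h) = c g + c h + z g * z' h

namespace IsAddChar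

variable {z : Γ → R} (hz : IsAddChar z)

include hz

theorem map_one : z 1 = 0 := by
  have h := hz 1 1
  rw [mul_one] at h
  linear_combination -h

theorem map_inv (g : Γ) : z g⁻¹ = -z g := by
  have h := hz g g⁻¹
  rw [mul_inv_cancel, hz.map_one] at h
  linear_combination -h

theorem map_conj (h g : Γ) : z (h * g * h⁻¹) = z g := by
  rw [hz, hz, hz.map_inv]
  ring

theorem map_pow (g : Γ) (n : ℕ) : z (g ^ n) = n • z g := by
  induction n with
  | zero => rw [pow_zero, hz.map_one, zero_smul]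
  | succ n ih => rw [pow_succ, hz, ih, succ_nsmul]

theorem comp {Γ' : Type*} [Group Γ'] (ψ : Γ' →* Γ) : IsAddChar (fun g => z (ψ g)) := by
  intro g h
  show z (ψ (g * h)) = z (ψ g) + z (ψ h)
  rw [map_mul, hz]

end IsAddChar

theorem isAddChar_of_hom (w : Additive Γ →+ R) : IsAddChar (fun g => w (Additive.ofMul g)) := by
  intro g h
  show w (Additive.ofMul (g * h)) = _
  rw [ofMul_mul, map_add]

/-- an additive character as a bundled hom -/
def IsAddChar.toHom {z : Γ → R} (hz : IsAddChar z) : Additive Γ →+ R where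
  toFun g := z (Additive.toMul g)
  map_zero' := hz.map_one
  map_add' g h := hz (Additive.toMul g) (Additive.toMul h)

namespace IsPrim

variable {z z' c : Γ → R}

theorem map_one (hc : IsPrim z z' c) (hz : IsAddChar z) : c 1 = 0 := by
  have h := hc 1 1
  rw [mul_one, hz.map_one, zero_mul, add_zero] at h
  linear_combination -h

theorem map_inv (hc : IsPrim z z' c) (hz : IsAddChar z) (hz' : IsAddChar z') (g : Γ) :
    c g⁻¹ = -c g + z g * z' g := by
  have h := hc g g⁻¹
  rw [mul_inv_cancel, hc.map_one hz, hz'.map_inv] at h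
  linear_combination -h

/-- **conjugation formula** -/
theorem map_conj (hc : IsPrim z z' c) (hz : IsAddChar z) (hz' : IsAddChar z') (h g : Γ) :
    c (h * g * h⁻¹) = c g + z h * z' g - z g * z' h := by
  rw [hc, hc, hc.map_inv hz hz', hz, hz'.map_inv]
  ring

/-- on `ker z ∩ ker z'` a primitive is a class function -/
theorem map_conj_of_ker (hc : IsPrim z z' c) (hz : IsAddChar z) (hz' : IsAddChar z') (h g : Γ)
    (h0 : z g = 0) (h0' : z' g = 0) : c (h * g * h⁻¹) = c g := by
  rw [hc.map_conj hz hz', h0, h0']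
  ring

/-- on `ker z ∩ ker z'` a primitive is additive on powers -/
theorem map_pow_of_ker (hc : IsPrim z z' c) (hz : IsAddChar z) (g : Γ)
    (h0' : z' g = 0) (n : ℕ) : c (g ^ n) = n • c g := by
  induction n with
  | zero => rw [pow_zero, hc.map_one hz, zero_smul]
  | succ n ih =>
    rw [pow_succ, hc, ih, succ_nsmul, h0', mul_zero, add_zero]

/-- two primitives of the same cup product differ by an additive character -/
theorem sub_isAddChar {c₁ c₂ : Γ → R} (h₁ : IsPrim z z' c₁) (h₂ : IsPrim z z' c₂) :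
    IsAddChar (fun g => c₁ g - c₂ g) := by
  intro g h
  show c₁ (g * h) - c₂ (g * h) = (c₁ g - c₂ g) + (c₁ h - c₂ h)
  rw [h₁, h₂]
  ring

theorem add_addChar (hc : IsPrim z z' c) {w : Γ → R} (hw : IsAddChar w) :
    IsPrim z z' (fun g => c g + w g) := by
  intro g h
  show c (g * h) + w (g * h) = (c g + w g) + (c h + w h) + z g * z' h
  rw [hc, hw]
  ring

/-- pull-back along a group homomorphism -/
theorem comp (hc : IsPrim z z' c) {Γ' : Type*} [Group Γ'] (ψ : Γ' →* Γ) :
    IsPrim (fun g => z (ψ g)) (fun g => z' (ψ g)) (fun g => c (ψ g)) := by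
  intro g h
  show c (ψ (g * h)) = _
  rw [map_mul, hc]

/-- the swapped primitive -/
theorem swap (hc : IsPrim z z' c) (hz : IsAddChar z) (hz' : IsAddChar z') :
    IsPrim z' z (fun g => z g * z' g - c g) := by
  intro g h
  show z (g * h) * z' (g * h) - c (g * h) = (z g * z' g - c g) + (z h * z' h - c h) + z' g * z h
  rw [hc, hz, hz']
  ring

theorem add_left {z₁ z₂ c₁ c₂ : Γ → R} (h₁ : IsPrim z₁ z' c₁) (h₂ : IsPrim z₂ z' c₂) :
    IsPrim (fun g => z₁ g + z₂ g) z' (fun g => c₁ g + c₂ g) := by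
  intro g h
  show c₁ (g * h) + c₂ (g * h) = (c₁ g + c₂ g) + (c₁ h + c₂ h) + (z₁ g + z₂ g) * z' h
  rw [h₁, h₂]
  ring

theorem add_right {z'₁ z'₂ c₁ c₂ : Γ → R} (h₁ : IsPrim z z'₁ c₁) (h₂ : IsPrim z z'₂ c₂) :
    IsPrim z (fun g => z'₁ g + z'₂ g) (fun g => c₁ g + c₂ g) := by
  intro g h
  show c₁ (g * h) + c₂ (g * h) = (c₁ g + c₂ g) + (c₁ h + c₂ h) + z g * (z'₁ h + z'₂ h)
  rw [h₁, h₂]
  ring

theorem smul_left (hc : IsPrim z z' c) (a : R) :
    IsPrim (fun g => a * z g) z' (fun g => a * c g) := by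
  intro g h
  show a * c (g * h) = a * c g + a * c h + a * z g * z' h
  rw [hc]
  ring

theorem smul_right (hc : IsPrim z z' c) (a : R) :
    IsPrim z (fun g => a * z' g) (fun g => a * c g) := by
  intro g h
  show a * c (g * h) = a * c g + a * c h + z g * (a * z' h)
  rw [hc]
  ring

end IsPrim

/-! ### cusp sums -/

section CuspSum

variable {ι : Type*} [Fintype ι]

/-- the sum of a function over a finite family of elements (the parabolic generators) -/
def cuspSum (c : Γ → R) (γ : ι → Γ) : R := ∑ i, c (γ i)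

variable {z z' c : Γ → R}

/-- independence of the primitive, when every additive character sums to zero over the family -/
theorem cuspSum_eq_of_forall_sum {c₁ c₂ : Γ → R} (h₁ : IsPrim z z' c₁) (h₂ : IsPrim z z' c₂)
    (γ : ι → Γ) (hsum : ∀ w : Γ → R, IsAddChar w → ∑ i, w (γ i) = 0) :
    cuspSum c₁ γ = cuspSum c₂ γ := by
  have h := hsum _ (h₁.sub_isAddChar h₂)
  unfold cuspSum
  rw [← sub_eq_zero, ← Finset.sum_sub_distrib]
  exact h

/-- invariance under conjugation of the members of the family -/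
theorem cuspSum_conj (hc : IsPrim z z' c) (hz : IsAddChar z) (hz' : IsAddChar z') (γ : ι → Γ)
    (h0 : ∀ i, z (γ i) = 0) (h0' : ∀ i, z' (γ i) = 0) (h : ι → Γ) :
    cuspSum c (fun i => h i * γ i * (h i)⁻¹) = cuspSum c γ := by
  unfold cuspSum
  exact Finset.sum_congr rfl fun i _ => hc.map_conj_of_ker hz hz' (h i) (γ i) (h0 i) (h0' i)

/-- **transport with widths.**  `ψ : Γ' →* Γ`, `δ` a family of `Γ'` with
`ψ (δ j) = h j * γ (f j) ^ e j * (h j)⁻¹` and total width `d` over every `i`. -/
theorem cuspSum_comp_of_widths (hc : IsPrim z z' c) (hz : IsAddChar z) (hz' : IsAddChar z')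
    (γ : ι → Γ) (h0 : ∀ i, z (γ i) = 0) (h0' : ∀ i, z' (γ i) = 0)
    {Γ' : Type*} [Group Γ'] (ψ : Γ' →* Γ) {ι' : Type*} [Fintype ι'] [DecidableEq ι]
    (δ : ι' → Γ') (f : ι' → ι) (e : ι' → ℕ) (h : ι' → Γ)
    (hδ : ∀ j, ψ (δ j) = h j * γ (f j) ^ e j * (h j)⁻¹)
    (d : ℕ) (hd : ∀ i, ∑ j ∈ Finset.univ.filter (fun j => f j = i), e j = d) :
    cuspSum (fun g => c (ψ g)) δ = d • cuspSum c γ := by
  unfold cuspSum
  have h1 : ∀ j, c (ψ (δ j)) = e j • c (γ (f j)) := by
    intro j
    have hz0 : z (γ (f j) ^ e j) = 0 := by rw [hz.map_pow, h0, smul_zero]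
    have hz0' : z' (γ (f j) ^ e j) = 0 := by rw [hz'.map_pow, h0', smul_zero]
    rw [hδ, hc.map_conj_of_ker hz hz' _ _ hz0 hz0', hc.map_pow_of_ker hz _ (h0' _)]
  calc ∑ j, c (ψ (δ j)) = ∑ j, e j • c (γ (f j)) := Finset.sum_congr rfl fun j _ => h1 j
    _ = ∑ i, ∑ j ∈ Finset.univ.filter (fun j => f j = i), e j • c (γ (f j)) :=
        (Finset.sum_fiberwise Finset.univ f (fun j => e j • c (γ (f j)))).symm
    _ = ∑ i, d • c (γ i) := by
        refine Finset.sum_congr rfl fun i _ => ?_
        rw [← hd i, Finset.sum_smul]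
        refine Finset.sum_congr rfl fun j hj => ?_
        rw [(Finset.mem_filter.1 hj).2]
    _ = d • ∑ i, c (γ i) := (Finset.smul_sum).symm

/-- **invariance under isomorphisms carrying the family to the family up to conjugacy** (abstract
form of F4). -/
theorem cuspSum_comp_of_equiv (hc : IsPrim z z' c) (hz : IsAddChar z) (hz' : IsAddChar z')
    (γ : ι → Γ) (h0 : ∀ i, z (γ i) = 0) (h0' : ∀ i, z' (γ i) = 0)
    {Γ' : Type*} [Group Γ'] (ψ : Γ' →* Γ) {ι' : Type*} [Fintype ι']
    (δ : ι' → Γ') (f : ι' ≃ ι) (h : ι' → Γ)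
    (hδ : ∀ j, ψ (δ j) = h j * γ (f j) * (h j)⁻¹) :
    cuspSum (fun g => c (ψ g)) δ = cuspSum c γ := by
  unfold cuspSum
  have h1 : ∀ j, c (ψ (δ j)) = c (γ (f j)) := fun j => by
    rw [hδ, hc.map_conj_of_ker hz hz' _ _ (h0 _) (h0' _)]
  calc ∑ j, c (ψ (δ j)) = ∑ j, c (γ (f j)) := Finset.sum_congr rfl fun j _ => h1 j
    _ = ∑ i, c (γ i) := Equiv.sum_comp f (fun i => c (γ i))

end CuspSum

end Fermat.Agent.S41.PD.Primitive
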