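/-
S41 / (W1) step F3, layer (B) (helper60): the cusp-sum formula for an abstract cocycle system.

`G` a group acting on a finite set `X`, `κ : G → X → Γ` a `Γ`-valued cocycle
(`κ (g * h) x = κ g x * κ h (g⁻¹ • x)`; for `X = G ⧸ Γ` and a section `sec` this is
`κ g x = (sec x)⁻¹ * g * sec (g⁻¹ • x)`), `z z' : Γ → R` additive characters and `c : Γ → R` a
primitive of the cup product (`c (γ δ) = c γ + c δ + z γ * z' δ`).

* `bigC κ c g = ∑ x, c (κ g x)` satisfies `bigC (g * h) = bigC g + bigC h + ∑ x, Z g x * Z' h (g⁻¹ • x)`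
  (`Z g x = z (κ g x)` the Shapiro cocycle): `bigC_mul`;
* TELESCOPING (`c_kappa_pow`): if `Z τ = τ u - u` then
  `c (κ (τ ^ n) x) = ∑ i < n, D ((τ ^ i)⁻¹ • x) - u x * z' (κ (τ ^ n) x)`,
  `D y = c (κ τ y) + u y * Z' τ y`;
* `sum_eq_sum_orbits`: decomposition of a sum over `X` along the orbits of `a ^ ℤ`;
* `sum_cusp_eq'`, `sum_cusp_eq`: `∑_orbits c (κ (τ ^ h_O) x_O) = bigC τ + ∑ x, u x * Z' τ x` when
  `z'` kills the cusp elements `κ (τ ^ h_O) x_O` (for any system of orbit representatives `y i` with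
  orbit lengths `h i`, given through the orbit decomposition of sums; resp. for `Quotient.out`);
* `cusp_sum_formula`: with `ε` (= `-1`) acting trivially, `σ * σ = ε`, `ρ * ρ * ρ = ε`,
  `τ = ε * (σ * ρ)` (`σ = S`, `ρ = S * T`, `τ = T` in `SL(2,ℤ)`), `2`, `3` invertible and
  `Z σ = σ a - a`, `Z ρ = ρ b - b`, `Z τ = τ u - u` (same for `Z'`):
  `∑_orbits c (κ (τ ^ h_O) x_O) = - ∑ x, ((σ (u - a) - (u - a)) x) * (b' - a') x`
  which is `- B P w'` of F1 (layer (A), `CuspFormulaAbstract.cusp_identity`).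
Mathlib + F1 + layer (A) + `Primitive` only.
-/
import Mathlib
import Fermat.Agent.S41.PD.AbstractDuality
import Fermat.Agent.S41.PD.CuspFormulaAbstract
import Fermat.Agent.S41.PD.Primitive

set_option autoImplicit false

namespace Fermat.Agent.S41.PD.CuspFormula

open Fermat.Agent.S41.PD.AbstractDuality Fermat.Agent.S41.PD.Primitive
open MulAction Function

/-! ### Sums along the orbits of a cyclic group -/

section Orbits

variable {G X M : Type*} [Group G] [MulAction G X] [Fintype X] [AddCommMonoid M]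

theorem sum_zmod_val (n : ℕ) [NeZero n] (F : ℕ → M) :
    ∑ k : ZMod n, F k.val = ∑ j ∈ Finset.range n, F j := by
  cases n with
  | zero => exact absurd rfl (NeZero.ne 0)
  | succ m => exact Fin.sum_univ_eq_sum_range F (m + 1)

/-- a sum over `X` decomposes along the orbits of `a ^ ℤ`, each orbit being enumerated by the
powers `a ^ j`, `j <` the minimal period, applied to the chosen representative. -/
theorem sum_eq_sum_orbits (a : G) [Fintype (orbitRel.Quotient (Subgroup.zpowers a) X)]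
    (f : X → M) :
    ∑ x, f x = ∑ q : orbitRel.Quotient (Subgroup.zpowers a) X,
      ∑ j ∈ Finset.range (minimalPeriod (a • ·) q.out), f (a ^ j • q.out) := by
  classical
  let e : X ≃ Σ q : orbitRel.Quotient (Subgroup.zpowers a) X,
      ZMod (minimalPeriod (a • ·) q.out) :=
    (selfEquivSigmaOrbits (Subgroup.zpowers a) X).trans
      (Equiv.sigmaCongrRight fun q => orbitZPowersEquiv a q.out)
  have he : ∀ q k, e.symm ⟨q, k⟩ = a ^ (ZMod.cast k : ℤ) • q.out := fun q k => rfl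
  rw [← e.symm.sum_comp f, Fintype.sum_sigma]
  refine Finset.sum_congr rfl fun q _ => ?_
  rw [← sum_zmod_val (minimalPeriod (a • ·) q.out) (fun j => f (a ^ j • q.out))]
  refine Finset.sum_congr rfl fun k _ => ?_
  rw [he, ← ZMod.natCast_val, zpow_natCast]

end Orbits

/-! ### `Γ`-valued cocycles over a `G`-set -/

section Kappa

variable {G X Γ R : Type*} [Group G] [MulAction G X] [Group Γ] [CommRing R]

/-- a `Γ`-valued cocycle over the `G`-set `X`. -/
def IsKappa (κ : G → X → Γ) : Prop := ∀ g h x, κ (g * h) x = κ g x * κ h (g⁻¹ • x)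

namespace IsKappa

variable {κ : G → X → Γ} (hκ : IsKappa κ)

include hκ

theorem map_one (x : X) : κ 1 x = 1 := by
  have h := hκ 1 1 x
  rw [mul_one, inv_one, one_smul] at h
  exact (mul_eq_left.mp h.symm)

theorem map_pow_succ (τ : G) (n : ℕ) (x : X) :
    κ (τ ^ (n + 1)) x = κ (τ ^ n) x * κ τ ((τ ^ n)⁻¹ • x) := by
  rw [pow_succ, hκ]

/-- the Shapiro cocycle of an additive character. -/
theorem shapiro {z : Γ → R} (hz : IsAddChar z) (g h : G) (x : X) :
    z (κ (g * h) x) = z (κ g x) + z (κ h (g⁻¹ • x)) := by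
  rw [hκ, hz]

theorem shapiro_pow {z : Γ → R} (hz : IsAddChar z) (τ : G) (u : X → R)
    (hu : ∀ y, z (κ τ y) = u (τ⁻¹ • y) - u y) (n : ℕ) (x : X) :
    z (κ (τ ^ n) x) = u ((τ ^ n)⁻¹ • x) - u x := by
  induction n with
  | zero => rw [pow_zero, hκ.map_one, hz.map_one, inv_one, one_smul, sub_self]
  | succ n ih =>
    rw [hκ.map_pow_succ, hz, ih, hu, pow_succ, mul_inv_rev, mul_smul]
    ring

/-- **Telescoping along the powers of `τ`.** -/
theorem c_kappa_pow {z z' c : Γ → R} (hz : IsAddChar z) (hz' : IsAddChar z')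
    (hc : IsPrim z z' c) (τ : G) (u : X → R) (hu : ∀ y, z (κ τ y) = u (τ⁻¹ • y) - u y)
    (n : ℕ) (x : X) :
    c (κ (τ ^ n) x) = ∑ i ∈ Finset.range n,
        (c (κ τ ((τ ^ i)⁻¹ • x)) + u ((τ ^ i)⁻¹ • x) * z' (κ τ ((τ ^ i)⁻¹ • x)))
      - u x * z' (κ (τ ^ n) x) := by
  induction n with
  | zero =>
    rw [pow_zero, hκ.map_one, hc.map_one hz, hz'.map_one, Finset.sum_range_zero, mul_zero,
      sub_zero]
  | succ n ih =>
    rw [hκ.map_pow_succ, hc, ih, hκ.shapiro_pow hz τ u hu, hz', Finset.sum_range_succ]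
    ring

end IsKappa

/-- `C(g) = ∑ x, c (κ g x)`. -/
def bigC [Fintype X] (κ : G → X → Γ) (c : Γ → R) (g : G) : R := ∑ x, c (κ g x)

theorem bigC_mul [Fintype X] {κ : G → X → Γ} (hκ : IsKappa κ) {z z' c : Γ → R}
    (hc : IsPrim z z' c) (g h : G) :
    bigC κ c (g * h) = bigC κ c g + bigC κ c h + ∑ x, z (κ g x) * z' (κ h (g⁻¹ • x)) := by
  unfold bigC
  have e : ∑ x, c (κ h (g⁻¹ • x)) = ∑ x, c (κ h x) :=
    Equiv.sum_comp (MulAction.toPerm g⁻¹) (fun x => c (κ h x))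
  rw [← e, ← Finset.sum_add_distrib, ← Finset.sum_add_distrib]
  refine Finset.sum_congr rfl fun x _ => ?_
  rw [hκ, hc]

/-- **The sum of `c` over the cusp elements** `κ (τ ^ h i) (y i)`, for any system `y i` of
representatives of the orbits of `τ ^ ℤ` on `X` with orbit lengths `h i` (given through the orbit
decomposition of sums `hsum`). -/
theorem sum_cusp_eq' [Fintype X] {κ : G → X → Γ} (hκ : IsKappa κ) {z z' c : Γ → R}
    (hz : IsAddChar z) (hz' : IsAddChar z') (hc : IsPrim z z' c) (τ : G) (u : X → R)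
    (hu : ∀ y, z (κ τ y) = u (τ⁻¹ • y) - u y)
    {ι : Type*} [Fintype ι] (y : ι → X) (h : ι → ℕ)
    (hsum : ∀ F : X → R, ∑ x, F x = ∑ i, ∑ k ∈ Finset.range (h i), F ((τ ^ k)⁻¹ • y i))
    (hpar' : ∀ i, z' (κ (τ ^ h i) (y i)) = 0) :
    ∑ i, c (κ (τ ^ h i) (y i)) = bigC κ c τ + ∑ x, u x * z' (κ τ x) := by
  unfold bigC
  rw [← Finset.sum_add_distrib, hsum (fun x => c (κ τ x) + u x * z' (κ τ x))]
  refine Finset.sum_congr rfl fun i _ => ?_
  rw [hκ.c_kappa_pow hz hz' hc τ u hu, hpar' i, mul_zero, sub_zero]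

/-- `sum_cusp_eq'` for the orbit representatives chosen by `Quotient.out` (`O` the orbits of
`τ ^ ℤ` on `X`, `x_O` the chosen representative, `h_O` its minimal period). -/
theorem sum_cusp_eq [Fintype X] {κ : G → X → Γ} (hκ : IsKappa κ) {z z' c : Γ → R}
    (hz : IsAddChar z) (hz' : IsAddChar z') (hc : IsPrim z z' c) (τ : G) (u : X → R)
    (hu : ∀ y, z (κ τ y) = u (τ⁻¹ • y) - u y)
    [Fintype (orbitRel.Quotient (Subgroup.zpowers τ⁻¹) X)]
    (hpar' : ∀ q : orbitRel.Quotient (Subgroup.zpowers τ⁻¹) X,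
      z' (κ (τ ^ minimalPeriod (τ⁻¹ • ·) q.out) q.out) = 0) :
    ∑ q : orbitRel.Quotient (Subgroup.zpowers τ⁻¹) X,
        c (κ (τ ^ minimalPeriod (τ⁻¹ • ·) q.out) q.out)
      = bigC κ c τ + ∑ x, u x * z' (κ τ x) := by
  refine sum_cusp_eq' hκ hz hz' hc τ u hu
    (fun q : orbitRel.Quotient (Subgroup.zpowers τ⁻¹) X => q.out)
    (fun q : orbitRel.Quotient (Subgroup.zpowers τ⁻¹) X => minimalPeriod (τ⁻¹ • ·) q.out)
    (fun F => ?_) hpar'
  rw [sum_eq_sum_orbits τ⁻¹ F]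
  refine Finset.sum_congr rfl fun q _ => Finset.sum_congr rfl fun i _ => ?_
  rw [inv_pow]

end Kappa

/-! ### The `C2 * C3`-module of functions on `X` -/

section Fun

variable {G X R : Type*} [Group G] [MulAction G X] [CommRing R]

/-- the action of `g` on functions: `(g • f) x = f (g⁻¹ • x)`. -/
def actL (g : G) : (X → R) →ₗ[R] (X → R) := LinearMap.funLeft R R (fun x => g⁻¹ • x)

@[simp] theorem actL_apply (g : G) (f : X → R) (x : X) : actL g f x = f (g⁻¹ • x) := rfl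

/-- the dot product on `X → R`. -/
def dotB (R : Type*) [CommRing R] (X : Type*) [Fintype X] : LinearMap.BilinForm R (X → R) :=
  LinearMap.mk₂ R (fun g h => ∑ x, g x * h x)
    (fun g g' h => by simp [add_mul, Finset.sum_add_distrib])
    (fun c g h => by simp [Finset.mul_sum, mul_assoc])
    (fun g h h' => by simp [mul_add, Finset.sum_add_distrib])
    (fun c g h => by simp [Finset.mul_sum, mul_left_comm])

@[simp] theorem dotB_apply [Fintype X] (g h : X → R) : dotB R X g h = ∑ x, g x * h x := rfl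

theorem dotB_actL [Fintype X] (g : G) (f h : X → R) :
    dotB R X (actL g f) (actL g h) = dotB R X f h := by
  simp only [dotB_apply, actL_apply]
  exact Equiv.sum_comp (MulAction.toPerm g⁻¹) (fun x => f x * h x)

theorem inv_smul_of_smul {g : G} (hg : ∀ x : X, g • x = x) (x : X) : g⁻¹ • x = x := by
  rw [inv_smul_eq_iff, hg]

/-- the `C2 * C3`-module `X → R` attached to `σ`, `ρ` with `σ ^ 2`, `ρ ^ 3` acting trivially. -/
def settingOf (σ ρ : G) (hσ : ∀ x : X, (σ * σ) • x = x) (hρ : ∀ x : X, (ρ * ρ * ρ) • x = x)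
    (i2 i3 : R) (h2 : 2 * i2 = 1) (h3 : 3 * i3 = 1) : Setting R (X → R) where
  s := actL σ
  t := actL ρ
  hs f := by
    funext x
    have := inv_smul_of_smul hσ x
    rw [mul_inv_rev, mul_smul] at this
    rw [actL_apply, actL_apply, this]
  ht f := by
    funext x
    have := inv_smul_of_smul hρ x
    rw [mul_inv_rev, mul_inv_rev, mul_smul, mul_smul] at this
    rw [actL_apply, actL_apply, actL_apply, this]
  i2 := i2
  i3 := i3
  h2 := h2
  h3 := h3

end Fun

/-! ### The cusp-sum formula -/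

section Formula

variable {G X Γ R : Type*} [Group G] [MulAction G X] [Group Γ] [CommRing R]

/-- the Shapiro cocycle `Z g x = z (κ g x)`. -/
def Zf (κ : G → X → Γ) (z : Γ → R) (g : G) : X → R := fun x => z (κ g x)

omit [Group G] [MulAction G X] [Group Γ] [CommRing R] in
@[simp] theorem Zf_apply (κ : G → X → Γ) (z : Γ → R) (g : G) (x : X) :
    Zf κ z g x = z (κ g x) := rfl

theorem Zf_mul {κ : G → X → Γ} (hκ : IsKappa κ) {z : Γ → R} (hz : IsAddChar z) (g h : G) :
    Zf κ z (g * h) = Zf κ z g + actL g (Zf κ z h) := by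
  funext x
  simp only [Zf_apply, Pi.add_apply, actL_apply]
  exact hκ.shapiro hz g h x

theorem bigC_mul' [Fintype X] {κ : G → X → Γ} (hκ : IsKappa κ) {z z' c : Γ → R}
    (hc : IsPrim z z' c) (g h : G) :
    bigC κ c (g * h) = bigC κ c g + bigC κ c h + dotB R X (Zf κ z g) (actL g (Zf κ z' h)) := by
  rw [bigC_mul hκ hc]
  rfl

variable [Fintype X] {κ : G → X → Γ} (hκ : IsKappa κ) {z z' c : Γ → R}
  (hz : IsAddChar z) (hz' : IsAddChar z') (hc : IsPrim z z' c)
  {ε σ ρ τ : G} (hε : ∀ x : X, ε • x = x) (hσ : σ * σ = ε) (hρ : ρ * ρ * ρ = ε)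
  (hτ : τ = ε * (σ * ρ))

omit [Fintype X] in
include hκ hε in
/-- left multiplication by the trivially acting `ε` does not change the Shapiro cocycle. -/
theorem Zf_eps_mul {y : Γ → R} (hy : IsAddChar y) (hyε : ∀ x, y (κ ε x) = 0) (g : G) :
    Zf κ y (ε * g) = Zf κ y g := by
  funext x
  simp only [Zf_apply]
  rw [hκ.shapiro hy, hyε, zero_add, inv_smul_of_smul hε]

include hκ hc in
theorem bigC_eps_mul (hzε : ∀ x, z (κ ε x) = 0) (hcε : ∀ x, c (κ ε x) = 0) (g : G) :
    bigC κ c (ε * g) = bigC κ c g := by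
  rw [bigC_mul hκ hc]
  have h1 : bigC κ c ε = 0 := Finset.sum_eq_zero fun x _ => hcε x
  have h2 : ∑ x, z (κ ε x) * z' (κ g (ε⁻¹ • x)) = 0 :=
    Finset.sum_eq_zero fun x _ => by rw [hzε, zero_mul]
  rw [h1, h2, zero_add, add_zero]

include hκ hc hσ in
/-- the relation at the involution. -/
theorem bigC_sigma (hcε : ∀ x, c (κ ε x) = 0) :
    2 * bigC κ c σ + dotB R X (Zf κ z σ) (actL σ (Zf κ z' σ)) = 0 := by
  have h1 : bigC κ c ε = 0 := Finset.sum_eq_zero fun x _ => hcε x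
  have h := bigC_mul' hκ hc σ σ
  rw [hσ, h1] at h
  linear_combination -h

include hκ hz hc hρ in
/-- the relation at the element of order three. -/
theorem bigC_rho (hcε : ∀ x, c (κ ε x) = 0) :
    3 * bigC κ c ρ + 2 * dotB R X (Zf κ z ρ) (actL ρ (Zf κ z' ρ))
      + dotB R X (Zf κ z ρ) (actL ρ (actL ρ (Zf κ z' ρ))) = 0 := by
  have h1 : bigC κ c ε = 0 := Finset.sum_eq_zero fun x _ => hcε x
  have h := bigC_mul' hκ hc (ρ * ρ) ρ
  rw [hρ, h1, bigC_mul' hκ hc ρ ρ, Zf_mul hκ hz ρ ρ] at h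
  have e1 : actL (ρ * ρ) (Zf κ z' ρ) = actL ρ (actL ρ (Zf κ z' ρ)) := by
    funext x
    simp only [actL_apply, mul_inv_rev, mul_smul]
  have e2 : dotB R X (actL ρ (Zf κ z ρ)) (actL ρ (actL ρ (Zf κ z' ρ)))
      = dotB R X (Zf κ z ρ) (actL ρ (Zf κ z' ρ)) := dotB_actL ρ _ _
  rw [e1, map_add, LinearMap.add_apply, e2] at h
  linear_combination -h

include hκ hz hz' hc hε hσ hρ hτ in
/-- **The cusp-sum formula** for an abstract cocycle system over a `C2 * C3`-set. -/
theorem cusp_sum_formula (hzε : ∀ x, z (κ ε x) = 0) (hz'ε : ∀ x, z' (κ ε x) = 0)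
    (hcε : ∀ x, c (κ ε x) = 0) (i2 i3 : R) (h2 : 2 * i2 = 1) (h3 : 3 * i3 = 1)
    (a b u a' b' : X → R)
    (ha : Zf κ z σ = actL σ a - a) (hb : Zf κ z ρ = actL ρ b - b)
    (hu : Zf κ z τ = actL τ u - u)
    (ha' : Zf κ z' σ = actL σ a' - a') (hb' : Zf κ z' ρ = actL ρ b' - b')
    {ι : Type*} [Fintype ι] (y : ι → X) (h : ι → ℕ)
    (hsum : ∀ F : X → R, ∑ x, F x = ∑ i, ∑ k ∈ Finset.range (h i), F ((τ ^ k)⁻¹ • y i))
    (hpar' : ∀ i, z' (κ (τ ^ h i) (y i)) = 0) :
    ∑ i, c (κ (τ ^ h i) (y i)) = - dotB R X (actL σ (u - a) - (u - a)) (b' - a') := by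
  have hσ2 : ∀ x : X, (σ * σ) • x = x := fun x => by rw [hσ, hε]
  have hρ3 : ∀ x : X, (ρ * ρ * ρ) • x = x := fun x => by rw [hρ, hε]
  set D : Setting R (X → R) := settingOf σ ρ hσ2 hρ3 i2 i3 h2 h3 with hD
  have hBs : ∀ f h : X → R, dotB R X (D.s f) (D.s h) = dotB R X f h := fun f h => dotB_actL σ f h
  have hBt : ∀ f h : X → R, dotB R X (D.t f) (D.t h) = dotB R X f h := fun f h => dotB_actL ρ f h
  -- the action of `τ` is `s ∘ t`
  have hact : ∀ f : X → R, actL τ f = actL σ (actL ρ f) := by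
    intro f
    funext x
    simp only [actL_apply]
    rw [hτ, mul_inv_rev, mul_inv_rev, mul_smul, mul_smul, inv_smul_of_smul hε]
  -- the cocycles at `τ`
  have hZτ : ∀ y : Γ → R, IsAddChar y → (∀ x, y (κ ε x) = 0) →
      Zf κ y τ = Zf κ y σ + actL σ (Zf κ y ρ) := by
    intro y hy hyε
    rw [hτ, Zf_eps_mul hκ hε hy hyε, Zf_mul hκ hy]
  -- the value of `bigC` at `τ`
  have hCτ : bigC κ c τ = bigC κ c σ + bigC κ c ρ
      + dotB R X (Zf κ z σ) (actL σ (Zf κ z' ρ)) := by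
    rw [hτ, bigC_eps_mul hκ hc hzε hcε, bigC_mul' hκ hc]
  have hsum' : ∑ x, u x * z' (κ τ x) = dotB R X u (Zf κ z' σ + actL σ (Zf κ z' ρ)) := by
    rw [← hZτ z' hz' hz'ε]
    rfl
  rw [sum_cusp_eq' hκ hz hz' hc τ u (fun y => congrFun hu y) y h hsum hpar', hCτ, hsum']
  have hCs := bigC_sigma hκ hc hσ hcε
  have hCt := bigC_rho hκ hz hc hρ hcε
  have hu' : (D.s a - a) + D.s (D.t b - b) = D.s (D.t u) - u := by
    show (actL σ a - a) + actL σ (actL ρ b - b) = actL σ (actL ρ u) - u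
    rw [← ha, ← hb, ← hZτ z hz hzε, hu, hact]
  rw [ha, ha'] at hCs
  rw [hb, hb'] at hCt
  rw [ha, ha', hb']
  exact CuspFormulaAbstract.cusp_identity D (dotB R X) hBs hBt a b a' b' u _ _ hCs hCt hu'

end Formula

end Fermat.Agent.S41.PD.CuspFormula
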