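/-
S41 / (W1) step F3-ii (helper76): a system of representatives of the double cosets `Γ \ SL(2,ℤ) / ±⟨T⟩`
with the cusp widths gives a cusp system of `Γ` in the sense of `PD/CuspSum.lean`.

* `coe_T_zpow_apply`, `isPosPar_T_zpow_iff` : `T ^ n` is positive parabolic iff `0 < n`;
* `conj_T_zpow_eq` : `g T^a g⁻¹ = T^b`, `a ≠ 0` ⇒ `g` fixes `∞` and `a = b`; `eq_T_zpow_or_neg`;
* `exists_conj_of_isPosPar` : a positive parabolic is `g T^k g⁻¹`, `k > 0`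
  (`S16/ParabolicConj.exists_conj_T_zpow`);
* `IsCuspReps Γ r h` : `r i` represent the double cosets `Γ \ SL(2,ℤ) / ⟨T⟩` (`-1 ∈ Γ`) and `h i` is
  the width of the cusp `r i ∞`;
* `IsCuspReps.isCuspSystem` : the elements `r i * T ^ h i * (r i)⁻¹` form an `IsCuspSystem`,
  `IsCuspReps.cuspSum_eq` : the cusp sum over it is `∑ i, c (r i * T ^ h i * (r i)⁻¹)`.
-/
import Mathlib
import Fermat.Agent.S16.ParabolicConj
import Fermat.Agent.S41.PD.CuspSum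

set_option autoImplicit false

namespace Fermat.Agent.S41.PD.CuspSystem

open ModularGroup
open scoped MatrixGroups
open Fermat.Agent.S41.PD.CuspSum Fermat.Agent.S16.ParabolicConj

/-! ### powers of `T` -/

theorem T_zpow_00 (n : ℤ) : (T ^ n : SL(2, ℤ)) 0 0 = 1 := by
  have := congrFun (congrFun (coe_T_zpow n) 0) 0
  simpa using this

theorem T_zpow_01 (n : ℤ) : (T ^ n : SL(2, ℤ)) 0 1 = n := by
  have := congrFun (congrFun (coe_T_zpow n) 0) 1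
  simpa using this

theorem T_zpow_10 (n : ℤ) : (T ^ n : SL(2, ℤ)) 1 0 = 0 := by
  have := congrFun (congrFun (coe_T_zpow n) 1) 0
  simpa using this

theorem T_zpow_11 (n : ℤ) : (T ^ n : SL(2, ℤ)) 1 1 = 1 := by
  have := congrFun (congrFun (coe_T_zpow n) 1) 1
  simpa using this

theorem isPosPar_T_zpow_iff (n : ℤ) : IsPosPar (T ^ n) ↔ 0 < n := by
  constructor
  · rintro ⟨hne, -, h01, -⟩
    rw [T_zpow_01] at h01
    rcases h01.lt_or_eq with h | h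
    · exact h
    · exfalso; apply hne; rw [← h, zpow_zero]
  · intro hn
    refine ⟨?_, ?_, ?_, ?_⟩
    · intro h
      have := congrArg (fun g : SL(2, ℤ) => g 0 1) h
      simp only [T_zpow_01] at this
      have h1 : (1 : SL(2, ℤ)) 0 1 = 0 := by simp
      rw [h1] at this
      exact hn.ne' this
    · rw [T_zpow_00, T_zpow_11]; norm_num
    · rw [T_zpow_01]; exact hn.le
    · rw [T_zpow_10]

/-- `g T^a g⁻¹ = T^b` with `a ≠ 0` forces `g ∞ = ∞` and `a = b`. -/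
theorem conj_T_zpow_eq {g : SL(2, ℤ)} {a b : ℤ} (ha : a ≠ 0)
    (h : g * T ^ a * g⁻¹ = T ^ b) : g 1 0 = 0 ∧ a = b := by
  have h' : g * T ^ a = T ^ b * g := by rw [← h]; group
  have hdet := det_entries g
  have e00 := congrArg (fun x : SL(2, ℤ) => x 0 0) h'
  have e01 := congrArg (fun x : SL(2, ℤ) => x 0 1) h'
  have e11 := congrArg (fun x : SL(2, ℤ) => x 1 1) h'
  simp only [Matrix.SpecialLinearGroup.coe_mul, Matrix.mul_apply, Fin.sum_univ_two] at e00 e01 e11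
  have t00a := T_zpow_00 a
  have t01a := T_zpow_01 a
  have t10a := T_zpow_10 a
  have t11a := T_zpow_11 a
  have t00b := T_zpow_00 b
  have t01b := T_zpow_01 b
  have t10b := T_zpow_10 b
  have t11b := T_zpow_11 b
  -- unfold the coercions
  change g 0 0 * (T ^ a : SL(2, ℤ)) 0 0 + g 0 1 * (T ^ a : SL(2, ℤ)) 1 0 =
    (T ^ b : SL(2, ℤ)) 0 0 * g 0 0 + (T ^ b : SL(2, ℤ)) 0 1 * g 1 0 at e00
  change g 0 0 * (T ^ a : SL(2, ℤ)) 0 1 + g 0 1 * (T ^ a : SL(2, ℤ)) 1 1 =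
    (T ^ b : SL(2, ℤ)) 0 0 * g 0 1 + (T ^ b : SL(2, ℤ)) 0 1 * g 1 1 at e01
  change g 1 0 * (T ^ a : SL(2, ℤ)) 0 1 + g 1 1 * (T ^ a : SL(2, ℤ)) 1 1 =
    (T ^ b : SL(2, ℤ)) 1 0 * g 0 1 + (T ^ b : SL(2, ℤ)) 1 1 * g 1 1 at e11
  rw [t00a, t10a, t00b, t01b] at e00
  rw [t01a, t11a, t00b, t01b] at e01
  rw [t01a, t11a, t10b, t11b] at e11
  have hc : g 1 0 = 0 := by
    have : g 1 0 * a = 0 := by linarith
    rcases mul_eq_zero.1 this with h0 | h0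
    · exact h0
    · exact absurd h0 ha
  refine ⟨hc, ?_⟩
  rw [hc] at hdet
  have hps : g 0 0 * g 1 1 = 1 := by linarith
  -- `g 0 0 * a = b * g 1 1`, and `g 0 0 = g 1 1 = ±1`
  have e : g 0 0 * a = b * g 1 1 := by linarith
  rcases Int.eq_one_or_neg_one_of_mul_eq_one' hps with ⟨h1, h2⟩ | ⟨h1, h2⟩
  · rw [h1, h2] at e; linarith
  · rw [h1, h2] at e; linarith

/-- an element of `SL(2,ℤ)` fixing `∞` is `± T^l`; conjugation by it fixes every `T^k`. -/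
theorem conj_T_zpow_of_c_eq_zero {a : SL(2, ℤ)} (hc : a 1 0 = 0) (k : ℤ) :
    a * T ^ k * a⁻¹ = T ^ k := by
  obtain ⟨l, hl | hl⟩ := eq_T_zpow_of_c_eq_zero a hc
  · rw [hl, ← zpow_add, ← zpow_neg, ← zpow_add]; congr 1; ring
  · rw [hl]
    simp only [inv_neg, neg_mul, mul_neg, neg_neg]
    rw [← zpow_add, ← zpow_neg, ← zpow_add]
    congr 1; ring

theorem neg_apply (g : SL(2, ℤ)) (i j : Fin 2) : (-g) i j = -(g i j) := by
  simp [Matrix.SpecialLinearGroup.coe_neg]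

/-- a positive parabolic element is `g T^k g⁻¹` with `k > 0`. -/
theorem exists_conj_of_isPosPar {γ : SL(2, ℤ)} (hγ : IsPosPar γ) :
    ∃ (g : SL(2, ℤ)) (k : ℤ), 0 < k ∧ γ = g * T ^ k * g⁻¹ := by
  obtain ⟨g, k, h | h⟩ := exists_conj_T_zpow γ hγ.trace_sq
  · refine ⟨g, k, ?_, h⟩
    rw [h, isPosPar_conj_iff] at hγ
    exact (isPosPar_T_zpow_iff k).1 hγ
  · exfalso
    have htr := hγ.2.1
    rw [h, neg_apply, neg_apply, ← neg_add, conj_trace, T_zpow_00, T_zpow_11] at htr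
    norm_num at htr

/-! ### cusp representatives -/

variable {Γ : Subgroup SL(2, ℤ)} {ι : Type*}

/-- `r i` represent the double cosets `Γ \ SL(2,ℤ) / ⟨T⟩` (with `-1 ∈ Γ`), and `h i` is the width
of the cusp `r i ∞`. -/
structure IsCuspReps (Γ : Subgroup SL(2, ℤ)) (r : ι → SL(2, ℤ)) (h : ι → ℕ) : Prop where
  neg_mem : (-1 : SL(2, ℤ)) ∈ Γ
  pos : ∀ i, 0 < h i
  mem : ∀ i, r i * T ^ (h i) * (r i)⁻¹ ∈ Γ
  min : ∀ i (k : ℕ), 0 < k → r i * T ^ k * (r i)⁻¹ ∈ Γ → h i ≤ k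
  cover : ∀ g : SL(2, ℤ), ∃ i, ∃ δ ∈ Γ, ∃ l : ℤ, g = δ * r i * T ^ l
  disj : ∀ i j, (∃ δ ∈ Γ, ∃ l : ℤ, r j = δ * r i * T ^ l) → i = j

namespace IsCuspReps

variable {r : ι → SL(2, ℤ)} {h : ι → ℕ} (H : IsCuspReps Γ r h)

/-- the generator of the stabiliser of the cusp `r i ∞`. -/
def elt (i : ι) : Γ := ⟨r i * T ^ (h i) * (r i)⁻¹, H.mem i⟩

include H in
/-- the exponents `k` with `r i T^k (r i)⁻¹ ∈ Γ` are the multiples of the width. -/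
theorem dvd_of_mem (i : ι) (k : ℕ) (hk : r i * T ^ k * (r i)⁻¹ ∈ Γ) : h i ∣ k := by
  rcases Nat.eq_zero_or_pos (k % h i) with h0 | hpos
  · exact Nat.dvd_of_mod_eq_zero h0
  · exfalso
    have hlt : k % h i < h i := Nat.mod_lt _ (H.pos i)
    have hmem : r i * T ^ (k % h i) * (r i)⁻¹ ∈ Γ := by
      have hT : T ^ k = (T ^ (h i)) ^ (k / h i) * T ^ (k % h i) := by
        rw [← pow_mul, ← pow_add, Nat.div_add_mod]
      have e : r i * T ^ (k % h i) * (r i)⁻¹ =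
          ((r i * T ^ (h i) * (r i)⁻¹) ^ (k / h i))⁻¹ * (r i * T ^ k * (r i)⁻¹) := by
        rw [conj_pow, hT]
        group
      rw [e]
      exact Γ.mul_mem (Γ.inv_mem (Γ.pow_mem (H.mem i) _)) hk
    have := H.min i _ hpos hmem
    omega

theorem elt_isPosPar (i : ι) : IsPosPar ((H.elt i : Γ) : SL(2, ℤ)) := by
  show IsPosPar (r i * T ^ (h i) * (r i)⁻¹)
  rw [isPosPar_conj_iff, ← zpow_natCast, isPosPar_T_zpow_iff]
  exact_mod_cast H.pos i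

theorem elt_isPrim (i : ι) : IsPrim Γ (H.elt i) := by
  refine ⟨H.elt_isPosPar i, fun δ hδ k hk => ?_⟩
  obtain ⟨g, j, hj, hg⟩ := exists_conj_of_isPosPar hδ
  -- `δ ^ k = g T^(j k) g⁻¹ = r T^h r⁻¹`
  have hk' : ((δ : SL(2, ℤ))) ^ k = r i * T ^ (h i) * (r i)⁻¹ := by
    have := congrArg (fun x : Γ => (x : SL(2, ℤ))) hk
    simpa [elt, Subgroup.coe_pow] using this
  have hk0 : k ≠ 0 := by
    rintro rfl
    rw [pow_zero] at hk'
    exact (H.elt_isPosPar i).1 hk'.symm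
  rw [hg, conj_pow, ← zpow_natCast, ← zpow_mul] at hk'
  -- conjugate by `(r i)⁻¹ * g`
  have hconj : ((r i)⁻¹ * g) * T ^ (j * (k : ℤ)) * ((r i)⁻¹ * g)⁻¹ = T ^ ((h i : ℕ) : ℤ) := by
    rw [zpow_natCast]
    calc ((r i)⁻¹ * g) * T ^ (j * (k : ℤ)) * ((r i)⁻¹ * g)⁻¹
        = (r i)⁻¹ * (g * T ^ (j * (k : ℤ)) * g⁻¹) * r i := by group
      _ = (r i)⁻¹ * (r i * T ^ (h i) * (r i)⁻¹) * r i := by rw [hk']
      _ = T ^ (h i) := by group
  have hjk : j * (k : ℤ) ≠ 0 := mul_ne_zero hj.ne' (by exact_mod_cast hk0)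
  obtain ⟨hc, hjkh⟩ := conj_T_zpow_eq hjk hconj
  -- hence `δ = r T^j r⁻¹`
  have hδ' : (δ : SL(2, ℤ)) = r i * T ^ j * (r i)⁻¹ := by
    have := conj_T_zpow_of_c_eq_zero hc j
    calc (δ : SL(2, ℤ)) = g * T ^ j * g⁻¹ := hg
      _ = r i * (((r i)⁻¹ * g) * T ^ j * ((r i)⁻¹ * g)⁻¹) * (r i)⁻¹ := by group
      _ = r i * T ^ j * (r i)⁻¹ := by rw [this]
  have hjn : j = ((j.toNat : ℕ) : ℤ) := (Int.toNat_of_nonneg hj.le).symm
  have hmem : r i * T ^ (j.toNat) * (r i)⁻¹ ∈ Γ := by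
    rw [← zpow_natCast, ← hjn, ← hδ']
    exact δ.2
  have hle := H.min i j.toNat (by omega) hmem
  -- `j * k = h ≤ j`
  have : (j.toNat : ℤ) * k = h i := by rw [← hjn]; exact hjkh
  have h1 : j.toNat * k = h i := by exact_mod_cast this
  have hjpos : 0 < j.toNat := by omega
  have : j.toNat * k ≤ j.toNat * 1 := by rw [h1, mul_one]; exact hle
  have hk1 : k ≤ 1 := Nat.le_of_mul_le_mul_left this hjpos
  omega

theorem elt_injective : Function.Injective H.elt := by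
  intro i j hij
  apply H.disj
  have h1 : r i * T ^ (h i) * (r i)⁻¹ = r j * T ^ (h j) * (r j)⁻¹ :=
    congrArg (fun x : Γ => (x : SL(2, ℤ))) hij
  -- `a := (r i)⁻¹ * r j` fixes `∞`
  have hconj : ((r i)⁻¹ * r j) * T ^ ((h j : ℕ) : ℤ) * ((r i)⁻¹ * r j)⁻¹ = T ^ ((h i : ℕ) : ℤ) := by
    rw [zpow_natCast, zpow_natCast]
    calc ((r i)⁻¹ * r j) * T ^ (h j) * ((r i)⁻¹ * r j)⁻¹
        = (r i)⁻¹ * (r j * T ^ (h j) * (r j)⁻¹) * r i := by group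
      _ = (r i)⁻¹ * (r i * T ^ (h i) * (r i)⁻¹) * r i := by rw [h1]
      _ = T ^ (h i) := by group
  have hne : ((h j : ℕ) : ℤ) ≠ 0 := by exact_mod_cast (H.pos j).ne'
  obtain ⟨hc, -⟩ := conj_T_zpow_eq hne hconj
  obtain ⟨l, hl | hl⟩ := eq_T_zpow_of_c_eq_zero _ hc
  · exact ⟨1, Γ.one_mem, l, by rw [one_mul, ← hl]; group⟩
  · refine ⟨-1, H.neg_mem, l, ?_⟩
    have : r j = r i * (-T ^ l) := by rw [← hl]; group
    rw [this, mul_neg, neg_mul, neg_mul, one_mul]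

/-- **the cusp generators form a cusp system.** -/
theorem isCuspSystem [Fintype ι] [DecidableEq Γ] : IsCuspSystem Γ (Finset.univ.image H.elt) := by
  refine ⟨?_, ?_⟩
  · intro γ hγ
    obtain ⟨i, -, rfl⟩ := Finset.mem_image.1 hγ
    exact H.elt_isPrim i
  · intro γ hγ
    obtain ⟨g, j, hj, hg⟩ := exists_conj_of_isPosPar hγ.1
    obtain ⟨i, δ, hδ, l, hgl⟩ := H.cover g
    -- `γ = δ r T^j r⁻¹ δ⁻¹`
    have hγ' : (γ : SL(2, ℤ)) = δ * (r i * T ^ j * (r i)⁻¹) * δ⁻¹ := by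
      rw [hg, hgl]
      have : T ^ l * T ^ j * (T ^ l)⁻¹ = T ^ j := by
        rw [← zpow_add, ← zpow_neg, ← zpow_add]; congr 1; ring
      calc δ * r i * T ^ l * T ^ j * (δ * r i * T ^ l)⁻¹
          = δ * (r i * (T ^ l * T ^ j * (T ^ l)⁻¹) * (r i)⁻¹) * δ⁻¹ := by group
        _ = _ := by rw [this]
    have hjn : j = ((j.toNat : ℕ) : ℤ) := (Int.toNat_of_nonneg hj.le).symm
    have hmem : r i * T ^ (j.toNat) * (r i)⁻¹ ∈ Γ := by
      have e : r i * T ^ (j.toNat) * (r i)⁻¹ = δ⁻¹ * (γ : SL(2, ℤ)) * δ := by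
        rw [hγ', ← zpow_natCast, ← hjn]; group
      rw [e]
      exact Γ.mul_mem (Γ.mul_mem (Γ.inv_mem hδ) γ.2) hδ
    obtain ⟨k', hk'⟩ := H.dvd_of_mem i _ hmem
    -- `γ = (δ elt δ⁻¹) ^ k'`
    let δ' : Γ := ⟨δ, hδ⟩
    have hpow : (δ' * H.elt i * δ'⁻¹) ^ k' = γ := by
      apply Subtype.ext
      rw [conj_pow]
      show δ * (r i * T ^ (h i) * (r i)⁻¹) ^ k' * δ⁻¹ = (γ : SL(2, ℤ))
      rw [conj_pow, ← pow_mul, ← hk', hγ', ← zpow_natCast, ← hjn]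
    have hk1 : k' = 1 := hγ.2 _ (isPrim_conj (H.elt_isPrim i) δ').1 k' hpow
    rw [hk1, pow_one] at hpow
    refine ⟨H.elt i, ⟨Finset.mem_image.2 ⟨i, Finset.mem_univ _, rfl⟩, δ', hpow⟩, ?_⟩
    rintro γ₁ ⟨h1, ε, hε⟩
    obtain ⟨i', -, rfl⟩ := Finset.mem_image.1 h1
    -- `ε elt i' ε⁻¹ = δ' elt i δ'⁻¹`
    have heq : ε * H.elt i' * ε⁻¹ = δ' * H.elt i * δ'⁻¹ := by rw [hε, hpow]
    have heq' : (ε : SL(2, ℤ)) * (r i' * T ^ (h i') * (r i')⁻¹) * (ε : SL(2, ℤ))⁻¹ =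
        δ * (r i * T ^ (h i) * (r i)⁻¹) * δ⁻¹ :=
      congrArg (fun x : Γ => (x : SL(2, ℤ))) heq
    have hconj : ((r i)⁻¹ * δ⁻¹ * ε * r i') * T ^ ((h i' : ℕ) : ℤ) *
        ((r i)⁻¹ * δ⁻¹ * ε * r i')⁻¹ = T ^ ((h i : ℕ) : ℤ) := by
      rw [zpow_natCast, zpow_natCast]
      calc ((r i)⁻¹ * δ⁻¹ * ε * r i') * T ^ (h i') * ((r i)⁻¹ * δ⁻¹ * ε * r i')⁻¹
          = (r i)⁻¹ * δ⁻¹ * ((ε : SL(2, ℤ)) * (r i' * T ^ (h i') * (r i')⁻¹) *
              (ε : SL(2, ℤ))⁻¹) * δ * r i := by group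
        _ = (r i)⁻¹ * δ⁻¹ * (δ * (r i * T ^ (h i) * (r i)⁻¹) * δ⁻¹) * δ * r i := by rw [heq']
        _ = T ^ (h i) := by group
    have hne : ((h i' : ℕ) : ℤ) ≠ 0 := by exact_mod_cast (H.pos i').ne'
    obtain ⟨hc, -⟩ := conj_T_zpow_eq hne hconj
    have hii : i = i' := by
      apply H.disj
      obtain ⟨l', hl | hl⟩ := eq_T_zpow_of_c_eq_zero _ hc
      · refine ⟨(ε : SL(2, ℤ))⁻¹ * δ, Γ.mul_mem (Γ.inv_mem ε.2) hδ, l', ?_⟩
        rw [← hl]; group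
      · refine ⟨-((ε : SL(2, ℤ))⁻¹ * δ), ?_, l', ?_⟩
        · have : -((ε : SL(2, ℤ))⁻¹ * δ) = (-1) * ((ε : SL(2, ℤ))⁻¹ * δ) := by
            rw [neg_mul, one_mul]
          rw [this]
          exact Γ.mul_mem H.neg_mem (Γ.mul_mem (Γ.inv_mem ε.2) hδ)
        · have e : r i' = (ε : SL(2, ℤ))⁻¹ * δ * r i * ((r i)⁻¹ * δ⁻¹ * ε * r i') := by group
          rw [e, hl, mul_neg, neg_mul, neg_mul]
    rw [hii]

/-- the cusp sum over the system of cusp generators. -/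
theorem cuspSum_eq [Fintype ι] [DecidableEq Γ] {R : Type*} [CommRing R] (c : Γ → R) :
    cuspSum (Finset.univ.image H.elt) c = ∑ i, c (H.elt i) := by
  unfold cuspSum
  rw [Finset.sum_image]
  intro i _ j _ hij
  exact H.elt_injective hij

end IsCuspReps

end Fermat.Agent.S41.PD.CuspSystem
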