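/-
S41 / (W1) step F3-ii (helper76), part 2: existence of cusp representatives.

`X` is any `SL(2,ℤ)`-set (in the application `X = SL(2,ℤ) ⧸ Γ`).
* `IsOrbitReps y h` : `y i` are representatives of the `⟨T⟩`-orbits on `X`, `h i` is the length of
  the orbit of `y i`;
* `IsOrbitReps.zpow_smul_eq_iff`, `IsOrbitReps.bijective` : `(i, k) ↦ T ^ (ε k) • y i`
  (`ε = ± 1`, `k < h i`) is a bijection onto `X`; `IsOrbitReps.sum_eq`: the orbit partition of a sum;
* `exists_isOrbitReps` : they exist when `X` is finite;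
* `conj_mem_iff` : `r T^k r⁻¹ ∈ Γ ↔ T^k • r⁻¹Γ = r⁻¹Γ`;
* `isCuspReps_of_isOrbitReps` : if `r i⁻¹ Γ = y i` then `IsCuspReps Γ r h` (`PD/CuspSystem.lean`), hence
  the elements `r i * T ^ h i * (r i)⁻¹` form a cusp system of `Γ`;
* `exists_isCuspReps`, `exists_isCuspSystem`.
-/
import Mathlib
import Fermat.Agent.S41.PD.CuspSystem

set_option autoImplicit false

namespace Fermat.Agent.S41.PD.CuspReps

open ModularGroup
open scoped MatrixGroups
open Fermat.Agent.S41.PD.CuspSum Fermat.Agent.S41.PD.CuspSystem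

universe u v

/-! ### orbit representatives for `T` -/

/-- `y i` represent the `⟨T⟩`-orbits on `X`, and `h i` is the length of the orbit of `y i`. -/
structure IsOrbitReps {X : Type u} [MulAction SL(2, ℤ) X] {ι : Type v} (y : ι → X) (h : ι → ℕ) :
    Prop where
  pos : ∀ i, 0 < h i
  fix : ∀ i, (T ^ (h i) : SL(2, ℤ)) • y i = y i
  min : ∀ i (k : ℕ), 0 < k → (T ^ k : SL(2, ℤ)) • y i = y i → h i ≤ k
  cover : ∀ x, ∃ i, ∃ l : ℤ, x = (T ^ l : SL(2, ℤ)) • y i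
  disj : ∀ i j, (∃ l : ℤ, y j = (T ^ l : SL(2, ℤ)) • y i) → i = j

namespace IsOrbitReps

variable {X : Type u} [MulAction SL(2, ℤ) X] {ι : Type v} {y : ι → X} {h : ι → ℕ}
  (H : IsOrbitReps y h)

include H in
theorem eq_period (i : ι) : h i = MulAction.period (T : SL(2, ℤ)) (y i) := by
  apply le_antisymm
  · exact H.min i _ (MulAction.period_pos_of_fixed (H.pos i) (H.fix i))
      (MulAction.pow_period_smul _ _)
  · exact MulAction.period_le_of_fixed (H.pos i) (H.fix i)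

include H in
theorem zpow_smul_eq_iff (i : ι) (n : ℤ) : (T ^ n : SL(2, ℤ)) • y i = y i ↔ (h i : ℤ) ∣ n := by
  rw [H.eq_period i]
  exact MulAction.zpow_smul_eq_iff_period_dvd

include H in
/-- the orbit decomposition: `(i, k) ↦ T ^ (ε k) • y i` is a bijection onto `X` (`ε = ± 1`). -/
theorem bijective (ε : ℤ) (hε : ε * ε = 1) :
    Function.Bijective (fun p : (Σ i, Fin (h i)) => (T ^ (ε * ((p.2 : ℕ) : ℤ)) : SL(2, ℤ)) • y p.1) := by
  constructor
  · rintro ⟨i, k⟩ ⟨j, k'⟩ hp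
    simp only at hp
    have hij : i = j := by
      apply H.disj i j
      refine ⟨ε * ((k : ℕ) : ℤ) - ε * ((k' : ℕ) : ℤ), ?_⟩
      rw [sub_eq_add_neg, add_comm, zpow_add, mul_smul, hp, ← mul_smul, ← zpow_add]
      simp
    subst hij
    have h1 : (T ^ (ε * ((k : ℕ) : ℤ) - ε * ((k' : ℕ) : ℤ)) : SL(2, ℤ)) • y i = y i := by
      rw [sub_eq_add_neg, add_comm, zpow_add, mul_smul, hp, ← mul_smul, ← zpow_add]
      simp
    rw [H.zpow_smul_eq_iff] at h1
    have h2 : (h i : ℤ) ∣ ((k : ℕ) : ℤ) - ((k' : ℕ) : ℤ) := by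
      have := Dvd.dvd.mul_left h1 ε
      have e : ε * (ε * ((k : ℕ) : ℤ) - ε * ((k' : ℕ) : ℤ)) = ((k : ℕ) : ℤ) - ((k' : ℕ) : ℤ) := by
        rw [← mul_sub, ← mul_assoc, hε, one_mul]
      rwa [e] at this
    have hk := k.2
    have hk' := k'.2
    have h3 : ((k : ℕ) : ℤ) - ((k' : ℕ) : ℤ) = 0 := by
      apply Int.eq_zero_of_abs_lt_dvd h2
      rw [abs_lt]
      constructor <;> omega
    have h4 : (k : ℕ) = (k' : ℕ) := by omega
    have : k = k' := Fin.ext h4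
    rw [this]
  · intro x
    obtain ⟨i, l, hx⟩ := H.cover x
    have hpos : (0 : ℤ) < (h i : ℤ) := by exact_mod_cast H.pos i
    have hk0 : 0 ≤ (ε * l) % (h i : ℤ) := Int.emod_nonneg _ hpos.ne'
    have hk1 : (ε * l) % (h i : ℤ) < (h i : ℤ) := Int.emod_lt_of_pos _ hpos
    refine ⟨⟨i, ⟨((ε * l) % (h i : ℤ)).toNat, ?_⟩⟩, ?_⟩
    · omega
    · simp only
      rw [hx]
      have e1 : ((((ε * l) % (h i : ℤ)).toNat : ℕ) : ℤ) = (ε * l) % (h i : ℤ) := Int.toNat_of_nonneg hk0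
      rw [e1]
      have e2 : ε * ((ε * l) % (h i : ℤ)) = l + (ε * ((ε * l) % (h i : ℤ)) - l) := by ring
      rw [e2, zpow_add, mul_smul]
      congr 1
      rw [H.zpow_smul_eq_iff]
      have e3 : ε * ((ε * l) % (h i : ℤ)) - l = ε * ((ε * l) % (h i : ℤ) - ε * l) := by
        rw [mul_sub, ← mul_assoc, hε, one_mul]
      rw [e3]
      apply Dvd.dvd.mul_left
      exact Int.dvd_emod_sub_self

include H in
/-- the orbit partition of a sum over `X`. -/
theorem sum_eq [Fintype X] [Fintype ι] {M : Type*} [AddCommMonoid M] (ε : ℤ) (hε : ε * ε = 1)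
    (F : X → M) :
    ∑ x, F x = ∑ i, ∑ k ∈ Finset.range (h i), F ((T ^ (ε * (k : ℤ)) : SL(2, ℤ)) • y i) := by
  rw [← Fintype.sum_bijective _ (H.bijective ε hε) (fun p => F ((T ^ (ε * ((p.2 : ℕ) : ℤ)) :
    SL(2, ℤ)) • y p.1)) F (fun _ => rfl)]
  rw [Fintype.sum_sigma]
  refine Finset.sum_congr rfl fun i _ => ?_
  rw [Finset.sum_range]

end IsOrbitReps

/-- orbit representatives exist on a finite `SL(2,ℤ)`-set. -/
theorem exists_isOrbitReps (X : Type u) [MulAction SL(2, ℤ) X] [Finite X] :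
    ∃ (ι : Type u) (_ : Fintype ι) (y : ι → X) (h : ι → ℕ), IsOrbitReps y h := by
  classical
  let Z : Subgroup SL(2, ℤ) := Subgroup.zpowers T
  let ι := MulAction.orbitRel.Quotient Z X
  have : Finite ι := Quotient.finite _
  have : Fintype ι := Fintype.ofFinite ι
  let y : ι → X := fun i => Quotient.out i
  have hper : ∀ x : X, ∃ k : ℕ, 0 < k ∧ (T ^ k : SL(2, ℤ)) • x = x := by
    intro x
    obtain ⟨a, b, hab, he⟩ := Finite.exists_ne_map_eq_of_infinite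
      (fun k : ℕ => (T ^ k : SL(2, ℤ)) • x)
    wlog hlt : a < b generalizing a b
    · exact this b a hab.symm he.symm (lt_of_le_of_ne (not_lt.mp hlt) hab.symm)
    refine ⟨b - a, by omega, ?_⟩
    have e : b = a + (b - a) := by omega
    rw [e, pow_add, mul_smul] at he
    exact (smul_left_cancel _ he).symm
  refine ⟨ι, inferInstance, y, fun i => MulAction.period (T : SL(2, ℤ)) (y i), ?_⟩
  refine ⟨?_, ?_, ?_, ?_, ?_⟩
  · intro i
    obtain ⟨k, hk, hfix⟩ := hper (y i)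
    exact MulAction.period_pos_of_fixed hk hfix
  · intro i
    exact MulAction.pow_period_smul _ _
  · intro i k hk hfix
    exact MulAction.period_le_of_fixed hk hfix
  · intro x
    refine ⟨Quotient.mk'' x, ?_⟩
    have h1 : (MulAction.orbitRel Z X) (y (Quotient.mk'' x)) x := Quotient.mk_out (s := MulAction.orbitRel Z X) x
    rw [MulAction.orbitRel_apply] at h1
    obtain ⟨⟨z, hz⟩, hzx⟩ := h1
    obtain ⟨l, rfl⟩ := Subgroup.mem_zpowers_iff.mp hz
    refine ⟨-l, ?_⟩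
    have : (T ^ l : SL(2, ℤ)) • x = y (Quotient.mk'' x) := hzx
    rw [← this, ← mul_smul, ← zpow_add]
    simp
  · rintro i j ⟨l, hl⟩
    have h1 : (MulAction.orbitRel Z X) (y j) (y i) := by
      rw [MulAction.orbitRel_apply]
      exact ⟨⟨T ^ l, Subgroup.zpow_mem_zpowers T l⟩, hl.symm⟩
    have h2 : (Quotient.mk'' (y j) : ι) = Quotient.mk'' (y i) := Quotient.sound h1
    have hj : (Quotient.mk'' (y j) : ι) = j := Quotient.out_eq j
    have hi : (Quotient.mk'' (y i) : ι) = i := Quotient.out_eq i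
    rw [hj, hi] at h2
    exact h2.symm

/-! ### translation to cusp representatives of `Γ` -/

variable {Γ : Subgroup SL(2, ℤ)}

/-- `r T^k r⁻¹ ∈ Γ` iff `T^k` fixes the coset `r⁻¹ Γ`. -/
theorem conj_mem_iff (r : SL(2, ℤ)) (k : ℤ) :
    r * T ^ k * r⁻¹ ∈ Γ ↔
      (T ^ k : SL(2, ℤ)) • ((r⁻¹ : SL(2, ℤ)) : SL(2, ℤ) ⧸ Γ) = ((r⁻¹ : SL(2, ℤ)) : SL(2, ℤ) ⧸ Γ) := by
  rw [MulAction.Quotient.smul_mk, QuotientGroup.eq, smul_eq_mul]
  have e : (T ^ k * r⁻¹)⁻¹ * r⁻¹ = (r * T ^ k * r⁻¹)⁻¹ := by group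
  rw [e, Subgroup.inv_mem_iff]

/-- orbit representatives of `T` on `SL(2,ℤ) ⧸ Γ` give cusp representatives of `Γ`. -/
theorem isCuspReps_of_isOrbitReps {ι : Type v} {y : ι → SL(2, ℤ) ⧸ Γ} {h : ι → ℕ}
    (H : IsOrbitReps y h) (hneg : (-1 : SL(2, ℤ)) ∈ Γ) (r : ι → SL(2, ℤ))
    (hr : ∀ i, (((r i)⁻¹ : SL(2, ℤ)) : SL(2, ℤ) ⧸ Γ) = y i) : IsCuspReps Γ r h := by
  refine ⟨hneg, H.pos, ?_, ?_, ?_, ?_⟩
  · intro i
    rw [← zpow_natCast, conj_mem_iff, hr, zpow_natCast]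
    exact H.fix i
  · intro i k hk hmem
    rw [← zpow_natCast, conj_mem_iff, hr, zpow_natCast] at hmem
    exact H.min i k hk hmem
  · intro g
    obtain ⟨i, l, hx⟩ := H.cover ((g⁻¹ : SL(2, ℤ)) : SL(2, ℤ) ⧸ Γ)
    rw [← hr, MulAction.Quotient.smul_mk, QuotientGroup.eq, smul_eq_mul, inv_inv] at hx
    refine ⟨i, g * (T ^ l * (r i)⁻¹), hx, -l, ?_⟩
    rw [zpow_neg]
    group
  · rintro i j ⟨δ, hδ, l, hl⟩
    apply H.disj i j
    refine ⟨-l, ?_⟩
    rw [← hr, ← hr, MulAction.Quotient.smul_mk, QuotientGroup.eq, smul_eq_mul, inv_inv, hl]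
    have e : δ * r i * T ^ l * (T ^ (-l) * (r i)⁻¹) = δ := by
      rw [zpow_neg]; group
    rw [e]
    exact hδ

/-- cusp representatives exist for a finite index subgroup containing `-1`. -/
theorem exists_isCuspReps (Γ : Subgroup SL(2, ℤ)) [Γ.FiniteIndex] (hneg : (-1 : SL(2, ℤ)) ∈ Γ)
    (sec : SL(2, ℤ) ⧸ Γ → SL(2, ℤ)) (hsec : ∀ x, ((sec x : SL(2, ℤ)) : SL(2, ℤ) ⧸ Γ) = x) :
    ∃ (ι : Type) (_ : Fintype ι) (y : ι → SL(2, ℤ) ⧸ Γ) (h : ι → ℕ),
      IsOrbitReps y h ∧ IsCuspReps Γ (fun i => (sec (y i))⁻¹) h := by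
  obtain ⟨ι, hι, y, h, H⟩ := exists_isOrbitReps (SL(2, ℤ) ⧸ Γ)
  refine ⟨ι, hι, y, h, H, isCuspReps_of_isOrbitReps H hneg _ fun i => ?_⟩
  rw [inv_inv]
  exact hsec _

/-- a cusp system exists for a finite index subgroup containing `-1`. -/
theorem exists_isCuspSystem (Γ : Subgroup SL(2, ℤ)) [Γ.FiniteIndex] (hneg : (-1 : SL(2, ℤ)) ∈ Γ)
    [DecidableEq Γ] : ∃ s : Finset Γ, IsCuspSystem Γ s := by
  obtain ⟨ι, hι, y, h, -, H⟩ := exists_isCuspReps Γ hneg (fun x => Quotient.out x)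
    (fun x => Quotient.out_eq' x)
  exact ⟨_, H.isCuspSystem⟩

end Fermat.Agent.S41.PD.CuspReps
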