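/-
S41 / (W1) step F4 (helper76): the INTRINSIC cusp-sum pairing and its invariance under the
commensurator elements `diag(m,1)` (and under `SL(2,ℤ)`-conjugation).

For a subgroup `Γ ≤ SL(2,ℤ)`, additive homs `z z' : Γ → R` and a PRIMITIVE `c : Γ → R` of the cup
product (`c (γ δ) = c γ + c δ + z γ * z' δ`), the cusp sum is `∑ γ ∈ s, c γ` over a system `s` of
representatives of the `Γ`-conjugacy classes of positive primitive parabolic elements of `Γ`.

* `IsPosPar g`      : `g ≠ 1`, trace `2`, `0 ≤ g₀₁`, `g₁₀ ≤ 0`  (`g = r T^h r⁻¹` with `h > 0`);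
* `IsPrim Γ γ`      : positive parabolic and not a proper power of a positive parabolic of `Γ`;
* `IsCuspSystem Γ s`: `s` meets every `Γ`-conjugacy class of `IsPrim` elements exactly once;
* `IsPrimitive z z' c`, `cuspSum s c`;
* `isPosPar_conj`   : `IsPosPar` is invariant under `SL(2,ℤ)`-conjugation;
* `IsPrimitive.conj_eq` : a primitive is conjugation invariant at elements killed by `z`, `z'`;
* `cuspSum_eq_of_isCuspSystem` : independence of the system of representatives;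
* `PosParIso` : a group isomorphism `Γ' ≃* Γ''` respecting `IsPosPar` and `trace² = 4`; it
  transports `IsPrim`, cusp systems, primitives, parabolic homs and the cusp sum
  (`PosParIso.cuspSum_map`);
* `PosParIso.ofDiag` : conjugation by `diag(m,1)`, `m > 0` (integer matrix identity
  `diag(m,1) * γ = ι γ * diag(m,1)`), `PosParIso.ofConj` : conjugation by `g ∈ SL(2,ℤ)`;
* `CuspData` (the outputs of step F3 as a structure) and `CuspData.pair_comp` : the pairing is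
  invariant under every `PosParIso`  — this is what step F6 consumes.
-/
import Mathlib
import Fermat.Prelude.Def_ModularCurve_PeriodMap

set_option autoImplicit false

namespace Fermat.Agent.S41.PD.CuspSum

open Matrix
open scoped MatrixGroups
open ModularCurve.Period

/-! ### positive parabolic elements -/

/-- `g` is a positive parabolic element: `g = r T^h r⁻¹` with `h > 0`. -/
def IsPosPar (g : SL(2, ℤ)) : Prop :=
  g ≠ 1 ∧ g 0 0 + g 1 1 = 2 ∧ 0 ≤ g 0 1 ∧ g 1 0 ≤ 0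

/-- the quadratic form `(x,y) ↦ det((x,y), g (x,y))`. -/
def qf (g : SL(2, ℤ)) (x y : ℤ) : ℤ := g 1 0 * x ^ 2 + (g 1 1 - g 0 0) * x * y - g 0 1 * y ^ 2

theorem det_entries (g : SL(2, ℤ)) : g 0 0 * g 1 1 - g 0 1 * g 1 0 = 1 := by
  have h := g.det_coe
  rw [det_fin_two] at h
  exact h

/-- the form of a positive parabolic element is negative semidefinite. -/
theorem qf_nonpos {g : SL(2, ℤ)} (hg : IsPosPar g) (x y : ℤ) : qf g x y ≤ 0 := by
  obtain ⟨-, htr, hb, hc⟩ := hg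
  have hdet := det_entries g
  unfold qf
  set a := g 0 0
  set b := g 0 1
  set c := g 1 0
  set d := g 1 1
  have hd : d = 2 - a := by linarith
  have hbc : b * c = -(a - 1) ^ 2 := by rw [hd] at hdet; linear_combination -hdet
  rcases hc.lt_or_eq with hc' | hc'
  · -- `c < 0`: `c * Q = (c x + (1 - a) y)^2`
    have key : c * (c * x ^ 2 + (d - a) * x * y - b * y ^ 2) = (c * x + (1 - a) * y) ^ 2 := by
      rw [hd]; linear_combination (-(y ^ 2)) * hbc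
    by_contra hpos
    rw [not_le] at hpos
    have : c * (c * x ^ 2 + (d - a) * x * y - b * y ^ 2) < 0 := mul_neg_of_neg_of_pos hc' hpos
    nlinarith [sq_nonneg (c * x + (1 - a) * y)]
  · -- `c = 0`: then `a = 1`
    have ha : (a - 1) ^ 2 = 0 := by rw [hc'] at hbc; linarith
    have ha1 : a = 1 := by
      have := pow_eq_zero_iff (n := 2) (by norm_num) |>.1 ha
      linarith
    rw [hc', hd, ha1]
    nlinarith [sq_nonneg y]

theorem conj_apply_01 (δ g : SL(2, ℤ)) :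
    (δ * g * δ⁻¹) 0 1 = -qf g (δ 0 1) (-(δ 0 0)) := by
  simp [Matrix.mul_apply, Fin.sum_univ_two, Matrix.adjugate_fin_two, qf]
  ring

theorem conj_apply_10 (δ g : SL(2, ℤ)) :
    (δ * g * δ⁻¹) 1 0 = qf g (δ 1 1) (-(δ 1 0)) := by
  simp [Matrix.mul_apply, Fin.sum_univ_two, Matrix.adjugate_fin_two, qf]
  ring

theorem conj_trace (δ g : SL(2, ℤ)) :
    (δ * g * δ⁻¹) 0 0 + (δ * g * δ⁻¹) 1 1 = g 0 0 + g 1 1 := by
  have hdet := det_entries δ
  simp [Matrix.mul_apply, Fin.sum_univ_two, Matrix.adjugate_fin_two]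
  linear_combination (g 0 0 + g 1 1) * hdet

/-- `IsPosPar` is invariant under conjugation in `SL(2,ℤ)`. -/
theorem isPosPar_conj {g : SL(2, ℤ)} (hg : IsPosPar g) (δ : SL(2, ℤ)) :
    IsPosPar (δ * g * δ⁻¹) := by
  refine ⟨?_, ?_, ?_, ?_⟩
  · intro h
    apply hg.1
    have : g = δ⁻¹ * (δ * g * δ⁻¹) * δ := by group
    rw [this, h]; group
  · rw [conj_trace]; exact hg.2.1
  · rw [conj_apply_01]
    have := qf_nonpos hg (δ 0 1) (-(δ 0 0))
    linarith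
  · rw [conj_apply_10]
    exact qf_nonpos hg _ _

theorem isPosPar_conj_iff {g : SL(2, ℤ)} (δ : SL(2, ℤ)) :
    IsPosPar (δ * g * δ⁻¹) ↔ IsPosPar g := by
  refine ⟨fun h => ?_, fun h => isPosPar_conj h δ⟩
  have := isPosPar_conj h δ⁻¹
  have e : δ⁻¹ * (δ * g * δ⁻¹) * δ⁻¹⁻¹ = g := by group
  rwa [e] at this

theorem IsPosPar.trace_sq {g : SL(2, ℤ)} (hg : IsPosPar g) :
    (g : Matrix (Fin 2) (Fin 2) ℤ).trace ^ 2 = 4 := by
  rw [trace_fin_two]
  have := hg.2.1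
  have h2 : (g : Matrix (Fin 2) (Fin 2) ℤ) 0 0 + (g : Matrix (Fin 2) (Fin 2) ℤ) 1 1 = 2 := this
  rw [h2]; norm_num

/-! ### primitive positive parabolics, cusp systems -/

variable {Γ : Subgroup SL(2, ℤ)}

/-- `γ ∈ Γ` is a positive parabolic which is not a proper power of a positive parabolic of `Γ`. -/
def IsPrim (Γ : Subgroup SL(2, ℤ)) (γ : Γ) : Prop :=
  IsPosPar (γ : SL(2, ℤ)) ∧ ∀ δ : Γ, IsPosPar (δ : SL(2, ℤ)) → ∀ k : ℕ, δ ^ k = γ → k = 1

theorem isPrim_conj {γ : Γ} (hγ : IsPrim Γ γ) (δ : Γ) : IsPrim Γ (δ * γ * δ⁻¹) := by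
  refine ⟨?_, ?_⟩
  · have := isPosPar_conj hγ.1 (δ : SL(2, ℤ))
    simpa using this
  · intro ε hε k hk
    refine hγ.2 (δ⁻¹ * ε * δ) ?_ k ?_
    · have := isPosPar_conj hε ((δ⁻¹ : Γ) : SL(2, ℤ))
      simpa using this
    · have hconj : (δ⁻¹ * ε * δ) ^ k = δ⁻¹ * ε ^ k * δ := by
        have := conj_pow (a := δ⁻¹) (b := ε) (i := k)
        simpa using this
      rw [hconj, hk]; group

/-- `s` is a system of representatives of the conjugacy classes of primitive positive parabolics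
(= of the cusps of `Γ`). -/
def IsCuspSystem (Γ : Subgroup SL(2, ℤ)) (s : Finset Γ) : Prop :=
  (∀ γ ∈ s, IsPrim Γ γ) ∧
    ∀ γ : Γ, IsPrim Γ γ → ∃! γ₀ : Γ, γ₀ ∈ s ∧ ∃ δ : Γ, δ * γ₀ * δ⁻¹ = γ

variable {R : Type*} [CommRing R]

/-- `c` is a primitive of the cup product `z ∪ z'`. -/
def IsPrimitive (z z' : Additive Γ →+ R) (c : Γ → R) : Prop :=
  ∀ γ δ : Γ, c (γ * δ) = c γ + c δ + z (Additive.ofMul γ) * z' (Additive.ofMul δ)

/-- the cusp sum of `c` over the system `s`. -/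
def cuspSum (s : Finset Γ) (c : Γ → R) : R := ∑ γ ∈ s, c γ

namespace IsPrimitive

variable {z z' : Additive Γ →+ R} {c : Γ → R}

theorem map_one (h : IsPrimitive z z' c) : c 1 = 0 := by
  have := h 1 1
  rw [mul_one, ofMul_one, map_zero, map_zero, mul_zero, add_zero] at this
  have h2 : c 1 + c 1 = c 1 + 0 := by rw [add_zero]; exact this.symm
  exact add_left_cancel h2

theorem map_inv (h : IsPrimitive z z' c) (δ : Γ) :
    c δ + c δ⁻¹ = z (Additive.ofMul δ) * z' (Additive.ofMul δ) := by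
  have := h δ δ⁻¹
  rw [mul_inv_cancel, h.map_one, ofMul_inv, map_neg] at this
  linear_combination -this

/-- a primitive is conjugation invariant at the elements killed by `z` and `z'`. -/
theorem conj_eq (h : IsPrimitive z z' c) {γ : Γ} (hz : z (Additive.ofMul γ) = 0)
    (hz' : z' (Additive.ofMul γ) = 0) (δ : Γ) : c (δ * γ * δ⁻¹) = c γ := by
  have h1 := h δ (γ * δ⁻¹)
  have h2 := h γ δ⁻¹
  have h3 := h.map_inv δ
  rw [mul_assoc, h1, h2, ofMul_mul, map_add, hz, hz', ofMul_inv, map_neg]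
  linear_combination h3

end IsPrimitive

/-- **independence of the system of representatives.** -/
theorem cuspSum_eq_of_isCuspSystem {s s' : Finset Γ} (hs : IsCuspSystem Γ s)
    (hs' : IsCuspSystem Γ s') {c : Γ → R}
    (hc : ∀ γ : Γ, IsPrim Γ γ → ∀ δ : Γ, c (δ * γ * δ⁻¹) = c γ) :
    cuspSum s c = cuspSum s' c := by
  classical
  unfold cuspSum
  -- the map `s → s'`
  have hex : ∀ γ₀ ∈ s, ∃ γ₁ : Γ, γ₁ ∈ s' ∧ ∃ δ : Γ, δ * γ₁ * δ⁻¹ = γ₀ := fun γ₀ h0 =>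
    (hs'.2 γ₀ (hs.1 γ₀ h0)).exists
  choose! f hf using hex
  refine Finset.sum_bij (fun γ₀ _ => f γ₀) (fun γ₀ h0 => (hf γ₀ h0).1) ?_ ?_ ?_
  · -- injective
    intro γ₀ h0 γ₁ h1 hEq
    obtain ⟨δ₀, hδ₀⟩ := (hf γ₀ h0).2
    obtain ⟨δ₁, hδ₁⟩ := (hf γ₁ h1).2
    -- both `γ₀` and `γ₁` are in `s` and conjugate to `γ₀`
    have e1 : f γ₁ = δ₁⁻¹ * γ₁ * δ₁ :=
      calc f γ₁ = δ₁⁻¹ * (δ₁ * f γ₁ * δ₁⁻¹) * δ₁ := by group
        _ = δ₁⁻¹ * γ₁ * δ₁ := by rw [hδ₁]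
    have e2 : δ₀ * δ₁⁻¹ * γ₁ * (δ₀ * δ₁⁻¹)⁻¹ = γ₀ :=
      calc δ₀ * δ₁⁻¹ * γ₁ * (δ₀ * δ₁⁻¹)⁻¹ = δ₀ * (δ₁⁻¹ * γ₁ * δ₁) * δ₀⁻¹ := by group
        _ = δ₀ * f γ₀ * δ₀⁻¹ := by rw [← e1, hEq]
        _ = γ₀ := hδ₀
    have hu := (hs.2 γ₀ (hs.1 γ₀ h0)).unique (y₁ := γ₀) (y₂ := γ₁) ⟨h0, 1, by group⟩
      ⟨h1, δ₀ * δ₁⁻¹, e2⟩
    exact hu
  · -- surjective
    intro γ' h'
    obtain ⟨γ₀, ⟨h0, δ, hδ⟩, -⟩ := hs.2 γ' (hs'.1 γ' h')
    refine ⟨γ₀, h0, ?_⟩
    obtain ⟨ε, hε⟩ := (hf γ₀ h0).2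
    -- `f γ₀` and `γ'` are in `s'` and both conjugate to `γ₀`
    have e3 : δ⁻¹ * γ' * δ⁻¹⁻¹ = γ₀ :=
      calc δ⁻¹ * γ' * δ⁻¹⁻¹ = δ⁻¹ * (δ * γ₀ * δ⁻¹) * δ := by rw [hδ]; group
        _ = γ₀ := by group
    have hu := (hs'.2 γ₀ (hs.1 γ₀ h0)).unique (y₁ := f γ₀) (y₂ := γ') ⟨(hf γ₀ h0).1, ε, hε⟩
      ⟨h', δ⁻¹, e3⟩
    exact hu
  · intro γ₀ h0
    obtain ⟨δ, hδ⟩ := (hf γ₀ h0).2
    have h1 : IsPrim Γ (f γ₀) := hs'.1 _ (hf γ₀ h0).1
    calc c γ₀ = c (δ * f γ₀ * δ⁻¹) := by rw [hδ]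
      _ = c (f γ₀) := hc _ h1 δ

/-! ### transport along isomorphisms respecting positivity -/

/-- A group isomorphism `Γ' ≃* Γ''` (typically: conjugation by an element of `GL₂⁺(ℚ)`) which
respects positive parabolics and the condition `trace² = 4`. -/
structure PosParIso (Γ' Γ'' : Subgroup SL(2, ℤ)) where
  /-- the isomorphism -/
  iso : Γ' ≃* Γ''
  pos : ∀ γ : Γ', IsPosPar ((iso γ : Γ'') : SL(2, ℤ)) ↔ IsPosPar (γ : SL(2, ℤ))
  tr : ∀ γ : Γ', (((iso γ : Γ'') : SL(2, ℤ)) : Matrix (Fin 2) (Fin 2) ℤ).trace ^ 2 = 4 ↔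
    ((γ : SL(2, ℤ)) : Matrix (Fin 2) (Fin 2) ℤ).trace ^ 2 = 4

namespace PosParIso

variable {Γ' Γ'' : Subgroup SL(2, ℤ)} (e : PosParIso Γ' Γ'')

theorem isPrim_iff (γ : Γ') : IsPrim Γ'' (e.iso γ) ↔ IsPrim Γ' γ := by
  constructor
  · rintro ⟨h1, h2⟩
    refine ⟨(e.pos γ).1 h1, fun δ hδ k hk => ?_⟩
    exact h2 (e.iso δ) ((e.pos δ).2 hδ) k (by rw [← map_pow, hk])
  · rintro ⟨h1, h2⟩
    refine ⟨(e.pos γ).2 h1, fun δ hδ k hk => ?_⟩
    refine h2 (e.iso.symm δ) ((e.pos _).1 (by simpa using hδ)) k ?_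
    apply e.iso.injective
    rw [map_pow, MulEquiv.apply_symm_apply, hk]

/-- transport of a cusp system. -/
theorem isCuspSystem_map {s : Finset Γ'} (hs : IsCuspSystem Γ' s) :
    IsCuspSystem Γ'' (s.map e.iso.toEquiv.toEmbedding) := by
  refine ⟨?_, ?_⟩
  · intro γ hγ
    obtain ⟨γ₀, h0, rfl⟩ := Finset.mem_map.1 hγ
    exact (e.isPrim_iff γ₀).2 (hs.1 γ₀ h0)
  · intro γ hγ
    have hγ' : IsPrim Γ' (e.iso.symm γ) := (e.isPrim_iff _).1 (by simpa using hγ)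
    obtain ⟨γ₀, ⟨h0, δ, hδ⟩, huniq⟩ := hs.2 _ hγ'
    refine ⟨e.iso γ₀, ⟨Finset.mem_map.2 ⟨γ₀, h0, rfl⟩, e.iso δ, ?_⟩, ?_⟩
    · rw [← map_inv, ← map_mul, ← map_mul, hδ, MulEquiv.apply_symm_apply]
    · rintro γ₁ ⟨h1, ε, hε⟩
      obtain ⟨γ₁', h1', rfl⟩ := Finset.mem_map.1 h1
      have : γ₁' = γ₀ := huniq γ₁' ⟨h1', e.iso.symm ε, by
        apply e.iso.injective
        rw [map_mul, map_mul, map_inv, MulEquiv.apply_symm_apply, MulEquiv.apply_symm_apply]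
        exact hε⟩
      rw [this]; rfl

/-- pull-back of a hom along the isomorphism. -/
def pull (z : Additive Γ'' →+ R) : Additive Γ' →+ R :=
  z.comp (MulEquiv.toAdditive e.iso).toAddMonoidHom

@[simp] theorem pull_apply (z : Additive Γ'' →+ R) (γ : Γ') :
    e.pull z (Additive.ofMul γ) = z (Additive.ofMul (e.iso γ)) := rfl

theorem pull_isParabolicHom {z : Additive Γ'' →+ R} (hz : IsParabolicHom Γ'' z) :
    IsParabolicHom Γ' (e.pull z) := by
  intro γ hγ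
  rw [pull_apply]
  exact hz (e.iso γ) ((e.tr γ).2 hγ)

theorem isPrimitive_comp {z z' : Additive Γ'' →+ R} {c : Γ'' → R} (hc : IsPrimitive z z' c) :
    IsPrimitive (e.pull z) (e.pull z') (fun γ => c (e.iso γ)) := by
  intro γ δ
  simp only [pull_apply, map_mul]
  exact hc _ _

/-- **transport of the cusp sum.** -/
theorem cuspSum_map (s : Finset Γ') (c : Γ'' → R) :
    cuspSum (s.map e.iso.toEquiv.toEmbedding) c = cuspSum s (fun γ => c (e.iso γ)) := by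
  unfold cuspSum
  rw [Finset.sum_map]
  rfl

/-- inverse. -/
def symm : PosParIso Γ'' Γ' where
  iso := e.iso.symm
  pos γ := by
    have := e.pos (e.iso.symm γ)
    rw [MulEquiv.apply_symm_apply] at this
    exact this.symm
  tr γ := by
    have := e.tr (e.iso.symm γ)
    rw [MulEquiv.apply_symm_apply] at this
    exact this.symm

end PosParIso

/-! ### the two sources of `PosParIso` -/

/-- the integer matrix `diag(m, 1)`. -/
def diagMat (m : ℤ) : Matrix (Fin 2) (Fin 2) ℤ := !![m, 0; 0, 1]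

section ofDiag

variable {Γ' Γ'' : Subgroup SL(2, ℤ)} {m : ℤ} (hm : 0 < m) (ι : Γ' ≃* Γ'')
  (hι : ∀ γ : Γ', diagMat m * ((γ : SL(2, ℤ)) : Matrix (Fin 2) (Fin 2) ℤ) =
    (((ι γ : Γ'') : SL(2, ℤ)) : Matrix (Fin 2) (Fin 2) ℤ) * diagMat m)

include hm hι

theorem diag_entries (γ : Γ') :
    ((ι γ : Γ'') : SL(2, ℤ)) 0 0 = (γ : SL(2, ℤ)) 0 0 ∧
    ((ι γ : Γ'') : SL(2, ℤ)) 0 1 = m * (γ : SL(2, ℤ)) 0 1 ∧
    (γ : SL(2, ℤ)) 1 0 = m * ((ι γ : Γ'') : SL(2, ℤ)) 1 0 ∧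
    ((ι γ : Γ'') : SL(2, ℤ)) 1 1 = (γ : SL(2, ℤ)) 1 1 := by
  have h := hι γ
  have h00 := congrFun (congrFun h 0) 0
  have h01 := congrFun (congrFun h 0) 1
  have h10 := congrFun (congrFun h 1) 0
  have h11 := congrFun (congrFun h 1) 1
  simp [diagMat, Matrix.mul_apply, Fin.sum_univ_two] at h00 h01 h10 h11
  have hm' : m ≠ 0 := hm.ne'
  refine ⟨?_, ?_, ?_, ?_⟩
  · have : m * ((ι γ : Γ'') : SL(2, ℤ)) 0 0 = m * (γ : SL(2, ℤ)) 0 0 := by
      rw [h00]; ring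
    exact mul_left_cancel₀ hm' this
  · exact h01.symm
  · rw [h10]; ring
  · exact h11.symm

/-- conjugation by `diag(m,1)`, `m > 0`, respects positive parabolics. -/
def PosParIso.ofDiag : PosParIso Γ' Γ'' where
  iso := ι
  pos γ := by
    obtain ⟨h00, h01, h10, h11⟩ := diag_entries hm ι hι γ
    unfold IsPosPar
    rw [h00, h01, h11]
    have hne : ((ι γ : Γ'') : SL(2, ℤ)) ≠ 1 ↔ (γ : SL(2, ℤ)) ≠ 1 := by
      rw [Ne, Ne, OneMemClass.coe_eq_one, OneMemClass.coe_eq_one, map_eq_one_iff ι ι.injective]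
    rw [hne]
    constructor
    · rintro ⟨a, b, c, d⟩
      refine ⟨a, b, ?_, ?_⟩
      · exact nonneg_of_mul_nonneg_right c hm
      · rw [h10]; exact mul_nonpos_of_nonneg_of_nonpos hm.le d
    · rintro ⟨a, b, c, d⟩
      refine ⟨a, b, mul_nonneg hm.le c, ?_⟩
      rw [h10] at d
      by_contra hpos
      rw [not_le] at hpos
      have := mul_pos hm hpos
      linarith
  tr γ := by
    obtain ⟨h00, -, -, h11⟩ := diag_entries hm ι hι γ
    rw [trace_fin_two, trace_fin_two]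
    have e0 : (((ι γ : Γ'') : SL(2, ℤ)) : Matrix (Fin 2) (Fin 2) ℤ) 0 0 =
        ((γ : SL(2, ℤ)) : Matrix (Fin 2) (Fin 2) ℤ) 0 0 := h00
    have e1 : (((ι γ : Γ'') : SL(2, ℤ)) : Matrix (Fin 2) (Fin 2) ℤ) 1 1 =
        ((γ : SL(2, ℤ)) : Matrix (Fin 2) (Fin 2) ℤ) 1 1 := h11
    rw [e0, e1]

end ofDiag

section ofConj

variable {Γ' Γ'' : Subgroup SL(2, ℤ)} (g : SL(2, ℤ)) (ι : Γ' ≃* Γ'')
  (hι : ∀ γ : Γ', ((ι γ : Γ'') : SL(2, ℤ)) = g * (γ : SL(2, ℤ)) * g⁻¹)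

include hι

/-- conjugation by an element of `SL(2,ℤ)` respects positive parabolics. -/
def PosParIso.ofConj : PosParIso Γ' Γ'' where
  iso := ι
  pos γ := by rw [hι γ]; exact isPosPar_conj_iff g
  tr γ := by
    rw [hι γ, trace_fin_two, trace_fin_two]
    have := conj_trace g (γ : SL(2, ℤ))
    have e : ((g * (γ : SL(2, ℤ)) * g⁻¹ : SL(2, ℤ)) : Matrix (Fin 2) (Fin 2) ℤ) 0 0 +
        ((g * (γ : SL(2, ℤ)) * g⁻¹ : SL(2, ℤ)) : Matrix (Fin 2) (Fin 2) ℤ) 1 1 =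
        ((γ : SL(2, ℤ)) : Matrix (Fin 2) (Fin 2) ℤ) 0 0 +
        ((γ : SL(2, ℤ)) : Matrix (Fin 2) (Fin 2) ℤ) 1 1 := this
    rw [e]

end ofConj

/-! ### the glue for step F6 -/

/-- The outputs of step F3 for one subgroup `Γ`: a pairing on homs (meaningful on the parabolic
ones), existence of primitives and of a cusp system, and the cusp-sum formula. -/
structure CuspData (Γ : Subgroup SL(2, ℤ)) (R : Type*) [CommRing R] where
  /-- the pairing (the `F1` form transported by the Shapiro dictionary) -/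
  pair : (Additive Γ →+ R) → (Additive Γ →+ R) → R
  exists_primitive : ∀ z z' : Additive Γ →+ R, IsParabolicHom Γ z → IsParabolicHom Γ z' →
    ∃ c : Γ → R, IsPrimitive z z' c
  exists_system : ∃ s : Finset Γ, IsCuspSystem Γ s
  formula : ∀ z z' : Additive Γ →+ R, IsParabolicHom Γ z → IsParabolicHom Γ z' →
    ∀ c : Γ → R, IsPrimitive z z' c → ∀ s : Finset Γ, IsCuspSystem Γ s →
      cuspSum s c = - pair z z'

/-- **The pairing is invariant under every isomorphism respecting positive parabolics**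
(conjugation by `diag(m,1)`, Atkin–Lehner elements, `SL(2,ℤ)`-conjugation). -/
theorem CuspData.pair_comp {Γ' Γ'' : Subgroup SL(2, ℤ)} (D' : CuspData Γ' R)
    (D'' : CuspData Γ'' R) (e : PosParIso Γ' Γ'') (z z' : Additive Γ'' →+ R)
    (hz : IsParabolicHom Γ'' z) (hz' : IsParabolicHom Γ'' z') :
    D'.pair (e.pull z) (e.pull z') = D''.pair z z' := by
  obtain ⟨c, hc⟩ := D''.exists_primitive z z' hz hz'
  obtain ⟨s, hs⟩ := D'.exists_system
  have h1 := D'.formula (e.pull z) (e.pull z') (e.pull_isParabolicHom hz)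
    (e.pull_isParabolicHom hz') _ (e.isPrimitive_comp hc) s hs
  have h2 := D''.formula z z' hz hz' c hc _ (e.isCuspSystem_map hs)
  rw [e.cuspSum_map] at h2
  have : - D'.pair (e.pull z) (e.pull z') = - D''.pair z z' := by rw [← h1, ← h2]
  exact neg_injective this

end Fermat.Agent.S41.PD.CuspSum
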