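/-
S41 / (W1) step F2 (helper68): the Shapiro dictionary.

`Γ ≤ SL(2,ℤ)` a subgroup containing `-1`, `X := SL(2,ℤ) ⧸ Γ`, `R` a commutative ring in which `2`
and `3` are invertible, `V := X → R` with `(g • f) x = f (g⁻¹ • x)`, `s :=` the action of `S`,
`t :=` the action of `S * T`: this is a `Setting` in the sense of `AbstractDuality` (F1), with
`s ∘ t =` the action of `T`.

* `Zc w` : the cocycle `SL(2,ℤ) → V` with `Zc w S = 0`, `Zc w (S * T) = t w - w`
  (existence: `PSL(2,ℤ) = C₂ * C₃`, `PSL2Free.exists_hom`).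
* `shap : V →ₗ[R] (Additive Γ →+ R)`, `shap w γ = Zc w γ x₀`, `x₀` the base coset.
* `shap_surjective`, `shap_eq_zero_iff : shap w = 0 ↔ w ∈ U = V^s + V^t`
  (so `Hom(Γ, R) = H¹(Γ, R) = V / U`).
* `shap_mem_parabolicHoms_iff : shap w ∈ parabolicHoms R Γ R ↔ w - s w ∈ BT` (`Γ` of finite index),
  i.e. the parabolic homomorphisms are exactly `ker r` of F1, `r [w] = [w - s w] ∈ V / (T - 1) V`.
-/
import Mathlib
import Fermat.Prelude.Def_ModularCurve_PeriodMap
import Fermat.Agent.S16.PSL2Free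
import Fermat.Agent.S16.ParabolicConj
import Fermat.Agent.S16.ParabolicLift
import Fermat.Agent.S41.PD.AbstractDuality

set_option autoImplicit false

open scoped MatrixGroups
open ModularGroup MulAction

namespace Fermat.Agent.S41.PD.Shapiro

open Fermat.Agent.S16.ParabolicLift Fermat.Agent.S21.CocycleBound
open Fermat.Agent.S41.PD.AbstractDuality

/-! ### The action on functions and affine permutations -/

section General

variable {G X R : Type*} [Group G] [MulAction G X] [CommRing R]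

/-- the action of `g` on functions: `(g • f) x = f (g⁻¹ • x)`. -/
def act (g : G) : (X → R) →ₗ[R] (X → R) := LinearMap.funLeft R R (fun x => g⁻¹ • x)

@[simp] theorem act_apply (g : G) (f : X → R) (x : X) : act g f x = f (g⁻¹ • x) := rfl

theorem act_one (f : X → R) : act (1 : G) f = f := by
  funext x; simp

theorem act_mul (g h : G) (f : X → R) : act (g * h) f = act g (act h f) := by
  funext x; simp [mul_smul]

theorem act_inv_act (g : G) (f : X → R) : act g⁻¹ (act g f) = f := by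
  rw [← act_mul, inv_mul_cancel, act_one]

theorem act_act_inv (g : G) (f : X → R) : act g (act g⁻¹ f) = f := by
  rw [← act_mul, mul_inv_cancel, act_one]

/-- the affine permutation `f ↦ g • f + b`. -/
def aff (g : G) (b : X → R) : Equiv.Perm (X → R) where
  toFun f := act g f + b
  invFun f := act g⁻¹ (f - b)
  left_inv f := by
    simp only [add_sub_cancel_right]
    exact act_inv_act g f
  right_inv f := by
    simp only [act_act_inv, sub_add_cancel]

@[simp] theorem aff_apply (g : G) (b f : X → R) : aff g b f = act g f + b := rfl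

theorem aff_mul (g h : G) (b b' : X → R) : aff g b * aff h b' = aff (g * h) (b + act g b') := by
  ext f x
  simp only [Equiv.Perm.mul_apply, aff_apply, act_mul, map_add]
  simp only [Pi.add_apply]
  ring

theorem aff_one_zero : aff (1 : G) (0 : X → R) = 1 := by
  ext f x
  simp

/-- a cocycle in the sense of `ParabolicLift.IsCocA`, reformulated with `act`. -/
theorem isCocA_iff (z : G → X → R) :
    IsCocA z ↔ ∀ g h, z (g * h) = z g + act g (z h) := by
  constructor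
  · intro hz g h
    funext x
    exact hz g h x
  · intro hz g h x
    rw [hz g h]; rfl

theorem cobdry_eq_act (f : X → R) (g : G) : cobdry f g = act g f - f := rfl

end General

/-! ### Cocycles of `SL(2,ℤ)` with prescribed values at `S` and `S * T` -/

section SL2

variable {X R : Type*} [MulAction SL(2, ℤ) X] [CommRing R]

theorem closure_S_ST : Subgroup.closure ({S, S * T} : Set SL(2, ℤ)) = ⊤ := by
  rw [eq_top_iff, ← SpecialLinearGroup.SL2Z_generators, Subgroup.closure_le]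
  rintro g (rfl | rfl)
  · exact Subgroup.subset_closure (by simp)
  · have h : (T : SL(2, ℤ)) = S⁻¹ * (S * T) := by group
    rw [h]
    exact Subgroup.mul_mem _ (Subgroup.inv_mem _ (Subgroup.subset_closure (by simp)))
      (Subgroup.subset_closure (by simp))

theorem act_neg_one (hneg : ∀ x : X, (-1 : SL(2, ℤ)) • x = x) (f : X → R) :
    act (-1 : SL(2, ℤ)) f = f := by
  funext x
  have h : (-1 : SL(2, ℤ))⁻¹ = -1 := by
    rw [inv_eq_iff_eq_inv, ← mul_eq_one_iff_eq_inv]; simp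
  rw [act_apply, h, hneg]

theorem act_S_S (hneg : ∀ x : X, (-1 : SL(2, ℤ)) • x = x) (f : X → R) :
    act (S : SL(2, ℤ)) (act S f) = f := by
  rw [← act_mul, ← pow_two, Fermat.Agent.S16.PSL2Free.S_sq, act_neg_one hneg]

theorem act_ST_ST_ST (hneg : ∀ x : X, (-1 : SL(2, ℤ)) • x = x) (f : X → R) :
    act (S * T : SL(2, ℤ)) (act (S * T) (act (S * T) f)) = f := by
  have h : (S * T : SL(2, ℤ)) * (S * T) * (S * T) = -1 := by
    rw [← Fermat.Agent.S16.PSL2Free.ST_cube, pow_three, mul_assoc]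
  rw [← act_mul, ← act_mul, h, act_neg_one hneg]

theorem act_S_ST (hneg : ∀ x : X, (-1 : SL(2, ℤ)) • x = x) (f : X → R) :
    act (S : SL(2, ℤ)) (act (S * T) f) = act (T : SL(2, ℤ)) f := by
  rw [← act_mul, ← mul_assoc, ← pow_two, Fermat.Agent.S16.PSL2Free.S_sq]
  have h : (-1 : SL(2, ℤ)) * T = T * (-1) := by simp
  rw [h, act_mul, act_neg_one hneg]

/-- **Cocycles of `SL(2,ℤ)` with prescribed values at the generators** (this is
`PSL(2,ℤ) = C₂ * C₃`). -/
theorem exists_coc (hneg : ∀ x : X, (-1 : SL(2, ℤ)) • x = x) (a c : X → R)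
    (ha : a + act (S : SL(2, ℤ)) a = 0)
    (hc : c + act (S * T : SL(2, ℤ)) c + act (S * T : SL(2, ℤ)) (act (S * T) c) = 0) :
    ∃ z : SL(2, ℤ) → X → R, IsCocA z ∧ z S = a ∧ z (S * T) = c := by
  have haff_neg : aff (-1 : SL(2, ℤ)) (0 : X → R) = 1 := by
    ext f x
    rw [aff_apply, act_neg_one hneg]
    simp
  have h2 : aff (S : SL(2, ℤ)) a ^ 2 = 1 := by
    rw [pow_two, aff_mul, ← pow_two, Fermat.Agent.S16.PSL2Free.S_sq, ha, haff_neg]
  have h3 : aff (S * T : SL(2, ℤ)) c ^ 3 = 1 := by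
    rw [pow_three, aff_mul, aff_mul, ← pow_three, Fermat.Agent.S16.PSL2Free.ST_cube]
    have : c + act (S * T : SL(2, ℤ)) (c + act (S * T) c) = 0 := by
      rw [map_add, ← add_assoc]; exact hc
    rw [this, haff_neg]
  obtain ⟨Ψ, hΨS, hΨST⟩ := Fermat.Agent.S16.PSL2Free.exists_hom _ _ h2 h3
  -- every `Ψ g` is affine with linear part `act g`
  let H : Subgroup SL(2, ℤ) :=
    { carrier := {g | ∃ b, Ψ g = aff g b}
      one_mem' := ⟨0, by rw [map_one, aff_one_zero]⟩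
      mul_mem' := by
        rintro g h ⟨b, hb⟩ ⟨b', hb'⟩
        exact ⟨_, by rw [map_mul, hb, hb', aff_mul]⟩
      inv_mem' := by
        rintro g ⟨b, hb⟩
        refine ⟨-act g⁻¹ b, ?_⟩
        rw [map_inv, hb, inv_eq_iff_mul_eq_one, aff_mul, mul_inv_cancel, map_neg, act_act_inv,
          add_neg_cancel, aff_one_zero] }
  have hH : ∀ g, g ∈ H := by
    have hle : Subgroup.closure ({S, S * T} : Set SL(2, ℤ)) ≤ H := by
      rw [Subgroup.closure_le]
      rintro g (rfl | rfl)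
      · exact ⟨a, hΨS⟩
      · exact ⟨c, hΨST⟩
    rw [closure_S_ST] at hle
    exact fun g => hle (Subgroup.mem_top g)
  have hΨ : ∀ g f, Ψ g f = act g f + Ψ g 0 := by
    intro g f
    obtain ⟨b, hb⟩ := hH g
    rw [hb, aff_apply, aff_apply, map_zero, zero_add]
  refine ⟨fun g => Ψ g 0, ?_, ?_, ?_⟩
  · rw [isCocA_iff]
    intro g h
    show Ψ (g * h) 0 = Ψ g 0 + act g (Ψ h 0)
    rw [map_mul, Equiv.Perm.mul_apply, hΨ g (Ψ h 0), add_comm]
  · show Ψ S 0 = a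
    rw [hΨS, aff_apply, map_zero, zero_add]
  · show Ψ (S * T) 0 = c
    rw [hΨST, aff_apply, map_zero, zero_add]

/-- uniqueness of a cocycle with given values at `S` and `S * T`. -/
theorem coc_ext {z z' : SL(2, ℤ) → X → R} (hz : IsCocA z) (hz' : IsCocA z')
    (hS : z S = z' S) (hST : z (S * T) = z' (S * T)) : z = z' := by
  funext g x
  refine hz.eq_of_closure hz' _ closure_S_ST ?_ g x
  rintro g (rfl | rfl) x
  · rw [hS]
  · rw [hST]

/-- a cocycle vanishing at `S` vanishes at `-1`. -/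
theorem coc_neg_one {z : SL(2, ℤ) → X → R} (hz : IsCocA z) (hS : z S = 0) : z (-1) = 0 := by
  rw [← Fermat.Agent.S16.PSL2Free.S_sq, pow_two, (isCocA_iff z).1 hz, hS, map_zero, add_zero]

/-- a cocycle vanishing at `-1` is even. -/
theorem coc_neg {z : SL(2, ℤ) → X → R} (hneg : ∀ x : X, (-1 : SL(2, ℤ)) • x = x) (hz : IsCocA z)
    (h1 : z (-1) = 0) (g : SL(2, ℤ)) : z (-g) = z g := by
  have h : -g = (-1) * g := by simp
  rw [h, (isCocA_iff z).1 hz, h1, zero_add, act_neg_one hneg]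

/-- the value of a cocycle at `T` in terms of the values at `S` and `S * T`. -/
theorem coc_T {z : SL(2, ℤ) → X → R} (hz : IsCocA z) (hS : z S = 0) :
    z T = act (S : SL(2, ℤ))⁻¹ (z (S * T)) := by
  have h : (T : SL(2, ℤ)) = S⁻¹ * (S * T) := by group
  have h0 : z (S : SL(2, ℤ))⁻¹ = 0 := by
    funext x
    rw [hz.inv, hS]; simp
  conv_lhs => rw [h]
  rw [(isCocA_iff z).1 hz, h0, zero_add]

/-- conjugation formula for cocycles at a fixed point. -/
theorem coc_conj {G Y : Type*} [Group G] [MulAction G Y] {z : G → Y → R} (hz : IsCocA z)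
    (g h : G) (x : Y) (hfix : (g * h * g⁻¹)⁻¹ • x = x) : z (g * h * g⁻¹) x = z h (g⁻¹ • x) := by
  have h1 : g • h⁻¹ • g⁻¹ • x = x := by
    have h2 := hfix
    simp only [mul_inv_rev, inv_inv, mul_smul] at h2
    exact h2
  rw [hz, hz, hz.inv g, mul_inv_rev, mul_smul, h1]
  abel

end SL2

/-! ### The normal form cocycle `Zc w` and the `Setting` -/

section Zc

variable {X R : Type*} [MulAction SL(2, ℤ) X] [CommRing R]

theorem Zc_aux (hneg : ∀ x : X, (-1 : SL(2, ℤ)) • x = x) (w : X → R) :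
    (act (S * T : SL(2, ℤ)) w - w) + act (S * T : SL(2, ℤ)) (act (S * T : SL(2, ℤ)) w - w)
      + act (S * T : SL(2, ℤ)) (act (S * T) (act (S * T : SL(2, ℤ)) w - w)) = 0 := by
  simp only [map_sub, act_ST_ST_ST hneg]
  abel

/-- the cocycle with `Zc w S = 0`, `Zc w (S * T) = (S * T) • w - w`. -/
noncomputable def Zc (hneg : ∀ x : X, (-1 : SL(2, ℤ)) • x = x) (w : X → R) :
    SL(2, ℤ) → X → R :=
  Classical.choose (exists_coc hneg 0 (act (S * T : SL(2, ℤ)) w - w) (by simp) (Zc_aux hneg w))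

variable (hneg : ∀ x : X, (-1 : SL(2, ℤ)) • x = x) (w : X → R)

theorem Zc_isCocA : IsCocA (Zc hneg w) :=
  (Classical.choose_spec
    (exists_coc hneg 0 (act (S * T : SL(2, ℤ)) w - w) (by simp) (Zc_aux hneg w))).1

theorem Zc_S : Zc hneg w S = 0 :=
  (Classical.choose_spec
    (exists_coc hneg 0 (act (S * T : SL(2, ℤ)) w - w) (by simp) (Zc_aux hneg w))).2.1

theorem Zc_ST : Zc hneg w (S * T) = act (S * T : SL(2, ℤ)) w - w :=
  (Classical.choose_spec
    (exists_coc hneg 0 (act (S * T : SL(2, ℤ)) w - w) (by simp) (Zc_aux hneg w))).2.2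

theorem Zc_unique {z : SL(2, ℤ) → X → R} (hz : IsCocA z) (hS : z S = 0)
    (hST : z (S * T) = act (S * T : SL(2, ℤ)) w - w) : z = Zc hneg w :=
  coc_ext hz (Zc_isCocA hneg w) (by rw [hS, Zc_S]) (by rw [hST, Zc_ST])

theorem Zc_add (w w' : X → R) : Zc hneg (w + w') = fun g x => Zc hneg w g x + Zc hneg w' g x := by
  symm
  refine Zc_unique hneg (w + w') ((Zc_isCocA hneg w).add (Zc_isCocA hneg w')) ?_ ?_
  · funext x
    show Zc hneg w S x + Zc hneg w' S x = 0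
    rw [Zc_S, Zc_S]; simp
  · funext x
    show Zc hneg w (S * T) x + Zc hneg w' (S * T) x = _
    rw [Zc_ST, Zc_ST]
    simp only [map_add, Pi.sub_apply, Pi.add_apply]
    ring

theorem Zc_smul (c : R) (w : X → R) : Zc hneg (c • w) = fun g x => c * Zc hneg w g x := by
  symm
  refine Zc_unique hneg (c • w)
    ((Zc_isCocA hneg w).map (AddMonoidHom.mulLeft c)) ?_ ?_
  · funext x
    show c * Zc hneg w S x = 0
    rw [Zc_S]; simp
  · funext x
    show c * Zc hneg w (S * T) x = _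
    rw [Zc_ST]
    simp only [map_smul, Pi.sub_apply, Pi.smul_apply, smul_eq_mul]
    ring

theorem Zc_neg_one : Zc hneg w (-1) = 0 := coc_neg_one (Zc_isCocA hneg w) (Zc_S hneg w)

theorem Zc_neg (g : SL(2, ℤ)) : Zc hneg w (-g) = Zc hneg w g :=
  coc_neg hneg (Zc_isCocA hneg w) (Zc_neg_one hneg w) g

/-- `Zc w T = T • w - S • w`. -/
theorem Zc_T : Zc hneg w T = act (T : SL(2, ℤ)) w - act (S : SL(2, ℤ)) w := by
  rw [coc_T (Zc_isCocA hneg w) (Zc_S hneg w), Zc_ST, map_sub, ← act_mul, inv_mul_cancel_left]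
  congr 1
  -- `S⁻¹ = -S`
  have h : (S : SL(2, ℤ))⁻¹ = S * (-1) := by
    rw [inv_eq_iff_mul_eq_one, ← mul_assoc, ← pow_two, Fermat.Agent.S16.PSL2Free.S_sq]; simp
  rw [h, act_mul, act_neg_one hneg]

/-- for `w = a + b` with `a ∈ V^s`, `b ∈ V^t`, the cocycle `Zc w` is the coboundary of `a`. -/
theorem Zc_of_add (a b : X → R) (ha : act (S : SL(2, ℤ)) a = a)
    (hb : act (S * T : SL(2, ℤ)) b = b) : Zc hneg (a + b) = cobdry a := by
  symm
  refine Zc_unique hneg (a + b) (isCocA_cobdry a) ?_ ?_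
  · rw [cobdry_eq_act, ha, sub_self]
  · rw [cobdry_eq_act, map_add, hb]; abel

/-- the `C₂ * C₃`-module `X → R`. -/
def setting (i2 i3 : R) (h2 : 2 * i2 = 1) (h3 : 3 * i3 = 1) : Setting R (X → R) where
  s := act (S : SL(2, ℤ))
  t := act (S * T : SL(2, ℤ))
  hs := act_S_S hneg
  ht := act_ST_ST_ST hneg
  i2 := i2
  i3 := i3
  h2 := h2
  h3 := h3

@[simp] theorem setting_s (i2 i3 : R) (h2 : 2 * i2 = 1) (h3 : 3 * i3 = 1) :
    (setting hneg i2 i3 h2 h3).s = act (S : SL(2, ℤ)) := rfl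

@[simp] theorem setting_t (i2 i3 : R) (h2 : 2 * i2 = 1) (h3 : 3 * i3 = 1) :
    (setting hneg i2 i3 h2 h3).t = act (S * T : SL(2, ℤ)) := rfl

theorem setting_s_t (i2 i3 : R) (h2 : 2 * i2 = 1) (h3 : 3 * i3 = 1) (f : X → R) :
    (setting hneg i2 i3 h2 h3).s ((setting hneg i2 i3 h2 h3).t f) = act (T : SL(2, ℤ)) f :=
  act_S_ST hneg f

end Zc

/-! ### Restriction of a cocycle to `Γ` at the base coset, and comparison with `cocA` -/

section Res

variable {G : Type*} [Group G] (Γ : Subgroup G) {R : Type*} [CommRing R]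

theorem mem_smul_base (γ : Γ) : (γ : G) • ((1 : G) : G ⧸ Γ) = ((1 : G) : G ⧸ Γ) := by
  rw [MulAction.Quotient.smul_coe, smul_eq_mul, mul_one, QuotientGroup.eq, mul_one]
  exact Γ.inv_mem γ.2

theorem mem_inv_smul_base (γ : Γ) : (γ : G)⁻¹ • ((1 : G) : G ⧸ Γ) = ((1 : G) : G ⧸ Γ) := by
  rw [inv_smul_eq_iff, mem_smul_base]

theorem mem_of_smul_base {g : G} (h : g • ((1 : G) : G ⧸ Γ) = ((1 : G) : G ⧸ Γ)) : g ∈ Γ := by
  rw [MulAction.Quotient.smul_coe, smul_eq_mul, mul_one, QuotientGroup.eq, mul_one] at h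
  simpa using Γ.inv_mem h

theorem sec_smul_base (x : G ⧸ Γ) : sec Γ x • ((1 : G) : G ⧸ Γ) = x := by
  rw [MulAction.Quotient.smul_coe, smul_eq_mul, mul_one, mk_sec]

/-- the homomorphism `γ ↦ z γ x₀` attached to a cocycle. -/
def resHom (z : G → G ⧸ Γ → R) (hz : IsCocA z) : Additive Γ →+ R where
  toFun γ := z ((Additive.toMul γ : Γ) : G) ((1 : G) : G ⧸ Γ)
  map_zero' := hz.one _
  map_add' γ δ := by
    show z (((Additive.toMul γ * Additive.toMul δ : Γ)) : G) _ = _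
    rw [Subgroup.coe_mul, hz, mem_inv_smul_base]

@[simp] theorem resHom_apply (z : G → G ⧸ Γ → R) (hz : IsCocA z) (γ : Γ) :
    resHom Γ z hz (Additive.ofMul γ) = z (γ : G) ((1 : G) : G ⧸ Γ) := rfl

/-- a cocycle differs from the Shapiro cocycle of its restriction by the coboundary of
`y ↦ z (sec y) y`. -/
theorem cocA_resHom (z : G → G ⧸ Γ → R) (hz : IsCocA z) (g : G) (x : G ⧸ Γ) :
    cocA Γ (resHom Γ z hz) g x = z g x + cobdry (fun y => z (sec Γ y) y) g x := by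
  show z ((sec Γ x)⁻¹ * g * sec Γ (g⁻¹ • x)) ((1 : G) : G ⧸ Γ) = _
  rw [hz, hz, hz.inv, inv_inv, sec_smul_base, mul_inv_rev, inv_inv, mul_smul, sec_smul_base,
    cobdry_apply]
  ring

/-- the Shapiro cocycle of `φ` restricts to `φ`. -/
theorem cocA_base (φ : Additive Γ →+ R) (γ : Γ) :
    cocA Γ φ (γ : G) ((1 : G) : G ⧸ Γ) = φ (Additive.ofMul γ) := by
  set σ : Γ := ⟨sec Γ ((1 : G) : G ⧸ Γ), sec_one_mem Γ⟩ with hσ
  have h : (sec Γ ((1 : G) : G ⧸ Γ))⁻¹ * (γ : G) * sec Γ ((γ : G)⁻¹ • ((1 : G) : G ⧸ Γ))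
      = ((σ⁻¹ * γ * σ : Γ) : G) := by
    rw [mem_inv_smul_base]; rfl
  rw [cocA_eq Γ φ _ _ _ h, ofMul_mul, ofMul_mul, map_add, map_add, ofMul_inv, map_neg]
  abel

end Res

/-! ### The Shapiro map `V → Hom(Γ, R)` -/

section Shap

variable (Γ : Subgroup SL(2, ℤ)) (hΓ : (-1 : SL(2, ℤ)) ∈ Γ) {R : Type*} [CommRing R]

theorem neg_one_smul_coset (hΓ : (-1 : SL(2, ℤ)) ∈ Γ) (x : SL(2, ℤ) ⧸ Γ) :
    (-1 : SL(2, ℤ)) • x = x := by
  induction x using QuotientGroup.induction_on with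
  | H g =>
    rw [MulAction.Quotient.smul_coe, QuotientGroup.eq]
    have h : ((-1 : SL(2, ℤ)) • g)⁻¹ * g = -1 := by
      rw [smul_eq_mul, inv_mul_eq_iff_eq_mul]; simp
    rw [h]; exact hΓ

/-- **The Shapiro map**: `w ↦ (γ ↦ Zc w γ x₀)`. -/
noncomputable def shap : (SL(2, ℤ) ⧸ Γ → R) →ₗ[R] (Additive Γ →+ R) where
  toFun w := resHom Γ (Zc (neg_one_smul_coset Γ hΓ) w) (Zc_isCocA _ w)
  map_add' w w' := by
    apply AddMonoidHom.ext
    intro γ
    show Zc (neg_one_smul_coset Γ hΓ) (w + w') _ _ = Zc (neg_one_smul_coset Γ hΓ) w _ _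
      + Zc (neg_one_smul_coset Γ hΓ) w' _ _
    rw [Zc_add]
  map_smul' c w := by
    apply AddMonoidHom.ext
    intro γ
    show Zc (neg_one_smul_coset Γ hΓ) (c • w) _ _ = c • Zc (neg_one_smul_coset Γ hΓ) w _ _
    rw [Zc_smul, smul_eq_mul]

theorem shap_apply (w : SL(2, ℤ) ⧸ Γ → R) (γ : Γ) :
    shap Γ hΓ w (Additive.ofMul γ)
      = Zc (neg_one_smul_coset Γ hΓ) w (γ : SL(2, ℤ)) ((1 : SL(2, ℤ)) : SL(2, ℤ) ⧸ Γ) := rfl

theorem shap_eq_resHom (w : SL(2, ℤ) ⧸ Γ → R) :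
    shap Γ hΓ w = resHom Γ (Zc (neg_one_smul_coset Γ hΓ) w) (Zc_isCocA _ w) := rfl

/-- the kernel of the Shapiro map contains `V^s + V^t`. -/
theorem shap_of_add (a b : SL(2, ℤ) ⧸ Γ → R) (ha : act (S : SL(2, ℤ)) a = a)
    (hb : act (S * T : SL(2, ℤ)) b = b) : shap Γ hΓ (a + b) = 0 := by
  apply AddMonoidHom.ext
  intro γ'
  obtain ⟨γ, rfl⟩ : ∃ γ : Γ, Additive.ofMul γ = γ' := ⟨Additive.toMul γ', rfl⟩
  rw [shap_apply, Zc_of_add _ a b ha hb, cobdry_apply, mem_inv_smul_base, sub_self]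
  rfl

/-- the kernel of the Shapiro map is contained in `V^s + V^t`. -/
theorem exists_of_shap_eq_zero (w : SL(2, ℤ) ⧸ Γ → R) (h : shap Γ hΓ w = 0) :
    ∃ a b : SL(2, ℤ) ⧸ Γ → R, act (S : SL(2, ℤ)) a = a ∧ act (S * T : SL(2, ℤ)) b = b ∧
      a + b = w := by
  set hneg := neg_one_smul_coset Γ hΓ
  set v : SL(2, ℤ) ⧸ Γ → R := fun y => Zc hneg w (sec Γ y) y with hv
  -- `Zc w = cobdry (-v)`
  have hZ : ∀ g, Zc hneg w g = act g (-v) - (-v) := by
    intro g
    funext x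
    have h1 := cocA_resHom Γ (Zc hneg w) (Zc_isCocA hneg w) g x
    rw [← shap_eq_resHom Γ hΓ w, h] at h1
    have h2 : cocA Γ (0 : Additive Γ →+ R) g x = 0 := rfl
    rw [h2, cobdry_apply] at h1
    simp only [map_neg, Pi.sub_apply, Pi.neg_apply, act_apply]
    linear_combination -h1
  refine ⟨-v, w + v, ?_, ?_, by abel⟩
  · have := hZ S
    rw [Zc_S] at this
    exact (sub_eq_zero.mp this.symm)
  · have := hZ (S * T)
    rw [Zc_ST] at this
    rw [map_add]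
    have e : act (S * T : SL(2, ℤ)) v = w - act (S * T : SL(2, ℤ)) w + v := by
      rw [map_neg] at this
      linear_combination (norm := abel) this
    rw [e]; abel

/-- **Surjectivity of the Shapiro map** (`2` and `3` invertible). -/
theorem shap_surjective (i2 i3 : R) (h2 : 2 * i2 = 1) (h3 : 3 * i3 = 1) :
    Function.Surjective (shap (R := R) Γ hΓ) := by
  intro φ
  set hneg := neg_one_smul_coset Γ hΓ
  set s : (SL(2, ℤ) ⧸ Γ → R) →ₗ[R] (SL(2, ℤ) ⧸ Γ → R) := act (S : SL(2, ℤ)) with hs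
  set t : (SL(2, ℤ) ⧸ Γ → R) →ₗ[R] (SL(2, ℤ) ⧸ Γ → R) := act (S * T : SL(2, ℤ)) with ht
  have hzφ := cocA_isCocA Γ φ
  -- `φ (-1) = 0`
  have hφ1 : φ (Additive.ofMul ⟨-1, hΓ⟩) = 0 := by
    have e : (2 : R) * φ (Additive.ofMul ⟨-1, hΓ⟩) = 0 := by
      rw [two_mul, ← map_add, ← ofMul_mul]
      have : (⟨-1, hΓ⟩ : Γ) * ⟨-1, hΓ⟩ = 1 := by
        apply Subtype.ext; simp
      rw [this, ofMul_one, map_zero]
    calc φ (Additive.ofMul ⟨-1, hΓ⟩) = (2 * i2) * φ (Additive.ofMul ⟨-1, hΓ⟩) := by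
          rw [h2, one_mul]
      _ = i2 * (2 * φ (Additive.ofMul ⟨-1, hΓ⟩)) := by ring
      _ = 0 := by rw [e, mul_zero]
  -- the Shapiro cocycle vanishes at `-1`
  have hz1 : cocA Γ φ (-1 : SL(2, ℤ)) = 0 := by
    funext x
    have hinv : (-1 : SL(2, ℤ))⁻¹ = -1 := by
      rw [inv_eq_iff_eq_inv, ← mul_eq_one_iff_eq_inv]; simp
    have e : (sec Γ x)⁻¹ * (-1 : SL(2, ℤ)) * sec Γ ((-1 : SL(2, ℤ))⁻¹ • x)
        = ((⟨-1, hΓ⟩ : Γ) : SL(2, ℤ)) := by
      rw [hinv, hneg x]; simp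
    rw [cocA_eq Γ φ _ _ _ e, hφ1]; rfl
  -- first normalisation: `z₁ S = 0`
  set u : SL(2, ℤ) ⧸ Γ → R := i2 • cocA Γ φ S with hu
  have hsz : cocA Γ φ S + s (cocA Γ φ S) = 0 := by
    have := (isCocA_iff _).1 hzφ S S
    rw [← pow_two, Fermat.Agent.S16.PSL2Free.S_sq, hz1] at this
    exact this.symm
  set z₁ : SL(2, ℤ) → SL(2, ℤ) ⧸ Γ → R := zcA Γ φ u with hz₁
  have hz₁c : IsCocA z₁ := zcA_isCocA Γ φ u
  have hz₁S : z₁ S = 0 := by
    have e : z₁ S = cocA Γ φ S + (s u - u) := rfl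
    rw [e, hu, map_smul]
    have e2 : s (cocA Γ φ S) = - cocA Γ φ S := by
      linear_combination (norm := abel) hsz
    rw [e2]
    linear_combination (norm := module) (-h2) • cocA Γ φ S
  -- second normalisation
  set c : SL(2, ℤ) ⧸ Γ → R := z₁ (S * T) with hc
  have hz₁1 : z₁ (-1) = 0 := coc_neg_one hz₁c hz₁S
  have hNc : c + t c + t (t c) = 0 := by
    have e1 := (isCocA_iff _).1 hz₁c (S * T) ((S * T) * (S * T))
    have e2 := (isCocA_iff _).1 hz₁c (S * T) (S * T)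
    rw [e2] at e1
    have e3 : (S * T : SL(2, ℤ)) * ((S * T) * (S * T)) = -1 := by
      rw [← Fermat.Agent.S16.PSL2Free.ST_cube, pow_three]
    rw [e3, hz₁1, map_add] at e1
    rw [← add_assoc] at e1
    exact e1.symm
  set w : SL(2, ℤ) ⧸ Γ → R := (-i3) • (2 • c + t c) with hw
  have hw' : t w - w = c := by
    rw [hw]
    simp only [map_smul, map_add, map_nsmul]
    linear_combination (norm := module) (-i3) • hNc + h3 • c
  refine ⟨w, ?_⟩
  have hZ : z₁ = Zc hneg w := Zc_unique hneg w hz₁c hz₁S hw'.symm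
  apply AddMonoidHom.ext
  intro γ'
  obtain ⟨γ, rfl⟩ : ∃ γ : Γ, Additive.ofMul γ = γ' := ⟨Additive.toMul γ', rfl⟩
  rw [shap_apply, ← hZ]
  show cocA Γ φ (γ : SL(2, ℤ)) _ + cobdry u (γ : SL(2, ℤ)) _ = _
  rw [cocA_base, cobdry_apply, mem_inv_smul_base, sub_self, add_zero]

/-- **`Hom(Γ, R) = V / (V^s + V^t)`**: the kernel of the Shapiro map, in terms of the `Setting`. -/
theorem shap_eq_zero_iff (i2 i3 : R) (h2 : 2 * i2 = 1) (h3 : 3 * i3 = 1)
    (w : SL(2, ℤ) ⧸ Γ → R) :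
    shap Γ hΓ w = 0 ↔ w ∈ (setting (neg_one_smul_coset Γ hΓ) i2 i3 h2 h3).U := by
  rw [Setting.mem_U]
  constructor
  · intro h
    exact exists_of_shap_eq_zero Γ hΓ w h
  · rintro ⟨a, b, ha, hb, rfl⟩
    exact shap_of_add Γ hΓ a b ha hb

theorem ker_shap (i2 i3 : R) (h2 : 2 * i2 = 1) (h3 : 3 * i3 = 1) :
    LinearMap.ker (shap (R := R) Γ hΓ) = (setting (neg_one_smul_coset Γ hΓ) i2 i3 h2 h3).U := by
  ext w
  rw [LinearMap.mem_ker, shap_eq_zero_iff]

end Shap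

/-! ### Parabolic homomorphisms -/

section Parabolic

open ModularCurve.Period

variable (Γ : Subgroup SL(2, ℤ)) (hΓ : (-1 : SL(2, ℤ)) ∈ Γ) {R : Type*} [CommRing R]

/-- if `w - S • w = T • v - v`, then `Zc w` is the coboundary of `w + v` on the powers of `T`. -/
theorem Zc_T_zpow {X : Type*} [MulAction SL(2, ℤ) X] (hneg : ∀ x : X, (-1 : SL(2, ℤ)) • x = x)
    (w v : X → R) (hv : w - act (S : SL(2, ℤ)) w = act (T : SL(2, ℤ)) v - v) (k : ℤ) (y : X) :
    Zc hneg w (T ^ k) y = (w + v) ((T ^ k : SL(2, ℤ))⁻¹ • y) - (w + v) y := by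
  have hz : IsCocA (fun g x => Zc hneg w g x - cobdry (w + v) g x) :=
    (Zc_isCocA hneg w).sub (isCocA_cobdry (w + v))
  have hT : (T : SL(2, ℤ)) ∈ hz.memSubgroup ⊥ := by
    intro x
    rw [AddSubgroup.mem_bot]
    show Zc hneg w T x - cobdry (w + v) T x = 0
    rw [Zc_T, cobdry_eq_act, map_add]
    have := congrFun hv x
    simp only [Pi.sub_apply, Pi.add_apply] at this ⊢
    linear_combination this
  have hk := Subgroup.zpow_mem _ hT k y
  rw [AddSubgroup.mem_bot] at hk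
  have hk' : Zc hneg w (T ^ k) y - cobdry (w + v) (T ^ k) y = 0 := hk
  rw [sub_eq_zero] at hk'
  rw [hk', cobdry_apply]

/-- `(1 - s) w ∈ (T - 1) V` implies that `shap w` is parabolic. -/
theorem shap_isParabolicHom_of (w v : SL(2, ℤ) ⧸ Γ → R)
    (hv : w - act (S : SL(2, ℤ)) w = act (T : SL(2, ℤ)) v - v) :
    IsParabolicHom Γ (shap Γ hΓ w) := by
  set hneg := neg_one_smul_coset Γ hΓ
  -- the value on a conjugate of a power of `T` lying in `Γ`
  have key : ∀ (g : SL(2, ℤ)) (k : ℤ), g * T ^ k * g⁻¹ ∈ Γ →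
      Zc hneg w (g * T ^ k * g⁻¹) ((1 : SL(2, ℤ)) : SL(2, ℤ) ⧸ Γ) = 0 := by
    intro g k hmem
    have hfix : (g * T ^ k * g⁻¹)⁻¹ • ((1 : SL(2, ℤ)) : SL(2, ℤ) ⧸ Γ)
        = ((1 : SL(2, ℤ)) : SL(2, ℤ) ⧸ Γ) := mem_inv_smul_base Γ ⟨_, hmem⟩
    rw [coc_conj (Zc_isCocA hneg w) g (T ^ k) _ hfix, Zc_T_zpow hneg w v hv]
    have h2 : (T ^ k : SL(2, ℤ))⁻¹ • g⁻¹ • ((1 : SL(2, ℤ)) : SL(2, ℤ) ⧸ Γ)
        = g⁻¹ • ((1 : SL(2, ℤ)) : SL(2, ℤ) ⧸ Γ) := by
      have h3 := hfix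
      simp only [mul_inv_rev, inv_inv, mul_smul] at h3
      exact eq_inv_smul_iff.mpr h3
    rw [h2, sub_self]
  intro γ htr
  rw [shap_apply]
  obtain ⟨g, k, h | h⟩ := Fermat.Agent.S16.ParabolicConj.exists_conj_T_zpow (γ : SL(2, ℤ)) htr
  · rw [h]
    exact key g k (h ▸ γ.2)
  · rw [h, Zc_neg]
    refine key g k ?_
    have h' : g * T ^ k * g⁻¹ = (-1) * (γ : SL(2, ℤ)) := by
      rw [h]; simp
    rw [h']
    exact Γ.mul_mem hΓ γ.2

/-- if `shap w` is parabolic then all `T`-cycle sums of `(1 - s) w` vanish. -/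
theorem cycZero_of_shap_isParabolicHom (w : SL(2, ℤ) ⧸ Γ → R)
    (hpar : IsParabolicHom Γ (shap Γ hΓ w)) :
    CycZero (T : SL(2, ℤ)) (w - act (S : SL(2, ℤ)) w) := by
  set hneg := neg_one_smul_coset Γ hΓ
  intro x m hfix
  -- the cycle sum is the value of the cocycle at `T ^ m`
  have h1 : Zc hneg w (T ^ m) x
      = ∑ i ∈ Finset.range m, (w - act (S : SL(2, ℤ)) w) ((T ^ i : SL(2, ℤ))⁻¹ • x) := by
    have e1 := (Zc_isCocA hneg w).pow T m x
    have e2 := (isCocA_cobdry (G := SL(2, ℤ)) w).pow T m x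
    rw [cobdry_apply, hfix, sub_self] at e2
    rw [e1, ← sub_zero (∑ i ∈ Finset.range m, Zc hneg w T _), e2, ← Finset.sum_sub_distrib]
    refine Finset.sum_congr rfl fun i _ => ?_
    rw [Zc_T, cobdry_apply]
    simp only [Pi.sub_apply, act_apply]
    ring
  rw [← h1]
  -- `x = g⁻¹ • x₀`
  obtain ⟨g, hg⟩ := MulAction.exists_smul_eq SL(2, ℤ) x ((1 : SL(2, ℤ)) : SL(2, ℤ) ⧸ Γ)
  have hx : x = g⁻¹ • ((1 : SL(2, ℤ)) : SL(2, ℤ) ⧸ Γ) := by rw [← hg, inv_smul_smul]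
  have hfix' : (g * T ^ m * g⁻¹)⁻¹ • ((1 : SL(2, ℤ)) : SL(2, ℤ) ⧸ Γ)
      = ((1 : SL(2, ℤ)) : SL(2, ℤ) ⧸ Γ) := by
    simp only [mul_inv_rev, inv_inv, mul_smul]
    rw [← hx, hfix, hg]
  have hmem : g * T ^ m * g⁻¹ ∈ Γ := by
    have := mem_of_smul_base Γ hfix'
    simpa using Γ.inv_mem this
  have htr : ((g * T ^ m * g⁻¹ : SL(2, ℤ)) : Matrix (Fin 2) (Fin 2) ℤ).trace ^ 2 = 4 := by
    have := Fermat.Agent.S21.ParabolicBound.trace_conj_T_pow m g⁻¹
    rw [inv_inv] at this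
    rw [this]; norm_num
  have h2 := hpar ⟨_, hmem⟩ htr
  rw [shap_apply, coc_conj (Zc_isCocA hneg w) g (T ^ m) _ hfix', ← hx] at h2
  exact h2

/-- **The parabolic criterion**: `shap w` is parabolic iff `(1 - s) w ∈ (T - 1) V`. -/
theorem shap_mem_parabolicHoms_iff [Finite (SL(2, ℤ) ⧸ Γ)] (i2 i3 : R) (h2 : 2 * i2 = 1)
    (h3 : 3 * i3 = 1) (w : SL(2, ℤ) ⧸ Γ → R) :
    shap Γ hΓ w ∈ parabolicHoms R Γ R ↔
      w - (setting (neg_one_smul_coset Γ hΓ) i2 i3 h2 h3).s w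
        ∈ (setting (neg_one_smul_coset Γ hΓ) i2 i3 h2 h3).BT := by
  rw [mem_parabolicHoms_iff, Setting.mem_BT]
  constructor
  · intro hpar
    obtain ⟨M, hM0, hM⟩ := exists_pow_smul_eq Γ (T : SL(2, ℤ))
    obtain ⟨v, hv⟩ := exists_cobdry_of_cycZero (T : SL(2, ℤ))
      (w - act (S : SL(2, ℤ)) w) M hM0 hM (cycZero_of_shap_isParabolicHom Γ hΓ w hpar)
    refine ⟨v, ?_⟩
    rw [setting_s_t, setting_s]
    funext x
    rw [hv x]; rfl
  · rintro ⟨v, hv⟩
    rw [setting_s_t, setting_s] at hv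
    exact shap_isParabolicHom_of Γ hΓ w v hv.symm

end Parabolic

end Fermat.Agent.S41.PD.Shapiro
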