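/-
S41 / (W1) step F6a (helper29): the Poincare pairing on the parabolic homomorphisms `Γ → R`.

`Γ ≤ SL(2,ℤ)` of finite index containing `-1`, `R` a commutative ring in which `6` is a unit,
`X := SL(2,ℤ) ⧸ Γ`, `V := X → R` with the dot product `dot f g = ∑ x, f x * g x`, which is
symmetric, nondegenerate and invariant under `SL(2,ℤ)`.  With the Shapiro dictionary of F2
(`shap : V → Hom(Γ, R)`, surjective with kernel `U = V^s + V^t`, `shap w` parabolic iff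
`(1 - s) w ∈ (T - 1) V`) and the abstract duality F1 (every parabolic hom is `shap (θ P)` with
`P ∈ W`), the pairing is

  `pair φ φ' := dot w P'`  for `shap w = φ`, `P' ∈ W`, `shap (θ P') = φ'`,

well defined for parabolic `φ`, `φ'` (`pair_eq`), bilinear, alternating, and nondegenerate on the
parabolic homs when `R` is a field (`pair_nondegenerate`, `parForm_nondegenerate`).
-/
import Mathlib
import Fermat.Agent.S41.PD.Shapiro

set_option autoImplicit false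
set_option linter.unusedSectionVars false

open scoped MatrixGroups
open ModularGroup MulAction

namespace Fermat.Agent.S41.PD.PairOnPar

open ModularCurve.Period
open Fermat.Agent.S41.PD.AbstractDuality Fermat.Agent.S41.PD.Shapiro

/-! ### a complement to F1: `VT ⊥ BT` -/

section Abstract

variable {R V : Type*} [CommRing R] [AddCommGroup V] [Module R V] (D : Setting R V)
  (B : LinearMap.BilinForm R V)

/-- `T`-invariants are orthogonal to `(T - 1) V` for an invariant form. -/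
theorem VT_perp_BT (hBs : ∀ x y, B (D.s x) (D.s y) = B x y)
    (hBt : ∀ x y, B (D.t x) (D.t y) = B x y) {u y : V} (hu : u ∈ D.VT) (hy : y ∈ D.BT) :
    B u y = 0 := by
  obtain ⟨v, rfl⟩ := D.mem_BT.1 hy
  have h1 : B u (D.s (D.t v)) = B u v := by
    have := hBs (D.t u) (D.t v)
    rw [hBt, D.mem_VT.1 hu] at this
    exact this
  rw [map_sub, h1, sub_self]

/-- uniqueness of the inverse of `2`, `3`: `θ` does not depend on the choice. -/
theorem inv_unique {a b c : R} (hb : a * b = 1) (hc : a * c = 1) : b = c := by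
  calc b = b * (a * c) := by rw [hc, mul_one]
    _ = (a * b) * c := by ring
    _ = c := by rw [hb, one_mul]

end Abstract

/-! ### the dot product on functions on a finite set -/

section Dot

variable {G X R : Type*} [Group G] [MulAction G X] [Finite X] [CommRing R]

/-- the dot product `∑ x, f x * g x`. -/
noncomputable def dot : LinearMap.BilinForm R (X → R) :=
  letI := Fintype.ofFinite X
  LinearMap.mk₂ R (fun f g => ∑ x, f x * g x)
    (fun f f' g => by simp only [Pi.add_apply, add_mul, Finset.sum_add_distrib])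
    (fun c f g => by simp only [Pi.smul_apply, smul_eq_mul, mul_assoc, Finset.mul_sum])
    (fun f g g' => by simp only [Pi.add_apply, mul_add, Finset.sum_add_distrib])
    (fun c f g => by
      simp only [Pi.smul_apply, smul_eq_mul, Finset.mul_sum]
      exact Finset.sum_congr rfl fun x _ => by ring)

theorem dot_apply [Fintype X] (f g : X → R) : dot f g = ∑ x, f x * g x := by
  unfold dot
  simp only [LinearMap.mk₂_apply]
  congr!

theorem dot_symm (f g : X → R) : dot f g = dot g f := by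
  have := Fintype.ofFinite X
  rw [dot_apply, dot_apply]
  exact Finset.sum_congr rfl fun x _ => mul_comm _ _

/-- the dot product is invariant under the group action. -/
theorem dot_act (a : G) (f g : X → R) : dot (act a f) (act a g) = dot f g := by
  have := Fintype.ofFinite X
  rw [dot_apply, dot_apply]
  exact Fintype.sum_equiv (MulAction.toPerm a⁻¹) _ _ fun x => rfl

theorem dot_single [DecidableEq X] (f : X → R) (x : X) : dot f (Pi.single x 1) = f x := by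
  have := Fintype.ofFinite X
  rw [dot_apply]
  simp [Pi.single_apply]

theorem dot_nondegenerate : (dot (X := X) (R := R)).Nondegenerate := by
  classical
  constructor
  · intro f hf
    funext x
    have := hf (Pi.single x 1)
    rwa [dot_single] at this
  · intro f hf
    funext x
    have := hf (Pi.single x 1)
    rwa [dot_symm, dot_single] at this

end Dot

/-! ### the pairing -/

section Pair

variable (Γ : Subgroup SL(2, ℤ)) (hΓ : (-1 : SL(2, ℤ)) ∈ Γ) [Finite (SL(2, ℤ) ⧸ Γ)]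
  {R : Type*} [CommRing R] (h6 : IsUnit (6 : R))

/-- the inverse of `2`. -/
noncomputable def inv2 (h6 : IsUnit (6 : R)) : R := 3 * ((h6.unit⁻¹ : Rˣ) : R)

/-- the inverse of `3`. -/
noncomputable def inv3 (h6 : IsUnit (6 : R)) : R := 2 * ((h6.unit⁻¹ : Rˣ) : R)

theorem two_mul_inv2 : 2 * inv2 h6 = 1 := by
  have h : (6 : R) * ((h6.unit⁻¹ : Rˣ) : R) = 1 := h6.mul_val_inv
  unfold inv2
  linear_combination h

theorem three_mul_inv3 : 3 * inv3 h6 = 1 := by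
  have h : (6 : R) * ((h6.unit⁻¹ : Rˣ) : R) = 1 := h6.mul_val_inv
  unfold inv3
  linear_combination h

/-- the `C₂ * C₃`-module `(SL(2,ℤ) ⧸ Γ) → R` (F2's `setting` with the canonical inverses). -/
noncomputable def sett : Setting R (SL(2, ℤ) ⧸ Γ → R) :=
  setting (neg_one_smul_coset Γ hΓ) (inv2 h6) (inv3 h6) (two_mul_inv2 h6) (three_mul_inv3 h6)

theorem sett_s (f : SL(2, ℤ) ⧸ Γ → R) : (sett Γ hΓ h6).s f = act (S : SL(2, ℤ)) f := rfl

theorem sett_t (f : SL(2, ℤ) ⧸ Γ → R) : (sett Γ hΓ h6).t f = act (S * T : SL(2, ℤ)) f := rfl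

theorem dot_s (f g : SL(2, ℤ) ⧸ Γ → R) :
    dot ((sett Γ hΓ h6).s f) ((sett Γ hΓ h6).s g) = dot f g := dot_act _ f g

theorem dot_t (f g : SL(2, ℤ) ⧸ Γ → R) :
    dot ((sett Γ hΓ h6).t f) ((sett Γ hΓ h6).t g) = dot f g := dot_act _ f g

/-- `shap w = 0 ↔ w ∈ U`. -/
theorem shap_eq_zero_iff' (w : SL(2, ℤ) ⧸ Γ → R) :
    shap Γ hΓ w = 0 ↔ w ∈ (sett Γ hΓ h6).U :=
  shap_eq_zero_iff Γ hΓ _ _ _ _ w

/-- `shap w` is parabolic iff `(1 - s) w ∈ (T - 1) V`. -/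
theorem shap_isParabolicHom_iff (w : SL(2, ℤ) ⧸ Γ → R) :
    IsParabolicHom Γ (shap Γ hΓ w) ↔ w - (sett Γ hΓ h6).s w ∈ (sett Γ hΓ h6).BT :=
  shap_mem_parabolicHoms_iff Γ hΓ _ _ _ _ w

include h6 in
/-- every hom is in the image of the Shapiro map. -/
theorem exists_shap_eq (φ : Additive Γ →+ R) : ∃ w : SL(2, ℤ) ⧸ Γ → R, shap Γ hΓ w = φ :=
  shap_surjective Γ hΓ _ _ (two_mul_inv2 h6) (three_mul_inv3 h6) φ

/-- `shap (θ P)` is parabolic for `P ∈ W`. -/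
theorem shap_theta_isParabolicHom {P : SL(2, ℤ) ⧸ Γ → R} (hP : P ∈ (sett Γ hΓ h6).W) :
    IsParabolicHom Γ (shap Γ hΓ ((sett Γ hΓ h6).θ P)) :=
  (shap_isParabolicHom_iff Γ hΓ h6 _).2 ((sett Γ hΓ h6).r_theta_mem_BT hP)

/-- every parabolic hom is `shap (θ P)` with `P ∈ W`. -/
theorem exists_W_of_isParabolicHom (φ : Additive Γ →+ R) (hφ : IsParabolicHom Γ φ) :
    ∃ P ∈ (sett Γ hΓ h6).W, shap Γ hΓ ((sett Γ hΓ h6).θ P) = φ := by
  obtain ⟨w, rfl⟩ := exists_shap_eq Γ hΓ h6 φ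
  obtain ⟨P, hP, hU⟩ :=
    (sett Γ hΓ h6).exists_of_r_mem_BT ((shap_isParabolicHom_iff Γ hΓ h6 w).1 hφ)
  refine ⟨P, hP, ?_⟩
  have := (shap_eq_zero_iff' Γ hΓ h6 _).2 hU
  rw [map_sub, sub_eq_zero] at this
  exact this.symm

/-- a Shapiro lift of a hom. -/
noncomputable def lift (φ : Additive Γ →+ R) : SL(2, ℤ) ⧸ Γ → R :=
  Classical.choose (exists_shap_eq Γ hΓ h6 φ)

theorem shap_lift (φ : Additive Γ →+ R) : shap Γ hΓ (lift Γ hΓ h6 φ) = φ :=
  Classical.choose_spec (exists_shap_eq Γ hΓ h6 φ)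

open Classical in
/-- a relative cocycle `P ∈ W` with `shap (θ P) = φ` (for `φ` parabolic; `0` otherwise). -/
noncomputable def wrep (φ : Additive Γ →+ R) : SL(2, ℤ) ⧸ Γ → R :=
  if hφ : IsParabolicHom Γ φ then Classical.choose (exists_W_of_isParabolicHom Γ hΓ h6 φ hφ) else 0

theorem wrep_mem (φ : Additive Γ →+ R) : wrep Γ hΓ h6 φ ∈ (sett Γ hΓ h6).W := by
  unfold wrep
  split_ifs with hφ
  · exact (Classical.choose_spec (exists_W_of_isParabolicHom Γ hΓ h6 φ hφ)).1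
  · exact Submodule.zero_mem _

theorem shap_theta_wrep (φ : Additive Γ →+ R) (hφ : IsParabolicHom Γ φ) :
    shap Γ hΓ ((sett Γ hΓ h6).θ (wrep Γ hΓ h6 φ)) = φ := by
  unfold wrep
  rw [dif_pos hφ]
  exact (Classical.choose_spec (exists_W_of_isParabolicHom Γ hΓ h6 φ hφ)).2

/-- **The Poincare pairing** on homs `Γ → R` (meaningful on the parabolic ones). -/
noncomputable def pair (φ φ' : Additive Γ →+ R) : R :=
  dot (lift Γ hΓ h6 φ) (wrep Γ hΓ h6 φ')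

/-- **The pairing is well defined**: it can be computed with any Shapiro lift `w` of `φ` and any
`P' ∈ W` with `shap (θ P') = φ'`. -/
theorem pair_eq {φ φ' : Additive Γ →+ R} (hφ : IsParabolicHom Γ φ) (hφ' : IsParabolicHom Γ φ')
    {w P' : SL(2, ℤ) ⧸ Γ → R} (hw : shap Γ hΓ w = φ) (hP' : P' ∈ (sett Γ hΓ h6).W)
    (hP'φ : shap Γ hΓ ((sett Γ hΓ h6).θ P') = φ') :
    pair Γ hΓ h6 φ φ' = dot w P' := by
  set D := sett Γ hΓ h6 with hD
  set w0 := lift Γ hΓ h6 φ with hw0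
  set P0 := wrep Γ hΓ h6 φ' with hP0
  have hw0φ : shap Γ hΓ w0 = φ := shap_lift Γ hΓ h6 φ
  have hP0W : P0 ∈ D.W := wrep_mem Γ hΓ h6 φ'
  have hP0φ : shap Γ hΓ (D.θ P0) = φ' := shap_theta_wrep Γ hΓ h6 φ' hφ'
  -- `w - w0 ∈ U`
  have h1 : w - w0 ∈ D.U := by
    rw [← shap_eq_zero_iff' Γ hΓ h6, map_sub, hw, hw0φ, sub_self]
  -- `P' - P0 = d u`
  have h2 : D.θ (P' - P0) ∈ D.U := by
    rw [← shap_eq_zero_iff' Γ hΓ h6, map_sub, map_sub, hP'φ, hP0φ, sub_self]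
  obtain ⟨u, hu, hdu⟩ := D.exists_of_theta_mem_U (D.W.sub_mem hP' hP0W) h2
  -- `(1 - s) w0 ∈ BT`
  have h3 : w0 - D.s w0 ∈ D.BT := (shap_isParabolicHom_iff Γ hΓ h6 w0).1 (hw0φ ▸ hφ)
  have e1 : dot P' (w - w0) = 0 :=
    D.W_perp_U dot (dot_s Γ hΓ h6) (dot_t Γ hΓ h6) hP' h1
  have e2 : dot (D.s u - u) w0 = 0 := by
    rw [D.d_adjoint_r dot (dot_s Γ hΓ h6), VT_perp_BT D dot (dot_s Γ hΓ h6) (dot_t Γ hΓ h6) hu h3,
      neg_zero]
  show dot w0 P0 = dot w P'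
  have e3 : dot w P' = dot w0 P0 + dot (w - w0) P' + dot w0 (P' - P0) := by
    simp only [map_sub, LinearMap.sub_apply]
    ring
  rw [e3, dot_symm (w - w0) P', e1, ← hdu, dot_symm w0 (D.s u - u), e2, add_zero, add_zero]

/-- `pair (shap w) (shap (θ P')) = dot w P'`. -/
theorem pair_shap_shap_theta {w P' : SL(2, ℤ) ⧸ Γ → R} (hw : IsParabolicHom Γ (shap Γ hΓ w))
    (hP' : P' ∈ (sett Γ hΓ h6).W) :
    pair Γ hΓ h6 (shap Γ hΓ w) (shap Γ hΓ ((sett Γ hΓ h6).θ P')) = dot w P' :=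
  pair_eq Γ hΓ h6 hw (shap_theta_isParabolicHom Γ hΓ h6 hP') rfl hP' rfl

theorem isParabolicHom_add {φ₁ φ₂ : Additive Γ →+ R} (h₁ : IsParabolicHom Γ φ₁)
    (h₂ : IsParabolicHom Γ φ₂) : IsParabolicHom Γ (φ₁ + φ₂) :=
  (parabolicHoms R Γ R).add_mem h₁ h₂

theorem isParabolicHom_smul (c : R) {φ : Additive Γ →+ R} (h : IsParabolicHom Γ φ) :
    IsParabolicHom Γ (c • φ) :=
  (parabolicHoms R Γ R).smul_mem c h

theorem pair_add_left {φ₁ φ₂ φ' : Additive Γ →+ R} (h₁ : IsParabolicHom Γ φ₁)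
    (h₂ : IsParabolicHom Γ φ₂) (h' : IsParabolicHom Γ φ') :
    pair Γ hΓ h6 (φ₁ + φ₂) φ' = pair Γ hΓ h6 φ₁ φ' + pair Γ hΓ h6 φ₂ φ' := by
  rw [pair_eq Γ hΓ h6 (isParabolicHom_add Γ h₁ h₂) h'
    (w := lift Γ hΓ h6 φ₁ + lift Γ hΓ h6 φ₂) (by rw [map_add, shap_lift, shap_lift])
    (wrep_mem Γ hΓ h6 φ') (shap_theta_wrep Γ hΓ h6 φ' h')]
  rw [map_add, LinearMap.add_apply]
  rfl

theorem pair_smul_left (c : R) {φ φ' : Additive Γ →+ R} (h : IsParabolicHom Γ φ)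
    (h' : IsParabolicHom Γ φ') :
    pair Γ hΓ h6 (c • φ) φ' = c * pair Γ hΓ h6 φ φ' := by
  rw [pair_eq Γ hΓ h6 (isParabolicHom_smul Γ c h) h'
    (w := c • lift Γ hΓ h6 φ) (by rw [map_smul, shap_lift])
    (wrep_mem Γ hΓ h6 φ') (shap_theta_wrep Γ hΓ h6 φ' h')]
  rw [map_smul, LinearMap.smul_apply, smul_eq_mul]
  rfl

theorem pair_add_right {φ φ₁' φ₂' : Additive Γ →+ R} (h : IsParabolicHom Γ φ)
    (h₁ : IsParabolicHom Γ φ₁') (h₂ : IsParabolicHom Γ φ₂') :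
    pair Γ hΓ h6 φ (φ₁' + φ₂') = pair Γ hΓ h6 φ φ₁' + pair Γ hΓ h6 φ φ₂' := by
  rw [pair_eq Γ hΓ h6 h (isParabolicHom_add Γ h₁ h₂) (shap_lift Γ hΓ h6 φ)
    (P' := wrep Γ hΓ h6 φ₁' + wrep Γ hΓ h6 φ₂')
    ((sett Γ hΓ h6).W.add_mem (wrep_mem Γ hΓ h6 φ₁') (wrep_mem Γ hΓ h6 φ₂'))
    (by rw [map_add, map_add, shap_theta_wrep Γ hΓ h6 φ₁' h₁, shap_theta_wrep Γ hΓ h6 φ₂' h₂])]
  rw [map_add]
  rfl

theorem pair_smul_right (c : R) {φ φ' : Additive Γ →+ R} (h : IsParabolicHom Γ φ)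
    (h' : IsParabolicHom Γ φ') :
    pair Γ hΓ h6 φ (c • φ') = c * pair Γ hΓ h6 φ φ' := by
  rw [pair_eq Γ hΓ h6 h (isParabolicHom_smul Γ c h') (shap_lift Γ hΓ h6 φ)
    (P' := c • wrep Γ hΓ h6 φ')
    ((sett Γ hΓ h6).W.smul_mem c (wrep_mem Γ hΓ h6 φ'))
    (by rw [map_smul, map_smul, shap_theta_wrep Γ hΓ h6 φ' h'])]
  rw [map_smul, smul_eq_mul]
  rfl

/-- the pairing in terms of relative cocycles: `pair φ φ' = dot (θ P) P'`. -/
theorem pair_eq_dot_theta {φ φ' : Additive Γ →+ R} (hφ : IsParabolicHom Γ φ)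
    (hφ' : IsParabolicHom Γ φ') :
    pair Γ hΓ h6 φ φ' = dot ((sett Γ hΓ h6).θ (wrep Γ hΓ h6 φ)) (wrep Γ hΓ h6 φ') :=
  pair_eq Γ hΓ h6 hφ hφ' (shap_theta_wrep Γ hΓ h6 φ hφ) (wrep_mem Γ hΓ h6 φ')
    (shap_theta_wrep Γ hΓ h6 φ' hφ')

/-- **The pairing is skew.** -/
theorem pair_skew {φ φ' : Additive Γ →+ R} (hφ : IsParabolicHom Γ φ)
    (hφ' : IsParabolicHom Γ φ') :
    pair Γ hΓ h6 φ φ' = - pair Γ hΓ h6 φ' φ := by
  rw [pair_eq_dot_theta Γ hΓ h6 hφ hφ', pair_eq_dot_theta Γ hΓ h6 hφ' hφ]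
  have h := (sett Γ hΓ h6).skew dot (dot_t Γ hΓ h6) (wrep_mem Γ hΓ h6 φ) (wrep_mem Γ hΓ h6 φ')
  rw [dot_symm (wrep Γ hΓ h6 φ)] at h
  linear_combination h

/-- **The pairing is alternating.** -/
theorem pair_self {φ : Additive Γ →+ R} (hφ : IsParabolicHom Γ φ) : pair Γ hΓ h6 φ φ = 0 := by
  rw [pair_eq_dot_theta Γ hΓ h6 hφ hφ]
  exact (sett Γ hΓ h6).alternating dot (dot_t Γ hΓ h6) dot_symm (wrep_mem Γ hΓ h6 φ)

/-- the pairing as a bilinear form on the parabolic homs. -/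
noncomputable def parForm : LinearMap.BilinForm R (parabolicHoms R Γ R) :=
  LinearMap.mk₂ R (fun φ φ' => pair Γ hΓ h6 (φ : Additive Γ →+ R) (φ' : Additive Γ →+ R))
    (fun φ₁ φ₂ φ' => pair_add_left Γ hΓ h6 φ₁.2 φ₂.2 φ'.2)
    (fun c φ φ' => pair_smul_left Γ hΓ h6 c φ.2 φ'.2)
    (fun φ φ₁ φ₂ => pair_add_right Γ hΓ h6 φ.2 φ₁.2 φ₂.2)
    (fun c φ φ' => pair_smul_right Γ hΓ h6 c φ.2 φ'.2)

@[simp] theorem parForm_apply (φ φ' : parabolicHoms R Γ R) :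
    parForm Γ hΓ h6 φ φ' = pair Γ hΓ h6 (φ : Additive Γ →+ R) (φ' : Additive Γ →+ R) := rfl

theorem parForm_isAlt : (parForm Γ hΓ h6).IsAlt := fun φ => pair_self Γ hΓ h6 φ.2

end Pair

/-! ### nondegeneracy over a field -/

section Field

variable (Γ : Subgroup SL(2, ℤ)) (hΓ : (-1 : SL(2, ℤ)) ∈ Γ) [Finite (SL(2, ℤ) ⧸ Γ)]
  {K : Type*} [Field K] (h6 : IsUnit (6 : K))

/-- **Poincare duality**: the pairing is nondegenerate on the parabolic homs `Γ → K`. -/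
theorem pair_nondegenerate {φ : Additive Γ →+ K} (hφ : IsParabolicHom Γ φ)
    (h : ∀ φ' : Additive Γ →+ K, IsParabolicHom Γ φ' → pair Γ hΓ h6 φ φ' = 0) : φ = 0 := by
  set D := sett Γ hΓ h6 with hD
  obtain ⟨P, hP, rfl⟩ := exists_W_of_isParabolicHom Γ hΓ h6 φ hφ
  have hrad : ∀ P' ∈ D.W, dot (D.θ P) P' = 0 := by
    intro P' hP'
    rw [← pair_shap_shap_theta Γ hΓ h6 hφ hP']
    exact h _ (shap_theta_isParabolicHom Γ hΓ h6 hP')
  obtain ⟨u, hu, rfl⟩ := (D.radical_iff_of_field dot dot_nondegenerate (dot_s Γ hΓ h6)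
    (dot_t Γ hΓ h6) dot_symm hP).1 hrad
  exact (shap_eq_zero_iff' Γ hΓ h6 _).2 (D.theta_d_mem_U hu)

theorem pair_nondegenerate_right {φ' : Additive Γ →+ K} (hφ' : IsParabolicHom Γ φ')
    (h : ∀ φ : Additive Γ →+ K, IsParabolicHom Γ φ → pair Γ hΓ h6 φ φ' = 0) : φ' = 0 := by
  refine pair_nondegenerate Γ hΓ h6 hφ' fun φ hφ => ?_
  rw [pair_skew Γ hΓ h6 hφ' hφ, h φ hφ, neg_zero]

theorem parForm_nondegenerate : (parForm Γ hΓ h6).Nondegenerate := by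
  constructor
  · intro φ hφ
    apply Subtype.ext
    exact pair_nondegenerate Γ hΓ h6 φ.2 fun φ' hφ' => hφ ⟨φ', hφ'⟩
  · intro φ' hφ'
    apply Subtype.ext
    exact pair_nondegenerate_right Γ hΓ h6 φ'.2 fun φ hφ => hφ' ⟨φ, hφ⟩

end Field

end Fermat.Agent.S41.PD.PairOnPar
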