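/-
S41 / (W1) step F3-iii (helper60): THE CUSP-SUM FORMULA for a finite index subgroup
`Γ ≤ SL(2,ℤ)` containing `-1`, `R` a commutative ring in which `6` is a unit:

  for parabolic homs `z z' : Γ → R`, EVERY primitive `c` of the cup product
  (`c (γ δ) = c γ + c δ + z γ * z' δ`) and EVERY cusp system `s` of `Γ`:

      `cuspSum s c = pair Γ hΓ h6 z z'`      (`= - pair Γ hΓ h6 z' z`)

where `pair` is the Poincare pairing of F1/F2/F6a (`PairOnPar.pair`, helper29) and `cuspSum`,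
`IsCuspSystem`, `IsPrimitive` are those of F4 (`CuspSum`, helper76).  This is the field `formula`
of `CuspSum.CuspData` for `pair := fun z z' => PairOnPar.pair Γ hΓ h6 z' z`.

Proof: reduce to the cusp system of helper76's `CuspReps` (orbit representatives of `T` on
`SL(2,ℤ) ⧸ Γ`), whose elements are `κ (T ^ h i) (y i)` for the Shapiro cocycle system
`κ g x = (sec x)⁻¹ * g * sec (g⁻¹ • x)`, and apply the abstract formula `CuspFormula.cusp_sum_formula`
(layers (A), (B)) with `ε = -1`, `σ = S`, `ρ = S * T`, `τ = T`, the Shapiro lifts `w`, `w'` of `z`, `z'`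
(F2, helper68) and `(1 - s) w = (T - 1) v`.
-/
import Mathlib
import Fermat.Agent.S41.PD.Shapiro
import Fermat.Agent.S41.PD.PairOnPar
import Fermat.Agent.S41.PD.CuspSum
import Fermat.Agent.S41.PD.CuspSystem
import Fermat.Agent.S41.PD.CuspReps
import Fermat.Agent.S41.PD.CuspFormula

set_option autoImplicit false

open scoped MatrixGroups
open ModularGroup MulAction

namespace Fermat.Agent.S41.PD.CuspFormulaSL2

open ModularCurve.Period
open Fermat.Agent.S16.ParabolicLift Fermat.Agent.S21.CocycleBound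
open Fermat.Agent.S41.PD.AbstractDuality Fermat.Agent.S41.PD.Shapiro Fermat.Agent.S41.PD.PairOnPar
open Fermat.Agent.S41.PD.CuspSum Fermat.Agent.S41.PD.CuspSystem Fermat.Agent.S41.PD.CuspReps

/-! ### The Shapiro cocycle system of `Γ ≤ G` -/

section Kap

variable {G : Type*} [Group G] (Γ : Subgroup G)

/-- `κ g x = (sec x)⁻¹ * g * sec (g⁻¹ • x) ∈ Γ`. -/
noncomputable def kap (g : G) (x : G ⧸ Γ) : Γ :=
  ⟨(sec Γ x)⁻¹ * g * sec Γ (g⁻¹ • x), sec_mem Γ g x⟩

theorem kap_coe (g : G) (x : G ⧸ Γ) :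
    ((kap Γ g x : Γ) : G) = (sec Γ x)⁻¹ * g * sec Γ (g⁻¹ • x) := rfl

theorem isKappa_kap : CuspFormula.IsKappa (kap Γ) := by
  intro g h x
  apply Subtype.ext
  rw [Subgroup.coe_mul, kap_coe, kap_coe, kap_coe, mul_inv_rev, mul_smul]
  group

/-- at a fixed point the cocycle is a conjugate. -/
theorem kap_of_fixed {g : G} {x : G ⧸ Γ} (hx : g • x = x) :
    ((kap Γ g x : Γ) : G) = (sec Γ x)⁻¹ * g * sec Γ x := by
  rw [kap_coe, inv_smul_eq_iff.mpr hx.symm]

end Kap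

/-! ### The formula -/

section Formula

variable (Γ : Subgroup SL(2, ℤ)) (hΓ : (-1 : SL(2, ℤ)) ∈ Γ)
  {R : Type*} [CommRing R] (h6 : IsUnit (6 : R))

theorem neg_one_inv : (-1 : SL(2, ℤ))⁻¹ = -1 := by
  rw [inv_eq_iff_eq_inv, ← mul_eq_one_iff_eq_inv]; simp

include hΓ in
theorem kap_neg_one (x : SL(2, ℤ) ⧸ Γ) : kap Γ (-1 : SL(2, ℤ)) x = ⟨-1, hΓ⟩ := by
  apply Subtype.ext
  rw [kap_coe, neg_one_inv, neg_one_smul_coset Γ hΓ]
  simp

theorem S_mul_S : (S : SL(2, ℤ)) * S = -1 := by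
  rw [← pow_two, Fermat.Agent.S16.PSL2Free.S_sq]

theorem ST_cube' : (S * T : SL(2, ℤ)) * (S * T) * (S * T) = -1 := by
  rw [← Fermat.Agent.S16.PSL2Free.ST_cube, pow_three, mul_assoc]

theorem T_eq : (T : SL(2, ℤ)) = -1 * (S * (S * T)) := by
  rw [← mul_assoc S S T, S_mul_S]
  simp

/-- a parabolic hom kills `-1`. -/
theorem par_neg_one {z : Additive Γ →+ R} (hz : IsParabolicHom Γ z) :
    z (Additive.ofMul (⟨-1, hΓ⟩ : Γ)) = 0 := by
  apply hz
  show ((-1 : SL(2, ℤ)) : Matrix (Fin 2) (Fin 2) ℤ).trace ^ 2 = 4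
  simp

include h6 in
/-- a primitive of parabolic homs vanishes at `-1`. -/
theorem prim_neg_one {z z' : Additive Γ →+ R} (hz : IsParabolicHom Γ z) {c : Γ → R}
    (hc : IsPrimitive z z' c) : c (⟨-1, hΓ⟩ : Γ) = 0 := by
  have h1 : (⟨-1, hΓ⟩ : Γ) * ⟨-1, hΓ⟩ = 1 := by
    apply Subtype.ext; simp
  have h := hc ⟨-1, hΓ⟩ ⟨-1, hΓ⟩
  rw [h1, hc.map_one, par_neg_one Γ hΓ hz, zero_mul, add_zero] at h
  have h2 : (2 : R) * c (⟨-1, hΓ⟩ : Γ) = 0 := by linear_combination -h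
  calc c (⟨-1, hΓ⟩ : Γ) = (2 * inv2 h6) * c (⟨-1, hΓ⟩ : Γ) := by rw [two_mul_inv2, one_mul]
    _ = inv2 h6 * (2 * c (⟨-1, hΓ⟩ : Γ)) := by ring
    _ = 0 := by rw [h2, mul_zero]

/-- the Shapiro cocycle of `shap w` is `Zc w` plus the coboundary of `f y = Zc w (sec y) y`. -/
theorem Zf_shap (w : SL(2, ℤ) ⧸ Γ → R) (g : SL(2, ℤ)) :
    CuspFormula.Zf (kap Γ) (fun γ : Γ => shap Γ hΓ w (Additive.ofMul γ)) g
      = Zc (neg_one_smul_coset Γ hΓ) w g
        + (CuspFormula.actL g (fun y => Zc (neg_one_smul_coset Γ hΓ) w (sec Γ y) y)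
          - fun y => Zc (neg_one_smul_coset Γ hΓ) w (sec Γ y) y) := by
  funext x
  have h := cocA_resHom Γ (Zc (neg_one_smul_coset Γ hΓ) w) (Zc_isCocA _ w) g x
  rw [← shap_eq_resHom Γ hΓ w] at h
  exact h

/-- the two dot products agree. -/
theorem dotB_eq_dot {X : Type*} [Fintype X] (f g : X → R) :
    CuspFormula.dotB R X f g = PairOnPar.dot f g := by
  rw [PairOnPar.dot_apply]
  rfl

variable [Γ.FiniteIndex]

/-- **The cusp-sum formula for the cusp system of orbit representatives.** -/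
theorem sum_elt_eq {ι : Type} [Fintype ι] {y : ι → SL(2, ℤ) ⧸ Γ} {h : ι → ℕ}
    (HO : IsOrbitReps y h) (HC : IsCuspReps Γ (fun i => (sec Γ (y i))⁻¹) h)
    {z z' : Additive Γ →+ R} (hz : IsParabolicHom Γ z) (hz' : IsParabolicHom Γ z')
    {c : Γ → R} (hc : IsPrimitive z z' c) :
    ∑ i, c (HC.elt i) = pair Γ hΓ h6 z z' := by
  classical
  let _ : Fintype (SL(2, ℤ) ⧸ Γ) := Fintype.ofFinite _
  set hneg := neg_one_smul_coset Γ hΓ with hneg_def
  set D := sett Γ hΓ h6 with hD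
  -- Shapiro lifts
  obtain ⟨w, rfl⟩ := exists_shap_eq Γ hΓ h6 z
  obtain ⟨w', rfl⟩ := exists_shap_eq Γ hΓ h6 z'
  obtain ⟨v, hv⟩ := D.mem_BT.1 ((shap_isParabolicHom_iff Γ hΓ h6 w).1 hz)
  -- the data of the abstract formula
  set f : SL(2, ℤ) ⧸ Γ → R := fun y => Zc hneg w (sec Γ y) y with hf
  set f' : SL(2, ℤ) ⧸ Γ → R := fun y => Zc hneg w' (sec Γ y) y with hf'
  have hzc : Primitive.IsAddChar (fun γ : Γ => shap Γ hΓ w (Additive.ofMul γ)) :=
    Primitive.isAddChar_of_hom _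
  have hzc' : Primitive.IsAddChar (fun γ : Γ => shap Γ hΓ w' (Additive.ofMul γ)) :=
    Primitive.isAddChar_of_hom _
  have hcc : Primitive.IsPrim (fun γ : Γ => shap Γ hΓ w (Additive.ofMul γ))
      (fun γ : Γ => shap Γ hΓ w' (Additive.ofMul γ)) c := hc
  -- the elements of the cusp system
  have helt : ∀ i, HC.elt i = kap Γ (T ^ h i) (y i) := by
    intro i
    apply Subtype.ext
    rw [kap_of_fixed Γ (HO.fix i)]
    show (sec Γ (y i))⁻¹ * T ^ h i * ((sec Γ (y i))⁻¹)⁻¹ = _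
    rw [inv_inv]
  have hsum : ∀ F : SL(2, ℤ) ⧸ Γ → R,
      ∑ x, F x = ∑ i, ∑ k ∈ Finset.range (h i), F ((T ^ k : SL(2, ℤ))⁻¹ • y i) := by
    intro F
    rw [HO.sum_eq (-1) (by norm_num) F]
    refine Finset.sum_congr rfl fun i _ => Finset.sum_congr rfl fun k _ => ?_
    rw [neg_one_mul, zpow_neg, zpow_natCast]
  have hpar' : ∀ i, shap Γ hΓ w' (Additive.ofMul (kap Γ (T ^ h i) (y i))) = 0 := by
    intro i
    rw [← helt i]
    exact hz' _ (HC.elt_isPosPar i).trace_sq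
  -- the cocycles at the generators
  have ha : CuspFormula.Zf (kap Γ) (fun γ : Γ => shap Γ hΓ w (Additive.ofMul γ)) S
      = CuspFormula.actL (S : SL(2, ℤ)) f - f := by
    rw [Zf_shap, Zc_S, zero_add]
  have ha' : CuspFormula.Zf (kap Γ) (fun γ : Γ => shap Γ hΓ w' (Additive.ofMul γ)) S
      = CuspFormula.actL (S : SL(2, ℤ)) f' - f' := by
    rw [Zf_shap, Zc_S, zero_add]
  have hb : CuspFormula.Zf (kap Γ) (fun γ : Γ => shap Γ hΓ w (Additive.ofMul γ)) (S * T)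
      = CuspFormula.actL (S * T : SL(2, ℤ)) (w + f) - (w + f) := by
    rw [Zf_shap, Zc_ST, map_add]
    show act (S * T : SL(2, ℤ)) w - w + (act (S * T : SL(2, ℤ)) f - f) = _
    show _ = act (S * T : SL(2, ℤ)) w + act (S * T : SL(2, ℤ)) f - (w + f)
    abel
  have hb' : CuspFormula.Zf (kap Γ) (fun γ : Γ => shap Γ hΓ w' (Additive.ofMul γ)) (S * T)
      = CuspFormula.actL (S * T : SL(2, ℤ)) (w' + f') - (w' + f') := by
    rw [Zf_shap, Zc_ST, map_add]
    show act (S * T : SL(2, ℤ)) w' - w' + (act (S * T : SL(2, ℤ)) f' - f') = _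
    show _ = act (S * T : SL(2, ℤ)) w' + act (S * T : SL(2, ℤ)) f' - (w' + f')
    abel
  have hv' : act (T : SL(2, ℤ)) v - v = w - act (S : SL(2, ℤ)) w := by
    have := hv
    rw [hD, sett, setting_s_t, setting_s] at this
    exact this
  have hu : CuspFormula.Zf (kap Γ) (fun γ : Γ => shap Γ hΓ w (Additive.ofMul γ)) T
      = CuspFormula.actL (T : SL(2, ℤ)) (w + v + f) - (w + v + f) := by
    rw [Zf_shap, Zc_T, map_add, map_add]
    show act (T : SL(2, ℤ)) w - act (S : SL(2, ℤ)) w + (act (T : SL(2, ℤ)) f - f)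
      = act (T : SL(2, ℤ)) w + act (T : SL(2, ℤ)) v + act (T : SL(2, ℤ)) f - (w + v + f)
    linear_combination (norm := abel) (-1 : ℤ) • hv'
  have hzε : ∀ x, shap Γ hΓ w (Additive.ofMul (kap Γ (-1 : SL(2, ℤ)) x)) = 0 := by
    intro x
    rw [kap_neg_one Γ hΓ]
    exact par_neg_one Γ hΓ hz
  have hz'ε : ∀ x, shap Γ hΓ w' (Additive.ofMul (kap Γ (-1 : SL(2, ℤ)) x)) = 0 := by
    intro x
    rw [kap_neg_one Γ hΓ]
    exact par_neg_one Γ hΓ hz'
  have hcε : ∀ x, c (kap Γ (-1 : SL(2, ℤ)) x) = 0 := by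
    intro x
    rw [kap_neg_one Γ hΓ]
    exact prim_neg_one Γ hΓ h6 hz hc
  have key := CuspFormula.cusp_sum_formula (isKappa_kap Γ) hzc hzc' hcc hneg S_mul_S ST_cube' T_eq
    hzε hz'ε hcε (inv2 h6) (inv3 h6) (two_mul_inv2 h6) (three_mul_inv3 h6)
    f (w + f) (w + v + f) f' (w' + f') ha hb hu ha' hb' y h hsum hpar'
  simp only [← helt] at key
  rw [key]
  -- identify the right hand side with the pairing
  have e1 : w + v + f - f = w + v := by abel
  have e2 : w' + f' - f' = w' := by abel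
  rw [e1, e2, dotB_eq_dot]
  -- `P = t v - v = s (w + v) - (w + v)`
  have hP : D.t v - v ∈ D.W := CuspFormulaAbstract.mem_W_of_rel D hv
  have hPeq : CuspFormula.actL (S : SL(2, ℤ)) (w + v) - (w + v) = D.t v - v := by
    have h1 := congrArg D.s hv
    rw [map_sub, D.hs, map_sub, D.hs] at h1
    show D.s (w + v) - (w + v) = D.t v - v
    rw [map_add]
    linear_combination (norm := abel) (-1 : ℤ) • h1
  have hθ : shap Γ hΓ (D.θ (D.t v - v)) = shap Γ hΓ w := by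
    have := (shap_eq_zero_iff' Γ hΓ h6 _).2 (CuspFormulaAbstract.sub_theta_mem_U D hv)
    rw [map_sub, sub_eq_zero] at this
    exact this.symm
  rw [hPeq, pair_skew Γ hΓ h6 hz hz', pair_eq Γ hΓ h6 hz' hz rfl hP hθ, dot_symm]

/-- **THE CUSP-SUM FORMULA** (field `formula` of `CuspSum.CuspData`, with
`pair := fun z z' => PairOnPar.pair Γ hΓ h6 z' z`). -/
theorem cuspSum_eq_pair {z z' : Additive Γ →+ R} (hz : IsParabolicHom Γ z)
    (hz' : IsParabolicHom Γ z') {c : Γ → R} (hc : IsPrimitive z z' c) {s : Finset Γ}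
    (hs : IsCuspSystem Γ s) : cuspSum s c = pair Γ hΓ h6 z z' := by
  classical
  obtain ⟨ι, hι, y, h, HO, HC⟩ := exists_isCuspReps Γ hΓ (sec Γ) (mk_sec Γ)
  have hconj : ∀ γ : Γ, IsPrim Γ γ → ∀ δ : Γ, c (δ * γ * δ⁻¹) = c γ := fun γ hγ δ =>
    hc.conj_eq (hz γ hγ.1.trace_sq) (hz' γ hγ.1.trace_sq) δ
  rw [cuspSum_eq_of_isCuspSystem hs HC.isCuspSystem hconj, HC.cuspSum_eq]
  exact sum_elt_eq Γ hΓ h6 HO HC hz hz' hc

theorem cuspSum_eq_neg_pair {z z' : Additive Γ →+ R} (hz : IsParabolicHom Γ z)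
    (hz' : IsParabolicHom Γ z') {c : Γ → R} (hc : IsPrimitive z z' c) {s : Finset Γ}
    (hs : IsCuspSystem Γ s) : cuspSum s c = - pair Γ hΓ h6 z' z := by
  rw [cuspSum_eq_pair Γ hΓ h6 hz hz' hc hs, pair_skew Γ hΓ h6 hz hz']

end Formula

end Fermat.Agent.S41.PD.CuspFormulaSL2
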