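/-
S41 / (W1) Poincaré duality, leaf (F3-i), second seat (helper89, volunteer, branch-only).

EXISTENCE OF CUP-PRODUCT PRIMITIVES.  Let `Γ ≤ SL(2,ℤ)` contain `-1`, let `R` be a commutative ring
in which `2` is invertible, and let `z z' : Γ → R` be homomorphisms killing the elements of `Γ` of
order dividing `6` (automatic when `3` is regular in `R`, e.g. `R = ℤ[1/2], ℤ_(p), 𝔽_p (p ≥ 5)`;
for `R = 𝔽₃` it is the condition "`z, z' ∈ Par°`").  Then there is `c : Γ → R` with

  `c (γ δ) = c γ + c δ + z γ * z' δ`,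

i.e. the cup product `z ∪ z'` is a coboundary (`H²(Γ, R) = 0`).  No `1/3` is used, and `Γ` need not
have finite index.

Proof: Shapiro + `PSL(2,ℤ) = C₂ * C₃`.  On `X = SL(2,ℤ)/Γ` consider the wreath–Heisenberg group
`WH X R` of tuples `(π, a, a', e)`, `π ∈ Perm X`, `a a' e : X → R`, with
`(k k').e x = k'.e x + k.e (π' x) + k.a (π' x) * k'.a' x`.  The Shapiro cocycles `Z = coc z`,
`Z' = coc z'` give elements `ŝ = (S, Z S, Z' S, e_s)` and `t̂ = (ST, Z (ST), Z' (ST), e_t)`; one can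
choose `e_s` (using `1/2`) and `e_t` (supported on chosen representatives of the `ST`-orbits, using
that `Z (ST)`, `Z' (ST)` vanish at the `ST`-fixed cosets) with `ŝ² = 1`, `t̂³ = 1`.  The universal
property `S16/SL2Presentation.exists_hom` gives `ρ : SL(2,ℤ) → WH X R`, whose first three components
are `(g, Z g, Z' g)` by `hom_ext`; `c γ :=` the `e`-component of `ρ γ` at the base coset.
-/
import Mathlib
import Fermat.Agent.S16.SL2Presentation
import Fermat.Agent.S16.LiftHom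

set_option autoImplicit false

namespace Fermat.Agent.S41.PD.PrimitiveExists

open Matrix Matrix.SpecialLinearGroup ModularGroup
open scoped MatrixGroups
open Fermat.Agent.S16 Fermat.Agent.S16.TwistGroup Fermat.Agent.S16.LiftHom

/-! ### The wreath–Heisenberg group -/

/-- Tuples `(π, a, a', e)`: the wreath product of the Heisenberg group of `R` with `Perm X`. -/
@[ext]
structure WH (X : Type*) (R : Type*) where
  /-- the permutation of the base -/
  perm : Equiv.Perm X
  /-- first abelian coordinate -/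
  fa : X → R
  /-- second abelian coordinate -/
  fb : X → R
  /-- central coordinate -/
  fe : X → R

namespace WH

variable {X : Type*} {R : Type*} [CommRing R]

instance : Mul (WH X R) :=
  ⟨fun a b => ⟨a.perm * b.perm, fun x => b.fa x + a.fa (b.perm x),
    fun x => b.fb x + a.fb (b.perm x),
    fun x => b.fe x + a.fe (b.perm x) + a.fa (b.perm x) * b.fb x⟩⟩
instance : One (WH X R) := ⟨⟨1, fun _ => 0, fun _ => 0, fun _ => 0⟩⟩
instance : Inv (WH X R) :=
  ⟨fun a => ⟨a.perm⁻¹, fun y => - a.fa (a.perm⁻¹ y), fun y => - a.fb (a.perm⁻¹ y),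
    fun y => - a.fe (a.perm⁻¹ y) + a.fa (a.perm⁻¹ y) * a.fb (a.perm⁻¹ y)⟩⟩

@[simp] theorem mul_perm (a b : WH X R) : (a * b).perm = a.perm * b.perm := rfl
@[simp] theorem mul_fa (a b : WH X R) (x : X) : (a * b).fa x = b.fa x + a.fa (b.perm x) := rfl
@[simp] theorem mul_fb (a b : WH X R) (x : X) : (a * b).fb x = b.fb x + a.fb (b.perm x) := rfl
@[simp] theorem mul_fe (a b : WH X R) (x : X) :
    (a * b).fe x = b.fe x + a.fe (b.perm x) + a.fa (b.perm x) * b.fb x := rfl
@[simp] theorem one_perm : (1 : WH X R).perm = 1 := rfl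
@[simp] theorem one_fa (x : X) : (1 : WH X R).fa x = 0 := rfl
@[simp] theorem one_fb (x : X) : (1 : WH X R).fb x = 0 := rfl
@[simp] theorem one_fe (x : X) : (1 : WH X R).fe x = 0 := rfl
@[simp] theorem inv_perm (a : WH X R) : (a⁻¹).perm = a.perm⁻¹ := rfl
@[simp] theorem inv_fa (a : WH X R) (y : X) : (a⁻¹).fa y = - a.fa (a.perm⁻¹ y) := rfl
@[simp] theorem inv_fb (a : WH X R) (y : X) : (a⁻¹).fb y = - a.fb (a.perm⁻¹ y) := rfl
@[simp] theorem inv_fe (a : WH X R) (y : X) :
    (a⁻¹).fe y = - a.fe (a.perm⁻¹ y) + a.fa (a.perm⁻¹ y) * a.fb (a.perm⁻¹ y) := rfl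

instance : Group (WH X R) :=
  Group.ofLeftAxioms
    (fun a b c => by
      apply WH.ext
      · simp [mul_assoc]
      · funext x; simp [add_assoc]
      · funext x; simp [add_assoc]
      · funext x; simp; ring)
    (fun a => by
      apply WH.ext
      · simp
      · funext x; simp
      · funext x; simp
      · funext x; simp)
    (fun a => by
      apply WH.ext
      · simp
      · funext x; simp
      · funext x; simp
      · funext x; simp)

/-- Projection to the first twisted permutation group. -/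
def projA : WH X R →* Tw X R where
  toFun a := ⟨a.perm, a.fa⟩
  map_one' := rfl
  map_mul' _ _ := rfl

/-- Projection to the second twisted permutation group. -/
def projB : WH X R →* Tw X R where
  toFun a := ⟨a.perm, a.fb⟩
  map_one' := rfl
  map_mul' _ _ := rfl

@[simp] theorem projA_perm (a : WH X R) : (projA a).perm = a.perm := rfl
@[simp] theorem projA_fn (a : WH X R) (x : X) : (projA a).fn x = a.fa x := rfl
@[simp] theorem projB_perm (a : WH X R) : (projB a).perm = a.perm := rfl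
@[simp] theorem projB_fn (a : WH X R) (x : X) : (projB a).fn x = a.fb x := rfl

end WH

/-! ### Orbit representatives of a permutation of order dividing `3` -/

theorem exists_rep {X : Type*} (τ : X → X) (h3 : ∀ x, τ (τ (τ x)) = x) :
    ∃ rep : X → X, (∀ x, rep (τ x) = rep x) ∧
      ∀ x, rep x = x ∨ rep x = τ x ∨ rep x = τ (τ x) := by
  classical
  let r : Setoid X :=
    { r := fun x y => y = x ∨ y = τ x ∨ y = τ (τ x)
      iseqv :=
        { refl := fun x => Or.inl rfl
          symm := by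
            rintro x y (h | h | h)
            · exact Or.inl h.symm
            · exact Or.inr (Or.inr (by rw [h, h3]))
            · exact Or.inr (Or.inl (by rw [h, h3]))
          trans := by
            rintro x y z (h | h | h) (h' | h' | h')
            · exact Or.inl (by rw [h', h])
            · exact Or.inr (Or.inl (by rw [h', h]))
            · exact Or.inr (Or.inr (by rw [h', h]))
            · exact Or.inr (Or.inl (by rw [h', h]))
            · exact Or.inr (Or.inr (by rw [h', h]))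
            · exact Or.inl (by rw [h', h, h3])
            · exact Or.inr (Or.inr (by rw [h', h]))
            · exact Or.inl (by rw [h', h, h3])
            · exact Or.inr (Or.inl (by rw [h', h, h3])) } }
  refine ⟨fun x => Quotient.out (Quotient.mk r x), fun x => ?_, fun x => ?_⟩
  · have : Quotient.mk r (τ x) = Quotient.mk r x := Quotient.sound (Or.inr (Or.inr (h3 x).symm))
    show Quotient.out (Quotient.mk r (τ x)) = Quotient.out (Quotient.mk r x)
    rw [this]
  · have h : r.r x (Quotient.out (Quotient.mk r x)) := r.iseqv.symm (Quotient.mk_out (s := r) x)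
    exact h

/-- The `3`-free solution of the cube equation. -/
theorem exists_cube_potential {X : Type*} {R : Type*} [CommRing R] (τ : X → X)
    (h3 : ∀ x, τ (τ (τ x)) = x) (B B' : X → R)
    (hB : ∀ x, B x + B (τ x) + B (τ (τ x)) = 0) (hB' : ∀ x, B' x + B' (τ x) + B' (τ (τ x)) = 0)
    (hfix : ∀ x, τ x = x → B x = 0 ∧ B' x = 0) :
    ∃ e : X → R, ∀ x, e x + e (τ x) + e (τ (τ x)) +
      (B (τ (τ x)) * B' (τ x) + (B (τ x) + B (τ (τ x))) * B' x) = 0 := by
  classical
  obtain ⟨rep, hrep, hrep3⟩ := exists_rep τ h3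
  set E : X → R := fun x => B (τ (τ x)) * B' (τ x) + (B (τ x) + B (τ (τ x))) * B' x with hE
  have hEτ : ∀ x, E (τ x) = E x := by
    intro x
    simp only [hE, h3]
    linear_combination (B x) * hB' x - (B' x) * hB x
  refine ⟨fun x => if rep x = x then - E x else 0, fun x => ?_⟩
  show (if rep x = x then - E x else 0) + (if rep (τ x) = τ x then - E (τ x) else 0) +
    (if rep (τ (τ x)) = τ (τ x) then - E (τ (τ x)) else 0) + E x = 0
  simp only [hrep, hEτ]
  by_cases hx : τ x = x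
  · have h0 := hfix x hx
    have hE0 : E x = 0 := by
      simp only [hE, hx, h0.1, h0.2]; ring
    simp only [hx, hE0, neg_zero, ite_self, add_zero]
  · have hx2 : τ (τ x) ≠ x := by
      intro h
      apply hx
      have := congrArg τ h
      rw [h3] at this
      exact this.symm
    have hx12 : τ (τ x) ≠ τ x := by
      intro h
      apply hx
      have e1 : τ (τ (τ x)) = τ (τ x) := congrArg τ h
      rw [h3, h] at e1
      exact e1.symm
    rcases hrep3 x with h | h | h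
    · rw [h, if_pos rfl, if_neg (Ne.symm hx), if_neg (Ne.symm hx2)]; ring
    · rw [h, if_neg hx, if_pos rfl, if_neg (Ne.symm hx12)]; ring
    · rw [h, if_neg hx2, if_neg hx12, if_pos rfl]; ring

/-! ### The Shapiro cocycles at `-1`, `S`, `S * T` -/

section Main

variable (Γ : Subgroup SL(2, ℤ)) {R : Type*} [CommRing R]

/-- The Shapiro cocycle of a hom killing `6`-torsion vanishes at the fixed cosets of an element of
order dividing `6`. -/
theorem coc_eq_zero_of_fixed (z : Additive Γ →+ R)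
    (hz : ∀ γ : Γ, γ ^ 6 = 1 → z (Additive.ofMul γ) = 0) (g : SL(2, ℤ)) (hg : g ^ 6 = 1)
    (x : SL(2, ℤ) ⧸ Γ) (hx : g • x = x) : coc Γ z g x = 0 := by
  unfold coc
  apply hz
  apply Subtype.ext
  rw [Subgroup.coe_pow, coe_kk, hx, Subgroup.coe_one]
  have h1 : (sec Γ x)⁻¹ * (g * sec Γ x) = (sec Γ x)⁻¹ * g * ((sec Γ x)⁻¹)⁻¹ := by group
  rw [h1, conj_pow, hg]
  group

theorem neg_one_smul_eq (hneg : (-1 : SL(2, ℤ)) ∈ Γ) (x : SL(2, ℤ) ⧸ Γ) :
    (-1 : SL(2, ℤ)) • x = x := by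
  have h := toPerm_neg_one Γ hneg
  have := congrArg (fun p : Equiv.Perm (SL(2, ℤ) ⧸ Γ) => p x) h
  simpa using this

theorem coc_neg_one (hneg : (-1 : SL(2, ℤ)) ∈ Γ) (z : Additive Γ →+ R)
    (hz : ∀ γ : Γ, γ ^ 6 = 1 → z (Additive.ofMul γ) = 0) (x : SL(2, ℤ) ⧸ Γ) :
    coc Γ z (-1) x = 0 :=
  coc_eq_zero_of_fixed Γ z hz (-1) (by decide) x (neg_one_smul_eq Γ hneg x)

theorem S_smul_S_smul (hneg : (-1 : SL(2, ℤ)) ∈ Γ) (x : SL(2, ℤ) ⧸ Γ) :
    (S : SL(2, ℤ)) • ((S : SL(2, ℤ)) • x) = x := by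
  rw [← mul_smul]
  have : (S * S : SL(2, ℤ)) = -1 := by decide
  rw [this, neg_one_smul_eq Γ hneg]

theorem ST_smul_cube (hneg : (-1 : SL(2, ℤ)) ∈ Γ) (x : SL(2, ℤ) ⧸ Γ) :
    (S * T : SL(2, ℤ)) • ((S * T : SL(2, ℤ)) • ((S * T : SL(2, ℤ)) • x)) = x := by
  rw [← mul_smul, ← mul_smul]
  have : ((S * T) * (S * T) * (S * T) : SL(2, ℤ)) = -1 := by decide
  rw [this, neg_one_smul_eq Γ hneg]

theorem coc_S_add (hneg : (-1 : SL(2, ℤ)) ∈ Γ) (z : Additive Γ →+ R)
    (hz : ∀ γ : Γ, γ ^ 6 = 1 → z (Additive.ofMul γ) = 0) (x : SL(2, ℤ) ⧸ Γ) :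
    coc Γ z S x + coc Γ z S ((S : SL(2, ℤ)) • x) = 0 := by
  rw [← coc_mul]
  have : (S * S : SL(2, ℤ)) = -1 := by decide
  rw [this, coc_neg_one Γ hneg z hz]

theorem coc_ST_add (hneg : (-1 : SL(2, ℤ)) ∈ Γ) (z : Additive Γ →+ R)
    (hz : ∀ γ : Γ, γ ^ 6 = 1 → z (Additive.ofMul γ) = 0) (x : SL(2, ℤ) ⧸ Γ) :
    coc Γ z (S * T) x + coc Γ z (S * T) ((S * T : SL(2, ℤ)) • x) +
      coc Γ z (S * T) ((S * T : SL(2, ℤ)) • ((S * T : SL(2, ℤ)) • x)) = 0 := by
  have h1 := coc_mul Γ z (S * T) (S * T) x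
  have h2 := coc_mul Γ z (S * T) ((S * T) * (S * T)) x
  have h3 : ((S * T) * ((S * T) * (S * T)) : SL(2, ℤ)) = -1 := by decide
  have h4 : ((S * T) * (S * T) : SL(2, ℤ)) • x = (S * T : SL(2, ℤ)) • ((S * T : SL(2, ℤ)) • x) :=
    mul_smul _ _ _
  rw [h3, coc_neg_one Γ hneg z hz, h1, h4] at h2
  linear_combination -h2

/-! ### The main theorem -/

/-- **(F3-i) Existence of primitives.** -/
theorem exists_primitive (hneg : (-1 : SL(2, ℤ)) ∈ Γ) (i2 : R) (h2 : 2 * i2 = 1)
    (z z' : Additive Γ →+ R)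
    (hz : ∀ γ : Γ, γ ^ 6 = 1 → z (Additive.ofMul γ) = 0)
    (hz' : ∀ γ : Γ, γ ^ 6 = 1 → z' (Additive.ofMul γ) = 0) :
    ∃ c : Γ → R, ∀ γ δ : Γ,
      c (γ * δ) = c γ + c δ + z (Additive.ofMul γ) * z' (Additive.ofMul δ) := by
  classical
  -- the element `ŝ`
  set sHat : WH (SL(2, ℤ) ⧸ Γ) R :=
    ⟨MulAction.toPerm (S : SL(2, ℤ)), coc Γ z S, coc Γ z' S,
      fun x => - i2 * (coc Γ z S ((S : SL(2, ℤ)) • x) * coc Γ z' S x)⟩ with hsHat
  have hs2 : sHat ^ 2 = 1 := by
    rw [pow_two]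
    apply WH.ext
    · ext x
      show (S : SL(2, ℤ)) • ((S : SL(2, ℤ)) • x) = x
      exact S_smul_S_smul Γ hneg x
    · funext x
      show coc Γ z S x + coc Γ z S ((S : SL(2, ℤ)) • x) = 0
      exact coc_S_add Γ hneg z hz x
    · funext x
      show coc Γ z' S x + coc Γ z' S ((S : SL(2, ℤ)) • x) = 0
      exact coc_S_add Γ hneg z' hz' x
    · funext x
      show - i2 * (coc Γ z S ((S : SL(2, ℤ)) • x) * coc Γ z' S x) +
        - i2 * (coc Γ z S ((S : SL(2, ℤ)) • ((S : SL(2, ℤ)) • x)) *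
          coc Γ z' S ((S : SL(2, ℤ)) • x)) +
        coc Γ z S ((S : SL(2, ℤ)) • x) * coc Γ z' S x = 0
      rw [S_smul_S_smul Γ hneg x]
      have e1 := coc_S_add Γ hneg z hz x
      have e2 := coc_S_add Γ hneg z' hz' x
      have e1' : coc Γ z S ((S : SL(2, ℤ)) • x) = - coc Γ z S x := by linear_combination e1
      have e2' : coc Γ z' S ((S : SL(2, ℤ)) • x) = - coc Γ z' S x := by linear_combination e2
      rw [e1', e2']
      linear_combination (coc Γ z S x * coc Γ z' S x) * h2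
  -- the element `t̂`
  obtain ⟨e, he⟩ := exists_cube_potential
    (fun x : SL(2, ℤ) ⧸ Γ => (S * T : SL(2, ℤ)) • x) (ST_smul_cube Γ hneg)
    (coc Γ z (S * T)) (coc Γ z' (S * T)) (coc_ST_add Γ hneg z hz) (coc_ST_add Γ hneg z' hz')
    (fun x hx => ⟨coc_eq_zero_of_fixed Γ z hz (S * T) (by decide) x hx,
      coc_eq_zero_of_fixed Γ z' hz' (S * T) (by decide) x hx⟩)
  set tHat : WH (SL(2, ℤ) ⧸ Γ) R :=
    ⟨MulAction.toPerm (S * T : SL(2, ℤ)), coc Γ z (S * T), coc Γ z' (S * T), e⟩ with htHat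
  have ht3 : tHat ^ 3 = 1 := by
    rw [pow_succ, pow_two]
    apply WH.ext
    · ext x
      show (S * T : SL(2, ℤ)) • ((S * T : SL(2, ℤ)) • ((S * T : SL(2, ℤ)) • x)) = x
      exact ST_smul_cube Γ hneg x
    · funext x
      show coc Γ z (S * T) x + (coc Γ z (S * T) ((S * T : SL(2, ℤ)) • x) +
        coc Γ z (S * T) ((S * T : SL(2, ℤ)) • ((S * T : SL(2, ℤ)) • x))) = 0
      linear_combination coc_ST_add Γ hneg z hz x
    · funext x
      show coc Γ z' (S * T) x + (coc Γ z' (S * T) ((S * T : SL(2, ℤ)) • x) +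
        coc Γ z' (S * T) ((S * T : SL(2, ℤ)) • ((S * T : SL(2, ℤ)) • x))) = 0
      linear_combination coc_ST_add Γ hneg z' hz' x
    · funext x
      show e x + (e ((S * T : SL(2, ℤ)) • x) + e ((S * T : SL(2, ℤ)) • ((S * T : SL(2, ℤ)) • x)) +
          coc Γ z (S * T) ((S * T : SL(2, ℤ)) • ((S * T : SL(2, ℤ)) • x)) *
            coc Γ z' (S * T) ((S * T : SL(2, ℤ)) • x)) +
        (coc Γ z (S * T) ((S * T : SL(2, ℤ)) • x) +
          coc Γ z (S * T) ((S * T : SL(2, ℤ)) • ((S * T : SL(2, ℤ)) • x))) *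
            coc Γ z' (S * T) x = 0
      linear_combination he x
  -- the homomorphism
  obtain ⟨ρ, hρS, hρU⟩ := SL2Presentation.exists_hom sHat tHat hs2 ht3
  have hA : WH.projA.comp ρ = cocHom Γ z := by
    apply SL2Presentation.hom_ext
    · rw [MonoidHom.comp_apply, hρS]; rfl
    · rw [MonoidHom.comp_apply, hρU]; rfl
  have hB : WH.projB.comp ρ = cocHom Γ z' := by
    apply SL2Presentation.hom_ext
    · rw [MonoidHom.comp_apply, hρS]; rfl
    · rw [MonoidHom.comp_apply, hρU]; rfl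
  have hperm : ∀ g : SL(2, ℤ), (ρ g).perm = MulAction.toPerm g := fun g => by
    have := congrArg (fun f : SL(2, ℤ) →* Tw (SL(2, ℤ) ⧸ Γ) R => (f g).perm) hA
    simpa using this
  have hfa : ∀ (g : SL(2, ℤ)) (x : SL(2, ℤ) ⧸ Γ), (ρ g).fa x = coc Γ z g x := fun g x => by
    have := congrArg (fun f : SL(2, ℤ) →* Tw (SL(2, ℤ) ⧸ Γ) R => (f g).fn x) hA
    simpa using this
  have hfb : ∀ (g : SL(2, ℤ)) (x : SL(2, ℤ) ⧸ Γ), (ρ g).fb x = coc Γ z' g x := fun g x => by
    have := congrArg (fun f : SL(2, ℤ) →* Tw (SL(2, ℤ) ⧸ Γ) R => (f g).fn x) hB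
    simpa using this
  refine ⟨fun γ => (ρ (γ : SL(2, ℤ))).fe (base Γ), fun γ δ => ?_⟩
  show (ρ ((γ * δ : Γ) : SL(2, ℤ))).fe (base Γ) = _
  rw [Subgroup.coe_mul, map_mul, WH.mul_fe, hperm, hfa, hfb]
  have hb : (MulAction.toPerm (δ : SL(2, ℤ)) : Equiv.Perm (SL(2, ℤ) ⧸ Γ)) (base Γ) = base Γ :=
    smul_base Γ δ.2
  rw [hb, coc_base, coc_base]
  ring

/-- Variant: `3` regular in `R` instead of the torsion hypotheses (route (A): `R = ℤ[1/2]`, `ℤ_(p)`,
`𝔽_p` with `p ≥ 5`, ...). -/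
theorem exists_primitive_of_three_regular (hneg : (-1 : SL(2, ℤ)) ∈ Γ) (i2 : R) (h2 : 2 * i2 = 1)
    (h3 : ∀ r : R, 3 * r = 0 → r = 0) (z z' : Additive Γ →+ R) :
    ∃ c : Γ → R, ∀ γ δ : Γ,
      c (γ * δ) = c γ + c δ + z (Additive.ofMul γ) * z' (Additive.ofMul δ) := by
  have key : ∀ w : Additive Γ →+ R, ∀ γ : Γ, γ ^ 6 = 1 → w (Additive.ofMul γ) = 0 := by
    intro w γ hγ
    have h6 : (6 : ℕ) • w (Additive.ofMul γ) = 0 := by
      rw [← map_nsmul, ← ofMul_pow, hγ, ofMul_one, map_zero]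
    rw [nsmul_eq_mul] at h6
    apply h3
    have : (3 : R) * w (Additive.ofMul γ) = i2 * (((6 : ℕ) : R) * w (Additive.ofMul γ)) := by
      push_cast
      linear_combination (-3 * w (Additive.ofMul γ)) * h2
    rw [this, h6, mul_zero]
  exact exists_primitive Γ hneg i2 h2 z z' (key z) (key z')

end Main

end Fermat.Agent.S41.PD.PrimitiveExists
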