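/-
S41 / (W1) step F3, packaging (helper60): the structure `CuspSum.CuspData Γ R` (helper76, F4) for
every finite index subgroup `Γ ≤ SL(2,ℤ)` containing `-1` and every commutative ring `R` in which
`6` is a unit, with `pair z z' := PairOnPar.pair Γ hΓ h6 z' z` (helper29, F6a):

* `exists_primitive` : helper89's `PrimitiveExists.exists_primitive_of_three_regular` (F3-i);
* `exists_system`    : helper76's `CuspReps.exists_isCuspSystem` (F3-ii);
* `formula`          : `CuspFormulaSL2.cuspSum_eq_neg_pair` (F3-iii).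

Consequence (`pair_comp`): every `PosParIso Γ' Γ''` (conjugation by `diag(m,1)`, `m > 0`, by an
element of `SL(2,ℤ)`, and their composites, e.g. the Atkin-Lehner involutions) is an ISOMETRY of
the Poincare pairing `PairOnPar.pair` on parabolic homs.
-/
import Mathlib
import Fermat.Agent.S41.PD.CuspFormulaSL2
import Fermat.Agent.S41.PD.PrimitiveExists

set_option autoImplicit false

open scoped MatrixGroups

namespace Fermat.Agent.S41.PD.CuspDataSL2

open ModularCurve.Period
open Fermat.Agent.S41.PD.PairOnPar Fermat.Agent.S41.PD.CuspSum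

variable (Γ : Subgroup SL(2, ℤ)) (hΓ : (-1 : SL(2, ℤ)) ∈ Γ) [Γ.FiniteIndex]
  {R : Type*} [CommRing R] (h6 : IsUnit (6 : R))

include h6 in
theorem three_regular (r : R) (h : 3 * r = 0) : r = 0 := by
  calc r = (3 * inv3 h6) * r := by rw [three_mul_inv3, one_mul]
    _ = inv3 h6 * (3 * r) := by ring
    _ = 0 := by rw [h, mul_zero]

/-- **The cusp data of `Γ`** (outputs of step F3). -/
noncomputable def cuspData : CuspData Γ R where
  pair z z' := pair Γ hΓ h6 z' z
  exists_primitive z z' _ _ :=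
    PrimitiveExists.exists_primitive_of_three_regular Γ hΓ (inv2 h6) (two_mul_inv2 h6)
      (three_regular h6) z z'
  exists_system := by
    classical
    exact CuspReps.exists_isCuspSystem Γ hΓ
  formula _ _ hz hz' _ hc _ hs := CuspFormulaSL2.cuspSum_eq_neg_pair Γ hΓ h6 hz hz' hc hs

@[simp] theorem cuspData_pair (z z' : Additive Γ →+ R) :
    (cuspData Γ hΓ h6).pair z z' = pair Γ hΓ h6 z' z := rfl

/-- **Isometry**: the Poincare pairing is invariant under every isomorphism `Γ' ≃* Γ''` respecting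
positive parabolics (`CuspSum.PosParIso`: conjugation by `diag(m,1)`, by `SL(2,ℤ)`, Atkin-Lehner). -/
theorem pair_pull {Γ' Γ'' : Subgroup SL(2, ℤ)} (hΓ' : (-1 : SL(2, ℤ)) ∈ Γ')
    (hΓ'' : (-1 : SL(2, ℤ)) ∈ Γ'') [Γ'.FiniteIndex] [Γ''.FiniteIndex] (e : PosParIso Γ' Γ'')
    {z z' : Additive Γ'' →+ R} (hz : IsParabolicHom Γ'' z) (hz' : IsParabolicHom Γ'' z') :
    pair Γ' hΓ' h6 (e.pull z) (e.pull z') = pair Γ'' hΓ'' h6 z z' :=
  CuspData.pair_comp (cuspData Γ' hΓ' h6) (cuspData Γ'' hΓ'' h6) e z' z hz' hz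

end Fermat.Agent.S41.PD.CuspDataSL2
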