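/-
S41 / (W1) step F5 (helper63): functoriality of the abstract Poincare duality package of
`Fermat.Agent.S41.PD.AbstractDuality` (helper29, F1), and adjointness of restriction / transfer.

Setting: two modules `V'`, `V` over `C2 * C3` (two `AbstractDuality.Setting`s `D'`, `D` over the
same base ring), an equivariant linear map `π : V' → V` (it commutes with `s` and with `t`).

* `π` maps `W' → W`, `Vs' → Vs`, `Vt' → Vt`, `U' → U`, `VT' → VT`, `BT' → BT`
  (`map_mem_W`, ..., `map_mem_BT`), commutes with `θ` (`map_θ`), with `d u = s u - u` (`map_d`)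
  and with `r w = w - s w` (`map_r`): so it induces a map of the whole exact sequence
  `VT --d--> W --j--> V/U --r--> V/BT`, in particular of `H^1_par = ker r = im j = W / d(VT)`.
* if `B`, `B'` are bilinear forms on `V`, `V'` and `π† : V → V'` is adjoint to `π`
  (`B (π x) y = B' x (π† y)`), then the Poincare pairings `ω (P, Q) = B (θ P) Q` satisfy
  `ω (π P', P) = ω' (P', π† P)` (`adjoint_ω`, `adjoint_ω'`): restriction and transfer are adjoint
  for the Poincare pairing.
* the adjoint of an equivariant map with respect to invariant forms is equivariant, provided the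
  form on the source is nondegenerate (`adjoint_comm_s`, `adjoint_comm_t`).
* the concrete instance: `V = (X → R)` for a finite set `X` with two permutations `σ`, `τ`
  (`σ^2 = 1`, `τ^3 = 1`), the dot product, and for an equivariant map `f : X' → X` the
  pull-back `f^*` and the push-forward (sum over the fibres) `f_*`; they are equivariant and
  adjoint (`FunSetting`, `pull`, `push`, `dot_push_eq_dot_pull`).
Mathlib + AbstractDuality only.
-/
import Mathlib
import Fermat.Agent.S41.PD.AbstractDuality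

set_option autoImplicit false

namespace Fermat.Agent.S41.PD.Functoriality

open Fermat.Agent.S41.PD.AbstractDuality

variable {R V V' : Type*} [CommRing R] [AddCommGroup V] [Module R V] [AddCommGroup V']
  [Module R V'] (D : Setting R V) (D' : Setting R V')

/-- the inverse of two is unique. -/
theorem i2_eq : D'.i2 = D.i2 := by
  calc D'.i2 = D'.i2 * (2 * D.i2) := by rw [D.h2, mul_one]
    _ = (2 * D'.i2) * D.i2 := by ring
    _ = D.i2 := by rw [D'.h2, one_mul]

/-- the inverse of three is unique. -/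
theorem i3_eq : D'.i3 = D.i3 := by
  calc D'.i3 = D'.i3 * (3 * D.i3) := by rw [D.h3, mul_one]
    _ = (3 * D'.i3) * D.i3 := by ring
    _ = D.i3 := by rw [D'.h3, one_mul]

section Equivariant

variable (π : V' →ₗ[R] V) (hπs : ∀ x, π (D'.s x) = D.s (π x)) (hπt : ∀ x, π (D'.t x) = D.t (π x))

include hπs hπt in
/-- an equivariant map preserves the Manin relations. -/
theorem map_mem_W {P : V'} (hP : P ∈ D'.W) : π P ∈ D.W := by
  obtain ⟨h1, h2⟩ := hP
  refine ⟨?_, ?_⟩
  · rw [← hπs, h1, map_neg]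
  · rw [← hπt, ← hπt, ← map_add, ← map_add, h2, map_zero]

include hπs in
theorem map_mem_Vs {a : V'} (ha : a ∈ D'.Vs) : π a ∈ D.Vs := by
  rw [Setting.mem_Vs] at ha ⊢
  rw [← hπs, ha]

include hπt in
theorem map_mem_Vt {a : V'} (ha : a ∈ D'.Vt) : π a ∈ D.Vt := by
  rw [Setting.mem_Vt] at ha ⊢
  rw [← hπt, ha]

include hπs hπt in
theorem map_mem_U {x : V'} (hx : x ∈ D'.U) : π x ∈ D.U := by
  obtain ⟨a, b, ha, hb, rfl⟩ := D'.mem_U.1 hx
  refine D.mem_U.2 ⟨π a, π b, ?_, ?_, (map_add π a b).symm⟩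
  · rw [← hπs, ha]
  · rw [← hπt, hb]

include hπs hπt in
theorem map_mem_VT {u : V'} (hu : u ∈ D'.VT) : π u ∈ D.VT := by
  rw [Setting.mem_VT] at hu ⊢
  rw [← hπt, ← hπs, hu]

include hπs hπt in
theorem map_mem_BT {y : V'} (hy : y ∈ D'.BT) : π y ∈ D.BT := by
  obtain ⟨v, rfl⟩ := D'.mem_BT.1 hy
  refine D.mem_BT.2 ⟨π v, ?_⟩
  rw [map_sub, hπs, hπt]

include hπt in
/-- an equivariant map commutes with `θ`. -/
theorem map_θ (x : V') : π (D'.θ x) = D.θ (π x) := by
  rw [Setting.θ_apply, Setting.θ_apply, i2_eq D D', i3_eq D D']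
  simp only [map_sub, map_smul, hπt]

include hπs in
/-- an equivariant map commutes with `d u = s u - u`. -/
theorem map_d (u : V') : π (D'.s u - u) = D.s (π u) - π u := by
  rw [map_sub, hπs]

include hπs in
/-- an equivariant map commutes with `r w = w - s w`. -/
theorem map_r (w : V') : π (w - D'.s w) = π w - D.s (π w) := by
  rw [map_sub, hπs]

include hπs hπt in
theorem map_W_le : D'.W.map π ≤ D.W := by
  rintro _ ⟨P, hP, rfl⟩
  exact map_mem_W D D' π hπs hπt hP

include hπs hπt in
theorem map_U_le : D'.U.map π ≤ D.U := by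
  rintro _ ⟨P, hP, rfl⟩
  exact map_mem_U D D' π hπs hπt hP

include hπs hπt in
theorem map_VT_le : D'.VT.map π ≤ D.VT := by
  rintro _ ⟨P, hP, rfl⟩
  exact map_mem_VT D D' π hπs hπt hP

include hπs hπt in
theorem map_BT_le : D'.BT.map π ≤ D.BT := by
  rintro _ ⟨P, hP, rfl⟩
  exact map_mem_BT D D' π hπs hπt hP

include hπs hπt in
theorem U_le_comap : D'.U ≤ D.U.comap π := fun _ hx => map_mem_U D D' π hπs hπt hx

include hπs hπt in
theorem BT_le_comap : D'.BT ≤ D.BT.comap π := fun _ hx => map_mem_BT D D' π hπs hπt hx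

/-- the induced map on relative cocycles `W' → W`. -/
def mapW : D'.W →ₗ[R] D.W :=
  π.restrict (p := D'.W) (q := D.W) (fun _ hP => map_mem_W D D' π hπs hπt hP)

/-- the induced map on `T`-invariants `VT' → VT`. -/
def mapVT : D'.VT →ₗ[R] D.VT :=
  π.restrict (p := D'.VT) (q := D.VT) (fun _ hP => map_mem_VT D D' π hπs hπt hP)

/-- the induced map `V'/U' → V/U` on `H^1(G, -)`. -/
def mapQ : (V' ⧸ D'.U) →ₗ[R] (V ⧸ D.U) :=
  D'.U.mapQ D.U π (U_le_comap D D' π hπs hπt)

/-- the induced map `V'/BT' → V/BT` on `H^1(<T>, -)`. -/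
def mapQT : (V' ⧸ D'.BT) →ₗ[R] (V ⧸ D.BT) :=
  D'.BT.mapQ D.BT π (BT_le_comap D D' π hπs hπt)

@[simp] theorem mapW_coe (P : D'.W) : ((mapW D D' π hπs hπt P : D.W) : V) = π P := rfl

@[simp] theorem mapVT_coe (u : D'.VT) : ((mapVT D D' π hπs hπt u : D.VT) : V) = π u := rfl

@[simp] theorem mapQ_mk (w : V') :
    mapQ D D' π hπs hπt (Submodule.Quotient.mk w) = Submodule.Quotient.mk (π w) := rfl

@[simp] theorem mapQT_mk (w : V') :
    mapQT D D' π hπs hπt (Submodule.Quotient.mk w) = Submodule.Quotient.mk (π w) := rfl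

/-- `j ∘ π = π ∘ j` on the level of `W → V/U`. -/
theorem mapQ_j (P : D'.W) :
    mapQ D D' π hπs hπt (Submodule.Quotient.mk (D'.θ P)) =
      Submodule.Quotient.mk (D.θ (mapW D D' π hπs hπt P)) := by
  rw [mapQ_mk, mapW_coe, map_θ D D' π hπt]

end Equivariant

section Adjoint

variable (B : LinearMap.BilinForm R V) (B' : LinearMap.BilinForm R V')
  (π : V' →ₗ[R] V) (π' : V →ₗ[R] V') (hadj : ∀ x y, B (π x) y = B' x (π' y))

include hadj in
/-- **restriction and transfer are adjoint for the Poincare pairing** `ω (P, Q) = B (θ P) Q`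
(first form). -/
theorem adjoint_ω (hπt : ∀ x, π (D'.t x) = D.t (π x)) (P' : V') (P : V) :
    B (D.θ (π P')) P = B' (D'.θ P') (π' P) := by
  rw [← map_θ D D' π hπt, hadj]

include hadj in
/-- **restriction and transfer are adjoint for the Poincare pairing** (second form, `θ` on the
right). -/
theorem adjoint_ω' (hπ't : ∀ y, π' (D.t y) = D'.t (π' y)) (P' : V') (P : V) :
    B (π P') (D.θ P) = B' P' (D'.θ (π' P)) := by
  rw [← map_θ D' D π' hπ't, hadj]

include hadj in
/-- the adjoint of a map commuting with `s` commutes with `s` (the forms being `s`-invariant and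
the one on the source right-nondegenerate). -/
theorem adjoint_comm_s (hBs : ∀ x y, B (D.s x) (D.s y) = B x y)
    (hB's : ∀ x y, B' (D'.s x) (D'.s y) = B' x y)
    (hnd : ∀ y, (∀ x, B' x y = 0) → y = 0)
    (hπs : ∀ x, π (D'.s x) = D.s (π x)) (y : V) : π' (D.s y) = D'.s (π' y) := by
  rw [← sub_eq_zero]
  apply hnd
  intro x
  have e1 : B' x (π' (D.s y)) = B (D.s (π x)) y := by
    rw [← hadj, ← hBs, D.hs]
  have e2 : B' x (D'.s (π' y)) = B (D.s (π x)) y := by
    rw [← hπs, hadj, ← hB's, D'.hs]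
  rw [map_sub, e1, e2, sub_self]

include hadj in
/-- the adjoint of a map commuting with `t` commutes with `t` (the forms being `t`-invariant and
the one on the source right-nondegenerate). -/
theorem adjoint_comm_t (hBt : ∀ x y, B (D.t x) (D.t y) = B x y)
    (hB't : ∀ x y, B' (D'.t x) (D'.t y) = B' x y)
    (hnd : ∀ y, (∀ x, B' x y = 0) → y = 0)
    (hπt : ∀ x, π (D'.t x) = D.t (π x)) (y : V) : π' (D.t y) = D'.t (π' y) := by
  rw [← sub_eq_zero]
  apply hnd
  intro x
  have e1 : B' x (π' (D.t y)) = B (D.t (D.t (π x))) y := by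
    rw [← hadj, ← hBt (D.t (D.t (π x))) y, D.ht]
  have e2 : B' x (D'.t (π' y)) = B (D.t (D.t (π x))) y := by
    rw [← hπt, ← hπt, hadj, ← hB't (D'.t (D'.t x)) (π' y), D'.ht]
  rw [map_sub, e1, e2, sub_self]

end Adjoint

section Composite

variable (B : LinearMap.BilinForm R V) (B' : LinearMap.BilinForm R V')
  (π : V' →ₗ[R] V) (π' : V →ₗ[R] V') (hadj : ∀ x y, B (π x) y = B' x (π' y))

include hadj in
/-- if `π ∘ π† = d` (e.g. `π†` = restriction to a subgroup of index `d`, `π` = transfer) then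
`ω' (π† P, π† Q) = d ω (P, Q)`. -/
theorem ω_pull_pull (hπt : ∀ x, π (D'.t x) = D.t (π x))
    (d : R) (hd : ∀ y, π (π' y) = d • y) (P Q : V) :
    B' (D'.θ (π' P)) (π' Q) = d * B (D.θ P) Q := by
  rw [← adjoint_ω D D' B B' π π' hadj hπt, hd, map_smul, map_smul, LinearMap.smul_apply,
    smul_eq_mul]

end Composite

/-! ### The concrete instance: functions on a finite `C2 * C3`-set -/

section Concrete

variable {X X' : Type*}

/-- precomposition with a self-map of `X`, as a linear endomorphism of `X → R`. -/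
def precomp (R : Type*) [CommRing R] (σ : X → X) : (X → R) →ₗ[R] (X → R) :=
  LinearMap.funLeft R R σ

@[simp] theorem precomp_apply (σ : X → X) (h : X → R) (x : X) : precomp R σ h x = h (σ x) := rfl

/-- the `C2 * C3`-module of functions on a set with two permutations `σ`, `τ`,
`σ^2 = 1`, `τ^3 = 1`: `(s h) x = h (σ x)`, `(t h) x = h (τ x)`. -/
def FunSetting (σ τ : X → X) (hσ : ∀ x, σ (σ x) = x) (hτ : ∀ x, τ (τ (τ x)) = x)
    (i2 i3 : R) (h2 : 2 * i2 = 1) (h3 : 3 * i3 = 1) : Setting R (X → R) where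
  s := precomp R σ
  t := precomp R τ
  hs := fun h => by funext x; simp [hσ]
  ht := fun h => by funext x; simp [hτ]
  i2 := i2
  i3 := i3
  h2 := h2
  h3 := h3

/-- the dot product on `X → R`. -/
def dot (R : Type*) [CommRing R] (X : Type*) [Fintype X] : LinearMap.BilinForm R (X → R) :=
  LinearMap.mk₂ R (fun g h => ∑ x, g x * h x)
    (fun g g' h => by simp [add_mul, Finset.sum_add_distrib])
    (fun c g h => by simp [Finset.mul_sum, mul_assoc])
    (fun g h h' => by simp [mul_add, Finset.sum_add_distrib])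
    (fun c g h => by simp [Finset.mul_sum, mul_left_comm])

@[simp] theorem dot_apply [Fintype X] (g h : X → R) : dot R X g h = ∑ x, g x * h x := rfl

theorem dot_symm [Fintype X] (g h : X → R) : dot R X g h = dot R X h g := by
  simp only [dot_apply, mul_comm]

/-- the dot product is invariant under precomposition with a bijection. -/
theorem dot_precomp [Fintype X] (σ : X → X) (hσ : Function.Bijective σ) (g h : X → R) :
    dot R X (precomp R σ g) (precomp R σ h) = dot R X g h := by
  simp only [dot_apply, precomp_apply]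
  exact (Equiv.ofBijective σ hσ).sum_comp (fun x => g x * h x)

theorem dot_single_right [Fintype X] [DecidableEq X] (g : X → R) (x : X) :
    dot R X g (Pi.single x 1) = g x := by
  simp [dot_apply, Pi.single_apply]

theorem dot_single_left [Fintype X] [DecidableEq X] (g : X → R) (x : X) :
    dot R X (Pi.single x 1) g = g x := by
  rw [dot_symm, dot_single_right]

/-- the dot product is (right) nondegenerate. -/
theorem dot_right_nondeg [Fintype X] (h : X → R) (hh : ∀ g, dot R X g h = 0) : h = 0 := by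
  classical
  funext x
  have := hh (Pi.single x 1)
  rwa [dot_single_left] at this

/-- the dot product is (left) nondegenerate. -/
theorem dot_left_nondeg [Fintype X] (g : X → R) (hg : ∀ h, dot R X g h = 0) : g = 0 := by
  classical
  funext x
  have := hg (Pi.single x 1)
  rwa [dot_single_right] at this

theorem involutive_bijective {σ : X → X} (hσ : ∀ x, σ (σ x) = x) : Function.Bijective σ :=
  Function.Involutive.bijective hσ

theorem order3_bijective {τ : X → X} (hτ : ∀ x, τ (τ (τ x)) = x) : Function.Bijective τ :=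
  ⟨fun a b hab => by rw [← hτ a, ← hτ b, hab], fun b => ⟨τ (τ b), hτ b⟩⟩

variable (σ τ : X → X) (hσ : ∀ x, σ (σ x) = x) (hτ : ∀ x, τ (τ (τ x)) = x)
  (σ' τ' : X' → X') (hσ' : ∀ x, σ' (σ' x) = x) (hτ' : ∀ x, τ' (τ' (τ' x)) = x)
  (i2 i3 : R) (h2 : 2 * i2 = 1) (h3 : 3 * i3 = 1)

theorem dot_s [Fintype X] (g h : X → R) :
    dot R X ((FunSetting σ τ hσ hτ i2 i3 h2 h3).s g) ((FunSetting σ τ hσ hτ i2 i3 h2 h3).s h) =
      dot R X g h :=
  dot_precomp σ (involutive_bijective hσ) g h

theorem dot_t [Fintype X] (g h : X → R) :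
    dot R X ((FunSetting σ τ hσ hτ i2 i3 h2 h3).t g) ((FunSetting σ τ hσ hτ i2 i3 h2 h3).t h) =
      dot R X g h :=
  dot_precomp τ (order3_bijective hτ) g h

/-- pull-back of functions along `f : X' → X` (restriction `res`). -/
def pull (R : Type*) [CommRing R] (f : X' → X) : (X → R) →ₗ[R] (X' → R) :=
  LinearMap.funLeft R R f

@[simp] theorem pull_apply (f : X' → X) (h : X → R) (x' : X') : pull R f h x' = h (f x') := rfl

/-- push-forward of functions along `f : X' → X`: sum over the fibres (transfer `cores`). -/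
def push (R : Type*) [CommRing R] [Fintype X'] [DecidableEq X] (f : X' → X) :
    (X' → R) →ₗ[R] (X → R) where
  toFun h x := ∑ x' with f x' = x, h x'
  map_add' g h := by funext x; simp [Finset.sum_add_distrib]
  map_smul' c h := by funext x; simp [Finset.mul_sum]

@[simp] theorem push_apply [Fintype X'] [DecidableEq X] (f : X' → X) (h : X' → R) (x : X) :
    push R f h x = ∑ x' with f x' = x, h x' := rfl

/-- `f_*` and `f^*` are adjoint for the dot products. -/
theorem dot_push_eq_dot_pull [Fintype X] [Fintype X'] [DecidableEq X] (f : X' → X) (h : X' → R)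
    (g : X → R) : dot R X (push R f h) g = dot R X' h (pull R f g) := by
  simp only [dot_apply, push_apply, pull_apply, Finset.sum_mul]
  rw [← Finset.sum_fiberwise (s := Finset.univ) (g := f) (f := fun x' => h x' * g (f x'))]
  refine Finset.sum_congr rfl (fun x _ => Finset.sum_congr rfl (fun x' hx' => ?_))
  rw [(Finset.mem_filter.1 hx').2]

theorem dot_pull_eq_dot_push [Fintype X] [Fintype X'] [DecidableEq X] (f : X' → X) (g : X → R)
    (h : X' → R) : dot R X' (pull R f g) h = dot R X g (push R f h) := by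
  rw [dot_symm, ← dot_push_eq_dot_pull, dot_symm]

variable (f : X' → X) (hfσ : ∀ x, f (σ' x) = σ (f x)) (hfτ : ∀ x, f (τ' x) = τ (f x))

include hfσ in
theorem pull_s (g : X → R) :
    pull R f ((FunSetting σ τ hσ hτ i2 i3 h2 h3).s g) =
      (FunSetting σ' τ' hσ' hτ' i2 i3 h2 h3).s (pull R f g) := by
  funext x
  show g (σ (f x)) = g (f (σ' x))
  rw [hfσ]

include hfτ in
theorem pull_t (g : X → R) :
    pull R f ((FunSetting σ τ hσ hτ i2 i3 h2 h3).t g) =
      (FunSetting σ' τ' hσ' hτ' i2 i3 h2 h3).t (pull R f g) := by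
  funext x
  show g (τ (f x)) = g (f (τ' x))
  rw [hfτ]

include hfσ in
theorem push_s [Fintype X] [Fintype X'] [DecidableEq X] (h : X' → R) :
    push R f ((FunSetting σ' τ' hσ' hτ' i2 i3 h2 h3).s h) =
      (FunSetting σ τ hσ hτ i2 i3 h2 h3).s (push R f h) :=
  adjoint_comm_s (FunSetting σ' τ' hσ' hτ' i2 i3 h2 h3) (FunSetting σ τ hσ hτ i2 i3 h2 h3)
    (dot R X') (dot R X) (pull R f) (push R f) (dot_pull_eq_dot_push f)
    (dot_s σ' τ' hσ' hτ' i2 i3 h2 h3) (dot_s σ τ hσ hτ i2 i3 h2 h3) dot_right_nondeg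
    (pull_s σ τ hσ hτ σ' τ' hσ' hτ' i2 i3 h2 h3 f hfσ) h

include hfτ in
theorem push_t [Fintype X] [Fintype X'] [DecidableEq X] (h : X' → R) :
    push R f ((FunSetting σ' τ' hσ' hτ' i2 i3 h2 h3).t h) =
      (FunSetting σ τ hσ hτ i2 i3 h2 h3).t (push R f h) :=
  adjoint_comm_t (FunSetting σ' τ' hσ' hτ' i2 i3 h2 h3) (FunSetting σ τ hσ hτ i2 i3 h2 h3)
    (dot R X') (dot R X) (pull R f) (push R f) (dot_pull_eq_dot_push f)
    (dot_t σ' τ' hσ' hτ' i2 i3 h2 h3) (dot_t σ τ hσ hτ i2 i3 h2 h3) dot_right_nondeg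
    (pull_t σ τ hσ hτ σ' τ' hσ' hτ' i2 i3 h2 h3 f hfτ) h

omit σ τ σ' τ' in
/-- `f_* f^* = d` when all fibres of `f` have `d` elements (`d = [Γ : Γ']`). -/
theorem push_pull [Fintype X'] [DecidableEq X] (d : ℕ)
    (hd : ∀ x, (Finset.univ.filter (fun x' => f x' = x)).card = d)
    (g : X → R) : push R f (pull R f g) = (d : R) • g := by
  funext x
  simp only [push_apply, pull_apply, Pi.smul_apply, smul_eq_mul]
  rw [Finset.sum_congr rfl (fun x' hx' => by rw [(Finset.mem_filter.1 hx').2] :
    ∀ x' ∈ Finset.univ.filter (fun x' => f x' = x), g (f x') = g x)]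
  rw [Finset.sum_const, hd, nsmul_eq_mul]

include hfτ in
/-- **restriction and transfer are adjoint for the Poincare pairings** on the relative cocycles of
`X' → R` and `X → R`. -/
theorem ω_push_eq_ω_pull [Fintype X] [Fintype X'] [DecidableEq X] (P' : X' → R) (P : X → R) :
    dot R X ((FunSetting σ τ hσ hτ i2 i3 h2 h3).θ (push R f P')) P =
      dot R X' ((FunSetting σ' τ' hσ' hτ' i2 i3 h2 h3).θ P') (pull R f P) :=
  adjoint_ω (FunSetting σ τ hσ hτ i2 i3 h2 h3) (FunSetting σ' τ' hσ' hτ' i2 i3 h2 h3)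
    (dot R X) (dot R X') (push R f) (pull R f) (dot_push_eq_dot_pull f)
    (push_t σ τ hσ hτ σ' τ' hσ' hτ' i2 i3 h2 h3 f hfτ) P' P

include hfτ in
/-- `ω' (res P, res Q) = [Γ : Γ'] ω (P, Q)`. -/
theorem ω_pull_pull_concrete [Fintype X] [Fintype X'] [DecidableEq X] (d : ℕ)
    (hd : ∀ x, (Finset.univ.filter (fun x' => f x' = x)).card = d) (P Q : X → R) :
    dot R X' ((FunSetting σ' τ' hσ' hτ' i2 i3 h2 h3).θ (pull R f P)) (pull R f Q) =
      (d : R) * dot R X ((FunSetting σ τ hσ hτ i2 i3 h2 h3).θ P) Q :=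
  ω_pull_pull (FunSetting σ τ hσ hτ i2 i3 h2 h3) (FunSetting σ' τ' hσ' hτ' i2 i3 h2 h3)
    (dot R X) (dot R X') (push R f) (pull R f) (dot_push_eq_dot_pull f)
    (push_t σ τ hσ hτ σ' τ' hσ' hτ' i2 i3 h2 h3 f hfτ) (d : R) (push_pull f d hd) P Q

end Concrete

end Fermat.Agent.S41.PD.Functoriality
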