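/-
S41 / (W1) step F6b (helper29): functoriality of the Poincare pairing of `PairOnPar`.

* `pull f`, `push f` for an equivariant map `f : X' → X` of finite `G`-sets: equivariant, adjoint for
  the dot products; naturality of the cocycles `Zc` (`Zc_pull`, `Zc_push`).
* `Γ' ≤ Γ`: `shap_pull` (pull-back = restriction of homs), `shap_push` (push-forward = transfer,
  for ANY system of right coset representatives `Γ = ⊔ Γ' ρ i`).
* `pair_res_eq_pair_tr`: **restriction and transfer are adjoint** for the Poincare pairings.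
-/
import Mathlib
import Fermat.Agent.S41.PD.PairOnPar
import Fermat.Agent.S41.PD.Functoriality

set_option autoImplicit false
set_option linter.unusedSectionVars false

open scoped MatrixGroups
open ModularGroup MulAction

namespace Fermat.Agent.S41.PD.Package

open ModularCurve.Period
open Fermat.Agent.S16.ParabolicLift Fermat.Agent.S21.CocycleBound
open Fermat.Agent.S41.PD.AbstractDuality Fermat.Agent.S41.PD.Shapiro
open Fermat.Agent.S41.PD.PairOnPar

/-! ### pull-back and push-forward of functions along an equivariant map -/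

section PullPush

variable {G X X' R : Type*} [Group G] [MulAction G X] [MulAction G X'] [CommRing R]
  (f : X' → X)

/-- pull-back of functions. -/
def pull : (X → R) →ₗ[R] (X' → R) := LinearMap.funLeft R R f

@[simp] theorem pull_apply (w : X → R) (x' : X') : pull f w x' = w (f x') := rfl

theorem pull_act (hf : ∀ (g : G) (x' : X'), f (g • x') = g • f x') (g : G) (w : X → R) :
    pull f (act g w) = act g (pull f w) := by
  funext x'
  simp only [pull_apply, act_apply, hf]

open Classical in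
/-- push-forward of functions: sum over the fibres. -/
noncomputable def push [Finite X'] : (X' → R) →ₗ[R] (X → R) :=
  letI := Fintype.ofFinite X'
  { toFun := fun h x => ∑ x', if f x' = x then h x' else 0
    map_add' := fun h h' => by
      funext x
      simp only [Pi.add_apply, ← Finset.sum_add_distrib]
      exact Finset.sum_congr rfl fun x' _ => by split_ifs <;> simp
    map_smul' := fun c h => by
      funext x
      simp only [Pi.smul_apply, smul_eq_mul, RingHom.id_apply, Finset.mul_sum]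
      exact Finset.sum_congr rfl fun x' _ => by split_ifs <;> simp }

theorem push_apply [Fintype X'] [DecidableEq X] (h : X' → R) (x : X) :
    push f h x = ∑ x', if f x' = x then h x' else 0 := by
  unfold push
  simp only [LinearMap.coe_mk, AddHom.coe_mk]
  congr!

/-- `push` and `pull` are adjoint for the dot products. -/
theorem dot_push [Finite X] [Finite X'] (h : X' → R) (w : X → R) :
    dot (push f h) w = dot h (pull f w) := by
  classical
  have := Fintype.ofFinite X
  have := Fintype.ofFinite X'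
  rw [dot_apply, dot_apply]
  simp only [push_apply, pull_apply, Finset.sum_mul]
  rw [Finset.sum_comm]
  refine Finset.sum_congr rfl fun x' _ => ?_
  simp only [ite_mul, zero_mul]
  rw [Finset.sum_ite_eq]
  simp

theorem dot_pull [Finite X] [Finite X'] (w : X → R) (h : X' → R) :
    dot (pull f w) h = dot w (push f h) := by
  rw [dot_symm, ← dot_push, dot_symm]

theorem push_act [Finite X'] (hf : ∀ (g : G) (x' : X'), f (g • x') = g • f x') (g : G)
    (h : X' → R) : push f (act g h) = act g (push f h) := by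
  classical
  have := Fintype.ofFinite X'
  funext x
  rw [act_apply, push_apply, push_apply]
  refine Fintype.sum_equiv (MulAction.toPerm g⁻¹) _ _ fun x' => ?_
  simp only [act_apply, MulAction.toPerm_apply, hf]
  have : (f x' = x) ↔ (g⁻¹ • f x' = g⁻¹ • x) := by
    constructor
    · intro h; rw [h]
    · intro h; exact smul_left_cancel _ h
  simp only [this]

end PullPush

/-! ### naturality of the cocycles `Zc` -/

section ZcNat

variable {X X' R : Type*} [MulAction SL(2, ℤ) X] [MulAction SL(2, ℤ) X'] [CommRing R]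
  (hneg : ∀ x : X, (-1 : SL(2, ℤ)) • x = x) (hneg' : ∀ x : X', (-1 : SL(2, ℤ)) • x = x)
  (f : X' → X) (hf : ∀ (g : SL(2, ℤ)) (x' : X'), f (g • x') = g • f x')

include hf in
theorem Zc_pull (w : X → R) : Zc hneg' (pull f w) = fun g => pull f (Zc hneg w g) := by
  symm
  refine Zc_unique hneg' (pull f w) ?_ ?_ ?_
  · intro g h x'
    simp only [pull_apply]
    rw [Zc_isCocA hneg w g h (f x'), hf]
  · simp only [Zc_S, map_zero]
  · simp only [Zc_ST, map_sub, pull_act f hf]

include hf in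
theorem Zc_push [Finite X'] (w' : X' → R) :
    Zc hneg (push f w') = fun g => push f (Zc hneg' w' g) := by
  symm
  refine Zc_unique hneg (push f w') ?_ ?_ ?_
  · rw [isCocA_iff]
    intro g h
    rw [(isCocA_iff _).1 (Zc_isCocA hneg' w') g h, map_add, push_act f hf]
  · simp only [Zc_S, map_zero]
  · simp only [Zc_ST, map_sub, push_act f hf]

end ZcNat

/-! ### subgroups: restriction and transfer in the Shapiro dictionary -/

section Sub

variable {Γ' Γ : Subgroup SL(2, ℤ)} (hle : Γ' ≤ Γ) (hΓ' : (-1 : SL(2, ℤ)) ∈ Γ')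
  {R : Type*} [CommRing R]

/-- the projection `SL(2,ℤ) ⧸ Γ' → SL(2,ℤ) ⧸ Γ`. -/
def proj : SL(2, ℤ) ⧸ Γ' → SL(2, ℤ) ⧸ Γ := Subgroup.quotientMapOfLE hle

theorem proj_mk (g : SL(2, ℤ)) : proj hle (g : SL(2, ℤ) ⧸ Γ') = (g : SL(2, ℤ) ⧸ Γ) := rfl

theorem proj_smul (g : SL(2, ℤ)) (x' : SL(2, ℤ) ⧸ Γ') : proj hle (g • x') = g • proj hle x' := by
  induction x' using QuotientGroup.induction_on with
  | H a => rfl

/-- restriction of homs to a subgroup. -/
def res (φ : Additive Γ →+ R) : Additive Γ' →+ R :=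
  φ.comp (MonoidHom.toAdditive (Subgroup.inclusion hle))

@[simp] theorem res_apply (φ : Additive Γ →+ R) (γ' : Γ') :
    res hle φ (Additive.ofMul γ') = φ (Additive.ofMul (Subgroup.inclusion hle γ')) := rfl

theorem res_isParabolicHom {φ : Additive Γ →+ R} (hφ : IsParabolicHom Γ φ) :
    IsParabolicHom Γ' (res hle φ) := fun γ' htr => hφ (Subgroup.inclusion hle γ') htr

/-- **pull-back of functions is restriction of homs.** -/
theorem shap_pull (w : SL(2, ℤ) ⧸ Γ → R) :
    shap Γ' hΓ' (pull (proj hle) w) = res hle (shap Γ (hle hΓ') w) := by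
  apply AddMonoidHom.ext
  intro γ
  obtain ⟨γ', rfl⟩ : ∃ γ' : Γ', Additive.ofMul γ' = γ := ⟨Additive.toMul γ, rfl⟩
  rw [res_apply, shap_apply, shap_apply,
    Zc_pull (neg_one_smul_coset Γ (hle hΓ')) (neg_one_smul_coset Γ' hΓ') (proj hle)
      (proj_smul hle) w]
  rfl

/-- **push-forward of functions is the transfer of homs**, computed with any system of
representatives `ρ i` of `Γ' \ Γ`. -/
theorem shap_push_apply [Finite (SL(2, ℤ) ⧸ Γ')] {I : Type*} [Fintype I] (ρ : I → SL(2, ℤ))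
    (hρ : ∀ i, ρ i ∈ Γ) (hinj : ∀ i j, ρ i * (ρ j)⁻¹ ∈ Γ' → i = j)
    (hsurj : ∀ g ∈ Γ, ∃ i, g * (ρ i)⁻¹ ∈ Γ')
    (γ : Γ) (σ : I → I) (fac : I → Γ')
    (hspec : ∀ i, ρ i * (γ : SL(2, ℤ)) = (fac i : SL(2, ℤ)) * ρ (σ i))
    (w' : SL(2, ℤ) ⧸ Γ' → R) :
    shap Γ (hle hΓ') (push (proj hle) w') (Additive.ofMul γ)
      = ∑ i, shap Γ' hΓ' w' (Additive.ofMul (fac i)) := by
  classical
  have := Fintype.ofFinite (SL(2, ℤ) ⧸ Γ')
  set hneg' := neg_one_smul_coset Γ' hΓ'
  set x₀' : SL(2, ℤ) ⧸ Γ' := ((1 : SL(2, ℤ)) : SL(2, ℤ) ⧸ Γ') with hx₀'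
  set x₀ : SL(2, ℤ) ⧸ Γ := ((1 : SL(2, ℤ)) : SL(2, ℤ) ⧸ Γ) with hx₀
  set Z' := Zc hneg' w' with hZ'
  have hcoc : IsCocA Z' := Zc_isCocA hneg' w'
  -- `σ` is a bijection
  have hσinj : Function.Injective σ := by
    intro i j hij
    apply hinj
    have e : ρ i * (ρ j)⁻¹ = (fac i : SL(2, ℤ)) * (fac j : SL(2, ℤ))⁻¹ := by
      have h1 := hspec i
      have h2 := hspec j
      rw [hij] at h1
      calc ρ i * (ρ j)⁻¹ = (ρ i * (γ : SL(2, ℤ))) * (ρ j * (γ : SL(2, ℤ)))⁻¹ := by group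
        _ = (fac i : SL(2, ℤ)) * (fac j : SL(2, ℤ))⁻¹ := by rw [h1, h2]; group
    rw [e]
    exact Γ'.mul_mem (fac i).2 (Γ'.inv_mem (fac j).2)
  have hσbij : Function.Bijective σ := Finite.injective_iff_bijective.1 hσinj
  -- the fibre over the base point
  set e : I → SL(2, ℤ) ⧸ Γ' := fun i => (ρ i)⁻¹ • x₀' with he
  have heinj : Function.Injective e := by
    intro i j hij
    apply hinj
    have h1 : (((ρ i)⁻¹ : SL(2, ℤ)) : SL(2, ℤ) ⧸ Γ') = (((ρ j)⁻¹ : SL(2, ℤ)) : SL(2, ℤ) ⧸ Γ') := by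
      simpa [he, hx₀', MulAction.Quotient.smul_coe] using hij
    rw [QuotientGroup.eq, inv_inv] at h1
    exact h1
  have hfib : (Finset.univ.filter fun x' : SL(2, ℤ) ⧸ Γ' => proj hle x' = x₀)
      = Finset.univ.image e := by
    ext x'
    simp only [Finset.mem_filter, Finset.mem_univ, true_and, Finset.mem_image]
    constructor
    · intro hx'
      induction x' using QuotientGroup.induction_on with
      | H g =>
        rw [proj_mk, hx₀, QuotientGroup.eq, mul_one] at hx'
        obtain ⟨i, hi⟩ := hsurj g⁻¹ hx'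
        refine ⟨i, ?_⟩
        show (ρ i)⁻¹ • x₀' = _
        rw [hx₀', MulAction.Quotient.smul_coe, smul_eq_mul, mul_one, QuotientGroup.eq, inv_inv]
        have := Γ'.inv_mem hi
        simpa using this
    · rintro ⟨i, rfl⟩
      show proj hle ((ρ i)⁻¹ • x₀') = x₀
      rw [proj_smul, hx₀', proj_mk, MulAction.Quotient.smul_coe, smul_eq_mul, mul_one, hx₀,
        QuotientGroup.eq, inv_inv, mul_one]
      exact hρ i
  -- the terms
  have hterm : ∀ i, Z' (γ : SL(2, ℤ)) (e i)
      = shap Γ' hΓ' w' (Additive.ofMul (fac i)) + Z' (ρ (σ i)) x₀' - Z' (ρ i) x₀' := by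
    intro i
    have h1 := hcoc (ρ i) (γ : SL(2, ℤ)) x₀'
    have h2 := hcoc (fac i : SL(2, ℤ)) (ρ (σ i)) x₀'
    rw [mem_inv_smul_base] at h2
    rw [hspec i, h2] at h1
    rw [shap_apply]
    show Z' (γ : SL(2, ℤ)) ((ρ i)⁻¹ • x₀') = _
    linear_combination -h1
  rw [shap_apply, Zc_push (neg_one_smul_coset Γ (hle hΓ')) hneg' (proj hle) (proj_smul hle) w']
  show push (proj hle) (Z' (γ : SL(2, ℤ))) x₀ = _
  rw [push_apply, ← Finset.sum_filter, hfib, Finset.sum_image (fun i _ j _ h => heinj h)]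
  simp only [hterm]
  have hsum : ∑ i, Z' (ρ (σ i)) x₀' = ∑ i, Z' (ρ i) x₀' :=
    (Equiv.ofBijective σ hσbij).sum_comp (fun i => Z' (ρ i) x₀')
  rw [Finset.sum_sub_distrib, Finset.sum_add_distrib, hsum]
  ring

end Sub

/-! ### restriction and transfer are adjoint -/

/-- A system of representatives of `Γ' \ Γ` with its permutation and factor data:
`ρ i * γ = fac γ i * ρ (perm γ i)`. -/
structure TrSys (Γ' Γ : Subgroup SL(2, ℤ)) (I : Type) where
  /-- the representatives -/
  ρ : I → SL(2, ℤ)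
  mem : ∀ i, ρ i ∈ Γ
  inj : ∀ i j, ρ i * (ρ j)⁻¹ ∈ Γ' → i = j
  surj : ∀ g ∈ Γ, ∃ i, g * (ρ i)⁻¹ ∈ Γ'
  /-- the index map -/
  perm : Γ → I → I
  /-- the factors -/
  fac : Γ → I → Γ'
  spec : ∀ (γ : Γ) (i : I), ρ i * (γ : SL(2, ℤ)) = (fac γ i : SL(2, ℤ)) * ρ (perm γ i)

section Adjoint

variable {Γ' Γ : Subgroup SL(2, ℤ)} (hle : Γ' ≤ Γ) (hΓ' : (-1 : SL(2, ℤ)) ∈ Γ')
  [Finite (SL(2, ℤ) ⧸ Γ')] [Finite (SL(2, ℤ) ⧸ Γ)]
  {R : Type*} [CommRing R] (h6 : IsUnit (6 : R))
  {I : Type} [Fintype I] (C : TrSys Γ' Γ I)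
  (tr : (Additive Γ' →+ R) → (Additive Γ →+ R))
  (htr : ∀ (ψ : Additive Γ' →+ R) (γ : Γ),
    tr ψ (Additive.ofMul γ) = ∑ i, ψ (Additive.ofMul (C.fac γ i)))

include htr in
/-- the transfer in the Shapiro dictionary. -/
theorem tr_shap (w' : SL(2, ℤ) ⧸ Γ' → R) :
    tr (shap Γ' hΓ' w') = shap Γ (hle hΓ') (push (proj hle) w') := by
  apply AddMonoidHom.ext
  intro γ'
  obtain ⟨γ, rfl⟩ : ∃ γ : Γ, Additive.ofMul γ = γ' := ⟨Additive.toMul γ', rfl⟩
  rw [htr, shap_push_apply hle hΓ' C.ρ C.mem C.inj C.surj γ (C.perm γ) (C.fac γ) (C.spec γ) w']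

theorem push_mem_W {P' : SL(2, ℤ) ⧸ Γ' → R} (hP' : P' ∈ (sett Γ' hΓ' h6).W) :
    push (proj hle) P' ∈ (sett Γ (hle hΓ') h6).W :=
  Functoriality.map_mem_W (sett Γ (hle hΓ') h6) (sett Γ' hΓ' h6) (push (proj hle))
    (fun x => push_act (proj hle) (proj_smul hle) _ x)
    (fun x => push_act (proj hle) (proj_smul hle) _ x) hP'

theorem push_theta (P' : SL(2, ℤ) ⧸ Γ' → R) :
    push (proj hle) ((sett Γ' hΓ' h6).θ P') = (sett Γ (hle hΓ') h6).θ (push (proj hle) P') :=
  Functoriality.map_θ (sett Γ (hle hΓ') h6) (sett Γ' hΓ' h6) (push (proj hle))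
    (fun x => push_act (proj hle) (proj_smul hle) _ x) P'

include hle hΓ' h6 htr in
/-- the transfer of a parabolic hom is parabolic. -/
theorem tr_isParabolicHom {ψ : Additive Γ' →+ R} (hψ : IsParabolicHom Γ' ψ) :
    IsParabolicHom Γ (tr ψ) := by
  obtain ⟨P', hP', rfl⟩ := exists_W_of_isParabolicHom Γ' hΓ' h6 ψ hψ
  rw [tr_shap hle hΓ' C tr htr, push_theta hle hΓ' h6]
  exact shap_theta_isParabolicHom Γ (hle hΓ') h6 (push_mem_W hle hΓ' h6 hP')

include htr in
/-- **Restriction and transfer are adjoint for the Poincare pairings.** -/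
theorem pair_res_eq_pair_tr {φ : Additive Γ →+ R} (hφ : IsParabolicHom Γ φ)
    {ψ : Additive Γ' →+ R} (hψ : IsParabolicHom Γ' ψ) :
    pair Γ' hΓ' h6 (res hle φ) ψ = pair Γ (hle hΓ') h6 φ (tr ψ) := by
  obtain ⟨P', hP', rfl⟩ := exists_W_of_isParabolicHom Γ' hΓ' h6 ψ hψ
  obtain ⟨w, rfl⟩ := exists_shap_eq Γ (hle hΓ') h6 φ
  have hres := res_isParabolicHom hle hφ
  rw [← shap_pull hle hΓ'] at hres ⊢
  rw [pair_shap_shap_theta Γ' hΓ' h6 hres hP', tr_shap hle hΓ' C tr htr, push_theta hle hΓ' h6,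
    pair_shap_shap_theta Γ (hle hΓ') h6 hφ (push_mem_W hle hΓ' h6 hP'), dot_pull]

end Adjoint

end Fermat.Agent.S41.PD.Package
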