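/-
S41 / (W1) step F6b (helper29): the adjunction (ADJ) of the architecture, in the LITERAL shapes of
`Fermat.Agent.S41.Level` (helper59): for `R` with `6` a unit (e.g. `R = ℚ`),

  `pair (Γ₀(N q)) (res1 x) m = pair (Γ₀(N)) x (tr1 m)`   (x, m parabolic).

Generic bridge: a rigid weak coset system `C : WCS Γ Γ' I` (`Γ' ≤ Γ`) whose family consists of
(matrices of) elements of `Γ` and is complete (`Γ = ⊔ Γ' ρ i`) is a `Package.TrSys`, so `C.op` is
the transfer and is adjoint to the restriction.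
-/
import Mathlib
import Fermat.Agent.S41.PD.Package
import Fermat.Agent.S41.Level.Degeneracy

set_option autoImplicit false
set_option linter.unusedSectionVars false

open scoped MatrixGroups
open ModularGroup MulAction

namespace Fermat.Agent.S41.PD.LevelAdj

open ModularCurve.Period CongruenceSubgroup
open Fermat.Agent.S16.HeckeHom Fermat.Agent.S41.Level
open Fermat.Agent.S41.PD.PairOnPar Fermat.Agent.S41.PD.Package

/-! ### weak coset systems of elements of `Γ` are transfer systems -/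

section Generic

variable {Γ' Γ : Subgroup SL(2, ℤ)} {I : Type}

/-- a rigid, complete weak coset system consisting of elements of `Γ` is a `TrSys`. -/
def trSysOfWCS (C : WCS Γ Γ' I) (hC : C.Rigid) (r : I → Γ) (hal : ∀ i, C.al i = mat (r i))
    (hsurj : ∀ g : Γ, ∃ (k : I) (g' : Γ'), mat g = mat g' * C.al k) : TrSys Γ' Γ I where
  ρ i := (r i : SL(2, ℤ))
  mem i := (r i).2
  inj i j hij := by
    refine hC.uniq i j ⟨_, hij⟩ ?_
    rw [hal, hal]
    show ((r i : SL(2, ℤ)) : Matrix (Fin 2) (Fin 2) ℤ)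
      = (((r i : SL(2, ℤ)) * (r j : SL(2, ℤ))⁻¹ : SL(2, ℤ)) : Matrix (Fin 2) (Fin 2) ℤ)
        * ((r j : SL(2, ℤ)) : Matrix (Fin 2) (Fin 2) ℤ)
    rw [← Matrix.SpecialLinearGroup.coe_mul, inv_mul_cancel_right]
  surj g hg := by
    obtain ⟨k, g', h⟩ := hsurj ⟨g, hg⟩
    refine ⟨k, ?_⟩
    rw [hal] at h
    have h' : g = (g' : SL(2, ℤ)) * (r k : SL(2, ℤ)) := by
      apply Subtype.ext
      rw [Matrix.SpecialLinearGroup.coe_mul]
      exact h
    rw [h', mul_inv_cancel_right]
    exact g'.2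
  perm := C.perm
  fac := C.fac
  spec γ i := by
    have h := C.spec γ i
    rw [hal, hal] at h
    apply Subtype.ext
    rw [Matrix.SpecialLinearGroup.coe_mul, Matrix.SpecialLinearGroup.coe_mul]
    exact h

end Generic

/-! ### the literal (ADJ) for `res1`, `tr1` of `Level/Degeneracy` -/

section Literal

theorem negOne_mem (N : ℕ) : (-1 : SL(2, ℤ)) ∈ Gamma0 N := by
  rw [Gamma0_mem]
  simp

variable {N q : ℕ} [NeZero N] [NeZero (N * q)] {R : Type*} [CommRing R] (h6 : IsUnit (6 : R))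

/-- the transfer system of `Level/Degeneracy` as a `TrSys`. -/
noncomputable def trSys1 : TrSys (Gamma0 (N * q)) (Gamma0 N)
    (Gamma0 N ⧸ (Gamma0 (N * q)).subgroupOf (Gamma0 N)) :=
  trSysOfWCS (trSys N q) (transferSys_rigid (gamma0_mul_le N q))
    (fun k => (Quotient.out k : Gamma0 N)⁻¹) (fun _ => rfl)
    (exists_transfer_decomp (gamma0_mul_le N q))

theorem res1_eq_res (x : Additive (Gamma0 N) →+ R) :
    res1 (q := q) x = res (gamma0_mul_le N q) x := by
  apply AddMonoidHom.ext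
  intro γ
  obtain ⟨g, rfl⟩ : ∃ g : Gamma0 (N * q), Additive.ofMul g = γ := ⟨Additive.toMul γ, rfl⟩
  rw [res1_apply, res_apply]

theorem tr1_apply (m : Additive (Gamma0 (N * q)) →+ R) (γ : Gamma0 N) :
    tr1 m (Additive.ofMul γ) = ∑ k, m (Additive.ofMul ((trSys1 (N := N) (q := q)).fac γ k)) :=
  rfl

include h6 in
/-- `tr1` preserves parabolic homs (coefficients with `6` invertible). -/
theorem tr1_isParabolicHom {m : Additive (Gamma0 (N * q)) →+ R}
    (hm : IsParabolicHom (Gamma0 (N * q)) m) : IsParabolicHom (Gamma0 N) (tr1 m) :=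
  tr_isParabolicHom (gamma0_mul_le N q) (negOne_mem (N * q)) h6 trSys1 tr1 tr1_apply hm

/-- **(ADJ)**: `⟨res1 x, m⟩_{N q} = ⟨x, tr1 m⟩_N`. -/
theorem pair_res1_eq_pair_tr1 {x : Additive (Gamma0 N) →+ R} (hx : IsParabolicHom (Gamma0 N) x)
    {m : Additive (Gamma0 (N * q)) →+ R} (hm : IsParabolicHom (Gamma0 (N * q)) m) :
    pair (Gamma0 (N * q)) (negOne_mem (N * q)) h6 (res1 x) m
      = pair (Gamma0 N) (negOne_mem N) h6 x (tr1 m) := by
  rw [res1_eq_res]
  exact pair_res_eq_pair_tr (gamma0_mul_le N q) (negOne_mem (N * q)) h6 trSys1 tr1 tr1_apply hx hm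

/-- **(ADJ)**, the other variable order: `⟨m, res1 x⟩_{N q} = ⟨tr1 m, x⟩_N`. -/
theorem pair_tr1_eq_pair_res1 {x : Additive (Gamma0 N) →+ R} (hx : IsParabolicHom (Gamma0 N) x)
    {m : Additive (Gamma0 (N * q)) →+ R} (hm : IsParabolicHom (Gamma0 (N * q)) m) :
    pair (Gamma0 (N * q)) (negOne_mem (N * q)) h6 m (res1 x)
      = pair (Gamma0 N) (negOne_mem N) h6 (tr1 m) x := by
  have hres : IsParabolicHom (Gamma0 (N * q)) (res1 (q := q) x) := by
    rw [res1_eq_res]; exact res_isParabolicHom _ hx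
  rw [pair_skew _ _ h6 hm hres, pair_skew _ _ h6 (tr1_isParabolicHom h6 hm) hx,
    pair_res1_eq_pair_tr1 h6 hx hm]

end Literal

end Fermat.Agent.S41.PD.LevelAdj
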