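/-
S41 / (W1) step F6b (helper29): the isometry (ISO) of the architecture in the LITERAL shape of
`Fermat.Agent.S41.Level` (helper59): the Atkin-Lehner involution `wAL d` preserves the pairing of
any `CuspData (Γ₀(N q)) R` (the output of step F3).

* `isPosPar_of_mat_conj` : if `M` is an integer matrix of positive determinant and
  `M * γ = γ' * M` (`γ γ' ∈ SL(2,ℤ)`), then `IsPosPar γ → IsPosPar γ'`
  (`det M • qf γ' v = qf γ (adj M v)`); `isPosPar_iff_of_mat_conj`.
* `posParIsoOfMat` : a group isomorphism `ι : Γ' ≃* Γ''` with `M * γ = ι γ * M` is a `PosParIso`.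
* `posParIsoW d : PosParIso (Γ₀(N q)) (Γ₀(N q))`, `wAL_eq_pull`, `CuspData.pair_wAL`.
-/
import Mathlib
import Fermat.Agent.S41.PD.CuspSum
import Fermat.Agent.S41.Level.Degeneracy

set_option autoImplicit false

open scoped MatrixGroups

namespace Fermat.Agent.S41.PD.LevelIso

open Matrix ModularCurve.Period CongruenceSubgroup
open Fermat.Agent.S16.HeckeHom Fermat.Agent.S41.Level Fermat.Agent.S41.PD.CuspSum

/-! ### conjugation by an integer matrix of positive determinant -/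

section MatConj

variable {M : Matrix (Fin 2) (Fin 2) ℤ} {g g' : SL(2, ℤ)}

/-- the entries of the relation `M * g = g' * M`. -/
theorem conj_entries (h : M * (g : Matrix (Fin 2) (Fin 2) ℤ) = (g' : Matrix (Fin 2) (Fin 2) ℤ) * M) :
    M 0 0 * g 0 0 + M 0 1 * g 1 0 = g' 0 0 * M 0 0 + g' 0 1 * M 1 0 ∧
    M 0 0 * g 0 1 + M 0 1 * g 1 1 = g' 0 0 * M 0 1 + g' 0 1 * M 1 1 ∧
    M 1 0 * g 0 0 + M 1 1 * g 1 0 = g' 1 0 * M 0 0 + g' 1 1 * M 1 0 ∧
    M 1 0 * g 0 1 + M 1 1 * g 1 1 = g' 1 0 * M 0 1 + g' 1 1 * M 1 1 := by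
  have h00 := congrFun (congrFun h 0) 0
  have h01 := congrFun (congrFun h 0) 1
  have h10 := congrFun (congrFun h 1) 0
  have h11 := congrFun (congrFun h 1) 1
  simp only [Matrix.mul_apply, Fin.sum_univ_two] at h00 h01 h10 h11
  exact ⟨h00, h01, h10, h11⟩

theorem mul_left_cancel_of_det_ne {M A B : Matrix (Fin 2) (Fin 2) ℤ} (hM : M.det ≠ 0)
    (h : M * A = M * B) : A = B := by
  have h1 : M.adjugate * (M * A) = M.adjugate * (M * B) := by rw [h]
  rw [← Matrix.mul_assoc, ← Matrix.mul_assoc, Matrix.adjugate_mul] at h1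
  ext i j
  have h2 := congrFun (congrFun h1 i) j
  simp only [Matrix.smul_mul, Matrix.one_mul, Matrix.smul_apply, smul_eq_mul] at h2
  exact mul_left_cancel₀ hM h2

/-- the trace is invariant. -/
theorem trace_eq_of_mat_conj (hM : M.det ≠ 0)
    (h : M * (g : Matrix (Fin 2) (Fin 2) ℤ) = (g' : Matrix (Fin 2) (Fin 2) ℤ) * M) :
    g' 0 0 + g' 1 1 = g 0 0 + g 1 1 := by
  obtain ⟨h00, h01, h10, h11⟩ := conj_entries h
  rw [Matrix.det_fin_two] at hM
  apply mul_left_cancel₀ hM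
  linear_combination (-(M 1 1)) * h00 + M 1 0 * h01 + M 0 1 * h10 - M 0 0 * h11

/-- **conjugation by an integer matrix of positive determinant preserves positive parabolics.** -/
theorem isPosPar_of_mat_conj (hM : 0 < M.det)
    (h : M * (g : Matrix (Fin 2) (Fin 2) ℤ) = (g' : Matrix (Fin 2) (Fin 2) ℤ) * M)
    (hg : IsPosPar g) : IsPosPar g' := by
  obtain ⟨h00, h01, h10, h11⟩ := conj_entries h
  have hD : M 0 0 * M 1 1 - M 0 1 * M 1 0 > 0 := by rwa [Matrix.det_fin_two] at hM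
  refine ⟨?_, ?_, ?_, ?_⟩
  · rintro rfl
    apply hg.1
    have h' : M * (g : Matrix (Fin 2) (Fin 2) ℤ) = M * ((1 : SL(2, ℤ)) : Matrix (Fin 2) (Fin 2) ℤ) := by
      rw [h]; simp
    exact Subtype.ext (mul_left_cancel_of_det_ne hM.ne' h')
  · rw [trace_eq_of_mat_conj hM.ne' h]; exact hg.2.1
  · -- `-D b' = qf g (-m01) m00 ≤ 0`
    have hq := qf_nonpos hg (-(M 0 1)) (M 0 0)
    unfold qf at hq
    have e : (M 0 0 * M 1 1 - M 0 1 * M 1 0) * g' 0 1
        = -(g 1 0 * (-(M 0 1)) ^ 2 + (g 1 1 - g 0 0) * (-(M 0 1)) * M 0 0 - g 0 1 * M 0 0 ^ 2) := by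
      linear_combination (M 0 1) * h00 - M 0 0 * h01
    by_contra hneg
    rw [not_le] at hneg
    have := mul_neg_of_pos_of_neg hD hneg
    linarith
  · -- `D c' = qf g m11 (-m10) ≤ 0`
    have hq := qf_nonpos hg (M 1 1) (-(M 1 0))
    unfold qf at hq
    have e : (M 0 0 * M 1 1 - M 0 1 * M 1 0) * g' 1 0
        = g 1 0 * (M 1 1) ^ 2 + (g 1 1 - g 0 0) * (M 1 1) * (-(M 1 0)) - g 0 1 * (-(M 1 0)) ^ 2 := by
      linear_combination (-(M 1 1)) * h10 + M 1 0 * h11
    by_contra hpos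
    rw [not_le] at hpos
    have := mul_pos hD hpos
    linarith

/-- the relation `M * g = g' * M` for the adjugate. -/
theorem adjugate_conj (hM : M.det ≠ 0)
    (h : M * (g : Matrix (Fin 2) (Fin 2) ℤ) = (g' : Matrix (Fin 2) (Fin 2) ℤ) * M) :
    M.adjugate * (g' : Matrix (Fin 2) (Fin 2) ℤ) = (g : Matrix (Fin 2) (Fin 2) ℤ) * M.adjugate := by
  apply mul_left_cancel_of_det_ne hM
  have hdet : (M * M.adjugate).det ≠ 0 := by
    rw [Matrix.det_mul, Matrix.det_adjugate]
    simpa using hM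
  apply Fermat.Agent.S16.HeckeHom.mul_right_cancel_of_det_ne_zero (M := M) hM
  calc M * (M.adjugate * (g' : Matrix (Fin 2) (Fin 2) ℤ)) * M
      = (M * M.adjugate) * ((g' : Matrix (Fin 2) (Fin 2) ℤ) * M) := by
        simp only [Matrix.mul_assoc]
    _ = (M * M.adjugate) * (M * (g : Matrix (Fin 2) (Fin 2) ℤ)) := by rw [h]
    _ = M * ((M.adjugate * M) * (g : Matrix (Fin 2) (Fin 2) ℤ)) := by
        simp only [Matrix.mul_assoc]
    _ = M * (((g : Matrix (Fin 2) (Fin 2) ℤ)) * (M.adjugate * M)) := by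
        rw [Matrix.adjugate_mul]
        simp only [Matrix.smul_mul, Matrix.mul_smul, Matrix.one_mul, Matrix.mul_one]
    _ = M * ((g : Matrix (Fin 2) (Fin 2) ℤ) * M.adjugate) * M := by
        simp only [Matrix.mul_assoc]

theorem isPosPar_iff_of_mat_conj (hM : 0 < M.det)
    (h : M * (g : Matrix (Fin 2) (Fin 2) ℤ) = (g' : Matrix (Fin 2) (Fin 2) ℤ) * M) :
    IsPosPar g' ↔ IsPosPar g := by
  refine ⟨fun hg' => ?_, isPosPar_of_mat_conj hM h⟩
  refine isPosPar_of_mat_conj (M := M.adjugate) ?_ (adjugate_conj hM.ne' h) hg'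
  rw [Matrix.det_adjugate]
  simpa using hM

end MatConj

/-! ### `PosParIso` from conjugation by an integer matrix -/

section OfMat

variable {Γ' Γ'' : Subgroup SL(2, ℤ)} (M : Matrix (Fin 2) (Fin 2) ℤ) (hM : 0 < M.det)
  (ι : Γ' ≃* Γ'')
  (hι : ∀ γ : Γ', M * ((γ : SL(2, ℤ)) : Matrix (Fin 2) (Fin 2) ℤ) =
    (((ι γ : Γ'') : SL(2, ℤ)) : Matrix (Fin 2) (Fin 2) ℤ) * M)

include hM hι in
/-- conjugation by an integer matrix of positive determinant respects positive parabolics. -/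
def posParIsoOfMat : PosParIso Γ' Γ'' where
  iso := ι
  pos γ := isPosPar_iff_of_mat_conj hM (hι γ)
  tr γ := by
    rw [trace_fin_two, trace_fin_two]
    have e := trace_eq_of_mat_conj hM.ne' (hι γ)
    have e' : (((ι γ : Γ'') : SL(2, ℤ)) : Matrix (Fin 2) (Fin 2) ℤ) 0 0 +
        (((ι γ : Γ'') : SL(2, ℤ)) : Matrix (Fin 2) (Fin 2) ℤ) 1 1 =
        ((γ : SL(2, ℤ)) : Matrix (Fin 2) (Fin 2) ℤ) 0 0 +
        ((γ : SL(2, ℤ)) : Matrix (Fin 2) (Fin 2) ℤ) 1 1 := e
    rw [e']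

@[simp] theorem posParIsoOfMat_iso : (posParIsoOfMat M hM ι hι).iso = ι := rfl

end OfMat

/-! ### the Atkin-Lehner involution -/

section AL

variable {N q : ℕ} (d : ALData N q)

theorem conjW_mul (g h : Gamma0 (N * q)) : d.conjW (g * h) = d.conjW g * d.conjW h :=
  d.alSys.fac_mul g h ()

theorem conjW_injective : Function.Injective d.conjW := by
  intro g h hgh
  apply mat_injective
  apply mul_left_cancel_of_det_ne d.det_W_ne
  rw [d.conjW_spec, d.conjW_spec, hgh]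

/-- `g ↦ W g W⁻¹` as an automorphism of `Γ₀(N q)`. -/
noncomputable def conjWIso : Gamma0 (N * q) ≃* Gamma0 (N * q) :=
  MulEquiv.ofBijective (MonoidHom.mk' d.conjW (conjW_mul d))
    ⟨conjW_injective d, fun g' => d.conjW_surjective g'⟩

@[simp] theorem conjWIso_apply (g : Gamma0 (N * q)) : conjWIso d g = d.conjW g := rfl

/-- the Atkin-Lehner conjugation respects positive parabolics. -/
noncomputable def posParIsoW : PosParIso (Gamma0 (N * q)) (Gamma0 (N * q)) :=
  posParIsoOfMat d.W (by rw [d.det_W]; exact_mod_cast d.hq) (conjWIso d) (fun γ => d.conjW_spec γ)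

variable {R : Type*} [CommRing R]

/-- the Atkin-Lehner involution on homs is the pull-back along `posParIsoW`. -/
theorem wAL_eq_pull (ψ : Additive (Gamma0 (N * q)) →+ R) :
    wAL d ψ = (posParIsoW d).pull ψ := by
  apply AddMonoidHom.ext
  intro γ
  obtain ⟨g, rfl⟩ : ∃ g : Gamma0 (N * q), Additive.ofMul g = γ := ⟨Additive.toMul γ, rfl⟩
  rw [PosParIso.pull_apply]
  show ∑ u : Unit, ψ (Additive.ofMul (d.alSys.fac g u)) = _
  rw [Fintype.sum_unique]
  rfl

theorem wAL_apply (ψ : Additive (Gamma0 (N * q)) →+ R) (g : Gamma0 (N * q)) :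
    wAL d ψ (Additive.ofMul g) = ψ (Additive.ofMul (d.conjW g)) := by
  rw [wAL_eq_pull]; rfl

theorem wAL_isParabolicHom {ψ : Additive (Gamma0 (N * q)) →+ R}
    (hψ : IsParabolicHom (Gamma0 (N * q)) ψ) : IsParabolicHom (Gamma0 (N * q)) (wAL d ψ) := by
  rw [wAL_eq_pull]
  exact (posParIsoW d).pull_isParabolicHom hψ

/-- **(ISO)**: the Atkin-Lehner involution is an isometry for the pairing of any cusp datum. -/
theorem pair_wAL (D : CuspData (Gamma0 (N * q)) R) {a b : Additive (Gamma0 (N * q)) →+ R}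
    (ha : IsParabolicHom (Gamma0 (N * q)) a) (hb : IsParabolicHom (Gamma0 (N * q)) b) :
    D.pair (wAL d a) (wAL d b) = D.pair a b := by
  rw [wAL_eq_pull, wAL_eq_pull]
  exact D.pair_comp D (posParIsoW d) a b ha hb

end AL

end Fermat.Agent.S41.PD.LevelIso
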