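/-
S41 / (W1) step F6b (helper29): the three LITERAL Poincare duality statements of the architecture
(DECISION 2) for `PairOnPar.pair` over a ring `R` in which `6` is a unit (e.g. `R = ℚ`), in the
shapes of `Fermat.Agent.S41.Level` (helper59):

* (b) ADJ : `pair (Γ₀(N q)) (res1 x) m = pair (Γ₀(N)) x (tr1 m)`  (`LevelAdj`, re-exported);
* (c) ISO : `pair (Γ₀(N q)) (wAL d a) (wAL d b) = pair (Γ₀(N q)) a b`
            (`LevelIso.posParIsoW` + helper60's `CuspDataSL2.pair_pull`);
* formal consequences: `res2`/`tr2` adjoint.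
-/
import Mathlib
import Fermat.Agent.S41.PD.LevelAdj
import Fermat.Agent.S41.PD.LevelIso
import Fermat.Agent.S41.PD.CuspDataSL2

set_option autoImplicit false

open scoped MatrixGroups

namespace Fermat.Agent.S41.PD.LevelIsoPair

open ModularCurve.Period CongruenceSubgroup
open Fermat.Agent.S16.HeckeHom Fermat.Agent.S41.Level
open Fermat.Agent.S41.PD.PairOnPar Fermat.Agent.S41.PD.LevelAdj Fermat.Agent.S41.PD.LevelIso

variable {N q : ℕ} [NeZero N] [NeZero (N * q)] (d : ALData N q)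
  {R : Type*} [CommRing R] (h6 : IsUnit (6 : R))

omit [NeZero N] in
/-- **(ISO)**: the Atkin-Lehner involution is an isometry of the Poincare pairing. -/
theorem pair_wAL_wAL {a b : Additive (Gamma0 (N * q)) →+ R}
    (ha : IsParabolicHom (Gamma0 (N * q)) a) (hb : IsParabolicHom (Gamma0 (N * q)) b) :
    pair (Gamma0 (N * q)) (negOne_mem (N * q)) h6 (wAL d a) (wAL d b)
      = pair (Gamma0 (N * q)) (negOne_mem (N * q)) h6 a b := by
  rw [wAL_eq_pull, wAL_eq_pull]
  exact CuspDataSL2.pair_pull h6 (negOne_mem (N * q)) (negOne_mem (N * q)) (posParIsoW d) ha hb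

omit [NeZero N] in
/-- `⟨wAL a, b⟩ = ⟨a, wAL b⟩`. -/
theorem pair_wAL_left {a b : Additive (Gamma0 (N * q)) →+ R}
    (ha : IsParabolicHom (Gamma0 (N * q)) a) (hb : IsParabolicHom (Gamma0 (N * q)) b) :
    pair (Gamma0 (N * q)) (negOne_mem (N * q)) h6 (wAL d a) b
      = pair (Gamma0 (N * q)) (negOne_mem (N * q)) h6 a (wAL d b) := by
  have h := pair_wAL_wAL d h6 ha (wAL_isParabolicHom d hb)
  rw [wAL_wAL] at h
  exact h

/-- **`res2` and `tr2` are adjoint.** -/
theorem pair_res2_eq_pair_tr2 {x : Additive (Gamma0 N) →+ R} (hx : IsParabolicHom (Gamma0 N) x)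
    {m : Additive (Gamma0 (N * q)) →+ R} (hm : IsParabolicHom (Gamma0 (N * q)) m) :
    pair (Gamma0 (N * q)) (negOne_mem (N * q)) h6 (res2 d x) m
      = pair (Gamma0 N) (negOne_mem N) h6 x (tr2 d m) := by
  have hres : IsParabolicHom (Gamma0 (N * q)) (res1 (q := q) x) := by
    rw [res1_eq_res]; exact Package.res_isParabolicHom _ hx
  unfold res2 tr2
  rw [pair_wAL_left d h6 hres hm, pair_res1_eq_pair_tr1 h6 hx (wAL_isParabolicHom d hm)]

/-- **`T = tr1 ∘ wAL ∘ res1` is self-adjoint** (with helper59's (I5) `tr1_wAL_res1`, `T` is the Hecke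
operator `T_q` of level `N`). -/
theorem pair_selfAdjoint_of_eq (T : (Additive (Gamma0 N) →+ R) → (Additive (Gamma0 N) →+ R))
    (hT : ∀ φ : Additive (Gamma0 N) →+ R, tr1 (wAL d (res1 φ)) = T φ)
    {x y : Additive (Gamma0 N) →+ R} (hx : IsParabolicHom (Gamma0 N) x)
    (hy : IsParabolicHom (Gamma0 N) y) :
    pair (Gamma0 N) (negOne_mem N) h6 (T x) y = pair (Gamma0 N) (negOne_mem N) h6 x (T y) := by
  have hresx : IsParabolicHom (Gamma0 (N * q)) (res1 (q := q) x) := by
    rw [res1_eq_res]; exact Package.res_isParabolicHom _ hx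
  have hresy : IsParabolicHom (Gamma0 (N * q)) (res1 (q := q) y) := by
    rw [res1_eq_res]; exact Package.res_isParabolicHom _ hy
  rw [← hT x, ← hT y, ← pair_tr1_eq_pair_res1 h6 hy (wAL_isParabolicHom d hresx),
    pair_wAL_left d h6 hresx hresy,
    pair_res1_eq_pair_tr1 h6 hx (wAL_isParabolicHom d hresy)]

end Fermat.Agent.S41.PD.LevelIsoPair
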