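/-
S41 / (P5) (helper29): descent of the Poincare duality statements (b) ADJ, (c) ISO and of the
self-adjointness of `T = tr1 ∘ wAL ∘ res1` from `ℚ`-valued to `ℤ`-valued parabolic homs, for ANY
integral pairing `lp` satisfying the CAST property
`((lp φ φ' : ℤ) : ℚ) = PairOnPar.pair _ _ h6 (ι φ) (ι φ')` on parabolic homs
(`ι φ = (Int.castAddHom ℚ).comp φ`).
-/
import Mathlib
import Fermat.Agent.S41.PD.LevelIsoPair

set_option autoImplicit false

open scoped MatrixGroups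

namespace Fermat.Agent.S41.PD.LatticeDescent

open ModularCurve.Period CongruenceSubgroup
open Fermat.Agent.S16.HeckeHom Fermat.Agent.S41.Level
open Fermat.Agent.S41.PD.PairOnPar Fermat.Agent.S41.PD.LevelAdj Fermat.Agent.S41.PD.LevelIso
open Fermat.Agent.S41.PD.LevelIsoPair

/-- `6` is a unit of `ℚ`. -/
theorem isUnit_six_rat : IsUnit (6 : ℚ) := isUnit_iff_ne_zero.2 (by norm_num)

/-- coefficient extension `ℤ → ℚ` of homs. -/
def ι {G : Subgroup SL(2, ℤ)} (φ : Additive G →+ ℤ) : Additive G →+ ℚ :=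
  (Int.castAddHom ℚ).comp φ

@[simp] theorem ι_apply {G : Subgroup SL(2, ℤ)} (φ : Additive G →+ ℤ) (γ : Additive G) :
    ι φ γ = ((φ γ : ℤ) : ℚ) := rfl

theorem ι_injective {G : Subgroup SL(2, ℤ)} : Function.Injective (ι (G := G)) := by
  intro φ ψ h
  apply AddMonoidHom.ext
  intro γ
  have := DFunLike.congr_fun h γ
  simpa using this

theorem isParabolicHom_ι {G : Subgroup SL(2, ℤ)} {φ : Additive G →+ ℤ} :
    IsParabolicHom G (ι φ) ↔ IsParabolicHom G φ := by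
  constructor
  · intro h γ hγ
    have := h γ hγ
    simpa using this
  · intro h γ hγ
    rw [ι_apply, h γ hγ, Int.cast_zero]

section Level

variable {N q : ℕ}

theorem res1_ι (φ : Additive (Gamma0 N) →+ ℤ) : res1 (q := q) (ι φ) = ι (res1 φ) :=
  WCS.op_comp_left _ _ φ

theorem tr1_ι [NeZero (N * q)] (ψ : Additive (Gamma0 (N * q)) →+ ℤ) :
    tr1 (ι ψ) = ι (tr1 ψ) :=
  WCS.op_comp_left _ _ ψ

theorem wAL_ι (d : ALData N q) (ψ : Additive (Gamma0 (N * q)) →+ ℤ) :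
    wAL d (ι ψ) = ι (wAL d ψ) :=
  WCS.op_comp_left _ _ ψ

theorem res2_ι (d : ALData N q) (φ : Additive (Gamma0 N) →+ ℤ) :
    res2 d (ι φ) = ι (res2 d φ) := by
  unfold res2
  rw [res1_ι, wAL_ι]

theorem tr2_ι [NeZero (N * q)] (d : ALData N q) (ψ : Additive (Gamma0 (N * q)) →+ ℤ) :
    tr2 d (ι ψ) = ι (tr2 d ψ) := by
  unfold tr2
  rw [wAL_ι, tr1_ι]

/-- restriction preserves parabolic homs (any coefficients). -/
theorem res1_isParabolicHom {A : Type*} [AddCommGroup A] {x : Additive (Gamma0 N) →+ A}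
    (hx : IsParabolicHom (Gamma0 N) x) : IsParabolicHom (Gamma0 (N * q)) (res1 (q := q) x) := by
  intro γ hγ
  rw [res1_apply]
  exact hx _ hγ

variable [NeZero N] [NeZero (N * q)]

/-- the transfer preserves `ℤ`-valued parabolic homs. -/
theorem tr1_isParabolicHom_int {m : Additive (Gamma0 (N * q)) →+ ℤ}
    (hm : IsParabolicHom (Gamma0 (N * q)) m) : IsParabolicHom (Gamma0 N) (tr1 m) := by
  rw [← isParabolicHom_ι, ← tr1_ι]
  exact tr1_isParabolicHom isUnit_six_rat (isParabolicHom_ι.2 hm)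

/-- the CAST property of an integral pairing at level `K`. -/
def IsCast (K : ℕ) [NeZero K]
    (lp : (Additive (Gamma0 K) →+ ℤ) → (Additive (Gamma0 K) →+ ℤ) → ℤ) : Prop :=
  ∀ φ φ' : Additive (Gamma0 K) →+ ℤ, IsParabolicHom (Gamma0 K) φ → IsParabolicHom (Gamma0 K) φ' →
    ((lp φ φ' : ℤ) : ℚ) = pair (Gamma0 K) (negOne_mem K) isUnit_six_rat (ι φ) (ι φ')

variable {lpN : (Additive (Gamma0 N) →+ ℤ) → (Additive (Gamma0 N) →+ ℤ) → ℤ}
  {lpM : (Additive (Gamma0 (N * q)) →+ ℤ) → (Additive (Gamma0 (N * q)) →+ ℤ) → ℤ}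

/-- **(b) ADJ over `ℤ`.** -/
theorem lp_res1_eq_lp_tr1 (hN : IsCast N lpN) (hM : IsCast (N * q) lpM)
    {x : Additive (Gamma0 N) →+ ℤ} (hx : IsParabolicHom (Gamma0 N) x)
    {m : Additive (Gamma0 (N * q)) →+ ℤ} (hm : IsParabolicHom (Gamma0 (N * q)) m) :
    lpM (res1 x) m = lpN x (tr1 m) := by
  apply Int.cast_injective (α := ℚ)
  rw [hM _ _ (res1_isParabolicHom hx) hm, hN _ _ hx (tr1_isParabolicHom_int hm), ← res1_ι,
    ← tr1_ι]
  exact pair_res1_eq_pair_tr1 isUnit_six_rat (isParabolicHom_ι.2 hx) (isParabolicHom_ι.2 hm)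

omit [NeZero N] in
/-- **(c) ISO over `ℤ`.** -/
theorem lp_wAL_wAL (hM : IsCast (N * q) lpM) (d : ALData N q)
    {a b : Additive (Gamma0 (N * q)) →+ ℤ} (ha : IsParabolicHom (Gamma0 (N * q)) a)
    (hb : IsParabolicHom (Gamma0 (N * q)) b) :
    lpM (wAL d a) (wAL d b) = lpM a b := by
  apply Int.cast_injective (α := ℚ)
  rw [hM _ _ (wAL_isParabolicHom d ha) (wAL_isParabolicHom d hb), hM _ _ ha hb, ← wAL_ι, ← wAL_ι]
  exact pair_wAL_wAL d isUnit_six_rat (isParabolicHom_ι.2 ha) (isParabolicHom_ι.2 hb)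

/-- `res2`, `tr2` are adjoint over `ℤ`. -/
theorem lp_res2_eq_lp_tr2 (hN : IsCast N lpN) (hM : IsCast (N * q) lpM) (d : ALData N q)
    {x : Additive (Gamma0 N) →+ ℤ} (hx : IsParabolicHom (Gamma0 N) x)
    {m : Additive (Gamma0 (N * q)) →+ ℤ} (hm : IsParabolicHom (Gamma0 (N * q)) m) :
    lpM (res2 d x) m = lpN x (tr2 d m) := by
  apply Int.cast_injective (α := ℚ)
  have h1 : IsParabolicHom (Gamma0 (N * q)) (res2 d x) :=
    wAL_isParabolicHom d (res1_isParabolicHom hx)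
  have h2 : IsParabolicHom (Gamma0 N) (tr2 d m) :=
    tr1_isParabolicHom_int (wAL_isParabolicHom d hm)
  rw [hM _ _ h1 hm, hN _ _ hx h2, ← res2_ι, ← tr2_ι]
  exact pair_res2_eq_pair_tr2 d isUnit_six_rat (isParabolicHom_ι.2 hx) (isParabolicHom_ι.2 hm)

/-- `T = tr1 ∘ wAL ∘ res1` is self-adjoint over `ℤ`. -/
theorem lp_selfAdjoint_of_eq (hN : IsCast N lpN) (d : ALData N q)
    (T : (Additive (Gamma0 N) →+ ℤ) → (Additive (Gamma0 N) →+ ℤ))
    (hT : ∀ φ : Additive (Gamma0 N) →+ ℤ, tr1 (wAL d (res1 φ)) = T φ)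
    {x y : Additive (Gamma0 N) →+ ℤ} (hx : IsParabolicHom (Gamma0 N) x)
    (hy : IsParabolicHom (Gamma0 N) y) :
    lpN (T x) y = lpN x (T y) := by
  apply Int.cast_injective (α := ℚ)
  have hTpar : ∀ {z : Additive (Gamma0 N) →+ ℤ}, IsParabolicHom (Gamma0 N) z →
      IsParabolicHom (Gamma0 N) (T z) := by
    intro z hz
    rw [← hT z]
    exact tr1_isParabolicHom_int (wAL_isParabolicHom d (res1_isParabolicHom hz))
  rw [hN _ _ (hTpar hx) hy, hN _ _ hx (hTpar hy)]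
  have key := pair_selfAdjoint_of_eq d isUnit_six_rat
    (fun φ => tr1 (wAL d (res1 (q := q) φ))) (fun _ => rfl) (x := ι x) (y := ι y)
    (isParabolicHom_ι.2 hx) (isParabolicHom_ι.2 hy)
  have ex : ι (T x) = tr1 (wAL d (res1 (q := q) (ι x))) := by
    rw [← hT x, res1_ι, wAL_ι, tr1_ι]
  have ey : ι (T y) = tr1 (wAL d (res1 (q := q) (ι y))) := by
    rw [← hT y, res1_ι, wAL_ι, tr1_ι]
  rw [ex, ey]
  exact key

end Level

/-! ### biadditivity and skewness are inherited through the cast -/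

section Formal

variable {K : ℕ} [NeZero K]
  {lp : (Additive (Gamma0 K) →+ ℤ) → (Additive (Gamma0 K) →+ ℤ) → ℤ}

theorem ι_add {G : Subgroup SL(2, ℤ)} (φ ψ : Additive G →+ ℤ) : ι (φ + ψ) = ι φ + ι ψ :=
  AddMonoidHom.comp_add _ _ _

theorem ι_zsmul {G : Subgroup SL(2, ℤ)} (n : ℤ) (φ : Additive G →+ ℤ) :
    ι (n • φ) = (n : ℚ) • ι φ := by
  apply AddMonoidHom.ext
  intro γ
  simp [ι_apply]

theorem isParabolicHom_add_int {G : Subgroup SL(2, ℤ)} {φ ψ : Additive G →+ ℤ}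
    (hφ : IsParabolicHom G φ) (hψ : IsParabolicHom G ψ) : IsParabolicHom G (φ + ψ) :=
  (parabolicHoms ℤ G ℤ).add_mem hφ hψ

theorem isParabolicHom_zsmul_int {G : Subgroup SL(2, ℤ)} (n : ℤ) {φ : Additive G →+ ℤ}
    (hφ : IsParabolicHom G φ) : IsParabolicHom G (n • φ) :=
  (parabolicHoms ℤ G ℤ).smul_mem n hφ

theorem IsCast.add_left (h : IsCast K lp) {φ₁ φ₂ φ' : Additive (Gamma0 K) →+ ℤ}
    (h₁ : IsParabolicHom (Gamma0 K) φ₁) (h₂ : IsParabolicHom (Gamma0 K) φ₂)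
    (h' : IsParabolicHom (Gamma0 K) φ') : lp (φ₁ + φ₂) φ' = lp φ₁ φ' + lp φ₂ φ' := by
  apply Int.cast_injective (α := ℚ)
  rw [Int.cast_add, h _ _ (isParabolicHom_add_int h₁ h₂) h', h _ _ h₁ h', h _ _ h₂ h', ι_add]
  exact pair_add_left _ _ _ (isParabolicHom_ι.2 h₁) (isParabolicHom_ι.2 h₂) (isParabolicHom_ι.2 h')

theorem IsCast.add_right (h : IsCast K lp) {φ φ₁' φ₂' : Additive (Gamma0 K) →+ ℤ}
    (hφ : IsParabolicHom (Gamma0 K) φ) (h₁ : IsParabolicHom (Gamma0 K) φ₁')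
    (h₂ : IsParabolicHom (Gamma0 K) φ₂') : lp φ (φ₁' + φ₂') = lp φ φ₁' + lp φ φ₂' := by
  apply Int.cast_injective (α := ℚ)
  rw [Int.cast_add, h _ _ hφ (isParabolicHom_add_int h₁ h₂), h _ _ hφ h₁, h _ _ hφ h₂, ι_add]
  exact pair_add_right _ _ _ (isParabolicHom_ι.2 hφ) (isParabolicHom_ι.2 h₁) (isParabolicHom_ι.2 h₂)

theorem IsCast.zsmul_left (h : IsCast K lp) (n : ℤ) {φ φ' : Additive (Gamma0 K) →+ ℤ}
    (hφ : IsParabolicHom (Gamma0 K) φ) (h' : IsParabolicHom (Gamma0 K) φ') :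
    lp (n • φ) φ' = n * lp φ φ' := by
  apply Int.cast_injective (α := ℚ)
  rw [Int.cast_mul, h _ _ (isParabolicHom_zsmul_int n hφ) h', h _ _ hφ h', ι_zsmul]
  exact pair_smul_left _ _ _ _ (isParabolicHom_ι.2 hφ) (isParabolicHom_ι.2 h')

theorem IsCast.zsmul_right (h : IsCast K lp) (n : ℤ) {φ φ' : Additive (Gamma0 K) →+ ℤ}
    (hφ : IsParabolicHom (Gamma0 K) φ) (h' : IsParabolicHom (Gamma0 K) φ') :
    lp φ (n • φ') = n * lp φ φ' := by
  apply Int.cast_injective (α := ℚ)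
  rw [Int.cast_mul, h _ _ hφ (isParabolicHom_zsmul_int n h'), h _ _ hφ h', ι_zsmul]
  exact pair_smul_right _ _ _ _ (isParabolicHom_ι.2 hφ) (isParabolicHom_ι.2 h')

theorem IsCast.skew (h : IsCast K lp) {φ φ' : Additive (Gamma0 K) →+ ℤ}
    (hφ : IsParabolicHom (Gamma0 K) φ) (h' : IsParabolicHom (Gamma0 K) φ') :
    lp φ φ' = - lp φ' φ := by
  apply Int.cast_injective (α := ℚ)
  rw [Int.cast_neg, h _ _ hφ h', h _ _ h' hφ]
  exact pair_skew _ _ _ (isParabolicHom_ι.2 hφ) (isParabolicHom_ι.2 h')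

end Formal

end Fermat.Agent.S41.PD.LatticeDescent
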