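/-
S41 / (W1) step F1, generalised (helper78): Poincare duality for modules over `C2 * C3` when only
`2` is invertible (so that the FIELD version is available in characteristic `3`).

This is a drop-in generalisation of `Fermat/Agent/S41/PD/AbstractDuality.lean` (helper29): same
names, same shapes.  The only changes:

* `W := ker (1 + s) ⊓ range (1 - t)` instead of `ker (1 + s) ⊓ ker (1 + t + t^2)`
  (the two agree when `3` is invertible, see `mem_W_iff_of_inv3`);
* `θ := κ - 1/2`, where `κ` is a linear section of `1 - t` on `range (1 - t)`, part of the data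
  (`κ = (1 - t^2)/3` when `3` is invertible: `Setting.ofInv3`; over a field a section always
  exists: `Setting.ofField`).  For `P ∈ W` the value `θ P` does not depend on `κ` modulo `V^t ⊆ U`
  (`theta_congr`), and `W ⊥ V^t`, so `j P = [θ P]` and `ω(P, P') = B (θ P) P'` are canonical.

The sequence `VT --d--> W --j--> V/U --r--> V/BT` is exact, `ω` is skew, `W = U^⊥`, and over a field
of characteristic `≠ 2` with `V` finite dimensional and `B` symmetric nondegenerate invariant the
radical of `ω` on `W` is exactly `d (VT)` (`radical_iff_of_field`).  In characteristic `3`, for a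
permutation module `V = K[Γ\G]` on which `t` has fixed points, `(V^t)^⊥ = range (1 - t)` is strictly
smaller than `ker (1 + t + t^2)`; `V / U` is then the space of classes that are trivial on the
elliptic elements of order `3`, i.e. the reduction mod `3` of `Hom(Γ, ℤ)`.
Mathlib only.
-/
import Mathlib

set_option autoImplicit false

namespace Fermat.Agent.S41.PD.AbstractDuality2

/-- A module over `C2 * C3` (with `2` invertible in the base ring), together with a linear section
`kap` of `1 - t` on `range (1 - t)`. -/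
structure Setting (R V : Type*) [CommRing R] [AddCommGroup V] [Module R V] where
  /-- the involution -/
  s : V →ₗ[R] V
  /-- the element of order three -/
  t : V →ₗ[R] V
  hs : ∀ x, s (s x) = x
  ht : ∀ x, t (t (t x)) = x
  /-- inverse of two -/
  i2 : R
  h2 : 2 * i2 = 1
  /-- a linear section of `1 - t` on its range -/
  kap : V →ₗ[R] V
  hkap : ∀ x, kap (x - t x) - t (kap (x - t x)) = x - t x

namespace Setting

variable {R V : Type*} [CommRing R] [AddCommGroup V] [Module R V] (D : Setting R V)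

/-- relative cocycles: `ker (1 + s) ⊓ range (1 - t)`. -/
def W : Submodule R V where
  carrier := {P | D.s P = -P ∧ ∃ x, x - D.t x = P}
  zero_mem' := ⟨by simp, 0, by simp⟩
  add_mem' := by
    rintro P P' ⟨h1, x, hx⟩ ⟨h1', x', hx'⟩
    refine ⟨by rw [map_add, h1, h1']; abel, x + x', ?_⟩
    rw [map_add, ← hx, ← hx']
    abel
  smul_mem' := by
    rintro c P ⟨h1, x, hx⟩
    refine ⟨by rw [map_smul, h1, smul_neg], c • x, ?_⟩
    rw [map_smul, ← hx, smul_sub]

/-- `s`-invariants. -/
def Vs : Submodule R V where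
  carrier := {a | D.s a = a}
  zero_mem' := by simp
  add_mem' := by
    intro a b (ha : D.s a = a) (hb : D.s b = b)
    show D.s (a + b) = a + b
    rw [map_add, ha, hb]
  smul_mem' := by
    intro c a (ha : D.s a = a)
    show D.s (c • a) = c • a
    rw [map_smul, ha]

/-- `t`-invariants. -/
def Vt : Submodule R V where
  carrier := {a | D.t a = a}
  zero_mem' := by simp
  add_mem' := by
    intro a b (ha : D.t a = a) (hb : D.t b = b)
    show D.t (a + b) = a + b
    rw [map_add, ha, hb]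
  smul_mem' := by
    intro c a (ha : D.t a = a)
    show D.t (c • a) = c • a
    rw [map_smul, ha]

/-- `V^s + V^t`: the coboundaries in the normal form `Z(s) = 0`, `Z(t) = (t - 1) w`. -/
def U : Submodule R V := D.Vs ⊔ D.Vt

/-- invariants of `T = s t`. -/
def VT : Submodule R V where
  carrier := {u | D.s (D.t u) = u}
  zero_mem' := by simp
  add_mem' := by
    intro a b (ha : D.s (D.t a) = a) (hb : D.s (D.t b) = b)
    show D.s (D.t (a + b)) = a + b
    rw [map_add, map_add, ha, hb]
  smul_mem' := by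
    intro c a (ha : D.s (D.t a) = a)
    show D.s (D.t (c • a)) = c • a
    rw [map_smul, map_smul, ha]

/-- `(T - 1) V`. -/
def BT : Submodule R V where
  carrier := {y | ∃ v, D.s (D.t v) - v = y}
  zero_mem' := ⟨0, by simp⟩
  add_mem' := by
    rintro _ _ ⟨v, rfl⟩ ⟨v', rfl⟩
    exact ⟨v + v', by simp only [map_add]; abel⟩
  smul_mem' := by
    rintro c _ ⟨v, rfl⟩
    exact ⟨c • v, by simp only [map_smul, smul_sub]⟩

/-- `θ = κ - 1/2`. -/
def θ : V →ₗ[R] V := D.kap - D.i2 • LinearMap.id

theorem mem_W {P : V} : P ∈ D.W ↔ D.s P = -P ∧ ∃ x, x - D.t x = P := Iff.rfl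

theorem mem_Vs {a : V} : a ∈ D.Vs ↔ D.s a = a := Iff.rfl

theorem mem_Vt {a : V} : a ∈ D.Vt ↔ D.t a = a := Iff.rfl

theorem mem_VT {u : V} : u ∈ D.VT ↔ D.s (D.t u) = u := Iff.rfl

theorem mem_BT {y : V} : y ∈ D.BT ↔ ∃ v, D.s (D.t v) - v = y := Iff.rfl

theorem mem_U {x : V} : x ∈ D.U ↔ ∃ a b, D.s a = a ∧ D.t b = b ∧ a + b = x := by
  unfold U
  rw [Submodule.mem_sup]
  constructor
  · rintro ⟨a, ha, b, hb, rfl⟩
    exact ⟨a, b, ha, hb, rfl⟩
  · rintro ⟨a, b, ha, hb, rfl⟩
    exact ⟨a, ha, b, hb, rfl⟩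

theorem Vs_le_U : D.Vs ≤ D.U := le_sup_left

theorem Vt_le_U : D.Vt ≤ D.U := le_sup_right

theorem θ_apply (P : V) : D.θ P = D.kap P - D.i2 • P := by
  simp [θ]

/-- elements of `W` are killed by the norm `1 + t + t^2`. -/
theorem norm_eq_zero_of_mem_W {P : V} (hP : P ∈ D.W) : P + D.t P + D.t (D.t P) = 0 := by
  obtain ⟨-, x, rfl⟩ := hP
  simp only [map_sub, D.ht]
  abel

/-- on `VT`, `t u = s u`. -/
theorem t_eq_s_of_mem_VT {u : V} (hu : u ∈ D.VT) : D.t u = D.s u := by
  have h := congrArg D.s (D.mem_VT.1 hu)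
  rwa [D.hs] at h

/-- `d : VT → W`, `u ↦ s u - u`. -/
theorem d_mem_W {u : V} (hu : u ∈ D.VT) : D.s u - u ∈ D.W := by
  have h1 := D.t_eq_s_of_mem_VT hu
  refine ⟨by rw [map_sub, D.hs]; abel, -u, ?_⟩
  rw [map_neg, h1]
  abel

/-- for `P ∈ W`, `κ P` solves `(1 - t) x = P`. -/
theorem one_sub_t_kap {P : V} (hP : P ∈ D.W) : D.kap P - D.t (D.kap P) = P := by
  obtain ⟨-, x, rfl⟩ := hP
  exact D.hkap x

/-- for `P ∈ W`, `u₀ := -P/2` solves `(s - 1) u₀ = P`. -/
theorem s_sub_one_u0 {P : V} (hP : P ∈ D.W) :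
    D.s ((-D.i2) • P) - (-D.i2) • P = P := by
  obtain ⟨hs, -⟩ := hP
  simp only [map_smul, hs]
  linear_combination (norm := module) D.h2 • P

/-- independence of the section: for `P ∈ W` and ANY solution `x` of `(1 - t) x = P`,
`θ P ≡ x - P/2` modulo `V^t`. -/
theorem theta_congr {P x : V} (hP : P ∈ D.W) (hx : x - D.t x = P) :
    D.θ P - (x - D.i2 • P) ∈ D.Vt := by
  have hk := D.one_sub_t_kap hP
  rw [mem_Vt, θ_apply]
  simp only [map_sub, map_smul]
  linear_combination (norm := module) (-1 : R) • hk + hx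

/-- the same, as an existence statement. -/
theorem exists_theta_eq {P x : V} (hP : P ∈ D.W) (hx : x - D.t x = P) :
    ∃ b, D.t b = b ∧ D.θ P = x - D.i2 • P + b :=
  ⟨D.θ P - (x - D.i2 • P), D.theta_congr hP hx, by abel⟩

/-- `j ∘ d = 0`. -/
theorem theta_d_mem_U {u : V} (hu : u ∈ D.VT) : D.θ (D.s u - u) ∈ D.U := by
  have h1 := D.t_eq_s_of_mem_VT hu
  have hx : (-u) - D.t (-u) = D.s u - u := by
    rw [map_neg, h1]; abel
  obtain ⟨b, hb, hθ⟩ := D.exists_theta_eq (D.d_mem_W hu) hx
  refine D.mem_U.2 ⟨(-D.i2) • (u + D.s u), b, ?_, hb, ?_⟩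
  · simp only [map_smul, map_add, D.hs]
    module
  · rw [hθ]
    linear_combination (norm := module) (-D.h2) • u

/-- exactness at `W`: `ker j ⊆ im d`. -/
theorem exists_of_theta_mem_U {P : V} (hP : P ∈ D.W) (h : D.θ P ∈ D.U) :
    ∃ u ∈ D.VT, D.s u - u = P := by
  obtain ⟨a, b, ha, hb, hab⟩ := D.mem_U.1 h
  have hx0 := D.one_sub_t_kap hP
  have hu0 := D.s_sub_one_u0 hP
  rw [θ_apply] at hab
  -- u = u₀ - a = -(κ P) + b
  have hsu : D.s ((-D.i2) • P - a) - ((-D.i2) • P - a) = P := by
    rw [map_sub, ha]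
    linear_combination (norm := module) hu0
  have hrepr : (-D.i2) • P - a = -(D.kap P) + b := by
    linear_combination (norm := module) (-1 : R) • hab
  have htu : D.t ((-D.i2) • P - a) - ((-D.i2) • P - a) = P := by
    rw [hrepr, map_add, map_neg, hb]
    linear_combination (norm := module) hx0
  refine ⟨(-D.i2) • P - a, ?_, hsu⟩
  rw [mem_VT]
  have h1 : D.t ((-D.i2) • P - a) = D.s ((-D.i2) • P - a) := by
    linear_combination (norm := module) htu - hsu
  rw [h1, D.hs]

/-- `r ∘ j = 0`. -/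
theorem r_theta_mem_BT {P : V} (hP : P ∈ D.W) : D.θ P - D.s (D.θ P) ∈ D.BT := by
  have hx0 := D.one_sub_t_kap hP
  obtain ⟨hs, -⟩ := hP
  refine D.mem_BT.2 ⟨-(D.kap P), ?_⟩
  -- t (κ P) = κ P - P
  have htx : D.t (D.kap P) = D.kap P - P := by
    linear_combination (norm := module) (-1 : R) • hx0
  rw [θ_apply, map_neg, htx]
  simp only [map_sub, map_neg, map_smul, hs]
  linear_combination (norm := module) D.h2 • P

/-- `r` is well defined on `V / U`. -/
theorem r_mem_BT_of_mem_U {w : V} (hw : w ∈ D.U) : w - D.s w ∈ D.BT := by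
  obtain ⟨a, b, ha, hb, rfl⟩ := D.mem_U.1 hw
  refine D.mem_BT.2 ⟨-b, ?_⟩
  rw [map_neg, hb, map_neg, map_add, ha]
  abel

/-- exactness at `V / U`: `ker r ⊆ im j`. -/
theorem exists_of_r_mem_BT {w : V} (h : w - D.s w ∈ D.BT) :
    ∃ P ∈ D.W, w - D.θ P ∈ D.U := by
  obtain ⟨v, hv⟩ := D.mem_BT.1 h
  -- t v = s w - w + s v
  have htv : D.t v = D.s w - w + D.s v := by
    have h1 := congrArg D.s hv
    rw [map_sub, D.hs, map_sub, D.hs] at h1
    linear_combination (norm := module) h1
  have hx : (-v) - D.t (-v) = D.t v - v := by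
    rw [map_neg]; abel
  have hPW : D.t v - v ∈ D.W := by
    refine ⟨?_, -v, hx⟩
    rw [htv]
    simp only [map_sub, map_add, D.hs]
    abel
  refine ⟨D.t v - v, hPW, ?_⟩
  obtain ⟨b, hb, hθ⟩ := D.exists_theta_eq hPW hx
  have hu0 := D.s_sub_one_u0 hPW
  refine D.mem_U.2 ⟨(w + v) - (-D.i2) • (D.t v - v), -b, ?_, by rw [map_neg, hb], ?_⟩
  · rw [map_sub (D.s)]
    have h2 : D.s (w + v) - (w + v) = D.t v - v := by
      rw [map_add, htv]; abel
    linear_combination (norm := module) h2 - hu0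
  · rw [hθ]
    module

section Form

variable (B : LinearMap.BilinForm R V)

/-- `range (1 - t) ⊥ V^t` for a `t`-invariant form. -/
theorem range_perp_Vt (hBt : ∀ x y, B (D.t x) (D.t y) = B x y) (x : V) {b : V} (hb : D.t b = b) :
    B (x - D.t x) b = 0 := by
  have := hBt x b
  rw [hb] at this
  rw [map_sub, LinearMap.sub_apply, this, sub_self]

/-- `W ⊆ U^⊥` for an invariant form. -/
theorem W_perp_U (hBs : ∀ x y, B (D.s x) (D.s y) = B x y) (hBt : ∀ x y, B (D.t x) (D.t y) = B x y)
    {P y : V} (hP : P ∈ D.W) (hy : y ∈ D.U) : B P y = 0 := by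
  obtain ⟨a, b, ha, hb, rfl⟩ := D.mem_U.1 hy
  obtain ⟨hs, x, hx⟩ := hP
  have h1 : B P a = 0 := by
    have e1 : B P a = - B P a := by
      have := hBs P a
      rw [hs, ha, map_neg, LinearMap.neg_apply] at this
      exact this.symm
    have e2 : (2 : R) * B P a = 0 := by linear_combination e1
    calc B P a = (2 * D.i2) * B P a := by rw [D.h2, one_mul]
      _ = D.i2 * (2 * B P a) := by ring
      _ = 0 := by rw [e2, mul_zero]
  have h2 : B P b = 0 := by
    rw [← hx]
    exact D.range_perp_Vt B hBt x hb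
  rw [map_add, h1, h2, add_zero]

/-- `U^⊥ ⊆ ker (1 + s)` for a nondegenerate `s`-invariant form. -/
theorem s_eq_neg_of_perp (hBs : ∀ x y, B (D.s x) (D.s y) = B x y)
    (hnd : ∀ x, (∀ y, B x y = 0) → x = 0)
    {P : V} (h : ∀ y ∈ D.Vs, B P y = 0) : D.s P = -P := by
  have hs' : D.s P + P = 0 := by
    apply hnd
    intro y
    have hy : y + D.s y ∈ D.Vs := by
      rw [mem_Vs, map_add, D.hs]; abel
    have := h _ hy
    have e : B (D.s P) y = B P (D.s y) := by
      have := hBs P (D.s y)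
      rwa [D.hs] at this
    rw [map_add, LinearMap.add_apply, e]
    rw [map_add] at this
    linear_combination this
  linear_combination (norm := module) hs'

/-- `ω(P, P') = B (θ P) P'` is skew on `W`. -/
theorem skew (hBt : ∀ x y, B (D.t x) (D.t y) = B x y)
    {P P' : V} (hP : P ∈ D.W) (hP' : P' ∈ D.W) : B (D.θ P) P' + B P (D.θ P') = 0 := by
  have hk := D.one_sub_t_kap hP
  have hk' := D.one_sub_t_kap hP'
  have e0 := hBt (D.kap P) (D.kap P')
  -- expand `P = k - t k`, `P' = k' - t k'`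
  have e1 : B P P' = B (D.kap P) (D.kap P') - B (D.kap P) (D.t (D.kap P'))
      - B (D.t (D.kap P)) (D.kap P') + B (D.t (D.kap P)) (D.t (D.kap P')) := by
    conv_lhs => rw [← hk, ← hk']
    simp only [map_sub, LinearMap.sub_apply]
    ring
  have e2 : B (D.kap P) P' = B (D.kap P) (D.kap P') - B (D.kap P) (D.t (D.kap P')) := by
    conv_lhs => rw [← hk']
    simp only [map_sub]
  have e3 : B P (D.kap P') = B (D.kap P) (D.kap P') - B (D.t (D.kap P)) (D.kap P') := by
    conv_lhs => rw [← hk]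
    simp only [map_sub, LinearMap.sub_apply]
  simp only [θ_apply, map_sub, map_smul, LinearMap.sub_apply, LinearMap.smul_apply, smul_eq_mul]
  linear_combination e2 + e3 - (B P P') * D.h2 - e1 - e0

/-- `ω` is alternating on `W`. -/
theorem alternating (hBt : ∀ x y, B (D.t x) (D.t y) = B x y) (hsymm : ∀ x y, B x y = B y x)
    {P : V} (hP : P ∈ D.W) : B (D.θ P) P = 0 := by
  have h := D.skew B hBt hP hP
  rw [hsymm P (D.θ P)] at h
  have e2 : (2 : R) * B (D.θ P) P = 0 := by linear_combination h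
  calc B (D.θ P) P = (2 * D.i2) * B (D.θ P) P := by rw [D.h2, one_mul]
    _ = D.i2 * (2 * B (D.θ P) P) := by ring
    _ = 0 := by rw [e2, mul_zero]

/-- the value of `ω` may be computed with any solution `x` of `(1 - t) x = P`. -/
theorem omega_eq (hBs : ∀ x y, B (D.s x) (D.s y) = B x y) (hBt : ∀ x y, B (D.t x) (D.t y) = B x y)
    (hsymm : ∀ x y, B x y = B y x)
    {P P' x : V} (hP : P ∈ D.W) (hP' : P' ∈ D.W) (hx : x - D.t x = P) :
    B (D.θ P) P' = B (x - D.i2 • P) P' := by
  obtain ⟨b, hb, hθ⟩ := D.exists_theta_eq hP hx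
  have hb0 : B b P' = 0 := by
    rw [hsymm]
    exact D.W_perp_U B hBs hBt hP' (D.Vt_le_U hb)
  rw [hθ, map_add, LinearMap.add_apply, hb0, add_zero]

/-- `d` and `r` are adjoint. -/
theorem d_adjoint_r (hBs : ∀ x y, B (D.s x) (D.s y) = B x y) (u w : V) :
    B (D.s u - u) w = - B u (w - D.s w) := by
  have := hBs u (D.s w)
  rw [D.hs] at this
  simp only [map_sub, LinearMap.sub_apply]
  rw [this]; ring

/-- the radical of `ω` on `W` is `ker j`, provided `W^⊥ ⊆ U`. -/
theorem radical_iff_theta_mem_U (hBs : ∀ x y, B (D.s x) (D.s y) = B x y)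
    (hBt : ∀ x y, B (D.t x) (D.t y) = B x y) (hsymm : ∀ x y, B x y = B y x)
    (hperp : ∀ v, (∀ P ∈ D.W, B v P = 0) → v ∈ D.U)
    {P : V} : (∀ P' ∈ D.W, B (D.θ P) P' = 0) ↔ D.θ P ∈ D.U := by
  constructor
  · intro h
    exact hperp _ h
  · intro h P' hP'
    rw [hsymm]
    exact D.W_perp_U B hBs hBt hP' h

/-- the radical of `ω` on `W` is `d (VT)`, provided `W^⊥ ⊆ U`: Poincare duality on `W / d(VT)`. -/
theorem radical_iff (hBs : ∀ x y, B (D.s x) (D.s y) = B x y)
    (hBt : ∀ x y, B (D.t x) (D.t y) = B x y) (hsymm : ∀ x y, B x y = B y x)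
    (hperp : ∀ v, (∀ P ∈ D.W, B v P = 0) → v ∈ D.U)
    {P : V} (hP : P ∈ D.W) :
    (∀ P' ∈ D.W, B (D.θ P) P' = 0) ↔ ∃ u ∈ D.VT, D.s u - u = P := by
  rw [D.radical_iff_theta_mem_U B hBs hBt hsymm hperp]
  constructor
  · exact D.exists_of_theta_mem_U hP
  · rintro ⟨u, hu, rfl⟩
    exact D.theta_d_mem_U hu

end Form

section Inv3

/-- when `3` is invertible, `W` is the classical `ker (1 + s) ⊓ ker (1 + t + t^2)`. -/
theorem mem_W_iff_of_inv3 (i3 : R) (h3 : 3 * i3 = 1) {P : V} :
    P ∈ D.W ↔ D.s P = -P ∧ P + D.t P + D.t (D.t P) = 0 := by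
  constructor
  · intro hP
    exact ⟨hP.1, D.norm_eq_zero_of_mem_W hP⟩
  · rintro ⟨hs, hN⟩
    refine ⟨hs, i3 • (P - D.t (D.t P)), ?_⟩
    simp only [map_smul, map_sub, D.ht]
    linear_combination (norm := module) (-i3) • hN + h3 • P

end Inv3

section Field

variable {K E : Type*} [Field K] [AddCommGroup E] [Module K E] [FiniteDimensional K E]
  (D : Setting K E) (B : LinearMap.BilinForm K E)

/-- over a field, for a nondegenerate symmetric `t`-invariant form on a finite dimensional module,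
`(V^t)^⊥ = range (1 - t)` (no condition on the characteristic). -/
theorem exists_of_perp_Vt (hnd : B.Nondegenerate)
    (hBt : ∀ x y, B (D.t x) (D.t y) = B x y) (hsymm : ∀ x y, B x y = B y x)
    {P : E} (h : ∀ y ∈ D.Vt, B P y = 0) : ∃ x, x - D.t x = P := by
  have hrefl : B.IsRefl := fun x y h => by rw [hsymm, h]
  set Rt : Submodule K E := LinearMap.range (LinearMap.id - D.t) with hRt
  have hmemRt : ∀ z, z ∈ Rt ↔ ∃ x, x - D.t x = z := by
    intro z
    rw [hRt, LinearMap.mem_range]
    simp only [LinearMap.sub_apply, LinearMap.id_coe, id_eq]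
  have hperp : B.orthogonal Rt = D.Vt := by
    ext y
    rw [LinearMap.BilinForm.mem_orthogonal_iff, mem_Vt]
    constructor
    · intro hy
      -- `B x (y - t^2 y) = 0` for all `x`
      have h0 : D.t (D.t y) - y = 0 := by
        apply hnd.1
        intro x
        rw [hsymm]
        have h1 : B (x - D.t x) y = 0 := hy _ ((hmemRt _).2 ⟨x, rfl⟩)
        have h2 : B (D.t x) y = B x (D.t (D.t y)) := by
          have := hBt x (D.t (D.t y))
          rw [D.ht] at this
          exact this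
        rw [map_sub, LinearMap.sub_apply, h2] at h1
        rw [map_sub]
        linear_combination -h1
      have h3 : D.t (D.t y) = y := by linear_combination (norm := module) h0
      have := congrArg D.t h3
      rw [D.ht] at this
      exact this.symm
    · intro hy n hn
      obtain ⟨x, rfl⟩ := (hmemRt _).1 hn
      exact D.range_perp_Vt B hBt x hy
  have h2 := LinearMap.BilinForm.orthogonal_orthogonal hnd hrefl Rt
  have hP : P ∈ B.orthogonal (B.orthogonal Rt) := by
    rw [hperp, LinearMap.BilinForm.mem_orthogonal_iff]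
    intro y hy
    show B y P = 0
    rw [hsymm]
    exact h y hy
  rw [h2] at hP
  exact (hmemRt _).1 hP

/-- `U^⊥ ⊆ W` over a field (finite dimension, nondegenerate symmetric invariant form). -/
theorem mem_W_of_perp (hnd : B.Nondegenerate) (hBs : ∀ x y, B (D.s x) (D.s y) = B x y)
    (hBt : ∀ x y, B (D.t x) (D.t y) = B x y) (hsymm : ∀ x y, B x y = B y x)
    {P : E} (h : ∀ y ∈ D.U, B P y = 0) : P ∈ D.W :=
  ⟨D.s_eq_neg_of_perp B hBs (fun x hx => hnd.1 x hx) (fun y hy => h y (D.Vs_le_U hy)),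
    D.exists_of_perp_Vt B hnd hBt hsymm (fun y hy => h y (D.Vt_le_U hy))⟩

/-- over a field, for a nondegenerate symmetric invariant form on a finite dimensional module,
`W^⊥ = U`. -/
theorem perp_W_le_U (hnd : B.Nondegenerate) (hBs : ∀ x y, B (D.s x) (D.s y) = B x y)
    (hBt : ∀ x y, B (D.t x) (D.t y) = B x y) (hsymm : ∀ x y, B x y = B y x)
    (v : E) (hv : ∀ P ∈ D.W, B v P = 0) : v ∈ D.U := by
  have hrefl : B.IsRefl := fun x y h => by rw [hsymm, h]
  have hW : D.W = B.orthogonal D.U := by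
    ext P
    rw [LinearMap.BilinForm.mem_orthogonal_iff]
    constructor
    · intro hP y hy
      show B y P = 0
      rw [hsymm]
      exact D.W_perp_U B hBs hBt hP hy
    · intro h
      refine D.mem_W_of_perp B hnd hBs hBt hsymm (fun y hy => ?_)
      rw [hsymm]
      exact h y hy
  have h2 := LinearMap.BilinForm.orthogonal_orthogonal hnd hrefl D.U
  rw [← h2, ← hW, LinearMap.BilinForm.mem_orthogonal_iff]
  intro P hP
  show B P v = 0
  rw [hsymm]
  exact hv P hP

/-- **Poincare duality for `C2 * C3`-modules over a field of characteristic `≠ 2`** (characteristic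
`3` allowed): the radical of the skew form `ω(P, P') = B (θ P) P'` on `W` is exactly `d (VT)`,
i.e. `ω` is nondegenerate on `W / d(VT) = im j = ker r`. -/
theorem radical_iff_of_field (hnd : B.Nondegenerate) (hBs : ∀ x y, B (D.s x) (D.s y) = B x y)
    (hBt : ∀ x y, B (D.t x) (D.t y) = B x y) (hsymm : ∀ x y, B x y = B y x)
    {P : E} (hP : P ∈ D.W) :
    (∀ P' ∈ D.W, B (D.θ P) P' = 0) ↔ ∃ u ∈ D.VT, D.s u - u = P :=
  D.radical_iff B hBs hBt hsymm (D.perp_W_le_U B hnd hBs hBt hsymm) hP

end Field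

section Constructors

variable {R V : Type*} [CommRing R] [AddCommGroup V] [Module R V]

/-- the classical case: `3` invertible, `κ = (1 - t^2)/3`. -/
def ofInv3 (s t : V →ₗ[R] V) (hs : ∀ x, s (s x) = x) (ht : ∀ x, t (t (t x)) = x)
    (i2 i3 : R) (h2 : 2 * i2 = 1) (h3 : 3 * i3 = 1) : Setting R V where
  s := s
  t := t
  hs := hs
  ht := ht
  i2 := i2
  h2 := h2
  kap := i3 • (LinearMap.id - t ∘ₗ t)
  hkap := by
    intro x
    simp only [LinearMap.smul_apply, LinearMap.sub_apply, LinearMap.id_coe, id_eq,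
      LinearMap.comp_apply, map_smul, map_sub, ht]
    linear_combination (norm := module) h3 • (x - t x)

@[simp] theorem ofInv3_s (s t : V →ₗ[R] V) (hs ht) (i2 i3 : R) (h2 h3) :
    (ofInv3 s t hs ht i2 i3 h2 h3).s = s := rfl

@[simp] theorem ofInv3_t (s t : V →ₗ[R] V) (hs ht) (i2 i3 : R) (h2 h3) :
    (ofInv3 s t hs ht i2 i3 h2 h3).t = t := rfl

@[simp] theorem ofInv3_i2 (s t : V →ₗ[R] V) (hs ht) (i2 i3 : R) (h2 h3) :
    (ofInv3 s t hs ht i2 i3 h2 h3).i2 = i2 := rfl

theorem ofInv3_θ_apply (s t : V →ₗ[R] V) (hs ht) (i2 i3 : R) (h2 h3) (P : V) :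
    (ofInv3 s t hs ht i2 i3 h2 h3).θ P = i3 • (P - t (t P)) - i2 • P := by
  rw [θ_apply]
  rfl

/-- over a field every endomorphism `t` admits a linear section of `1 - t` on `range (1 - t)`. -/
theorem exists_section {K E : Type*} [Field K] [AddCommGroup E] [Module K E] (t : E →ₗ[K] E) :
    ∃ kap : E →ₗ[K] E, ∀ x, kap (x - t x) - t (kap (x - t x)) = x - t x := by
  set f : E →ₗ[K] E := LinearMap.id - t with hf
  have hfx : ∀ y, f y = y - t y := fun y => by simp [hf]
  obtain ⟨g, hg⟩ :=
    f.rangeRestrict.exists_rightInverse_of_surjective (LinearMap.range_rangeRestrict f)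
  obtain ⟨kap, hkap⟩ := LinearMap.exists_extend g
  refine ⟨kap, fun x => ?_⟩
  have hmem : f x ∈ LinearMap.range f := ⟨x, rfl⟩
  have h1 : kap (f x) = g ⟨f x, hmem⟩ := by
    have := LinearMap.congr_fun hkap ⟨f x, hmem⟩
    simpa using this
  have h2 : f (g ⟨f x, hmem⟩) = f x := by
    have h := LinearMap.congr_fun hg ⟨f x, hmem⟩
    have h' := congrArg Subtype.val h
    simpa using h'
  rw [← hfx x, h1, ← hfx, h2]

/-- over a field of characteristic `≠ 2`: any `s`, `t` with `s^2 = t^3 = 1` give a `Setting`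
(the section `κ` is chosen). -/
noncomputable def ofField {K E : Type*} [Field K] [AddCommGroup E] [Module K E]
    (s t : E →ₗ[K] E) (hs : ∀ x, s (s x) = x) (ht : ∀ x, t (t (t x)) = x) (h2 : (2 : K) ≠ 0) :
    Setting K E where
  s := s
  t := t
  hs := hs
  ht := ht
  i2 := (2 : K)⁻¹
  h2 := mul_inv_cancel₀ h2
  kap := Classical.choose (exists_section t)
  hkap := Classical.choose_spec (exists_section t)

@[simp] theorem ofField_s {K E : Type*} [Field K] [AddCommGroup E] [Module K E]
    (s t : E →ₗ[K] E) (hs ht) (h2 : (2 : K) ≠ 0) : (ofField s t hs ht h2).s = s := rfl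

@[simp] theorem ofField_t {K E : Type*} [Field K] [AddCommGroup E] [Module K E]
    (s t : E →ₗ[K] E) (hs ht) (h2 : (2 : K) ≠ 0) : (ofField s t hs ht h2).t = t := rfl

@[simp] theorem ofField_i2 {K E : Type*} [Field K] [AddCommGroup E] [Module K E]
    (s t : E →ₗ[K] E) (hs ht) (h2 : (2 : K) ≠ 0) : (ofField s t hs ht h2).i2 = (2 : K)⁻¹ := rfl

end Constructors

end Setting

end Fermat.Agent.S41.PD.AbstractDuality2
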