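/-
S41 / (W1) step F2 for ALL odd `p` (helper78): the Shapiro dictionary when only `2` is invertible.

Complements `Fermat/Agent/S41/PD/Shapiro.lean` (helper68), whose `shap`, `Zc`, `act` are reused
verbatim.  Over a ring in which `3` is not invertible (e.g. `ZMod 3`) the Shapiro map
`shap : (Γ\SL(2,ℤ) → R) → Hom(Γ, R)` is no longer surjective when `Γ` has elements of order `3`;
its image is the space of homomorphisms that kill the elements of finite order of `Γ`:

* `Zc_map`, `shap_map` : base change along a ring homomorphism;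
* `shap_kills_tors` : `shap w` kills the elements of finite order (any commutative ring);
* `exists_shap_eq_of_kills_tors` : conversely (NO invertibility hypothesis at all), via
  `S16/ParabolicLift.exists_cobdry_of_cycZero` applied to `S` and to `S * T`;
* `mem_range_shap_iff`; `shap_surjective_of_torsionFree`, `shap_int_surjective` (over `ℤ`);
* `setting2` : the `AbstractDuality2.Setting` on `X → K`, `K` a field of characteristic `≠ 2`;
  `shap_eq_zero_iff2`, `ker_shap2`, `shap_mem_parabolicHoms_iff2` : the statements of F2 for it;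
* `exists_shap_eq_of_parTF`, `parTF_of_shap` : `shap` maps `{w | w - s w ∈ BT}` ONTO the
  parabolic homomorphisms killing the elements of finite order (`= Par(N, ℤ) / p` for `K = ZMod p`
  by `S16/ParabolicLift.exists_int_lift`).
-/
import Mathlib
import Fermat.Agent.S41.PD.Shapiro
import Fermat.Agent.S41.PD.AbstractDuality2

set_option autoImplicit false

open scoped MatrixGroups
open ModularGroup MulAction

namespace Fermat.Agent.S41.PD.Shapiro2

open Fermat.Agent.S16.ParabolicLift Fermat.Agent.S21.CocycleBound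
open Fermat.Agent.S41.PD.Shapiro

/-! ### Base change of the normal form cocycle -/

section Map

variable {X R R' : Type*} [MulAction SL(2, ℤ) X] [CommRing R] [CommRing R']

theorem Zc_map (hneg : ∀ x : X, (-1 : SL(2, ℤ)) • x = x) (ρ : R →+* R') (w : X → R) :
    Zc hneg (fun x => ρ (w x)) = fun g x => ρ (Zc hneg w g x) := by
  have hz : IsCocA (fun (g : SL(2, ℤ)) (x : X) => ρ (Zc hneg w g x)) :=
    (Zc_isCocA hneg w).map ρ.toAddMonoidHom
  symm
  refine Zc_unique hneg _ hz ?_ ?_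
  · funext x
    show ρ (Zc hneg w S x) = 0
    rw [Zc_S]; simp
  · funext x
    show ρ (Zc hneg w (S * T) x) = _
    rw [Zc_ST]
    simp only [Pi.sub_apply, act_apply, map_sub]

variable (Γ : Subgroup SL(2, ℤ)) (hΓ : (-1 : SL(2, ℤ)) ∈ Γ)

theorem shap_map (ρ : R →+* R') (w : SL(2, ℤ) ⧸ Γ → R) (γ : Γ) :
    shap Γ hΓ (fun x => ρ (w x)) (Additive.ofMul γ) = ρ (shap Γ hΓ w (Additive.ofMul γ)) := by
  rw [shap_apply, shap_apply, Zc_map]

/-- integer valued homomorphisms kill the elements of finite order. -/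
theorem shap_int_kills_tors (w : SL(2, ℤ) ⧸ Γ → ℤ) (γ : Γ) (hγ : IsOfFinOrder γ) :
    shap Γ hΓ w (Additive.ofMul γ) = 0 := by
  obtain ⟨k, hk, hγk⟩ := isOfFinOrder_iff_pow_eq_one.mp hγ
  have h1 : k • shap Γ hΓ w (Additive.ofMul γ) = 0 := by
    rw [← map_nsmul, ← ofMul_pow, hγk, ofMul_one, map_zero]
  rcases smul_eq_zero.mp h1 with h | h
  · exact absurd h hk.ne'
  · exact h

/-- **`shap w` kills the elements of finite order**, for every commutative ring. -/
theorem shap_kills_tors [Finite (SL(2, ℤ) ⧸ Γ)] (w : SL(2, ℤ) ⧸ Γ → R) (γ : Γ)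
    (hγ : IsOfFinOrder γ) : shap Γ hΓ w (Additive.ofMul γ) = 0 := by
  classical
  have := Fintype.ofFinite (SL(2, ℤ) ⧸ Γ)
  have hw : w = ∑ x, w x • (fun y => Int.castRingHom R ((Pi.single x (1 : ℤ) : _ → ℤ) y)) := by
    funext y
    rw [Finset.sum_apply]
    simp only [Pi.smul_apply, smul_eq_mul, Pi.single_apply, eq_intCast]
    rw [Finset.sum_eq_single y]
    · simp
    · intro b _ hb
      rw [if_neg (Ne.symm hb)]; simp
    · intro h; exact absurd (Finset.mem_univ y) h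
  rw [hw, map_sum, AddMonoidHom.finsetSum_apply]
  refine Finset.sum_eq_zero fun x _ => ?_
  rw [map_smul, AddMonoidHom.smul_apply, shap_map Γ hΓ (Int.castRingHom R),
    shap_int_kills_tors Γ hΓ _ γ hγ, map_zero, smul_zero]

end Map

/-! ### The image of the Shapiro map when only `2` is invertible -/

section Range

variable (Γ : Subgroup SL(2, ℤ)) (hΓ : (-1 : SL(2, ℤ)) ∈ Γ) {R : Type*} [CommRing R]

theorem ST_pow_three_smul {X : Type*} [MulAction SL(2, ℤ) X]
    (hneg : ∀ x : X, (-1 : SL(2, ℤ)) • x = x) (x : X) :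
    ((S * T : SL(2, ℤ)) ^ 3)⁻¹ • x = x := by
  have hinv : (-1 : SL(2, ℤ))⁻¹ = -1 := by
    rw [inv_eq_iff_eq_inv, ← mul_eq_one_iff_eq_inv]; simp
  rw [Fermat.Agent.S16.PSL2Free.ST_cube, hinv, hneg]

/-- conjugates of powers of an element of finite order have finite order. -/
theorem isOfFinOrder_conj_pow {c : SL(2, ℤ)} {k : ℕ} (hk : 0 < k) (hck : c ^ k = 1)
    (g : SL(2, ℤ)) (m : ℕ) (h : g⁻¹ * c ^ m * g ∈ Γ) : IsOfFinOrder (⟨g⁻¹ * c ^ m * g, h⟩ : Γ) := by
  rw [isOfFinOrder_iff_pow_eq_one]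
  refine ⟨k, hk, Subtype.ext ?_⟩
  rw [Subgroup.coe_pow, Subgroup.coe_one]
  show (g⁻¹ * c ^ m * g) ^ k = 1
  have h1 := conj_pow (a := g⁻¹) (b := c ^ m) (i := k)
  rw [inv_inv] at h1
  rw [h1, ← pow_mul, mul_comm, pow_mul, hck, one_pow, mul_one, inv_mul_cancel]

/-- the Shapiro cocycle of a homomorphism killing the elements of finite order has vanishing
cycle sums along every element of finite order of `SL(2,ℤ)`, also after adding a coboundary. -/
theorem cycZero_zcA (φ : Additive Γ →+ R)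
    (htors : ∀ γ : Γ, IsOfFinOrder γ → φ (Additive.ofMul γ) = 0) (u : SL(2, ℤ) ⧸ Γ → R)
    {c : SL(2, ℤ)} {k : ℕ} (hk : 0 < k) (hck : c ^ k = 1) :
    CycZero c (zcA Γ φ u c) := by
  intro x m hfix
  rw [← (zcA_isCocA Γ φ u).pow]
  show cocA Γ φ (c ^ m) x + cobdry u (c ^ m) x = 0
  rw [cobdry_apply, hfix, sub_self, add_zero]
  have hmem : (sec Γ x)⁻¹ * c ^ m * sec Γ x ∈ Γ := by
    have := sec_mem Γ (c ^ m) x
    rwa [hfix] at this
  rw [cocA_eq Γ φ (c ^ m) x ⟨_, hmem⟩ (by rw [hfix])]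
  exact htors _ (isOfFinOrder_conj_pow Γ hk hck (sec Γ x) m hmem)

theorem S_pow_two_smul {X : Type*} [MulAction SL(2, ℤ) X]
    (hneg : ∀ x : X, (-1 : SL(2, ℤ)) • x = x) (x : X) :
    ((S : SL(2, ℤ)) ^ 2)⁻¹ • x = x := by
  have hinv : (-1 : SL(2, ℤ))⁻¹ = -1 := by
    rw [inv_eq_iff_eq_inv, ← mul_eq_one_iff_eq_inv]; simp
  rw [Fermat.Agent.S16.PSL2Free.S_sq, hinv, hneg]

/-- **The image of the Shapiro map** (NO invertibility hypothesis, any commutative ring): every
homomorphism killing the elements of finite order of `Γ` is of the form `shap w`. -/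
theorem exists_shap_eq_of_kills_tors (φ : Additive Γ →+ R)
    (htors : ∀ γ : Γ, IsOfFinOrder γ → φ (Additive.ofMul γ) = 0) :
    ∃ w : SL(2, ℤ) ⧸ Γ → R, shap Γ hΓ w = φ := by
  set hneg := neg_one_smul_coset Γ hΓ
  set t : (SL(2, ℤ) ⧸ Γ → R) →ₗ[R] (SL(2, ℤ) ⧸ Γ → R) := act (S * T : SL(2, ℤ)) with ht
  -- first normalisation: `z₁ S = 0`
  obtain ⟨u₀, hu₀⟩ := exists_cobdry_of_cycZero (S : SL(2, ℤ)) (zcA Γ φ 0 S) 2
    (by norm_num) (S_pow_two_smul hneg)
    (cycZero_zcA Γ φ htors 0 (by norm_num) Fermat.Agent.S21.ParabolicBound.S_pow_four)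
  set u : SL(2, ℤ) ⧸ Γ → R := -u₀ with hu
  have hz₁c : IsCocA (zcA Γ φ u) := zcA_isCocA Γ φ u
  have hz₁S : zcA Γ φ u S = 0 := by
    funext x
    have h0 := hu₀ x
    have e0 : zcA Γ φ 0 S x = cocA Γ φ S x := by
      show cocA Γ φ S x + cobdry (0 : SL(2, ℤ) ⧸ Γ → R) S x = _
      rw [cobdry_apply]; simp
    rw [e0] at h0
    show cocA Γ φ S x + cobdry u S x = 0
    rw [cobdry_apply, h0, hu]
    simp only [Pi.neg_apply]
    ring
  -- second normalisation: all cycle sums of `z₁ (S * T)` along `S * T` vanish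
  obtain ⟨w, hw⟩ := exists_cobdry_of_cycZero (S * T : SL(2, ℤ)) (zcA Γ φ u (S * T)) 3
    (by norm_num) (ST_pow_three_smul hneg)
    (cycZero_zcA Γ φ htors u (by norm_num) Fermat.Agent.S21.ParabolicBound.ST_pow_six)
  have hw' : zcA Γ φ u (S * T) = t w - w := by
    funext x
    rw [hw x]; rfl
  refine ⟨w, ?_⟩
  have hZ : zcA Γ φ u = Zc hneg w := Zc_unique hneg w hz₁c hz₁S hw'
  apply AddMonoidHom.ext
  intro γ'
  obtain ⟨γ, rfl⟩ : ∃ γ : Γ, Additive.ofMul γ = γ' := ⟨Additive.toMul γ', rfl⟩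
  rw [shap_apply, ← hZ]
  show cocA Γ φ (γ : SL(2, ℤ)) _ + cobdry u (γ : SL(2, ℤ)) _ = _
  rw [cocA_base, cobdry_apply, mem_inv_smul_base, sub_self, add_zero]

/-- **`range shap` = the homomorphisms killing the elements of finite order** (any commutative
ring, `Γ` of finite index). -/
theorem mem_range_shap_iff [Finite (SL(2, ℤ) ⧸ Γ)] (φ : Additive Γ →+ R) :
    φ ∈ LinearMap.range (shap (R := R) Γ hΓ) ↔
      ∀ γ : Γ, IsOfFinOrder γ → φ (Additive.ofMul γ) = 0 := by
  constructor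
  · rintro ⟨w, rfl⟩ γ hγ
    exact shap_kills_tors Γ hΓ w γ hγ
  · intro h
    exact exists_shap_eq_of_kills_tors Γ hΓ φ h

/-- homomorphisms to a ring without additive torsion kill the elements of finite order. -/
theorem kills_tors_of_torsionFree (hR : ∀ (n : ℕ) (r : R), 0 < n → n • r = 0 → r = 0)
    (φ : Additive Γ →+ R) (γ : Γ) (hγ : IsOfFinOrder γ) : φ (Additive.ofMul γ) = 0 := by
  obtain ⟨k, hk, hγk⟩ := isOfFinOrder_iff_pow_eq_one.mp hγ
  refine hR k _ hk ?_
  rw [← map_nsmul, ← ofMul_pow, hγk, ofMul_one, map_zero]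

/-- **Surjectivity of the Shapiro map over a ring without additive torsion** (e.g. `ℤ`, `ℤ_(p)`,
`ℚ`): no inverse of `2` or `3` is needed. -/
theorem shap_surjective_of_torsionFree (hR : ∀ (n : ℕ) (r : R), 0 < n → n • r = 0 → r = 0) :
    Function.Surjective (shap (R := R) Γ hΓ) := fun φ =>
  exists_shap_eq_of_kills_tors Γ hΓ φ (kills_tors_of_torsionFree Γ hR φ)

/-- **Surjectivity of the Shapiro map over `ℤ`**: `Hom(Γ, ℤ) = V_ℤ / (V_ℤ^s + V_ℤ^t)`. -/
theorem shap_int_surjective : Function.Surjective (shap (R := ℤ) Γ hΓ) :=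
  shap_surjective_of_torsionFree Γ hΓ (fun n r hn h => by
    rcases smul_eq_zero.mp h with h | h
    · exact absurd h hn.ne'
    · exact h)

end Range

/-! ### The `AbstractDuality2.Setting` over a field of characteristic `≠ 2` -/

section Setting2

open Fermat.Agent.S41.PD.AbstractDuality2

variable {X K : Type*} [MulAction SL(2, ℤ) X] [Field K]

/-- the `C₂ * C₃`-module `X → K`, `K` a field of characteristic `≠ 2` (characteristic `3`
allowed), as a `Setting` of `AbstractDuality2`. -/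
noncomputable def setting2 (hneg : ∀ x : X, (-1 : SL(2, ℤ)) • x = x) (h2 : (2 : K) ≠ 0) :
    Setting K (X → K) :=
  Setting.ofField (act (S : SL(2, ℤ))) (act (S * T : SL(2, ℤ))) (act_S_S hneg)
    (act_ST_ST_ST hneg) h2

variable (hneg : ∀ x : X, (-1 : SL(2, ℤ)) • x = x) (h2 : (2 : K) ≠ 0)

@[simp] theorem setting2_s : (setting2 hneg h2).s = act (S : SL(2, ℤ)) := rfl

@[simp] theorem setting2_t : (setting2 hneg h2).t = act (S * T : SL(2, ℤ)) := rfl

@[simp] theorem setting2_i2 : (setting2 hneg h2).i2 = (2 : K)⁻¹ := rfl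

theorem setting2_s_t (f : X → K) :
    (setting2 hneg h2).s ((setting2 hneg h2).t f) = act (T : SL(2, ℤ)) f :=
  act_S_ST hneg f

end Setting2

section Shap2

open Fermat.Agent.S41.PD.AbstractDuality2 ModularCurve.Period

variable (Γ : Subgroup SL(2, ℤ)) (hΓ : (-1 : SL(2, ℤ)) ∈ Γ) {K : Type*} [Field K]
  (h2 : (2 : K) ≠ 0)

/-- **`Hom(Γ, K) ⊇ V / (V^s + V^t)`**: the kernel of the Shapiro map, in terms of `setting2`. -/
theorem shap_eq_zero_iff2 (w : SL(2, ℤ) ⧸ Γ → K) :
    shap Γ hΓ w = 0 ↔ w ∈ (setting2 (neg_one_smul_coset Γ hΓ) h2).U := by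
  rw [Setting.mem_U]
  constructor
  · intro h
    exact exists_of_shap_eq_zero Γ hΓ w h
  · rintro ⟨a, b, ha, hb, rfl⟩
    exact shap_of_add Γ hΓ a b ha hb

theorem ker_shap2 :
    LinearMap.ker (shap (R := K) Γ hΓ) = (setting2 (neg_one_smul_coset Γ hΓ) h2).U := by
  ext w
  rw [LinearMap.mem_ker, shap_eq_zero_iff2]

/-- **The parabolic criterion** for `setting2`: `shap w` is parabolic iff `(1 - s) w ∈ (T - 1) V`. -/
theorem shap_mem_parabolicHoms_iff2 [Finite (SL(2, ℤ) ⧸ Γ)] (w : SL(2, ℤ) ⧸ Γ → K) :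
    shap Γ hΓ w ∈ parabolicHoms K Γ K ↔
      w - (setting2 (neg_one_smul_coset Γ hΓ) h2).s w
        ∈ (setting2 (neg_one_smul_coset Γ hΓ) h2).BT := by
  rw [mem_parabolicHoms_iff, Setting.mem_BT]
  constructor
  · intro hpar
    obtain ⟨M, hM0, hM⟩ := exists_pow_smul_eq Γ (T : SL(2, ℤ))
    obtain ⟨v, hv⟩ := exists_cobdry_of_cycZero (T : SL(2, ℤ))
      (w - act (S : SL(2, ℤ)) w) M hM0 hM (cycZero_of_shap_isParabolicHom Γ hΓ w hpar)
    refine ⟨v, ?_⟩
    rw [setting2_s_t, setting2_s]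
    funext x
    rw [hv x]; rfl
  · rintro ⟨v, hv⟩
    rw [setting2_s_t, setting2_s] at hv
    exact shap_isParabolicHom_of Γ hΓ w v hv.symm

/-- every parabolic homomorphism killing the elements of finite order is `shap w` with
`r [w] = 0`. -/
theorem exists_shap_eq_of_parTF [Finite (SL(2, ℤ) ⧸ Γ)] (φ : Additive Γ →+ K)
    (hpar : IsParabolicHom Γ φ)
    (htors : ∀ γ : Γ, IsOfFinOrder γ → φ (Additive.ofMul γ) = 0) :
    ∃ w : SL(2, ℤ) ⧸ Γ → K,
      w - (setting2 (neg_one_smul_coset Γ hΓ) h2).s w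
        ∈ (setting2 (neg_one_smul_coset Γ hΓ) h2).BT ∧ shap Γ hΓ w = φ := by
  obtain ⟨w, hw⟩ := exists_shap_eq_of_kills_tors Γ hΓ φ htors
  refine ⟨w, ?_, hw⟩
  rw [← shap_mem_parabolicHoms_iff2 Γ hΓ h2, hw]
  exact (mem_parabolicHoms_iff (R := K)).2 hpar

/-- conversely `shap w` with `r [w] = 0` is parabolic and kills the elements of finite order. -/
theorem parTF_of_shap [Finite (SL(2, ℤ) ⧸ Γ)] (w : SL(2, ℤ) ⧸ Γ → K)
    (hw : w - (setting2 (neg_one_smul_coset Γ hΓ) h2).s w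
        ∈ (setting2 (neg_one_smul_coset Γ hΓ) h2).BT) :
    IsParabolicHom Γ (shap Γ hΓ w) ∧
      ∀ γ : Γ, IsOfFinOrder γ → shap Γ hΓ w (Additive.ofMul γ) = 0 := by
  refine ⟨?_, fun γ hγ => shap_kills_tors Γ hΓ w γ hγ⟩
  exact (mem_parabolicHoms_iff (R := K)).1 ((shap_mem_parabolicHoms_iff2 Γ hΓ h2 w).2 hw)

end Shap2

end Fermat.Agent.S41.PD.Shapiro2
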