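/-
S41 / (P5) lattice Poincare duality: three small leaves for `LatticePD` (helper78, second seat of
helper75).  `Γ ≤ SL(2,ℤ)`, `-1 ∈ Γ`, `X = SL(2,ℤ) ⧸ Γ`, `V_R = X → R`, `s = act S`, `t = act (S*T)`,
`act T = s ∘ t`; `shap`, `act`, `Zc` are helper68's (`PD/Shapiro.lean`).

* (L1) `exists_shap_data` : every parabolic hom `φ : Γ → R` killing the elements of finite order
  (e.g. EVERY parabolic `φ : Γ → ℤ`, `exists_shap_data_int`) is `shap w` with
  `w - s w = T v - v` for some `v` (no invertibility hypothesis on `R`).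
* (L2) `witness_mem_W`, `sub_theta_witness_mem_U` : F1 with EXPLICIT witness: if
  `s (t v) - v = w - s w` then `P := t v - v ∈ W` and `w - θ P ∈ U` (F1's `exists_of_r_mem_BT`
  hides `P`); so for integral `w, v` the relative cocycle `P` is integral.
* (L3) `exists_sub_act_S_eq` : over a ring in which `2` is regular, `ker (1 + s) = range (s - 1)`
  on the permutation module `X → R`; `exists_w_of_witness` : every
  `P = t v - v` with `s P = -P` comes from some `w` with `w - s w = T v - v`.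
-/
import Mathlib
import Fermat.Agent.S41.PD.Shapiro
import Fermat.Agent.S41.PD.Shapiro2
import Fermat.Agent.S41.PD.AbstractDuality

set_option autoImplicit false

open scoped MatrixGroups
open ModularGroup MulAction

namespace Fermat.Agent.S41.PD.LatticeLeaves

open Fermat.Agent.S16.ParabolicLift Fermat.Agent.S21.CocycleBound
open Fermat.Agent.S41.PD.Shapiro Fermat.Agent.S41.PD.Shapiro2
open ModularCurve.Period

/-! ### (L1) Shapiro data of a parabolic homomorphism -/

section L1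

variable (Γ : Subgroup SL(2, ℤ)) (hΓ : (-1 : SL(2, ℤ)) ∈ Γ) [Finite (SL(2, ℤ) ⧸ Γ)]
  {R : Type*} [CommRing R]

/-- a parabolic hom killing the elements of finite order is `shap w` with `(1 - s) w = (T - 1) v`;
no invertibility hypothesis on `R`. -/
theorem exists_shap_data (φ : Additive Γ →+ R) (hpar : IsParabolicHom Γ φ)
    (htors : ∀ γ : Γ, IsOfFinOrder γ → φ (Additive.ofMul γ) = 0) :
    ∃ w v : SL(2, ℤ) ⧸ Γ → R, shap Γ hΓ w = φ ∧
      w - act (S : SL(2, ℤ)) w = act (T : SL(2, ℤ)) v - v := by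
  obtain ⟨w, hw⟩ := exists_shap_eq_of_kills_tors Γ hΓ φ htors
  obtain ⟨M, hM0, hM⟩ := exists_pow_smul_eq Γ (T : SL(2, ℤ))
  obtain ⟨v, hv⟩ := exists_cobdry_of_cycZero (T : SL(2, ℤ))
    (w - act (S : SL(2, ℤ)) w) M hM0 hM
    (cycZero_of_shap_isParabolicHom Γ hΓ w (hw ▸ hpar))
  refine ⟨w, v, hw, ?_⟩
  funext x
  rw [hv x]; rfl

/-- every parabolic hom `Γ → ℤ` is `shap w` with `(1 - s) w = (T - 1) v`, `w v : X → ℤ`. -/
theorem exists_shap_data_int (φ : Additive Γ →+ ℤ) (hpar : IsParabolicHom Γ φ) :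
    ∃ w v : SL(2, ℤ) ⧸ Γ → ℤ, shap Γ hΓ w = φ ∧
      w - act (S : SL(2, ℤ)) w = act (T : SL(2, ℤ)) v - v :=
  exists_shap_data Γ hΓ φ hpar (kills_tors_of_torsionFree Γ (fun n r hn h => by
    rcases smul_eq_zero.mp h with h | h
    · exact absurd h hn.ne'
    · exact h) φ)

omit [Finite (SL(2, ℤ) ⧸ Γ)] in
/-- conversely `shap w` is parabolic as soon as `(1 - s) w = (T - 1) v` (helper68, restated). -/
theorem isParabolicHom_shap_of_data (w v : SL(2, ℤ) ⧸ Γ → R)
    (hv : w - act (S : SL(2, ℤ)) w = act (T : SL(2, ℤ)) v - v) :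
    IsParabolicHom Γ (shap Γ hΓ w) :=
  shap_isParabolicHom_of Γ hΓ w v hv

end L1

/-! ### (L2) F1 with explicit witness -/

section L2

open Fermat.Agent.S41.PD.AbstractDuality

variable {R V : Type*} [CommRing R] [AddCommGroup V] [Module R V] (D : Setting R V)

/-- if `(T - 1) v = (1 - s) w` then `t v = s w - w + s v`. -/
theorem t_witness_eq {w v : V} (hv : D.s (D.t v) - v = w - D.s w) :
    D.t v = D.s w - w + D.s v := by
  have h1 := congrArg D.s hv
  rw [map_sub, D.hs, map_sub, D.hs] at h1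
  linear_combination (norm := module) h1

/-- if `(T - 1) v = (1 - s) w` then `P := t v - v ∈ W`. -/
theorem witness_mem_W {w v : V} (hv : D.s (D.t v) - v = w - D.s w) : D.t v - v ∈ D.W := by
  have htv := t_witness_eq D hv
  refine ⟨?_, ?_⟩
  · rw [htv]
    simp only [map_sub, map_add, D.hs]
    abel
  · simp only [map_sub, D.ht]
    abel

/-- if `(T - 1) v = (1 - s) w` then `w ≡ θ (t v - v)` modulo `U = V^s + V^t`. -/
theorem sub_theta_witness_mem_U {w v : V} (hv : D.s (D.t v) - v = w - D.s w) :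
    w - D.θ (D.t v - v) ∈ D.U := by
  have htv := t_witness_eq D hv
  have hPW := witness_mem_W D hv
  have hx0 := D.one_sub_t_x0 hPW
  have hu0 := D.s_sub_one_u0 hPW
  rw [Setting.θ_apply]
  refine D.mem_U.2 ⟨(w + v) - (-D.i2) • (D.t v - v),
    (-v) - D.i3 • ((D.t v - v) - D.t (D.t (D.t v - v))), ?_, ?_, ?_⟩
  · rw [map_sub (D.s)]
    have h2 : D.s (w + v) - (w + v) = D.t v - v := by
      rw [map_add, htv]; abel
    linear_combination (norm := module) h2 - hu0
  · rw [map_sub (D.t)]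
    have h2 : D.t (-v) - (-v) = -(D.t v - v) := by
      rw [map_neg]; abel
    linear_combination (norm := module) h2 + hx0
  · module

end L2

/-! ### (L3) `ker (1 + s) = range (s - 1)` on a permutation module when `2` is regular -/

section L3

variable {X R : Type*} [MulAction SL(2, ℤ) X] [CommRing R]

theorem S_pow_even_smul (hneg : ∀ x : X, (-1 : SL(2, ℤ)) • x = x) (k : ℕ) (x : X) :
    ((S : SL(2, ℤ)) ^ (2 * k))⁻¹ • x = x :=
  pow_mul_inv_smul (S : SL(2, ℤ)) 2 (S_pow_two_smul hneg) k x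

/-- cycle sums of `c` along `S` vanish when `c + s c = 0` and `2` is regular. -/
theorem cycZero_S (hneg : ∀ x : X, (-1 : SL(2, ℤ)) • x = x) (h2 : ∀ r : R, 2 * r = 0 → r = 0)
    (c : X → R) (hc : c + act (S : SL(2, ℤ)) c = 0) : CycZero (S : SL(2, ℤ)) c := by
  have hpair : ∀ y : X, c y + c ((S : SL(2, ℤ))⁻¹ • y) = 0 := by
    intro y
    have := congrFun hc y
    simpa using this
  -- sums over an even number of terms vanish
  have heven : ∀ (k : ℕ) (x : X),
      ∑ i ∈ Finset.range (2 * k), c (((S : SL(2, ℤ)) ^ i)⁻¹ • x) = 0 := by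
    intro k x
    induction k with
    | zero => simp
    | succ k ih =>
      have e : 2 * (k + 1) = 2 * k + 1 + 1 := by ring
      rw [e, Finset.sum_range_succ, Finset.sum_range_succ, ih, zero_add]
      have e2 : ((S : SL(2, ℤ)) ^ (2 * k + 1))⁻¹ • x
          = (S : SL(2, ℤ))⁻¹ • (((S : SL(2, ℤ)) ^ (2 * k))⁻¹ • x) := by
        rw [pow_succ, mul_inv_rev, mul_smul]
      rw [e2]
      exact hpair _
  intro x m hfix
  rcases Nat.even_or_odd' m with ⟨k, rfl | rfl⟩
  · exact heven k x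
  · rw [Finset.sum_range_succ, heven k x, zero_add, S_pow_even_smul hneg]
    -- `x` is fixed by `S⁻¹`
    have hSx : (S : SL(2, ℤ))⁻¹ • x = x := by
      have e2 : ((S : SL(2, ℤ)) ^ (2 * k + 1))⁻¹ • x
          = (S : SL(2, ℤ))⁻¹ • (((S : SL(2, ℤ)) ^ (2 * k))⁻¹ • x) := by
        rw [pow_succ, mul_inv_rev, mul_smul]
      rw [e2, S_pow_even_smul hneg] at hfix
      exact hfix
    have h := hpair x
    rw [hSx] at h
    exact h2 _ (by linear_combination h)

/-- **`ker (1 + s) = range (s - 1)`** on `X → R` when `2` is regular in `R` (e.g. `R = ℤ`). -/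
theorem exists_sub_act_S_eq (hneg : ∀ x : X, (-1 : SL(2, ℤ)) • x = x)
    (h2 : ∀ r : R, 2 * r = 0 → r = 0) (c : X → R) (hc : c + act (S : SL(2, ℤ)) c = 0) :
    ∃ y : X → R, c = act (S : SL(2, ℤ)) y - y := by
  obtain ⟨y, hy⟩ := exists_cobdry_of_cycZero (S : SL(2, ℤ)) c 2 (by norm_num)
    (S_pow_two_smul hneg) (cycZero_S hneg h2 c hc)
  refine ⟨y, ?_⟩
  funext x
  rw [hy x]; rfl

/-- every `P = t v - v` with `s P = -P` comes from some `w` with `(1 - s) w = (T - 1) v`
(`2` regular in `R`). -/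
theorem exists_w_of_witness (hneg : ∀ x : X, (-1 : SL(2, ℤ)) • x = x)
    (h2 : ∀ r : R, 2 * r = 0 → r = 0) (v : X → R)
    (hP : act (S : SL(2, ℤ)) (act (S * T : SL(2, ℤ)) v - v) = -(act (S * T : SL(2, ℤ)) v - v)) :
    ∃ w : X → R, w - act (S : SL(2, ℤ)) w = act (T : SL(2, ℤ)) v - v := by
  obtain ⟨y, hy⟩ := exists_sub_act_S_eq hneg h2 (act (S * T : SL(2, ℤ)) v - v)
    (by rw [hP]; abel)
  refine ⟨y - v, ?_⟩
  rw [← act_S_ST hneg v]
  -- `s (t v) = s (P + v) = -P + s v`
  have h1 : act (S : SL(2, ℤ)) (act (S * T : SL(2, ℤ)) v)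
      = -(act (S * T : SL(2, ℤ)) v - v) + act (S : SL(2, ℤ)) v := by
    have := hP
    rw [map_sub] at this
    linear_combination (norm := abel) this
  rw [h1, map_sub]
  conv_rhs => rw [hy]
  abel

end L3

end Fermat.Agent.S41.PD.LatticeLeaves
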