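/-
S41 / (W1) Poincare duality, concrete LATTICE facts for permutation modules (helper15).

`V = X → R` with operators `f ↦ f ∘ e` (`LinearMap.funLeft R R e`) for plain maps `e : X → X`.
These are the concrete inputs of the integral / `p = 3`-safe form of the duality
(`R` with `2` invertible and `3` REGULAR, e.g. `ℤ_(p)`, `ℤ[1/2]`; never a field of
characteristic `3`):

* `exists_sub_comp_eq` : (H3) for permutation modules.  If `e ∘ e ∘ e = id`, `3` is regular in `R`
  and `f + f ∘ e + f ∘ e ∘ e = 0` then `f = g - g ∘ e` for some `g`.
* `exists_sub_comp_eq_of_anti` : (H2): `σ ∘ σ = id`, `2` regular, `P ∘ σ = -P` implies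
  `P = y - y ∘ σ`.
* `dot` : the dot product as a bilinear form; invariant under bijections, symmetric,
  nondegenerate and UNIMODULAR (`dot_surj`: every functional is `dot v ·`).
* `exists_cobdry_of_smul` : `(T - 1) V` is saturated: `c ≠ 0`, `c • v = w ∘ e - w` implies
  `v = w' ∘ e - w'`.
* `exists_inv_add_inv_of_smul` : `V^s + V^t` is saturated: `c ≠ 0`, `c • v = a + b`, `a ∘ σ = a`,
  `b ∘ τ = b` implies `v = a' + b'` with `a' ∘ σ = a'`, `b' ∘ τ = b'`.

Mathlib only.
-/
import Mathlib

set_option autoImplicit false

namespace Fermat.Agent.S41.PD.PermLattice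

/-! ### (H3) for permutation modules -/

section H3

variable {X R : Type*} [CommRing R]

/-- **(H3) for permutation modules.**  `e ∘ e ∘ e = id`, `3` regular in `R`: the kernel of the norm
`1 + e + e²` on `X → R` is the image of `1 - e`. -/
theorem exists_sub_comp_eq (e : X → X) (he : ∀ x, e (e (e x)) = x)
    (h3 : ∀ r : R, 3 * r = 0 → r = 0) (f : X → R)
    (hf : ∀ x, f x + f (e x) + f (e (e x)) = 0) :
    ∃ g : X → R, ∀ x, g x - g (e x) = f x := by
  classical
  let _ : LinearOrder X := IsWellOrder.linearOrder WellOrderingRel
  -- orbit representatives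
  let rep : X → X := fun x => min x (min (e x) (e (e x)))
  have hrep : ∀ x, rep (e x) = rep x := by
    intro x
    show min (e x) (min (e (e x)) (e (e (e x)))) = min x (min (e x) (e (e x)))
    rw [he, min_comm (e (e x)) x, ← min_assoc, min_comm (e x) x, min_assoc]
  have hmem : ∀ x, x = rep x ∨ x = e (rep x) ∨ x = e (e (rep x)) := by
    intro x
    show x = min x (min (e x) (e (e x))) ∨ x = e (min x (min (e x) (e (e x)))) ∨
      x = e (e (min x (min (e x) (e (e x)))))
    rcases min_choice x (min (e x) (e (e x))) with h | h
    · left; exact h.symm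
    · rcases min_choice (e x) (e (e x)) with h' | h'
      · right; right; rw [h, h', he]
      · right; left; rw [h, h', he]
  -- the primitive
  let g : X → R := fun x =>
    if x = rep x then 0 else if x = e (rep x) then - f (rep x) else f x
  refine ⟨g, fun x => ?_⟩
  have hgx : g x = if x = rep x then 0 else if x = e (rep x) then - f (rep x) else f x := rfl
  have hgex : g (e x) =
      if e x = rep x then 0 else if e x = e (rep x) then - f (rep x) else f (e x) := by
    show (if e x = rep (e x) then 0 else if e x = e (rep (e x)) then - f (rep (e x)) else f (e x))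
      = _
    rw [hrep]
  have einj : ∀ a b, e a = e b → a = b := by
    intro a b hab
    rw [← he a, ← he b, hab]
  by_cases hfix : e x = x
  · -- a fixed point
    have h0 : f x = 0 := by
      apply h3
      have := hf x
      rw [hfix, hfix] at this
      linear_combination this
    rw [hfix, sub_self, h0]
  · rcases hmem x with h | h | h
    · -- `x` is the representative
      have h1 : ¬ e x = rep x := fun h' => hfix (h'.trans h.symm)
      have h2 : e x = e (rep x) := congrArg e h
      rw [hgx, hgex, if_pos h, if_neg h1, if_pos h2, ← h]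
      ring
    · -- `x = e r`
      have hxr : ¬ x = rep x := by
        intro h'
        apply hfix
        rw [← h'] at h
        exact h.symm
      have h1 : ¬ e x = rep x := by
        intro h'
        -- `e (e r) = r` hence `e r = r`
        apply hxr
        have h2 : e (e (rep x)) = rep x := by rw [← h]; exact h'
        have h3' : e (rep x) = rep x := by
          have := congrArg e h2
          rw [he] at this
          exact this.symm
        exact h.trans h3'
      have h2 : ¬ e x = e (rep x) := fun h' => hxr (einj _ _ h')
      rw [hgx, hgex, if_neg hxr, if_pos h, if_neg h1, if_neg h2]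
      have := hf (rep x)
      rw [← h] at this
      linear_combination -this
    · -- `x = e (e r)`
      have hex : e x = rep x := (congrArg e h).trans (he _)
      have hxr : ¬ x = rep x := by
        intro h'
        apply hfix
        rw [hex]
        exact h'.symm
      have hxer : ¬ x = e (rep x) := by
        intro h'
        -- `e (e r) = e r` hence `e r = r`, hence `x = r`
        apply hxr
        have h2 : e (rep x) = rep x := einj _ _ (h.symm.trans h')
        exact h'.trans h2
      rw [hgx, hgex, if_neg hxr, if_neg hxer, if_pos hex]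
      ring

/-- (H3) in operator form, for `LinearMap.funLeft`. -/
theorem exists_sub_funLeft_eq (e : X → X) (he : ∀ x, e (e (e x)) = x)
    (h3 : ∀ r : R, 3 * r = 0 → r = 0) (f : X → R)
    (hf : f + LinearMap.funLeft R R e f + LinearMap.funLeft R R e (LinearMap.funLeft R R e f) = 0) :
    ∃ g : X → R, g - LinearMap.funLeft R R e g = f := by
  obtain ⟨g, hg⟩ := exists_sub_comp_eq e he h3 f (fun x => by
    have := congrFun hf x
    simpa [LinearMap.funLeft_apply] using this)
  exact ⟨g, funext fun x => by simpa [LinearMap.funLeft_apply] using hg x⟩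

/-- **(H2) for permutation modules.**  `σ ∘ σ = id`, `2` regular in `R`: the kernel of `1 + σ` on
`X → R` is the image of `1 - σ` (no `1/2`; e.g. `R = ℤ`). -/
theorem exists_sub_comp_eq_of_anti (σ : X → X) (hσ : ∀ x, σ (σ x) = x)
    (h2 : ∀ r : R, 2 * r = 0 → r = 0) (P : X → R) (hP : ∀ x, P (σ x) = - P x) :
    ∃ y : X → R, ∀ x, y x - y (σ x) = P x := by
  classical
  let _ : LinearOrder X := IsWellOrder.linearOrder WellOrderingRel
  let rep : X → X := fun x => min x (σ x)
  have hrep : ∀ x, rep (σ x) = rep x := by
    intro x
    show min (σ x) (σ (σ x)) = min x (σ x)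
    rw [hσ, min_comm]
  let y : X → R := fun x => if x = rep x then P x else 0
  refine ⟨y, fun x => ?_⟩
  have hyx : y x = if x = rep x then P x else 0 := rfl
  have hyσ : y (σ x) = if σ x = rep x then P (σ x) else 0 := by
    show (if σ x = rep (σ x) then P (σ x) else 0) = _
    rw [hrep]
  by_cases hfix : σ x = x
  · have h0 : P x = 0 := by
      apply h2
      have := hP x
      rw [hfix] at this
      linear_combination this
    rw [hfix, sub_self, h0]
  · rcases min_choice x (σ x) with h | h
    · have h1 : x = rep x := h.symm
      have h2' : ¬ σ x = rep x := fun h' => hfix (h'.trans h1.symm)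
      rw [hyx, hyσ, if_pos h1, if_neg h2', sub_zero]
    · have h1 : σ x = rep x := h.symm
      have h2' : ¬ x = rep x := fun h' => hfix (h1.trans h'.symm)
      rw [hyx, hyσ, if_neg h2', if_pos h1, hP x]
      ring

end H3

/-! ### The dot product -/

section Dot

variable {X R : Type*} [CommRing R] [Fintype X]

/-- The dot product on `X → R`. -/
def dot : LinearMap.BilinForm R (X → R) :=
  LinearMap.mk₂ R (fun f g => ∑ x, f x * g x)
    (fun f f' g => by simp only [Pi.add_apply, add_mul, Finset.sum_add_distrib])
    (fun c f g => by simp only [Pi.smul_apply, smul_eq_mul, mul_assoc, Finset.mul_sum])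
    (fun f g g' => by simp only [Pi.add_apply, mul_add, Finset.sum_add_distrib])
    (fun c f g => by
      simp only [Pi.smul_apply, smul_eq_mul, Finset.mul_sum]
      exact Finset.sum_congr rfl fun x _ => by ring)

theorem dot_apply (f g : X → R) : dot f g = ∑ x, f x * g x := rfl

theorem dot_comm (f g : X → R) : dot f g = dot g f := by
  rw [dot_apply, dot_apply]
  exact Finset.sum_congr rfl fun x _ => mul_comm _ _

/-- The dot product is invariant under composition with a bijection. -/
theorem dot_comp (e : X → X) (he : Function.Bijective e) (f g : X → R) :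
    dot (fun x => f (e x)) (fun x => g (e x)) = dot f g := by
  rw [dot_apply, dot_apply]
  exact (Equiv.ofBijective e he).sum_comp (fun x => f x * g x)

theorem dot_funLeft (e : X → X) (he : Function.Bijective e) (f g : X → R) :
    dot (LinearMap.funLeft R R e f) (LinearMap.funLeft R R e g) = dot f g :=
  dot_comp e he f g

theorem dot_single [DecidableEq X] (f : X → R) (x : X) : dot f (Pi.single x 1) = f x := by
  rw [dot_apply, Finset.sum_eq_single x]
  · rw [Pi.single_eq_same, mul_one]
  · intro y _ hy
    rw [Pi.single_eq_of_ne hy, mul_zero]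
  · intro h
    exact absurd (Finset.mem_univ x) h

/-- Nondegeneracy. -/
theorem dot_nondeg (f : X → R) (h : ∀ g, dot f g = 0) : f = 0 := by
  classical
  funext x
  rw [← dot_single f x, h, Pi.zero_apply]

/-- Unimodularity: every functional is a dot product. -/
theorem dot_surj (φ : (X → R) →ₗ[R] R) : ∃ v : X → R, ∀ w, dot v w = φ w := by
  classical
  refine ⟨fun x => φ (Pi.single x 1), fun w => ?_⟩
  rw [dot_apply, LinearMap.pi_apply_eq_sum_univ φ w]
  refine Finset.sum_congr rfl fun x _ => ?_
  rw [smul_eq_mul, mul_comm]
  congr 2
  funext y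
  by_cases hxy : x = y
  · subst hxy; simp
  · rw [if_neg hxy, Pi.single_eq_of_ne (Ne.symm hxy)]

end Dot

/-! ### Saturation -/

section Sat

variable {X R : Type*} [CommRing R] [IsDomain R]

/-- **`(T - 1) V` is saturated.**  No hypothesis on the map `e`. -/
theorem exists_cobdry_of_smul (e : X → X) {c : R} (hc : c ≠ 0) (v w : X → R)
    (h : ∀ x, c * v x = w (e x) - w x) : ∃ w' : X → R, ∀ x, v x = w' (e x) - w' x := by
  classical
  let rel : X → X → Prop := fun x y => y = e x
  let S : Setoid X := Relation.EqvGen.setoid rel
  let rep : X → X := fun x => (Quotient.mk S x).out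
  have hrep : ∀ x, rep (e x) = rep x := by
    intro x
    show (Quotient.mk S (e x)).out = (Quotient.mk S x).out
    congr 1
    exact Quotient.sound (Relation.EqvGen.symm _ _ (Relation.EqvGen.rel x (e x) rfl))
  have hgen : ∀ x y, Relation.EqvGen rel x y → c ∣ w y - w x := by
    intro x y hxy
    induction hxy with
    | rel a b hab =>
      rw [show b = e a from hab, ← h a]
      exact dvd_mul_right _ _
    | refl a => rw [sub_self]; exact dvd_zero _
    | symm a b _ ih =>
      have : w a - w b = -(w b - w a) := by ring
      rw [this]
      exact (dvd_neg).2 ih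
    | trans a b d _ _ ih1 ih2 =>
      have : w d - w a = (w d - w b) + (w b - w a) := by ring
      rw [this]
      exact dvd_add ih2 ih1
  have hdvd : ∀ x, c ∣ w x - w (rep x) := by
    intro x
    apply hgen
    have : Quotient.mk S (rep x) = Quotient.mk S x := Quotient.out_eq _
    exact Quotient.exact this
  choose w' hw' using hdvd
  refine ⟨w', fun x => ?_⟩
  apply mul_left_cancel₀ hc
  rw [mul_sub, ← hw', ← hw', hrep, h]
  ring

/-- **`V^σ + V^τ` is saturated.**  No hypothesis on the maps `σ`, `τ`. -/
theorem exists_inv_add_inv_of_smul (σ τ : X → X) {c : R} (hc : c ≠ 0) (v a b : X → R)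
    (ha : ∀ x, a (σ x) = a x) (hb : ∀ x, b (τ x) = b x) (h : ∀ x, c * v x = a x + b x) :
    ∃ a' b' : X → R, (∀ x, a' (σ x) = a' x) ∧ (∀ x, b' (τ x) = b' x) ∧
      ∀ x, v x = a' x + b' x := by
  classical
  let rel : X → X → Prop := fun x y => y = σ x ∨ y = τ x
  let S : Setoid X := Relation.EqvGen.setoid rel
  let rep : X → X := fun x => (Quotient.mk S x).out
  have hrepσ : ∀ x, rep (σ x) = rep x := by
    intro x
    show (Quotient.mk S (σ x)).out = (Quotient.mk S x).out
    congr 1
    exact Quotient.sound (Relation.EqvGen.symm _ _ (Relation.EqvGen.rel x (σ x) (Or.inl rfl)))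
  have hrepτ : ∀ x, rep (τ x) = rep x := by
    intro x
    show (Quotient.mk S (τ x)).out = (Quotient.mk S x).out
    congr 1
    exact Quotient.sound (Relation.EqvGen.symm _ _ (Relation.EqvGen.rel x (τ x) (Or.inr rfl)))
  have hgen : ∀ x y, Relation.EqvGen rel x y → c ∣ a y - a x := by
    intro x y hxy
    induction hxy with
    | rel x y hxy =>
      rcases hxy with rfl | rfl
      · rw [ha, sub_self]; exact dvd_zero _
      · -- `a = c v - b` and `b` is `τ`-invariant
        have h1 := h (τ x)
        have h2 := h x
        have : a (τ x) - a x = c * (v (τ x) - v x) := by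
          rw [hb] at h1
          linear_combination h2 - h1
        rw [this]
        exact dvd_mul_right _ _
    | refl x => rw [sub_self]; exact dvd_zero _
    | symm x y _ ih =>
      have : a x - a y = -(a y - a x) := by ring
      rw [this]
      exact (dvd_neg).2 ih
    | trans x y z _ _ ih1 ih2 =>
      have : a z - a x = (a z - a y) + (a y - a x) := by ring
      rw [this]
      exact dvd_add ih2 ih1
  have hdvd : ∀ x, c ∣ a x - a (rep x) := by
    intro x
    apply hgen
    have : Quotient.mk S (rep x) = Quotient.mk S x := Quotient.out_eq _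
    exact Quotient.exact this
  choose a' ha' using hdvd
  refine ⟨a', fun x => v x - a' x, fun x => ?_, fun x => ?_, fun x => by ring⟩
  · apply mul_left_cancel₀ hc
    rw [← ha', ← ha', hrepσ, ha]
  · apply mul_left_cancel₀ hc
    have h1 := h (τ x)
    have h2 := h x
    have h3 := ha' (τ x)
    have h4 := ha' x
    rw [hrepτ] at h3
    rw [hb] at h1
    linear_combination h1 - h2 + h3 - h4

end Sat

end Fermat.Agent.S41.PD.PermLattice
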