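/-
S41 / (W1) Poincare duality on the LATTICE, the mod `c` orthogonality statement (helper15).

`V = X → R` (`X` finite, `R` a PID, e.g. `ℤ`; NO `1/2`, NO `1/3`, no reduction mod `p`, no field,
no transitivity), `σ τ : X → X` with `σ ∘ σ = id`, `τ ∘ τ ∘ τ = id`, `3` regular in `R`,
`W := {P | P ∘ σ = -P} ∩ {v - v ∘ τ}`, `U := V^σ + V^τ`.  Then

  `(∀ P ∈ W, c ∣ dot w P)  →  w ∈ U + c V`            (`exists_inv_add_inv_add_smul_of_dvd`)

for EVERY `c : R` (`c = p` any prime, `3` included; `c = 0` gives `W^⊥ ⊆ U`).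
Proof: `U` is saturated (`PermLattice.exists_inv_add_inv_of_smul`), so `V / U` is free; a coordinate
of `w` in `V / U` not divisible by `c` is a functional `dot P ·` vanishing on `U`; then `P ∈ U^⊥ = W`
(by (H3), `PermLattice.exists_sub_comp_eq`) and `c ∤ dot w P`.
-/
import Mathlib
import Fermat.Agent.S41.PD.PermLattice

set_option autoImplicit false

namespace Fermat.Agent.S41.PD.PermLatticePerp

open Fermat.Agent.S41.PD.PermLattice

section Defs

variable {X : Type*} (R : Type*) [CommRing R]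

/-- Functions invariant under `e`. -/
def inv (e : X → X) : Submodule R (X → R) where
  carrier := {a | ∀ x, a (e x) = a x}
  zero_mem' := fun _ => rfl
  add_mem' := by
    intro a b ha hb x
    rw [Pi.add_apply, Pi.add_apply, ha x, hb x]
  smul_mem' := by
    intro c a ha x
    rw [Pi.smul_apply, Pi.smul_apply, ha x]

theorem mem_inv {e : X → X} {a : X → R} : a ∈ inv R e ↔ ∀ x, a (e x) = a x := Iff.rfl

/-- `U = V^σ + V^τ`. -/
def U (σ τ : X → X) : Submodule R (X → R) := inv R σ ⊔ inv R τ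

theorem mem_U {σ τ : X → X} {w : X → R} :
    w ∈ U R σ τ ↔ ∃ a b : X → R, (∀ x, a (σ x) = a x) ∧ (∀ x, b (τ x) = b x) ∧ a + b = w := by
  unfold U
  rw [Submodule.mem_sup]
  constructor
  · rintro ⟨a, ha, b, hb, hab⟩
    exact ⟨a, b, ha, hb, hab⟩
  · rintro ⟨a, b, ha, hb, hab⟩
    exact ⟨a, ha, b, hb, hab⟩

end Defs

section Sat

variable {X R : Type*} [CommRing R] [IsDomain R]

/-- `U` is saturated. -/
theorem U_saturated (σ τ : X → X) (c : R) (v : X → R) (hc : c ≠ 0) (h : c • v ∈ U R σ τ) :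
    v ∈ U R σ τ := by
  obtain ⟨a, b, ha, hb, hab⟩ := (mem_U R).1 h
  obtain ⟨a', b', ha', hb', hv⟩ := exists_inv_add_inv_of_smul σ τ hc v a b ha hb (fun x => by
    have := congrFun hab x
    rw [Pi.add_apply, Pi.smul_apply, smul_eq_mul] at this
    exact this.symm)
  exact (mem_U R).2 ⟨a', b', ha', hb', funext fun x => (hv x).symm⟩

end Sat

section Perp

variable {X R : Type*} [CommRing R] [Fintype X]

/-- `dot P (f ∘ e) = dot (P ∘ e') f` when `e' ∘ e = id` (and `e` bijective). -/
theorem dot_comp_right (e e' : X → X) (he : Function.Bijective e) (hee' : ∀ x, e' (e x) = x)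
    (P f : X → R) : dot P (fun x => f (e x)) = dot (fun x => P (e' x)) f := by
  rw [← dot_comp e he (fun x => P (e' x)) f]
  simp only [hee']

/-- A functional `dot P ·` vanishing on `σ`-invariants: `P ∘ σ = -P`. -/
theorem anti_of_perp_inv (σ : X → X) (hσ : ∀ x, σ (σ x) = x) (P : X → R)
    (h : ∀ a : X → R, (∀ x, a (σ x) = a x) → dot P a = 0) (x : X) : P (σ x) = - P x := by
  have hbij : Function.Bijective σ := Function.Involutive.bijective hσ
  have h0 : (fun x => P x + P (σ x)) = 0 := by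
    apply dot_nondeg
    intro f
    have h1 := h (fun x => f x + f (σ x)) (fun x => by rw [hσ]; ring)
    have h2 := dot_comp_right σ σ hbij hσ P f
    have e1 : dot P (fun x => f x + f (σ x)) = dot P f + dot P (fun x => f (σ x)) := by
      rw [← map_add]; rfl
    have e2 : dot (fun x => P x + P (σ x)) f = dot P f + dot (fun x => P (σ x)) f := by
      rw [← LinearMap.add_apply, ← map_add]; rfl
    rw [e2, ← h2, ← e1, h1]
  have := congrFun h0 x
  simp only [Pi.zero_apply] at this
  linear_combination this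

/-- A functional `dot P ·` vanishing on `τ`-invariants: `P` is killed by the norm. -/
theorem norm_zero_of_perp_inv (τ : X → X) (hτ : ∀ x, τ (τ (τ x)) = x) (P : X → R)
    (h : ∀ b : X → R, (∀ x, b (τ x) = b x) → dot P b = 0) (x : X) :
    P x + P (τ x) + P (τ (τ x)) = 0 := by
  have hbij : Function.Bijective τ :=
    ⟨fun a b hab => by rw [← hτ a, ← hτ b, hab], fun y => ⟨τ (τ y), hτ y⟩⟩
  have hbij2 : Function.Bijective (fun x => τ (τ x)) := hbij.comp hbij
  have h0 : (fun x => P x + P (τ x) + P (τ (τ x))) = 0 := by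
    apply dot_nondeg
    intro f
    have h1 := h (fun x => f x + f (τ x) + f (τ (τ x))) (fun x => by rw [hτ]; ring)
    have h2 := dot_comp_right τ (fun x => τ (τ x)) hbij hτ P f
    have h3 := dot_comp_right (fun x => τ (τ x)) τ hbij2 (fun x => by rw [hτ]) P f
    have e1 : dot P (fun x => f x + f (τ x) + f (τ (τ x))) =
        dot P f + dot P (fun x => f (τ x)) + dot P (fun x => f (τ (τ x))) := by
      rw [← map_add, ← map_add]; rfl
    have e2 : dot (fun x => P x + P (τ x) + P (τ (τ x))) f =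
        dot P f + dot (fun x => P (τ x)) f + dot (fun x => P (τ (τ x))) f := by
      rw [← LinearMap.add_apply, ← LinearMap.add_apply, ← map_add, ← map_add]; rfl
    rw [e2, ← h2, ← h3]
    rw [e1] at h1
    linear_combination h1
  have := congrFun h0 x
  simpa using this

end Perp

section Main

variable {X R : Type*} [CommRing R] [IsDomain R] [IsPrincipalIdealRing R] [Fintype X]

/-- **Lattice orthogonality mod `c`.**  If `dot w P` is divisible by `c` for all `P ∈ W`
(`P ∘ σ = -P`, `P = v - v ∘ τ`) then `w ∈ V^σ + V^τ + c V`. -/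
theorem exists_inv_add_inv_add_smul_of_dvd (σ τ : X → X) (hσ : ∀ x, σ (σ x) = x)
    (hτ : ∀ x, τ (τ (τ x)) = x) (h3 : ∀ r : R, 3 * r = 0 → r = 0) (c : R) (w : X → R)
    (h : ∀ P : X → R, (∀ x, P (σ x) = - P x) → (∃ v : X → R, ∀ x, P x = v x - v (τ x)) →
      c ∣ dot w P) :
    ∃ a b u : X → R, (∀ x, a (σ x) = a x) ∧ (∀ x, b (τ x) = b x) ∧
      ∀ x, w x = a x + b x + c * u x := by
  classical
  -- `V / U` is free
  have htf : Module.IsTorsionFree R ((X → R) ⧸ U R σ τ) := by
    refine Module.IsTorsionFree.of_smul_eq_zero fun r q hrq => ?_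
    by_cases hr : r = 0
    · exact Or.inl hr
    · right
      obtain ⟨m, rfl⟩ := (U R σ τ).mkQ_surjective q
      rw [Submodule.mkQ_apply] at hrq ⊢
      rw [← Submodule.Quotient.mk_smul, Submodule.Quotient.mk_eq_zero] at hrq
      rw [Submodule.Quotient.mk_eq_zero]
      exact U_saturated σ τ r m hr hrq
  have hfree : Module.Free R ((X → R) ⧸ U R σ τ) := Module.free_of_finite_type_torsion_free'
  let bas := Module.Free.chooseBasis R ((X → R) ⧸ U R σ τ)
  let q := (U R σ τ).mkQ w
  by_cases hall : ∀ i, c ∣ bas.repr q i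
  · -- all coordinates divisible: `q = c • q'`
    choose k hk using hall
    obtain ⟨u, hu⟩ := (U R σ τ).mkQ_surjective (∑ i, k i • bas i)
    have hq : q = c • (U R σ τ).mkQ u := by
      rw [hu, ← bas.sum_repr q, Finset.smul_sum]
      refine Finset.sum_congr rfl fun i _ => ?_
      rw [hk i, mul_smul]
    have hmem : w - c • u ∈ U R σ τ := by
      rw [← Submodule.Quotient.mk_eq_zero, Submodule.Quotient.mk_sub, Submodule.Quotient.mk_smul]
      show q - c • (U R σ τ).mkQ u = 0
      rw [hq, sub_self]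
    obtain ⟨a, b, ha, hb, hab⟩ := (mem_U R).1 hmem
    refine ⟨a, b, u, ha, hb, fun x => ?_⟩
    have := congrFun hab x
    rw [Pi.add_apply, Pi.sub_apply, Pi.smul_apply, smul_eq_mul] at this
    linear_combination -this
  · exfalso
    rw [not_forall] at hall
    obtain ⟨i, hi⟩ := hall
    -- the functional
    let g : (X → R) →ₗ[R] R := (bas.coord i) ∘ₗ (U R σ τ).mkQ
    have hgU : ∀ y ∈ U R σ τ, g y = 0 := by
      intro y hy
      show bas.coord i ((U R σ τ).mkQ y) = 0
      rw [Submodule.mkQ_apply, (Submodule.Quotient.mk_eq_zero _).2 hy, map_zero]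
    obtain ⟨P, hP⟩ := dot_surj g
    have hPσ : ∀ x, P (σ x) = - P x :=
      anti_of_perp_inv σ hσ P (fun a ha => by
        rw [hP]
        exact hgU a (Submodule.mem_sup_left ha))
    have hPτ : ∀ x, P x + P (τ x) + P (τ (τ x)) = 0 :=
      norm_zero_of_perp_inv τ hτ P (fun b hb => by
        rw [hP]
        exact hgU b (Submodule.mem_sup_right hb))
    obtain ⟨v, hv⟩ := exists_sub_comp_eq τ hτ h3 P hPτ
    have hdvd := h P hPσ ⟨v, fun x => (hv x).symm⟩
    rw [dot_comm, hP] at hdvd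
    exact hi hdvd

/-- The case `R = ℤ` (the form needed for `Par(Γ, ℤ)`): for every integer `c` (e.g. any prime,
`3` included), `(∀ P ∈ W_ℤ, c ∣ dot w P) → w ∈ U_ℤ + c V_ℤ`. -/
theorem int_exists_inv_add_inv_add_smul_of_dvd {X : Type*} [Fintype X] (σ τ : X → X)
    (hσ : ∀ x, σ (σ x) = x) (hτ : ∀ x, τ (τ (τ x)) = x) (c : ℤ) (w : X → ℤ)
    (h : ∀ P : X → ℤ, (∀ x, P (σ x) = - P x) → (∃ v : X → ℤ, ∀ x, P x = v x - v (τ x)) →
      c ∣ dot w P) :
    ∃ a b u : X → ℤ, (∀ x, a (σ x) = a x) ∧ (∀ x, b (τ x) = b x) ∧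
      ∀ x, w x = a x + b x + c * u x :=
  exists_inv_add_inv_add_smul_of_dvd σ τ hσ hτ (fun r hr => by omega) c w h

/-- `W^⊥ ⊆ U` on the lattice (the case `c = 0`). -/
theorem mem_U_of_perp (σ τ : X → X) (hσ : ∀ x, σ (σ x) = x)
    (hτ : ∀ x, τ (τ (τ x)) = x) (h3 : ∀ r : R, 3 * r = 0 → r = 0) (w : X → R)
    (h : ∀ P : X → R, (∀ x, P (σ x) = - P x) → (∃ v : X → R, ∀ x, P x = v x - v (τ x)) →
      dot w P = 0) : w ∈ U R σ τ := by
  obtain ⟨a, b, u, ha, hb, hw⟩ := exists_inv_add_inv_add_smul_of_dvd σ τ hσ hτ h3 0 w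
    (fun P h1 h2 => by rw [h P h1 h2])
  exact (mem_U R).2 ⟨a, b, ha, hb, funext fun x => by rw [Pi.add_apply, hw x]; ring⟩

end Main

end Fermat.Agent.S41.PD.PermLatticePerp
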