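/-
S41 / (W1) lattice Poincare duality: the LITERAL statement (UNI-perm) of report #2881
(`mem_U_add_smul_of_dvd`), proved from `PermLatticePerp` (helper15).

`mem_U_add_smul_of_dvd'` : the statement WITHOUT the hypotheses `haug`, `p.Prime`, `p ≠ 2` (they
are not needed: no transitivity, every integer `c`).
`mem_U_add_smul_of_dvd`  : the verbatim signature of #2881 (the three extra hypotheses are
ignored), so that a consumer written against #2881 compiles unchanged.
-/
import Mathlib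
import Fermat.Agent.S41.PD.PermLatticePerp

set_option autoImplicit false

namespace Fermat.Agent.S41.PD.PermLatticeLit

open Fermat.Agent.S41.PD.PermLattice Fermat.Agent.S41.PD.PermLatticePerp

/-- (UNI-perm), hypothesis-free form: every integer `c`, no transitivity. -/
theorem mem_U_add_smul_of_dvd' {X : Type*} [Fintype X] (es et : X → X)
    (hes : ∀ x, es (es x) = x) (het : ∀ x, et (et (et x)) = x) (c : ℤ) (w : X → ℤ)
    (h : ∀ P : X → ℤ, (∀ x, P x + P (es x) = 0) → (∃ v : X → ℤ, ∀ x, P x = v x - v (et x)) →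
      c ∣ ∑ x, w x * P x) :
    ∃ a b u : X → ℤ, (∀ x, a (es x) = a x) ∧ (∀ x, b (et x) = b x) ∧
      ∀ x, w x = a x + b x + c * u x :=
  int_exists_inv_add_inv_add_smul_of_dvd es et hes het c w (fun P hP hv => by
    rw [dot_apply]
    exact h P (fun x => by rw [hP x]; ring) hv)

/-- (UNI-perm), the verbatim signature of #2881. -/
theorem mem_U_add_smul_of_dvd {X : Type*} [Fintype X] (es et : X → X)
    (hes : ∀ x, es (es x) = x) (het : ∀ x, et (et (et x)) = x)
    (_haug : ∀ e : X → ℤ, ∑ x, e x = 0 →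
      ∃ e₁ e₂ : X → ℤ, ∀ x, e x = (e₁ x - e₁ (es x)) + (e₂ x - e₂ (et x)))
    (p : ℕ) (_hp : p.Prime) (_hp2 : p ≠ 2) (w : X → ℤ)
    (h : ∀ P : X → ℤ, (∀ x, P x + P (es x) = 0) → (∃ v : X → ℤ, ∀ x, P x = v x - v (et x)) →
      (p : ℤ) ∣ ∑ x, w x * P x) :
    ∃ a b c : X → ℤ, (∀ x, a (es x) = a x) ∧ (∀ x, b (et x) = b x) ∧
      ∀ x, w x = a x + b x + p * c x :=
  mem_U_add_smul_of_dvd' es et hes het (p : ℤ) w h

/-- The order-`2` companion over `ℤ`: `P + P ∘ es = 0 → ∃ y, P = y - y ∘ es`. -/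
theorem exists_lift2 {X : Type*} (es : X → X) (hes : ∀ x, es (es x) = x) (P : X → ℤ)
    (hP : ∀ x, P x + P (es x) = 0) : ∃ y : X → ℤ, ∀ x, P x = y x - y (es x) := by
  obtain ⟨y, hy⟩ := exists_sub_comp_eq_of_anti es hes (fun r hr => by omega) P
    (fun x => by have := hP x; omega)
  exact ⟨y, fun x => (hy x).symm⟩

/-- The order-`3` companion over `ℤ`: `P + P ∘ et + P ∘ et ∘ et = 0 → ∃ v, P = v - v ∘ et`. -/
theorem exists_lift3 {X : Type*} (et : X → X) (het : ∀ x, et (et (et x)) = x) (P : X → ℤ)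
    (hP : ∀ x, P x + P (et x) + P (et (et x)) = 0) : ∃ v : X → ℤ, ∀ x, P x = v x - v (et x) := by
  obtain ⟨v, hv⟩ := exists_sub_comp_eq et het (fun r hr => by omega) P hP
  exact ⟨v, fun x => (hv x).symm⟩

end Fermat.Agent.S41.PD.PermLatticeLit
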