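/-
S41 / PD ruling R1 (#2897), leaf L1 (helper78): surjectivity of the Shapiro map over every
commutative ring in which `2` and `3` are REGULAR (non zero divisors), e.g. `ℤ`, `ℤ_(p)`, `ℚ`,
`ZMod p` (`p ≥ 5`); no inverse of `2` or `3` is needed.

* `exists_shap_eq_of_kills_pow` : every homomorphism `φ : Γ → R` killing the `γ` with `γ ^ 12 = 1`
  is of the form `shap w` (any commutative ring, no hypothesis on `R`);
* `kills_pow_of_regular` : if `2`, `3` are regular in `R`, every `φ` kills those `γ`;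
* `shap_surjective_of_regular` : the LITERAL statement of ruling R1 / L1;
* `shap_surjective_of_regular'`, `shap_int_surjective'` : `Function.Surjective` forms.

Imports ONLY `Shapiro.lean` (helper68) (+ the landed S16/S21 files it imports); independent of
the hedges `Shapiro2.lean` / `AbstractDuality2.lean`.  Branch-only (NOTE 12/13).
-/
import Mathlib
import Fermat.Agent.S41.PD.Shapiro

set_option autoImplicit false

open scoped MatrixGroups
open ModularGroup MulAction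

namespace Fermat.Agent.S41.PD.ShapiroInt

open Fermat.Agent.S16.ParabolicLift Fermat.Agent.S21.CocycleBound
open Fermat.Agent.S41.PD.Shapiro

variable (Γ : Subgroup SL(2, ℤ)) (hΓ : (-1 : SL(2, ℤ)) ∈ Γ) {R : Type*} [CommRing R]

theorem S_sq_inv_smul {X : Type*} [MulAction SL(2, ℤ) X]
    (hneg : ∀ x : X, (-1 : SL(2, ℤ)) • x = x) (x : X) :
    ((S : SL(2, ℤ)) ^ 2)⁻¹ • x = x := by
  have hinv : (-1 : SL(2, ℤ))⁻¹ = -1 := by
    rw [inv_eq_iff_eq_inv, ← mul_eq_one_iff_eq_inv]; simp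
  rw [Fermat.Agent.S16.PSL2Free.S_sq, hinv, hneg]

theorem ST_cube_inv_smul {X : Type*} [MulAction SL(2, ℤ) X]
    (hneg : ∀ x : X, (-1 : SL(2, ℤ)) • x = x) (x : X) :
    ((S * T : SL(2, ℤ)) ^ 3)⁻¹ • x = x := by
  have hinv : (-1 : SL(2, ℤ))⁻¹ = -1 := by
    rw [inv_eq_iff_eq_inv, ← mul_eq_one_iff_eq_inv]; simp
  rw [Fermat.Agent.S16.PSL2Free.ST_cube, hinv, hneg]

/-- conjugates of powers of an element `c` with `c ^ k = 1` have `n`-th power `1` when `k ∣ n`. -/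
theorem conj_pow_pow_eq_one {c : SL(2, ℤ)} {k n : ℕ} (hkn : k ∣ n) (hck : c ^ k = 1)
    (g : SL(2, ℤ)) (m : ℕ) (h : g⁻¹ * c ^ m * g ∈ Γ) :
    (⟨g⁻¹ * c ^ m * g, h⟩ : Γ) ^ n = 1 := by
  apply Subtype.ext
  rw [Subgroup.coe_pow, Subgroup.coe_one]
  show (g⁻¹ * c ^ m * g) ^ n = 1
  obtain ⟨d, rfl⟩ := hkn
  have h1 := conj_pow (a := g⁻¹) (b := c ^ m) (i := k * d)
  rw [inv_inv] at h1
  have h2 : (c ^ m) ^ (k * d) = 1 := by
    rw [← pow_mul, mul_comm m, pow_mul, pow_mul, hck, one_pow, one_pow]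
  rw [h1, h2, mul_one, inv_mul_cancel]

/-- variant of `Shapiro2.cycZero_zcA` with the hypothesis only on the `γ` with `γ ^ n = 1`. -/
theorem cycZero_zcA_of_pow (φ : Additive Γ →+ R) (n : ℕ)
    (htors : ∀ γ : Γ, γ ^ n = 1 → φ (Additive.ofMul γ) = 0) (u : SL(2, ℤ) ⧸ Γ → R)
    {c : SL(2, ℤ)} {k : ℕ} (hkn : k ∣ n) (hck : c ^ k = 1) :
    CycZero c (zcA Γ φ u c) := by
  intro x m hfix
  rw [← (zcA_isCocA Γ φ u).pow]
  show cocA Γ φ (c ^ m) x + cobdry u (c ^ m) x = 0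
  rw [cobdry_apply, hfix, sub_self, add_zero]
  have hmem : (sec Γ x)⁻¹ * c ^ m * sec Γ x ∈ Γ := by
    have := sec_mem Γ (c ^ m) x
    rwa [hfix] at this
  rw [cocA_eq Γ φ (c ^ m) x ⟨_, hmem⟩ (by rw [hfix])]
  exact htors _ (conj_pow_pow_eq_one Γ hkn hck (sec Γ x) m hmem)

/-- **The image of the Shapiro map, sharp form** (any commutative ring): every homomorphism
killing the `γ ∈ Γ` with `γ ^ 12 = 1` is of the form `shap w`. -/
theorem exists_shap_eq_of_kills_pow (φ : Additive Γ →+ R)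
    (htors : ∀ γ : Γ, γ ^ 12 = 1 → φ (Additive.ofMul γ) = 0) :
    ∃ w : SL(2, ℤ) ⧸ Γ → R, shap Γ hΓ w = φ := by
  set hneg := neg_one_smul_coset Γ hΓ
  set t : (SL(2, ℤ) ⧸ Γ → R) →ₗ[R] (SL(2, ℤ) ⧸ Γ → R) := act (S * T : SL(2, ℤ)) with ht
  -- first normalisation: `z₁ S = 0`
  obtain ⟨u₀, hu₀⟩ := exists_cobdry_of_cycZero (S : SL(2, ℤ)) (zcA Γ φ 0 S) 2
    (by norm_num) (S_sq_inv_smul hneg)
    (cycZero_zcA_of_pow Γ φ 12 htors 0 (by norm_num)
      Fermat.Agent.S21.ParabolicBound.S_pow_four)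
  set u : SL(2, ℤ) ⧸ Γ → R := -u₀ with hu
  have hz₁c : IsCocA (zcA Γ φ u) := zcA_isCocA Γ φ u
  have hz₁S : zcA Γ φ u S = 0 := by
    funext x
    have h0 := hu₀ x
    have e0 : zcA Γ φ 0 S x = cocA Γ φ S x := by
      show cocA Γ φ S x + cobdry (0 : SL(2, ℤ) ⧸ Γ → R) S x = _
      rw [cobdry_apply]; simp
    rw [e0] at h0
    show cocA Γ φ S x + cobdry u S x = 0
    rw [cobdry_apply, h0, hu]
    simp only [Pi.neg_apply]
    ring
  -- second normalisation: all cycle sums of `z₁ (S * T)` along `S * T` vanish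
  obtain ⟨w, hw⟩ := exists_cobdry_of_cycZero (S * T : SL(2, ℤ)) (zcA Γ φ u (S * T)) 3
    (by norm_num) (ST_cube_inv_smul hneg)
    (cycZero_zcA_of_pow Γ φ 12 htors u (by norm_num)
      Fermat.Agent.S21.ParabolicBound.ST_pow_six)
  have hw' : zcA Γ φ u (S * T) = t w - w := by
    funext x
    rw [hw x]; rfl
  refine ⟨w, ?_⟩
  have hZ : zcA Γ φ u = Zc hneg w := Zc_unique hneg w hz₁c hz₁S hw'
  apply AddMonoidHom.ext
  intro γ'
  obtain ⟨γ, rfl⟩ : ∃ γ : Γ, Additive.ofMul γ = γ' := ⟨Additive.toMul γ', rfl⟩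
  rw [shap_apply, ← hZ]
  show cocA Γ φ (γ : SL(2, ℤ)) _ + cobdry u (γ : SL(2, ℤ)) _ = _
  rw [cocA_base, cobdry_apply, mem_inv_smul_base, sub_self, add_zero]

/-- if `2` and `3` are regular in `R`, every homomorphism `Γ → R` kills the `γ` with
`γ ^ 12 = 1`. -/
theorem kills_pow_of_regular (h2 : ∀ r : R, 2 * r = 0 → r = 0) (h3 : ∀ r : R, 3 * r = 0 → r = 0)
    (φ : Additive Γ →+ R) (γ : Γ) (hγ : γ ^ 12 = 1) : φ (Additive.ofMul γ) = 0 := by
  have h12 : (12 : ℕ) • φ (Additive.ofMul γ) = 0 := by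
    rw [← map_nsmul, ← ofMul_pow, hγ, ofMul_one, map_zero]
  apply h3
  apply h2
  apply h2
  rw [← h12, nsmul_eq_mul]
  push_cast
  ring

/-- **Ruling R1, leaf L1 (literal statement)**: over a commutative ring in which `2` and `3` are
regular (e.g. `ℤ`), every homomorphism `Γ → R` is a Shapiro image. -/
theorem shap_surjective_of_regular {R : Type*} [CommRing R]
    (h2 : ∀ r : R, 2 * r = 0 → r = 0) (h3 : ∀ r : R, 3 * r = 0 → r = 0)
    (Γ : Subgroup SL(2, ℤ)) (hΓ : (-1 : SL(2, ℤ)) ∈ Γ) (φ : Additive Γ →+ R) :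
    ∃ w : SL(2, ℤ) ⧸ Γ → R, Shapiro.shap Γ hΓ w = φ :=
  exists_shap_eq_of_kills_pow Γ hΓ φ (kills_pow_of_regular Γ h2 h3 φ)

theorem shap_surjective_of_regular' (h2 : ∀ r : R, 2 * r = 0 → r = 0)
    (h3 : ∀ r : R, 3 * r = 0 → r = 0) : Function.Surjective (shap (R := R) Γ hΓ) :=
  fun φ => shap_surjective_of_regular h2 h3 Γ hΓ φ

/-- the instance `R = ℤ` (consumer: `LatticePD`). -/
theorem shap_int_surjective' (φ : Additive Γ →+ ℤ) :
    ∃ w : SL(2, ℤ) ⧸ Γ → ℤ, Shapiro.shap Γ hΓ w = φ :=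
  shap_surjective_of_regular (by intro r h; omega) (by intro r h; omega) Γ hΓ φ

/-- the instance `R = ℚ`. -/
theorem shap_rat_surjective' (φ : Additive Γ →+ ℚ) :
    ∃ w : SL(2, ℤ) ⧸ Γ → ℚ, Shapiro.shap Γ hΓ w = φ :=
  shap_surjective_of_regular (by intro r h; linarith) (by intro r h; linarith) Γ hΓ φ

end Fermat.Agent.S41.PD.ShapiroInt
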