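/-
S41 / (P5),(P9) LATTICE POINCARE DUALITY (helper78; second seat of helper75's `P9.latticePD`,
DECISION 2 of the architecture v2).

`Γ ≤ SL(2,ℤ)` of finite index, `-1 ∈ Γ`.  The Poincare pairing `PairOnPar.pair` (helper29) is run
over `ℚ` ONLY; restricted to the lattice `Par(Γ, ℤ)` of integer valued parabolic homomorphisms it
takes INTEGER values (no denominators at all), and the resulting integral pairing is UNIMODULAR:

* `iota φ` : `φ : Γ → ℤ` viewed as `Γ → ℚ`;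
* `latticePair Γ hΓ φ φ' : ℤ`; `latticePair_cast` : its cast to `ℚ` is
  `PairOnPar.pair Γ hΓ h6Q (iota φ) (iota φ')` for parabolic `φ, φ'`;
* `latticePair_eq_sum` : explicit formula `∑ x, w x * (t v' - v') x` from integral Shapiro data;
* `latticePair_add_left/right`, `latticePair_zsmul_left/right`, `latticePair_skew`,
  `latticePair_self` : inherited from `ℚ` through the cast;
* `latticePair_uni` : **(UNI)** for every integer `c ≠ 0` (in particular every prime, `2` and `3`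
  included): a parabolic `φ` with `c ∣ latticePair φ φ'` for all parabolic `φ'` is `c • ψ` with `ψ`
  parabolic.  `latticePair_uni_prime` : the shape used by the dual Ihara lemma.

Inputs: helper68 `Shapiro.lean`, helper29 `AbstractDuality.lean` + `PairOnPar.lean`, helper15
`PermLattice*.lean` (`mem_U_add_smul_of_dvd'`), my `ShapiroInt.lean`, `Shapiro2.lean`,
`LatticeLeaves.lean`.  Branch-only (NOTE 12/13).
-/
import Mathlib
import Fermat.Agent.S41.PD.PairOnPar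
import Fermat.Agent.S41.PD.ShapiroInt
import Fermat.Agent.S41.PD.LatticeLeaves
import Fermat.Agent.S41.PD.PermLatticeLit

set_option autoImplicit false
set_option linter.unusedSectionVars false

open scoped MatrixGroups
open ModularGroup MulAction

namespace Fermat.Agent.S41.PD.LatticePDB

open ModularCurve.Period
open Fermat.Agent.S41.PD.AbstractDuality Fermat.Agent.S41.PD.Shapiro
open Fermat.Agent.S41.PD.PairOnPar

/-! ### extension of scalars `ℤ → ℚ` -/

section Iota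

variable (Γ : Subgroup SL(2, ℤ))

/-- an integer valued homomorphism viewed as a rational valued one. -/
def iota (φ : Additive Γ →+ ℤ) : Additive Γ →+ ℚ := (Int.castAddHom ℚ).comp φ

@[simp] theorem iota_apply (φ : Additive Γ →+ ℤ) (γ : Additive Γ) :
    iota Γ φ γ = ((φ γ : ℤ) : ℚ) := rfl

theorem iota_injective : Function.Injective (iota Γ) := by
  intro φ ψ h
  apply AddMonoidHom.ext
  intro γ
  have := DFunLike.congr_fun h γ
  simpa using this

theorem iota_add (φ ψ : Additive Γ →+ ℤ) : iota Γ (φ + ψ) = iota Γ φ + iota Γ ψ := by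
  apply AddMonoidHom.ext; intro γ; simp

theorem iota_neg (φ : Additive Γ →+ ℤ) : iota Γ (-φ) = -iota Γ φ := by
  apply AddMonoidHom.ext; intro γ; simp

theorem iota_zero : iota Γ 0 = 0 := by
  apply AddMonoidHom.ext; intro γ; simp

theorem iota_zsmul (n : ℤ) (φ : Additive Γ →+ ℤ) : iota Γ (n • φ) = (n : ℚ) • iota Γ φ := by
  apply AddMonoidHom.ext; intro γ; simp

theorem isParabolicHom_iota {φ : Additive Γ →+ ℤ} (h : IsParabolicHom Γ φ) :
    IsParabolicHom Γ (iota Γ φ) := by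
  intro γ hγ
  rw [iota_apply, h γ hγ, Int.cast_zero]

theorem isParabolicHom_of_iota {φ : Additive Γ →+ ℤ} (h : IsParabolicHom Γ (iota Γ φ)) :
    IsParabolicHom Γ φ := by
  intro γ hγ
  have := h γ hγ
  rw [iota_apply] at this
  exact_mod_cast this

/-- `c • ψ` parabolic with `c ≠ 0` forces `ψ` parabolic (`ℤ` is torsion free). -/
theorem isParabolicHom_of_zsmul {c : ℤ} (hc : c ≠ 0) {ψ : Additive Γ →+ ℤ}
    (h : IsParabolicHom Γ (c • ψ)) : IsParabolicHom Γ ψ := by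
  intro γ hγ
  have := h γ hγ
  rw [AddMonoidHom.smul_apply, smul_eq_mul] at this
  rcases mul_eq_zero.mp this with h0 | h0
  · exact absurd h0 hc
  · exact h0

end Iota

/-! ### casting functions `X → ℤ` to `X → ℚ` -/

section Cast

variable {X : Type*}

/-- pointwise cast. -/
def castF (w : X → ℤ) : X → ℚ := fun x => ((w x : ℤ) : ℚ)

@[simp] theorem castF_apply (w : X → ℤ) (x : X) : castF w x = ((w x : ℤ) : ℚ) := rfl

theorem castF_add (w w' : X → ℤ) : castF (w + w') = castF w + castF w' := by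
  funext x; simp

theorem castF_sub (w w' : X → ℤ) : castF (w - w') = castF w - castF w' := by
  funext x; simp

theorem act_castF {G : Type*} [Group G] [MulAction G X] (g : G) (w : X → ℤ) :
    act g (castF w) = castF (act g w) := rfl

theorem dot_castF [Finite X] (w P : X → ℤ) :
    letI := Fintype.ofFinite X
    dot (castF w) (castF P) = ((∑ x, w x * P x : ℤ) : ℚ) := by
  letI := Fintype.ofFinite X
  rw [dot_apply]
  push_cast
  rfl

end Cast

/-! ### the lattice pairing -/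

section Pair

variable (Γ : Subgroup SL(2, ℤ)) (hΓ : (-1 : SL(2, ℤ)) ∈ Γ) [Finite (SL(2, ℤ) ⧸ Γ)]

/-- `6` is a unit of `ℚ`. -/
theorem h6Q : IsUnit (6 : ℚ) := isUnit_iff_ne_zero.2 (by norm_num)

/-- the Shapiro map commutes with the cast. -/
theorem shap_castF (w : SL(2, ℤ) ⧸ Γ → ℤ) : shap Γ hΓ (castF w) = iota Γ (shap Γ hΓ w) := by
  apply AddMonoidHom.ext
  intro γ'
  obtain ⟨γ, rfl⟩ : ∃ γ : Γ, Additive.ofMul γ = γ' := ⟨Additive.toMul γ', rfl⟩
  exact Shapiro2.shap_map Γ hΓ (Int.castRingHom ℚ) w γ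

/-- **Integral relative cocycle**: integral Shapiro data `(w', v')` of `φ'` give
`P' := t v' - v' : X → ℤ` whose cast lies in `W_ℚ` with `shap (θ P') = ι φ'`. -/
theorem castF_witness (w' v' : SL(2, ℤ) ⧸ Γ → ℤ)
    (hv' : w' - act (S : SL(2, ℤ)) w' = act (T : SL(2, ℤ)) v' - v') :
    castF (act (S * T : SL(2, ℤ)) v' - v') ∈ (sett Γ hΓ h6Q).W ∧
      shap Γ hΓ ((sett Γ hΓ h6Q).θ (castF (act (S * T : SL(2, ℤ)) v' - v')))
        = iota Γ (shap Γ hΓ w') := by
  set D := sett Γ hΓ h6Q with hD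
  have hneg := neg_one_smul_coset Γ hΓ
  have hv : D.s (D.t (castF v')) - castF v' = castF w' - D.s (castF w') := by
    show act (S : SL(2, ℤ)) (act (S * T : SL(2, ℤ)) (castF v')) - castF v'
      = castF w' - act (S : SL(2, ℤ)) (castF w')
    rw [act_S_ST hneg, act_castF, act_castF, ← castF_sub, ← castF_sub, hv']
  have e : castF (act (S * T : SL(2, ℤ)) v' - v') = D.t (castF v') - castF v' := by
    rw [castF_sub]; rfl
  rw [e]
  refine ⟨LatticeLeaves.witness_mem_W D hv, ?_⟩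
  have hU := LatticeLeaves.sub_theta_witness_mem_U D hv
  have h0 := (shap_eq_zero_iff' Γ hΓ h6Q _).2 hU
  rw [map_sub, sub_eq_zero] at h0
  rw [← h0, shap_castF]

/-- every parabolic `φ' : Γ → ℤ` has an integral relative cocycle. -/
theorem exists_int_W (φ' : Additive Γ →+ ℤ) (hφ' : IsParabolicHom Γ φ') :
    ∃ P' : SL(2, ℤ) ⧸ Γ → ℤ, castF P' ∈ (sett Γ hΓ h6Q).W ∧
      shap Γ hΓ ((sett Γ hΓ h6Q).θ (castF P')) = iota Γ φ' := by
  obtain ⟨w', v', hw', hv'⟩ := LatticeLeaves.exists_shap_data_int Γ hΓ φ' hφ'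
  refine ⟨act (S * T : SL(2, ℤ)) v' - v', ?_⟩
  have := castF_witness Γ hΓ w' v' hv'
  rw [hw'] at this
  exact this

/-- **(INT)** the rational Poincare pairing of two integral parabolic homs is an integer. -/
theorem exists_int_pair (φ φ' : Additive Γ →+ ℤ) (hφ : IsParabolicHom Γ φ)
    (hφ' : IsParabolicHom Γ φ') :
    ∃ n : ℤ, ((n : ℤ) : ℚ) = pair Γ hΓ h6Q (iota Γ φ) (iota Γ φ') := by
  obtain ⟨w, hw⟩ := ShapiroInt.shap_int_surjective' Γ hΓ φ
  obtain ⟨P', hP', hP'φ⟩ := exists_int_W Γ hΓ φ' hφ'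
  letI := Fintype.ofFinite (SL(2, ℤ) ⧸ Γ)
  refine ⟨∑ x, w x * P' x, ?_⟩
  rw [pair_eq Γ hΓ h6Q (isParabolicHom_iota Γ hφ) (isParabolicHom_iota Γ hφ')
    (w := castF w) (by rw [shap_castF, hw]) hP' hP'φ, dot_castF]

open Classical in
/-- **The lattice Poincare pairing** on homs `Γ → ℤ` (meaningful on the parabolic ones). -/
noncomputable def latticePair (φ φ' : Additive Γ →+ ℤ) : ℤ :=
  if h : IsParabolicHom Γ φ ∧ IsParabolicHom Γ φ' then
    Classical.choose (exists_int_pair Γ hΓ φ φ' h.1 h.2)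
  else 0

/-- **(a)** the lattice pairing is the restriction of the rational Poincare pairing. -/
theorem latticePair_cast {φ φ' : Additive Γ →+ ℤ} (hφ : IsParabolicHom Γ φ)
    (hφ' : IsParabolicHom Γ φ') :
    ((latticePair Γ hΓ φ φ' : ℤ) : ℚ) = pair Γ hΓ h6Q (iota Γ φ) (iota Γ φ') := by
  unfold latticePair
  rw [dif_pos ⟨hφ, hφ'⟩]
  exact Classical.choose_spec (exists_int_pair Γ hΓ φ φ' hφ hφ')

/-- the lattice pairing computed from any integral Shapiro lift `w` of `φ` and any integral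
relative cocycle `P'` of `φ'`. -/
theorem latticePair_eq {φ φ' : Additive Γ →+ ℤ} (hφ : IsParabolicHom Γ φ)
    (hφ' : IsParabolicHom Γ φ') [Fintype (SL(2, ℤ) ⧸ Γ)] {w P' : SL(2, ℤ) ⧸ Γ → ℤ}
    (hw : shap Γ hΓ w = φ) (hP' : castF P' ∈ (sett Γ hΓ h6Q).W)
    (hP'φ : shap Γ hΓ ((sett Γ hΓ h6Q).θ (castF P')) = iota Γ φ') :
    latticePair Γ hΓ φ φ' = ∑ x, w x * P' x := by
  have h1 := latticePair_cast Γ hΓ hφ hφ'
  rw [pair_eq Γ hΓ h6Q (isParabolicHom_iota Γ hφ) (isParabolicHom_iota Γ hφ')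
    (w := castF w) (by rw [shap_castF, hw]) hP' hP'φ, dot_apply] at h1
  have h2 : ((latticePair Γ hΓ φ φ' : ℤ) : ℚ) = ((∑ x, w x * P' x : ℤ) : ℚ) := by
    rw [h1]; push_cast; rfl
  exact_mod_cast h2

/-- **explicit formula**: for integral Shapiro data `shap w = φ`, `shap w' = φ'`,
`(1 - s) w' = (T - 1) v'` one has `latticePair φ φ' = ∑ x, w x * (t v' - v') x`. -/
theorem latticePair_eq_sum [Fintype (SL(2, ℤ) ⧸ Γ)] (w w' v' : SL(2, ℤ) ⧸ Γ → ℤ)
    (hw : IsParabolicHom Γ (shap Γ hΓ w))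
    (hv' : w' - act (S : SL(2, ℤ)) w' = act (T : SL(2, ℤ)) v' - v') :
    latticePair Γ hΓ (shap Γ hΓ w) (shap Γ hΓ w')
      = ∑ x, w x * (act (S * T : SL(2, ℤ)) v' - v') x := by
  have h := castF_witness Γ hΓ w' v' hv'
  exact latticePair_eq Γ hΓ hw (shap_isParabolicHom_of Γ hΓ w' v' hv') rfl h.1 h.2

/-! ### properties inherited from `ℚ` -/

theorem isParabolicHom_add' {φ₁ φ₂ : Additive Γ →+ ℤ} (h₁ : IsParabolicHom Γ φ₁)
    (h₂ : IsParabolicHom Γ φ₂) : IsParabolicHom Γ (φ₁ + φ₂) :=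
  (parabolicHoms ℤ Γ ℤ).add_mem h₁ h₂

theorem isParabolicHom_zsmul' (c : ℤ) {φ : Additive Γ →+ ℤ} (h : IsParabolicHom Γ φ) :
    IsParabolicHom Γ (c • φ) :=
  (parabolicHoms ℤ Γ ℤ).smul_mem c h

theorem isParabolicHom_neg' {φ : Additive Γ →+ ℤ} (h : IsParabolicHom Γ φ) :
    IsParabolicHom Γ (-φ) :=
  (parabolicHoms ℤ Γ ℤ).neg_mem h

theorem latticePair_add_left {φ₁ φ₂ φ' : Additive Γ →+ ℤ} (h₁ : IsParabolicHom Γ φ₁)
    (h₂ : IsParabolicHom Γ φ₂) (h' : IsParabolicHom Γ φ') :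
    latticePair Γ hΓ (φ₁ + φ₂) φ' = latticePair Γ hΓ φ₁ φ' + latticePair Γ hΓ φ₂ φ' := by
  have e : ((latticePair Γ hΓ (φ₁ + φ₂) φ' : ℤ) : ℚ)
      = ((latticePair Γ hΓ φ₁ φ' + latticePair Γ hΓ φ₂ φ' : ℤ) : ℚ) := by
    rw [Int.cast_add, latticePair_cast Γ hΓ (isParabolicHom_add' Γ h₁ h₂) h',
      latticePair_cast Γ hΓ h₁ h', latticePair_cast Γ hΓ h₂ h', iota_add,
      pair_add_left Γ hΓ h6Q (isParabolicHom_iota Γ h₁) (isParabolicHom_iota Γ h₂)
        (isParabolicHom_iota Γ h')]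
  exact_mod_cast e

theorem latticePair_add_right {φ φ₁' φ₂' : Additive Γ →+ ℤ} (h : IsParabolicHom Γ φ)
    (h₁ : IsParabolicHom Γ φ₁') (h₂ : IsParabolicHom Γ φ₂') :
    latticePair Γ hΓ φ (φ₁' + φ₂') = latticePair Γ hΓ φ φ₁' + latticePair Γ hΓ φ φ₂' := by
  have e : ((latticePair Γ hΓ φ (φ₁' + φ₂') : ℤ) : ℚ)
      = ((latticePair Γ hΓ φ φ₁' + latticePair Γ hΓ φ φ₂' : ℤ) : ℚ) := by
    rw [Int.cast_add, latticePair_cast Γ hΓ h (isParabolicHom_add' Γ h₁ h₂),
      latticePair_cast Γ hΓ h h₁, latticePair_cast Γ hΓ h h₂, iota_add,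
      pair_add_right Γ hΓ h6Q (isParabolicHom_iota Γ h) (isParabolicHom_iota Γ h₁)
        (isParabolicHom_iota Γ h₂)]
  exact_mod_cast e

theorem latticePair_zsmul_left (c : ℤ) {φ φ' : Additive Γ →+ ℤ} (h : IsParabolicHom Γ φ)
    (h' : IsParabolicHom Γ φ') :
    latticePair Γ hΓ (c • φ) φ' = c * latticePair Γ hΓ φ φ' := by
  have e : ((latticePair Γ hΓ (c • φ) φ' : ℤ) : ℚ) = ((c * latticePair Γ hΓ φ φ' : ℤ) : ℚ) := by
    rw [Int.cast_mul, latticePair_cast Γ hΓ (isParabolicHom_zsmul' Γ c h) h',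
      latticePair_cast Γ hΓ h h', iota_zsmul,
      pair_smul_left Γ hΓ h6Q (c : ℚ) (isParabolicHom_iota Γ h) (isParabolicHom_iota Γ h')]
  exact_mod_cast e

theorem latticePair_zsmul_right (c : ℤ) {φ φ' : Additive Γ →+ ℤ} (h : IsParabolicHom Γ φ)
    (h' : IsParabolicHom Γ φ') :
    latticePair Γ hΓ φ (c • φ') = c * latticePair Γ hΓ φ φ' := by
  have e : ((latticePair Γ hΓ φ (c • φ') : ℤ) : ℚ) = ((c * latticePair Γ hΓ φ φ' : ℤ) : ℚ) := by
    rw [Int.cast_mul, latticePair_cast Γ hΓ h (isParabolicHom_zsmul' Γ c h'),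
      latticePair_cast Γ hΓ h h', iota_zsmul,
      pair_smul_right Γ hΓ h6Q (c : ℚ) (isParabolicHom_iota Γ h) (isParabolicHom_iota Γ h')]
  exact_mod_cast e

/-- **The lattice pairing is skew.** -/
theorem latticePair_skew {φ φ' : Additive Γ →+ ℤ} (hφ : IsParabolicHom Γ φ)
    (hφ' : IsParabolicHom Γ φ') :
    latticePair Γ hΓ φ φ' = - latticePair Γ hΓ φ' φ := by
  have e : ((latticePair Γ hΓ φ φ' : ℤ) : ℚ) = ((- latticePair Γ hΓ φ' φ : ℤ) : ℚ) := by
    rw [Int.cast_neg, latticePair_cast Γ hΓ hφ hφ', latticePair_cast Γ hΓ hφ' hφ,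
      pair_skew Γ hΓ h6Q (isParabolicHom_iota Γ hφ) (isParabolicHom_iota Γ hφ')]
  exact_mod_cast e

/-- **The lattice pairing is alternating.** -/
theorem latticePair_self {φ : Additive Γ →+ ℤ} (hφ : IsParabolicHom Γ φ) :
    latticePair Γ hΓ φ φ = 0 := by
  have e : ((latticePair Γ hΓ φ φ : ℤ) : ℚ) = ((0 : ℤ) : ℚ) := by
    rw [latticePair_cast Γ hΓ hφ hφ, pair_self Γ hΓ h6Q (isParabolicHom_iota Γ hφ), Int.cast_zero]
  exact_mod_cast e

theorem latticePair_neg_left {φ φ' : Additive Γ →+ ℤ} (h : IsParabolicHom Γ φ)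
    (h' : IsParabolicHom Γ φ') :
    latticePair Γ hΓ (-φ) φ' = - latticePair Γ hΓ φ φ' := by
  have := latticePair_zsmul_left Γ hΓ (-1) h h'
  simpa using this

theorem latticePair_neg_right {φ φ' : Additive Γ →+ ℤ} (h : IsParabolicHom Γ φ)
    (h' : IsParabolicHom Γ φ') :
    latticePair Γ hΓ φ (-φ') = - latticePair Γ hΓ φ φ' := by
  have := latticePair_zsmul_right Γ hΓ (-1) h h'
  simpa using this

/-- the lattice pairing as a `ℤ`-bilinear form on `Par(Γ, ℤ)`. -/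
noncomputable def latticeForm : LinearMap.BilinForm ℤ (parabolicHoms ℤ Γ ℤ) :=
  LinearMap.mk₂ ℤ
    (fun φ φ' => latticePair Γ hΓ (φ : Additive Γ →+ ℤ) (φ' : Additive Γ →+ ℤ))
    (fun φ₁ φ₂ φ' => latticePair_add_left Γ hΓ φ₁.2 φ₂.2 φ'.2)
    (fun c φ φ' => latticePair_zsmul_left Γ hΓ c φ.2 φ'.2)
    (fun φ φ₁ φ₂ => latticePair_add_right Γ hΓ φ.2 φ₁.2 φ₂.2)
    (fun c φ φ' => latticePair_zsmul_right Γ hΓ c φ.2 φ'.2)

@[simp] theorem latticeForm_apply (φ φ' : parabolicHoms ℤ Γ ℤ) :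
    latticeForm Γ hΓ φ φ'
      = latticePair Γ hΓ (φ : Additive Γ →+ ℤ) (φ' : Additive Γ →+ ℤ) := rfl

theorem latticeForm_isAlt : (latticeForm Γ hΓ).IsAlt := fun φ => latticePair_self Γ hΓ φ.2

/-! ### (UNI): unimodularity -/

/-- **(UNI)** for every integer `c ≠ 0` (every prime, `2` and `3` included): a parabolic `φ`
whose pairings with all parabolic `φ'` are divisible by `c` is `c • ψ` with `ψ` parabolic. -/
theorem latticePair_uni (c : ℤ) (hc : c ≠ 0) {φ : Additive Γ →+ ℤ} (hφ : IsParabolicHom Γ φ)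
    (h : ∀ φ' : Additive Γ →+ ℤ, IsParabolicHom Γ φ' → c ∣ latticePair Γ hΓ φ φ') :
    ∃ ψ : Additive Γ →+ ℤ, IsParabolicHom Γ ψ ∧ φ = c • ψ := by
  classical
  letI := Fintype.ofFinite (SL(2, ℤ) ⧸ Γ)
  have hneg := neg_one_smul_coset Γ hΓ
  obtain ⟨w, hw⟩ := ShapiroInt.shap_int_surjective' Γ hΓ φ
  set es : SL(2, ℤ) ⧸ Γ → SL(2, ℤ) ⧸ Γ := fun x => (S : SL(2, ℤ))⁻¹ • x with hes_def
  set et : SL(2, ℤ) ⧸ Γ → SL(2, ℤ) ⧸ Γ := fun x => (S * T : SL(2, ℤ))⁻¹ • x with het_def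
  have hes : ∀ x, es (es x) = x := by
    intro x
    have := ShapiroInt.S_sq_inv_smul hneg x
    rw [pow_two, mul_inv_rev, mul_smul] at this
    exact this
  have het : ∀ x, et (et (et x)) = x := by
    intro x
    have := ShapiroInt.ST_cube_inv_smul hneg x
    rw [pow_three, mul_inv_rev, mul_inv_rev, mul_smul, mul_smul] at this
    exact this
  -- the divisibility hypothesis of the permutation lattice lemma
  have hdvd : ∀ P : SL(2, ℤ) ⧸ Γ → ℤ, (∀ x, P x + P (es x) = 0) →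
      (∃ v : SL(2, ℤ) ⧸ Γ → ℤ, ∀ x, P x = v x - v (et x)) → c ∣ ∑ x, w x * P x := by
    intro P hP ⟨v, hv⟩
    -- `P₀ := t v - v = -P`
    have hP0 : act (S * T : SL(2, ℤ)) v - v = -P := by
      funext x
      simp only [Pi.sub_apply, act_apply, Pi.neg_apply]
      rw [hv x]; ring
    have hsP0 : act (S : SL(2, ℤ)) (act (S * T : SL(2, ℤ)) v - v)
        = -(act (S * T : SL(2, ℤ)) v - v) := by
      rw [hP0]
      funext x
      simp only [Pi.neg_apply, act_apply, neg_neg]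
      have := hP x
      show -P (es x) = P x
      linarith
    obtain ⟨w', hw'⟩ := LatticeLeaves.exists_w_of_witness hneg
      (by intro r hr; omega) v hsP0
    have hpar' : IsParabolicHom Γ (shap Γ hΓ w') := shap_isParabolicHom_of Γ hΓ w' v hw'
    have hd := h _ hpar'
    rw [← hw, latticePair_eq_sum Γ hΓ w w' v (hw ▸ hφ) hw', hP0] at hd
    have e : ∑ x, w x * (-P) x = -∑ x, w x * P x := by
      rw [← Finset.sum_neg_distrib]
      exact Finset.sum_congr rfl fun x _ => by simp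
    rw [e] at hd
    exact (dvd_neg.mp hd)
  obtain ⟨a, b, u, ha, hb, hwabu⟩ :=
    PermLatticeLit.mem_U_add_smul_of_dvd' es et hes het c w hdvd
  have hw2 : w = (a + b) + c • u := by
    funext x
    rw [hwabu x]
    simp
  have hsa : act (S : SL(2, ℤ)) a = a := by
    funext x; exact ha x
  have htb : act (S * T : SL(2, ℤ)) b = b := by
    funext x; exact hb x
  have hφu : φ = c • shap Γ hΓ u := by
    rw [← hw, hw2, map_add, shap_of_add Γ hΓ a b hsa htb, zero_add, map_smul]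
  refine ⟨shap Γ hΓ u, ?_, hφu⟩
  exact isParabolicHom_of_zsmul Γ hc (hφu ▸ hφ)

/-- **(UNI_p)** in the shape used by the dual Ihara lemma: `p` any prime (`2`, `3` allowed). -/
theorem latticePair_uni_prime (p : ℕ) (hp : p.Prime) {φ : Additive Γ →+ ℤ}
    (hφ : IsParabolicHom Γ φ)
    (h : ∀ φ' : Additive Γ →+ ℤ, IsParabolicHom Γ φ' → (p : ℤ) ∣ latticePair Γ hΓ φ φ') :
    ∃ ψ : Additive Γ →+ ℤ, IsParabolicHom Γ ψ ∧ φ = (p : ℤ) • ψ :=
  latticePair_uni Γ hΓ (p : ℤ) (by exact_mod_cast hp.ne_zero) hφ h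

/-- (UNI) for the bilinear form on `Par(Γ, ℤ)`. -/
theorem latticeForm_uni (c : ℤ) (hc : c ≠ 0) (φ : parabolicHoms ℤ Γ ℤ)
    (h : ∀ φ' : parabolicHoms ℤ Γ ℤ, c ∣ latticeForm Γ hΓ φ φ') :
    ∃ ψ : parabolicHoms ℤ Γ ℤ, φ = c • ψ := by
  obtain ⟨ψ, hψ, hφψ⟩ := latticePair_uni Γ hΓ c hc φ.2 (fun φ' hφ' => h ⟨φ', hφ'⟩)
  exact ⟨⟨ψ, hψ⟩, Subtype.ext hφψ⟩

end Pair

end Fermat.Agent.S41.PD.LatticePDB
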