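/-
S41 / (P5) THE INTEGRAL POINCARE PAIRING AT LEVEL `Γ₀(K)`, ALL PROPERTIES IN ONE PLACE (helper78).

Pure instantiation: `LatticePDB.latticePair` (helper78) at `Γ := Γ₀(K)` satisfies helper29's
`LatticeDescent.IsCast`, hence all of DECISION 2 of the architecture holds for

  `LP K : (Γ₀(K) → ℤ) → (Γ₀(K) → ℤ) → ℤ`

on parabolic homs: biadditive, skew, alternating, (a) (UNI) unimodular [every integer `c ≠ 0`,
every prime `p` incl. `2`, `3`], (b) (ADJ) `LP (N q) (res1 x) m = LP N x (tr1 m)`, (c) (ISO)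
`LP (N q) (wAL d a) (wAL d b) = LP (N q) a b`, `res2`/`tr2` adjoint, `T = tr1 ∘ wAL ∘ res1`
self-adjoint.  Branch-only (NOTE 12/13).
-/
import Mathlib
import Fermat.Agent.S41.PD.LatticePDB
import Fermat.Agent.S41.PD.LatticeDescent

set_option autoImplicit false

open scoped MatrixGroups

namespace Fermat.Agent.S41.PD.LatticeInst

open ModularCurve.Period CongruenceSubgroup
open Fermat.Agent.S16.HeckeHom Fermat.Agent.S41.Level
open Fermat.Agent.S41.PD.LevelAdj Fermat.Agent.S41.PD.LatticeDescent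

/-- **The integral Poincare pairing at level `Γ₀(K)`.** -/
noncomputable def LP (K : ℕ) [NeZero K] :
    (Additive (Gamma0 K) →+ ℤ) → (Additive (Gamma0 K) →+ ℤ) → ℤ :=
  LatticePDB.latticePair (Gamma0 K) (negOne_mem K)

/-- `LP K` is the restriction of the rational Poincare pairing (helper29's `IsCast`). -/
theorem isCast_LP (K : ℕ) [NeZero K] : IsCast K (LP K) :=
  fun _ _ hφ hφ' => LatticePDB.latticePair_cast (Gamma0 K) (negOne_mem K) hφ hφ'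

section Formal

variable {K : ℕ} [NeZero K]

theorem LP_add_left {φ₁ φ₂ φ' : Additive (Gamma0 K) →+ ℤ} (h₁ : IsParabolicHom (Gamma0 K) φ₁)
    (h₂ : IsParabolicHom (Gamma0 K) φ₂) (h' : IsParabolicHom (Gamma0 K) φ') :
    LP K (φ₁ + φ₂) φ' = LP K φ₁ φ' + LP K φ₂ φ' :=
  LatticePDB.latticePair_add_left _ _ h₁ h₂ h'

theorem LP_add_right {φ φ₁' φ₂' : Additive (Gamma0 K) →+ ℤ} (h : IsParabolicHom (Gamma0 K) φ)
    (h₁ : IsParabolicHom (Gamma0 K) φ₁') (h₂ : IsParabolicHom (Gamma0 K) φ₂') :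
    LP K φ (φ₁' + φ₂') = LP K φ φ₁' + LP K φ φ₂' :=
  LatticePDB.latticePair_add_right _ _ h h₁ h₂

theorem LP_zsmul_left (c : ℤ) {φ φ' : Additive (Gamma0 K) →+ ℤ}
    (h : IsParabolicHom (Gamma0 K) φ) (h' : IsParabolicHom (Gamma0 K) φ') :
    LP K (c • φ) φ' = c * LP K φ φ' :=
  LatticePDB.latticePair_zsmul_left _ _ c h h'

theorem LP_zsmul_right (c : ℤ) {φ φ' : Additive (Gamma0 K) →+ ℤ}
    (h : IsParabolicHom (Gamma0 K) φ) (h' : IsParabolicHom (Gamma0 K) φ') :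
    LP K φ (c • φ') = c * LP K φ φ' :=
  LatticePDB.latticePair_zsmul_right _ _ c h h'

/-- **skew-symmetry.** -/
theorem LP_skew {φ φ' : Additive (Gamma0 K) →+ ℤ} (h : IsParabolicHom (Gamma0 K) φ)
    (h' : IsParabolicHom (Gamma0 K) φ') : LP K φ φ' = - LP K φ' φ :=
  LatticePDB.latticePair_skew _ _ h h'

theorem LP_self {φ : Additive (Gamma0 K) →+ ℤ} (h : IsParabolicHom (Gamma0 K) φ) :
    LP K φ φ = 0 :=
  LatticePDB.latticePair_self _ _ h

/-- **(a) (UNI)**: unimodularity, every integer `c ≠ 0`. -/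
theorem LP_uni (c : ℤ) (hc : c ≠ 0) {φ : Additive (Gamma0 K) →+ ℤ}
    (hφ : IsParabolicHom (Gamma0 K) φ)
    (h : ∀ φ' : Additive (Gamma0 K) →+ ℤ, IsParabolicHom (Gamma0 K) φ' → c ∣ LP K φ φ') :
    ∃ ψ : Additive (Gamma0 K) →+ ℤ, IsParabolicHom (Gamma0 K) ψ ∧ φ = c • ψ :=
  LatticePDB.latticePair_uni _ _ c hc hφ h

/-- **(a) (UNI_p)**: every prime `p` (`2` and `3` included). -/
theorem LP_uni_prime (p : ℕ) (hp : p.Prime) {φ : Additive (Gamma0 K) →+ ℤ}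
    (hφ : IsParabolicHom (Gamma0 K) φ)
    (h : ∀ φ' : Additive (Gamma0 K) →+ ℤ, IsParabolicHom (Gamma0 K) φ' → (p : ℤ) ∣ LP K φ φ') :
    ∃ ψ : Additive (Gamma0 K) →+ ℤ, IsParabolicHom (Gamma0 K) ψ ∧ φ = (p : ℤ) • ψ :=
  LatticePDB.latticePair_uni_prime _ _ p hp hφ h

/-- (UNI) in the right variable. -/
theorem LP_uni_right (c : ℤ) (hc : c ≠ 0) {φ' : Additive (Gamma0 K) →+ ℤ}
    (hφ' : IsParabolicHom (Gamma0 K) φ')
    (h : ∀ φ : Additive (Gamma0 K) →+ ℤ, IsParabolicHom (Gamma0 K) φ → c ∣ LP K φ φ') :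
    ∃ ψ : Additive (Gamma0 K) →+ ℤ, IsParabolicHom (Gamma0 K) ψ ∧ φ' = c • ψ :=
  LP_uni c hc hφ' (fun φ hφ => by
    rw [LP_skew hφ' hφ]
    exact (dvd_neg.mpr (h φ hφ)))

end Formal

section Level

variable {N q : ℕ} [NeZero N] [NeZero (N * q)]

/-- **(b) (ADJ)**: `⟨res1 x, m⟩_{N q} = ⟨x, tr1 m⟩_N`. -/
theorem LP_res1_eq_LP_tr1 {x : Additive (Gamma0 N) →+ ℤ} (hx : IsParabolicHom (Gamma0 N) x)
    {m : Additive (Gamma0 (N * q)) →+ ℤ} (hm : IsParabolicHom (Gamma0 (N * q)) m) :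
    LP (N * q) (res1 x) m = LP N x (tr1 m) :=
  lp_res1_eq_lp_tr1 (isCast_LP N) (isCast_LP (N * q)) hx hm

/-- (ADJ), the other variable order. -/
theorem LP_tr1_eq_LP_res1 {x : Additive (Gamma0 N) →+ ℤ} (hx : IsParabolicHom (Gamma0 N) x)
    {m : Additive (Gamma0 (N * q)) →+ ℤ} (hm : IsParabolicHom (Gamma0 (N * q)) m) :
    LP (N * q) m (res1 x) = LP N (tr1 m) x := by
  rw [LP_skew hm (res1_isParabolicHom hx), LP_res1_eq_LP_tr1 hx hm,
    ← LP_skew (tr1_isParabolicHom_int hm) hx]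

omit [NeZero N] in
/-- **(c) (ISO)**: the Atkin-Lehner operator is an isometry. -/
theorem LP_wAL_wAL (d : ALData N q) {a b : Additive (Gamma0 (N * q)) →+ ℤ}
    (ha : IsParabolicHom (Gamma0 (N * q)) a) (hb : IsParabolicHom (Gamma0 (N * q)) b) :
    LP (N * q) (wAL d a) (wAL d b) = LP (N * q) a b :=
  lp_wAL_wAL (isCast_LP (N * q)) d ha hb

/-- `res2`, `tr2` are adjoint. -/
theorem LP_res2_eq_LP_tr2 (d : ALData N q) {x : Additive (Gamma0 N) →+ ℤ}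
    (hx : IsParabolicHom (Gamma0 N) x) {m : Additive (Gamma0 (N * q)) →+ ℤ}
    (hm : IsParabolicHom (Gamma0 (N * q)) m) :
    LP (N * q) (res2 d x) m = LP N x (tr2 d m) :=
  lp_res2_eq_lp_tr2 (isCast_LP N) (isCast_LP (N * q)) d hx hm

/-- `T = tr1 ∘ wAL ∘ res1` (the Hecke operator `T_q`, by (I5)) is self-adjoint. -/
theorem LP_selfAdjoint_of_eq (d : ALData N q)
    (T : (Additive (Gamma0 N) →+ ℤ) → (Additive (Gamma0 N) →+ ℤ))
    (hT : ∀ φ : Additive (Gamma0 N) →+ ℤ, tr1 (wAL d (res1 φ)) = T φ)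
    {x y : Additive (Gamma0 N) →+ ℤ} (hx : IsParabolicHom (Gamma0 N) x)
    (hy : IsParabolicHom (Gamma0 N) y) :
    LP N (T x) y = LP N x (T y) :=
  lp_selfAdjoint_of_eq (isCast_LP N) d T hT hx hy

end Level

end Fermat.Agent.S41.PD.LatticeInst
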